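/-
S55 (Poitou–Tate), package E4-top (SH): Shapiro's lemma on cochains, in coordinates.
Owner: helper49.

Generic setting: a group `Γ` acting on a set `X`, with orbit data `D` (orbit index `o`,
representatives `rep`, transporters `t x • rep (o x) = x`).  Cochains of `Γ` with values in the
functions on `X` are written in coordinates, `Γⁿ → X → k`, with
`(g • φ) x = φ (g⁻¹ • x)`.  "Pure" cochains are families `R → Γⁿ → k` (only their values on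
the stabilisers of the representatives matter), with trivial action.

* `ind` : pure → coordinate cochains, commutes with the differentials;
* `sh`  : coordinate → pure cochains (evaluation at the representatives);
* `hty` : the homotopy, `f - ind (sh f) = d (hty f) + hty (d f)` in degrees `0, 1, 2, 3`.
-/
import Mathlib

set_option autoImplicit false
set_option linter.unusedSectionVars false
set_option linter.unusedSimpArgs false

namespace Fermat.Agent.S55.Top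

/-- Orbit data for the action of `Γ` on `X`: representatives indexed by `R` and transporters. -/
structure OrbitData (Γ : Type) [Group Γ] (X : Type) [MulAction Γ X] (R : Type) where
  /-- the representatives -/
  rep : R → X
  /-- the orbit of a point -/
  o : X → R
  /-- the transporter from the representative -/
  t : X → Γ
  t_smul : ∀ x, t x • rep (o x) = x
  o_smul : ∀ (γ : Γ) (x : X), o (γ • x) = o x
  o_rep : ∀ r, o (rep r) = r
  t_rep : ∀ r, t (rep r) = 1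

namespace OrbitData

variable {k : Type} [CommRing k] {Γ : Type} [Group Γ] {X : Type} [MulAction Γ X] {R : Type}
  (D : OrbitData Γ X R)

/-- The cocycle of the induced module: `c(γ, x) = t(x)⁻¹ γ t(γ⁻¹ x)`. -/
def cc (γ : Γ) (x : X) : Γ := (D.t x)⁻¹ * γ * D.t (γ⁻¹ • x)

lemma cc_inv_smul (γ : Γ) (x : X) : (D.cc γ x)⁻¹ • D.rep (D.o x) = D.rep (D.o x) := by
  unfold cc
  rw [mul_inv_rev, mul_inv_rev, inv_inv, mul_smul, mul_smul, D.t_smul, inv_smul_eq_iff]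
  have := D.t_smul (γ⁻¹ • x)
  rw [D.o_smul] at this
  exact this.symm

lemma cc_smul (γ : Γ) (x : X) : D.cc γ x • D.rep (D.o x) = D.rep (D.o x) := by
  have := D.cc_inv_smul γ x
  rwa [inv_smul_eq_iff, eq_comm] at this

lemma cc_mul (γ γ' : Γ) (x : X) : D.cc γ x * D.cc γ' (γ⁻¹ • x) = D.cc (γ * γ') x := by
  unfold cc
  rw [mul_inv_rev, mul_smul]
  group

lemma cc_mul_t_inv (γ : Γ) (x : X) : D.cc γ x * (D.t (γ⁻¹ • x))⁻¹ = (D.t x)⁻¹ * γ := by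
  unfold cc
  group

lemma cc_one (x : X) : D.cc 1 x = 1 := by
  unfold cc
  simp

lemma cc_of_stab (r : R) (γ : Γ) (hγ : γ • D.rep r = D.rep r) : D.cc γ (D.rep r) = γ := by
  have h : γ⁻¹ • D.rep r = D.rep r := by rw [inv_smul_eq_iff, hγ]
  unfold cc
  rw [h, D.t_rep]
  simp

lemma cc_t_inv (x : X) : D.cc (D.t x)⁻¹ (D.rep (D.o x)) = 1 := by
  unfold cc
  rw [inv_inv, D.t_smul, D.t_rep]
  simp

/-! ### Differentials in coordinates -/

/-- `d⁰` in coordinates. -/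
def d0 (m : X → k) : Γ → X → k := fun g x => m (g⁻¹ • x) - m x

/-- `d¹` in coordinates. -/
def d1 (f : Γ → X → k) : Γ × Γ → X → k :=
  fun t x => f t.2 (t.1⁻¹ • x) - f (t.1 * t.2) x + f t.1 x

/-- `d²` in coordinates. -/
def d2 (f : Γ × Γ → X → k) : Γ × Γ × Γ → X → k :=
  fun t x => f (t.2.1, t.2.2) (t.1⁻¹ • x) - f (t.1 * t.2.1, t.2.2) x
    + f (t.1, t.2.1 * t.2.2) x - f (t.1, t.2.1) x

/-- `d³` in coordinates. -/
def d3 (f : Γ × Γ × Γ → X → k) : Γ × Γ × Γ × Γ → X → k :=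
  fun t x => f (t.2.1, t.2.2.1, t.2.2.2) (t.1⁻¹ • x) - f (t.1 * t.2.1, t.2.2.1, t.2.2.2) x
    + f (t.1, t.2.1 * t.2.2.1, t.2.2.2) x - f (t.1, t.2.1, t.2.2.1 * t.2.2.2) x
    + f (t.1, t.2.1, t.2.2.1) x

/-! ### Differentials of pure cochains (trivial action) -/

/-- pure `d¹`. -/
def e1 (f : R → Γ → k) : R → Γ × Γ → k :=
  fun r t => f r t.2 - f r (t.1 * t.2) + f r t.1

/-- pure `d²`. -/
def e2 (f : R → Γ × Γ → k) : R → Γ × Γ × Γ → k :=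
  fun r t => f r (t.2.1, t.2.2) - f r (t.1 * t.2.1, t.2.2) + f r (t.1, t.2.1 * t.2.2)
    - f r (t.1, t.2.1)

/-- pure `d³`. -/
def e3 (f : R → Γ × Γ × Γ → k) : R → Γ × Γ × Γ × Γ → k :=
  fun r t => f r (t.2.1, t.2.2.1, t.2.2.2) - f r (t.1 * t.2.1, t.2.2.1, t.2.2.2)
    + f r (t.1, t.2.1 * t.2.2.1, t.2.2.2) - f r (t.1, t.2.1, t.2.2.1 * t.2.2.2)
    + f r (t.1, t.2.1, t.2.2.1)

/-! ### Induction -/

/-- induction in degree 0. -/
def ind0 (m : R → k) : X → k := fun x => m (D.o x)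

/-- induction in degree 1. -/
def ind1 (f : R → Γ → k) : Γ → X → k := fun g x => f (D.o x) (D.cc g x)

/-- induction in degree 2. -/
def ind2 (f : R → Γ × Γ → k) : Γ × Γ → X → k :=
  fun t x => f (D.o x) (D.cc t.1 x, D.cc t.2 (t.1⁻¹ • x))

/-- induction in degree 3. -/
def ind3 (f : R → Γ × Γ × Γ → k) : Γ × Γ × Γ → X → k :=
  fun t x => f (D.o x) (D.cc t.1 x, D.cc t.2.1 (t.1⁻¹ • x), D.cc t.2.2 (t.2.1⁻¹ • t.1⁻¹ • x))

/-- induction in degree 4. -/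
def ind4 (f : R → Γ × Γ × Γ × Γ → k) : Γ × Γ × Γ × Γ → X → k :=
  fun t x => f (D.o x) (D.cc t.1 x, D.cc t.2.1 (t.1⁻¹ • x), D.cc t.2.2.1 (t.2.1⁻¹ • t.1⁻¹ • x),
    D.cc t.2.2.2 (t.2.2.1⁻¹ • t.2.1⁻¹ • t.1⁻¹ • x))

lemma d0_ind0 (m : R → k) : d0 (D.ind0 m) = fun (_ : Γ) (_ : X) => (0 : k) := by
  funext g x
  simp [d0, ind0, D.o_smul]

lemma d1_ind1 (f : R → Γ → k) : d1 (D.ind1 f) = D.ind2 (e1 f) := by
  funext t x
  simp only [d1, ind1, ind2, e1, D.o_smul, D.cc_mul]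

lemma d2_ind2 (f : R → Γ × Γ → k) : d2 (D.ind2 f) = D.ind3 (e2 f) := by
  funext t x
  simp only [d2, ind2, ind3, e2, D.o_smul, D.cc_mul, mul_inv_rev, mul_smul]

lemma d3_ind3 (f : R → Γ × Γ × Γ → k) : d3 (D.ind3 f) = D.ind4 (e3 f) := by
  funext t x
  simp only [d3, ind3, ind4, e3, D.o_smul, D.cc_mul, mul_inv_rev, mul_smul]

/-! ### Evaluation at the representatives -/

/-- Shapiro's map in degree 0. -/
def sh0 (m : X → k) : R → k := fun r => m (D.rep r)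

/-- Shapiro's map in degree 1. -/
def sh1 (f : Γ → X → k) : R → Γ → k := fun r g => f g (D.rep r)

/-- Shapiro's map in degree 2. -/
def sh2 (f : Γ × Γ → X → k) : R → Γ × Γ → k := fun r t => f t (D.rep r)

/-- Shapiro's map in degree 3. -/
def sh3 (f : Γ × Γ × Γ → X → k) : R → Γ × Γ × Γ → k := fun r t => f t (D.rep r)

lemma sh1_d0 (m : X → k) (r : R) (g : Γ) (hg : g • D.rep r = D.rep r) :
    D.sh1 (d0 m) r g = 0 := by
  have h : g⁻¹ • D.rep r = D.rep r := by rw [inv_smul_eq_iff, hg]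
  simp [sh1, d0, h]

lemma sh2_d1 (f : Γ → X → k) (r : R) (t : Γ × Γ) (h1 : t.1 • D.rep r = D.rep r) :
    D.sh2 (d1 f) r t = e1 (D.sh1 f) r t := by
  have h : t.1⁻¹ • D.rep r = D.rep r := by rw [inv_smul_eq_iff, h1]
  simp [sh2, d1, e1, sh1, h]

lemma sh3_d2 (f : Γ × Γ → X → k) (r : R) (t : Γ × Γ × Γ) (h1 : t.1 • D.rep r = D.rep r) :
    D.sh3 (d2 f) r t = e2 (D.sh2 f) r t := by
  have h : t.1⁻¹ • D.rep r = D.rep r := by rw [inv_smul_eq_iff, h1]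
  simp [sh3, d2, e2, sh2, h]

lemma sh0_ind0 (m : R → k) : D.sh0 (D.ind0 m) = m := by
  funext r
  simp [sh0, ind0, D.o_rep]

lemma sh1_ind1 (f : R → Γ → k) (r : R) (g : Γ) (hg : g • D.rep r = D.rep r) :
    D.sh1 (D.ind1 f) r g = f r g := by
  simp [sh1, ind1, D.o_rep, D.cc_of_stab r g hg]

lemma sh2_ind2 (f : R → Γ × Γ → k) (r : R) (t : Γ × Γ) (h1 : t.1 • D.rep r = D.rep r)
    (h2 : t.2 • D.rep r = D.rep r) : D.sh2 (D.ind2 f) r t = f r t := by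
  have h : t.1⁻¹ • D.rep r = D.rep r := by rw [inv_smul_eq_iff, h1]
  simp [sh2, ind2, D.o_rep, h, D.cc_of_stab r _ h1, D.cc_of_stab r _ h2]

lemma sh3_ind3 (f : R → Γ × Γ × Γ → k) (r : R) (t : Γ × Γ × Γ) (h1 : t.1 • D.rep r = D.rep r)
    (h2 : t.2.1 • D.rep r = D.rep r) (h3 : t.2.2 • D.rep r = D.rep r) :
    D.sh3 (D.ind3 f) r t = f r t := by
  have h : t.1⁻¹ • D.rep r = D.rep r := by rw [inv_smul_eq_iff, h1]
  have h' : t.2.1⁻¹ • D.rep r = D.rep r := by rw [inv_smul_eq_iff, h2]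
  simp [sh3, ind3, D.o_rep, h, h', D.cc_of_stab r _ h1, D.cc_of_stab r _ h2,
    D.cc_of_stab r _ h3]

/-! ### The homotopy -/

/-- homotopy `C¹ → C⁰`. -/
def hty1 (f : Γ → X → k) : X → k := fun x => f (D.t x)⁻¹ (D.rep (D.o x))

/-- homotopy `C² → C¹`. -/
def hty2 (f : Γ × Γ → X → k) : Γ → X → k :=
  fun g x => f ((D.t x)⁻¹, g) (D.rep (D.o x))
    - f (D.cc g x, (D.t (g⁻¹ • x))⁻¹) (D.rep (D.o x))

/-- homotopy `C³ → C²`. -/
def hty3 (f : Γ × Γ × Γ → X → k) : Γ × Γ → X → k :=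
  fun t x => f ((D.t x)⁻¹, t.1, t.2) (D.rep (D.o x))
    - f (D.cc t.1 x, (D.t (t.1⁻¹ • x))⁻¹, t.2) (D.rep (D.o x))
    + f (D.cc t.1 x, D.cc t.2 (t.1⁻¹ • x), (D.t (t.2⁻¹ • t.1⁻¹ • x))⁻¹) (D.rep (D.o x))

/-- homotopy `C⁴ → C³`. -/
def hty4 (f : Γ × Γ × Γ × Γ → X → k) : Γ × Γ × Γ → X → k :=
  fun t x => f ((D.t x)⁻¹, t.1, t.2.1, t.2.2) (D.rep (D.o x))
    - f (D.cc t.1 x, (D.t (t.1⁻¹ • x))⁻¹, t.2.1, t.2.2) (D.rep (D.o x))
    + f (D.cc t.1 x, D.cc t.2.1 (t.1⁻¹ • x), (D.t (t.2.1⁻¹ • t.1⁻¹ • x))⁻¹, t.2.2)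
        (D.rep (D.o x))
    - f (D.cc t.1 x, D.cc t.2.1 (t.1⁻¹ • x), D.cc t.2.2 (t.2.1⁻¹ • t.1⁻¹ • x),
        (D.t (t.2.2⁻¹ • t.2.1⁻¹ • t.1⁻¹ • x))⁻¹) (D.rep (D.o x))

theorem hty_zero (m : X → k) (x : X) :
    m x - D.ind0 (D.sh0 m) x = D.hty1 (d0 m) x := by
  simp [ind0, sh0, hty1, d0, D.t_smul]

theorem hty_one (f : Γ → X → k) (g : Γ) (x : X) :
    f g x - D.ind1 (D.sh1 f) g x = d0 (D.hty1 f) g x + D.hty2 (d1 f) g x := by
  simp only [ind1, sh1, d0, hty1, hty2, d1, inv_inv, D.cc_inv_smul, D.t_smul, D.cc_mul_t_inv,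
    D.o_smul]
  ring

theorem hty_two (f : Γ × Γ → X → k) (t : Γ × Γ) (x : X) :
    f t x - D.ind2 (D.sh2 f) t x = d1 (D.hty2 f) t x + D.hty3 (d2 f) t x := by
  obtain ⟨g₁, g₂⟩ := t
  have h1 := D.cc_mul_t_inv g₂ (g₁⁻¹ • x)
  have h2 := D.cc_inv_smul g₂ (g₁⁻¹ • x)
  rw [D.o_smul] at h2
  simp only [ind2, sh2, d1, hty2, hty3, d2, inv_inv, D.cc_inv_smul, D.t_smul, D.cc_mul_t_inv,
    D.o_smul, D.cc_mul, mul_inv_rev, mul_smul, h1, h2]
  ring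

theorem hty_three (f : Γ × Γ × Γ → X → k) (t : Γ × Γ × Γ) (x : X) :
    f t x - D.ind3 (D.sh3 f) t x = d2 (D.hty3 f) t x + D.hty4 (d3 f) t x := by
  obtain ⟨g₁, g₂, g₃⟩ := t
  have h1 := D.cc_mul_t_inv g₂ (g₁⁻¹ • x)
  have h2 := D.cc_inv_smul g₂ (g₁⁻¹ • x)
  rw [D.o_smul] at h2
  have h3 := D.cc_mul_t_inv g₃ (g₂⁻¹ • g₁⁻¹ • x)
  have h4 := D.cc_inv_smul g₃ (g₂⁻¹ • g₁⁻¹ • x)
  rw [D.o_smul, D.o_smul] at h4
  have h5 := D.cc_mul g₂ g₃ (g₁⁻¹ • x)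
  simp only [ind3, sh3, d2, hty3, hty4, d3, inv_inv, D.cc_inv_smul, D.t_smul, D.cc_mul_t_inv,
    D.o_smul, D.cc_mul, mul_inv_rev, mul_smul, h1, h2, h3, h4, h5]
  ring

end OrbitData

end Fermat.Agent.S55.Top
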