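/-
S55 (Poitou–Tate), package E4, top layer: the `K`-level cone formalism (trivial coefficients)
and the interface `Stmt_TopQ`, `Stmt_TopK` of E4.
Owner: helper49.  Plans: NOTES/plan/S55.md, NOTES/plan/S55_E4.md, NOTES/plan/S55_GS.md.

`K` is a base field (finite over `ℚ`, unramified outside `S`, `ζ_p ∈ K`), `G_K = K.fixingSubgroup`.
* A *place system* `𝔓 : PlaceSys S K` is a choice of coset representatives of `G_ℚ/G_K` and, for
  every `q ∈ S`, of representatives of the orbits of the local group `Gl q` on `G_ℚ/G_K`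
  (the orbits are the places of `K` over `q`).
* The local group at the place `w` is `Γw 𝔓 q w ≤ Gl q` (the stabiliser of the representative
  coset `σ_w G_K`), with `ρw : Γw → G_K`, `h ↦ σ_w⁻¹ (rl q h) σ_w`.
* `K`-level cochains are functions on `G_K`, `Γw` with values in `k` (TRIVIAL action; over a base
  field the twist by the cyclotomic character is trivial), level conditions as over `ℚ`.
* `K`-level cone `C^n_K = C^n(G_K) × ∏_{q ∈ S} ∏_{w | q} C^{n-1}(Γw)`, cups = products.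
* `TraceK`, `AlphaTwoEpiK`, `AlphaThreeMonoK`, `BetaOneEpiK`, `BetaTwoMonoK`.

Interface of E4:
* `Stmt_TopK` : for every base field, every place system and EVERY `K`-level trace that is nonzero
  on some `K`-level cone 3-cocycle, the four properties hold  (classical Poitou–Tate for `μ_p/K`).
* `Stmt_TopQ` : for every base field `K` there is a trace over `ℚ` whose `(3,0)`-pairing on
  `P_K = k[G_ℚ/G_K]` is not identically zero  (reciprocity over `ℚ` + one local corestriction).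
* SH (Shapiro, `Top/SH*.lean`): `Stmt_TopQ → Stmt_TopK → Stmt_E4`.
-/
import Fermat.Agent.S55.Coh.Stmts
import Fermat.Agent.S55.Top.ShapiroCore

set_option autoImplicit false

open CategoryTheory Module groupCohomology ExtCitation

noncomputable section

namespace Fermat.Agent.S55.Top

open Fermat.Agent.S55

/-! ### Groups and places -/

/-- The coset space `G_ℚ / G_K`. -/
abbrev XK (K : IntermediateField ℚ (AlgebraicClosure ℚ)) : Type := GQ ⧸ K.fixingSubgroup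

/-- The base coset. -/
abbrev x0 (K : IntermediateField ℚ (AlgebraicClosure ℚ)) : XK K :=
  ((1 : GQ) : GQ ⧸ K.fixingSubgroup)

/-- The action of the local group at `q` on `G_ℚ / G_K` (through `rl q`). -/
@[reducible] def locAct (K : IntermediateField ℚ (AlgebraicClosure ℚ)) (q : Nat.Primes) :
    MulAction (Gl q) (XK K) :=
  MulAction.compHom (XK K) (rl q)

attribute [local instance] locAct

lemma locAct_smul (K : IntermediateField ℚ (AlgebraicClosure ℚ)) (q : Nat.Primes) (h : Gl q)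
    (x : XK K) : h • x = rl q h • x := rfl

/-- A system of places of `K` over `S`. -/
structure PlaceSys (S : Finset Nat.Primes) (K : IntermediateField ℚ (AlgebraicClosure ℚ)) where
  /-- coset representatives of `G_ℚ / G_K` -/
  glob : OrbitData GQ (XK K) Unit
  glob_rep : glob.rep () = x0 K
  /-- the places of `K` above `q` -/
  W : ↥S → Type
  /-- there are finitely many places -/
  fin : ∀ q : ↥S, Fintype (W q)
  /-- representatives of the orbits of the local group on `G_ℚ / G_K` -/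
  loc : ∀ q : ↥S, @OrbitData (Gl q.1) _ (XK K) (locAct K q.1) (W q)

section places

variable {S : Finset Nat.Primes} {K : IntermediateField ℚ (AlgebraicClosure ℚ)}
  (𝔓 : PlaceSys S K)

/-- The representative `σ_w ∈ G_ℚ` of the place `w` (the embedding of `K` into `ℚ̄_q` is
`x ↦ ι_q (σ_w x)`). -/
def PlaceSys.σ (q : ↥S) (w : 𝔓.W q) : GQ := 𝔓.glob.t ((𝔓.loc q).rep w)

/-- The local group at the place `w`: the stabiliser of `σ_w G_K` in `Gl q`. -/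
def PlaceSys.Γw (q : ↥S) (w : 𝔓.W q) : Subgroup (Gl q.1) :=
  (MulAction.stabilizer GQ ((𝔓.loc q).rep w)).comap (rl q.1)

lemma PlaceSys.σ_smul (q : ↥S) (w : 𝔓.W q) : 𝔓.σ q w • x0 K = (𝔓.loc q).rep w := by
  have h := 𝔓.glob.t_smul ((𝔓.loc q).rep w)
  rw [𝔓.glob_rep] at h
  exact h

lemma PlaceSys.mem_Γw (q : ↥S) (w : 𝔓.W q) (h : Gl q.1) :
    h ∈ 𝔓.Γw q w ↔ rl q.1 h • (𝔓.loc q).rep w = (𝔓.loc q).rep w := Iff.rfl

lemma PlaceSys.conj_mem (q : ↥S) (w : 𝔓.W q) (h : 𝔓.Γw q w) :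
    (𝔓.σ q w)⁻¹ * rl q.1 h.1 * 𝔓.σ q w ∈ K.fixingSubgroup := by
  have h1 : rl q.1 h.1 • (𝔓.loc q).rep w = (𝔓.loc q).rep w := h.2
  have h2 : ((𝔓.σ q w)⁻¹ * rl q.1 h.1 * 𝔓.σ q w) • x0 K = x0 K := by
    rw [mul_smul, mul_smul, 𝔓.σ_smul, h1, ← 𝔓.σ_smul, inv_smul_smul]
  have h3 : (((𝔓.σ q w)⁻¹ * rl q.1 h.1 * 𝔓.σ q w : GQ) : GQ ⧸ K.fixingSubgroup) =
      ((1 : GQ) : GQ ⧸ K.fixingSubgroup) := by
    have := h2
    simpa [x0, MulAction.Quotient.smul_mk] using this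
  have h4 := QuotientGroup.eq.1 h3
  simpa using K.fixingSubgroup.inv_mem h4

/-- The map `Γw → G_K`, `h ↦ σ_w⁻¹ (rl q h) σ_w`. -/
def PlaceSys.ρw (q : ↥S) (w : 𝔓.W q) : 𝔓.Γw q w →* ↥K.fixingSubgroup where
  toFun h := ⟨(𝔓.σ q w)⁻¹ * rl q.1 h.1 * 𝔓.σ q w, 𝔓.conj_mem q w h⟩
  map_one' := by
    apply Subtype.ext
    simp
  map_mul' a b := by
    apply Subtype.ext
    simp only [Subgroup.coe_mul, map_mul]
    group

/-- The map `Γw → G_ℚ` used for the level condition of local cochains. -/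
def PlaceSys.rw (q : ↥S) (w : 𝔓.W q) : 𝔓.Γw q w →* GQ := (rl q.1).comp (𝔓.Γw q w).subtype

end places

/-! ### Differentials with trivial coefficients, for any group -/

section triv

variable {k : Type} [Field k] {Δ : Type} [Group Δ]

/-- `d¹` with trivial coefficients. -/
def tOne (f : Δ → k) : Δ × Δ → k := fun t => f t.2 - f (t.1 * t.2) + f t.1

/-- `d²` with trivial coefficients. -/
def tTwo (f : Δ × Δ → k) : Δ × Δ × Δ → k :=
  fun t => f (t.2.1, t.2.2) - f (t.1 * t.2.1, t.2.2) + f (t.1, t.2.1 * t.2.2) - f (t.1, t.2.1)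

/-- `d³` with trivial coefficients. -/
def tThree (f : Δ × Δ × Δ → k) : Δ × Δ × Δ × Δ → k :=
  fun t => f (t.2.1, t.2.2.1, t.2.2.2) - f (t.1 * t.2.1, t.2.2.1, t.2.2.2)
    + f (t.1, t.2.1 * t.2.2.1, t.2.2.2) - f (t.1, t.2.1, t.2.2.1 * t.2.2.2)
    + f (t.1, t.2.1, t.2.2.1)

end triv

/-! ### Level conditions on `G_K` -/

section level

variable (S : Finset Nat.Primes) (K : IntermediateField ℚ (AlgebraicClosure ℚ))

/-- Level-`S` constancy for functions on `G_K`. -/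
def IsLevK₁ {X : Type*} (f : ↥K.fixingSubgroup → X) : Prop :=
  ∃ F : IntermediateField ℚ (AlgebraicClosure ℚ), F.IsUnramifiedOutside S ∧
    ∀ g s : ↥K.fixingSubgroup, (s : GQ) ∈ F.fixingSubgroup → f (g * s) = f g

/-- Level-`S` constancy for functions on `G_K × G_K`. -/
def IsLevK₂ {X : Type*} (f : ↥K.fixingSubgroup × ↥K.fixingSubgroup → X) : Prop :=
  ∃ F : IntermediateField ℚ (AlgebraicClosure ℚ), F.IsUnramifiedOutside S ∧
    ∀ g₁ g₂ s₁ s₂ : ↥K.fixingSubgroup, (s₁ : GQ) ∈ F.fixingSubgroup →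
      (s₂ : GQ) ∈ F.fixingSubgroup → f (g₁ * s₁, g₂ * s₂) = f (g₁, g₂)

/-- Level-`S` constancy for functions on `G_K × G_K × G_K`. -/
def IsLevK₃ {X : Type*}
    (f : ↥K.fixingSubgroup × ↥K.fixingSubgroup × ↥K.fixingSubgroup → X) : Prop :=
  ∃ F : IntermediateField ℚ (AlgebraicClosure ℚ), F.IsUnramifiedOutside S ∧
    ∀ g₁ g₂ g₃ s₁ s₂ s₃ : ↥K.fixingSubgroup, (s₁ : GQ) ∈ F.fixingSubgroup →
      (s₂ : GQ) ∈ F.fixingSubgroup → (s₃ : GQ) ∈ F.fixingSubgroup →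
      f (g₁ * s₁, g₂ * s₂, g₃ * s₃) = f (g₁, g₂, g₃)

end level

/-! ### `K`-level cocycles, cone, cups, traces -/

section cone

variable {k : Type} [Field k] {S : Finset Nat.Primes}
  {K : IntermediateField ℚ (AlgebraicClosure ℚ)} (𝔓 : PlaceSys S K)

/-- Restriction of a function on `G_K` to the local group at `w`. -/
def PlaceSys.res₁ {X : Type*} (q : ↥S) (w : 𝔓.W q) (f : ↥K.fixingSubgroup → X) :
    𝔓.Γw q w → X := fun h => f (𝔓.ρw q w h)

/-- Restriction of a function on `G_K × G_K` to the local group at `w`. -/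
def PlaceSys.res₂ {X : Type*} (q : ↥S) (w : 𝔓.W q)
    (f : ↥K.fixingSubgroup × ↥K.fixingSubgroup → X) : 𝔓.Γw q w × 𝔓.Γw q w → X :=
  fun t => f (𝔓.ρw q w t.1, 𝔓.ρw q w t.2)

/-- Restriction of a function on `G_K × G_K × G_K` to the local group at `w`. -/
def PlaceSys.res₃ {X : Type*} (q : ↥S) (w : 𝔓.W q)
    (f : ↥K.fixingSubgroup × ↥K.fixingSubgroup × ↥K.fixingSubgroup → X) :
    𝔓.Γw q w × 𝔓.Γw q w × 𝔓.Γw q w → X :=
  fun t => f (𝔓.ρw q w t.1, 𝔓.ρw q w t.2.1, 𝔓.ρw q w t.2.2)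

variable (S K) in
/-- `K`-level 1-cocycles: level-`S` homomorphisms `G_K → k`. -/
def IsZ1K (b : ↥K.fixingSubgroup → k) : Prop := tOne b = 0 ∧ IsLevK₁ S K b

variable (S K) in
/-- `K`-level 2-cocycles. -/
def IsZ2K (a : ↥K.fixingSubgroup × ↥K.fixingSubgroup → k) : Prop :=
  tTwo a = 0 ∧ IsLevK₂ S K a

variable (S K) in
/-- `K`-level 2-coboundaries. -/
def IsB2K (a : ↥K.fixingSubgroup × ↥K.fixingSubgroup → k) : Prop :=
  ∃ f : ↥K.fixingSubgroup → k, IsLevK₁ S K f ∧ tOne f = a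

/-- `K`-level cone 1-cochains. -/
abbrev PlaceSys.C1 (k : Type) : Type := (↥K.fixingSubgroup → k) × (∀ q : ↥S, 𝔓.W q → k)

/-- `K`-level cone 2-cochains. -/
abbrev PlaceSys.C2 (k : Type) : Type :=
  (↥K.fixingSubgroup × ↥K.fixingSubgroup → k) × (∀ (q : ↥S) (w : 𝔓.W q), 𝔓.Γw q w → k)

/-- `K`-level cone 3-cochains. -/
abbrev PlaceSys.C3 (k : Type) : Type :=
  (↥K.fixingSubgroup × ↥K.fixingSubgroup × ↥K.fixingSubgroup → k) ×
    (∀ (q : ↥S) (w : 𝔓.W q), 𝔓.Γw q w × 𝔓.Γw q w → k)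

/-- `K`-level cone 1-cocycles: `d f = 0`, `f` of level `S`, `res_w f = d m_w = 0`. -/
def IsZ1cK (y : 𝔓.C1 k) : Prop :=
  IsZ1K S K y.1 ∧ ∀ (q : ↥S) (w : 𝔓.W q), 𝔓.res₁ q w y.1 = 0

/-- `K`-level cone 1-coboundaries: `(0, (m)_w)`. -/
def IsB1cK (y : 𝔓.C1 k) : Prop :=
  ∃ m : k, y.1 = 0 ∧ ∀ (q : ↥S) (w : 𝔓.W q), y.2 q w = m

/-- `K`-level cone 2-cocycles. -/
def IsZ2cK (x : 𝔓.C2 k) : Prop :=
  IsZ2K S K x.1 ∧ ∀ (q : ↥S) (w : 𝔓.W q), IsLevelConstant₁ (𝔓.rw q w) (x.2 q w) ∧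
    𝔓.res₂ q w x.1 = tOne (x.2 q w)

/-- `K`-level cone 2-coboundaries: `(d f, (res_w f)_w)` (the local `d⁰` vanishes). -/
def IsB2cK (x : 𝔓.C2 k) : Prop :=
  ∃ f : ↥K.fixingSubgroup → k, IsLevK₁ S K f ∧ x.1 = tOne f ∧
    ∀ (q : ↥S) (w : 𝔓.W q), x.2 q w = 𝔓.res₁ q w f

/-- `K`-level cone 3-cocycles. -/
def IsZ3cK (x : 𝔓.C3 k) : Prop :=
  (tThree x.1 = 0 ∧ IsLevK₃ S K x.1) ∧ ∀ (q : ↥S) (w : 𝔓.W q),
    IsLevelConstant₂ (𝔓.rw q w) (x.2 q w) ∧ 𝔓.res₃ q w x.1 = tTwo (x.2 q w)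

/-- `K`-level cone 3-coboundaries. -/
def IsB3cK (x : 𝔓.C3 k) : Prop :=
  ∃ (f : ↥K.fixingSubgroup × ↥K.fixingSubgroup → k)
    (g : ∀ (q : ↥S) (w : 𝔓.W q), 𝔓.Γw q w → k), IsLevK₂ S K f ∧
    (∀ (q : ↥S) (w : 𝔓.W q), IsLevelConstant₁ (𝔓.rw q w) (g q w)) ∧ x.1 = tTwo f ∧
    ∀ (q : ↥S) (w : 𝔓.W q), x.2 q w = 𝔓.res₂ q w f - tOne (g q w)

/-- Cone on the left, degrees `(2, 1)`. -/
def cupA2K (x : 𝔓.C2 k) (b : ↥K.fixingSubgroup → k) : 𝔓.C3 k :=
  (fun t => x.1 (t.1, t.2.1) * b t.2.2,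
   fun q w t => x.2 q w t.1 * b (𝔓.ρw q w t.2))

/-- Cone on the left, degrees `(3, 0)`. -/
def cupA3K (x : 𝔓.C3 k) (m : k) : 𝔓.C3 k :=
  (fun t => x.1 t * m, fun q w t => x.2 q w t * m)

/-- Cone on the right, degrees `(2, 1)`. -/
def cupB1K (a : ↥K.fixingSubgroup × ↥K.fixingSubgroup → k) (y : 𝔓.C1 k) : 𝔓.C3 k :=
  (fun t => a (t.1, t.2.1) * y.1 t.2.2,
   fun q w t => a (𝔓.ρw q w t.1, 𝔓.ρw q w t.2) * y.2 q w)

/-- Cone on the right, degrees `(1, 2)` (local sign `-1`). -/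
def cupB2K (a : ↥K.fixingSubgroup → k) (y : 𝔓.C2 k) : 𝔓.C3 k :=
  (fun t => a t.1 * y.1 (t.2.1, t.2.2),
   fun q w t => - (a (𝔓.ρw q w t.1) * y.2 q w t.2))

/-- A `K`-level trace: a linear functional on `K`-level cone 3-cochains which kills the cone
3-coboundaries. -/
structure TraceK (k : Type) [Field k] where
  /-- the functional -/
  toFun : 𝔓.C3 k →ₗ[k] k
  /-- it kills coboundaries -/
  zero_of_isB3cK : ∀ x : 𝔓.C3 k, IsB3cK 𝔓 x → toFun x = 0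

variable {𝔓} (tr : TraceK 𝔓 k)

/-- `K`-level `α²epi`. -/
def AlphaTwoEpiK : Prop :=
  ∀ φ : (↥K.fixingSubgroup → k) →ₗ[k] k,
    ∃ x : 𝔓.C2 k, IsZ2cK 𝔓 x ∧
      ∀ b : ↥K.fixingSubgroup → k, IsZ1K S K b → tr.toFun (cupA2K 𝔓 x b) = φ b

/-- `K`-level `α³mono`. -/
def AlphaThreeMonoK : Prop :=
  ∀ x : 𝔓.C3 k, IsZ3cK 𝔓 x → (∀ m : k, tr.toFun (cupA3K 𝔓 x m) = 0) → IsB3cK 𝔓 x

/-- `K`-level `β¹epi`. -/
def BetaOneEpiK : Prop :=
  ∀ φ : (↥K.fixingSubgroup × ↥K.fixingSubgroup → k) →ₗ[k] k,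
    (∀ a : ↥K.fixingSubgroup × ↥K.fixingSubgroup → k, IsB2K S K a → φ a = 0) →
    ∃ y : 𝔓.C1 k, IsZ1cK 𝔓 y ∧
      ∀ a : ↥K.fixingSubgroup × ↥K.fixingSubgroup → k, IsZ2K S K a →
        tr.toFun (cupB1K 𝔓 a y) = φ a

/-- `K`-level `β²mono`. -/
def BetaTwoMonoK : Prop :=
  ∀ y : 𝔓.C2 k, IsZ2cK 𝔓 y →
    (∀ a : ↥K.fixingSubgroup → k, IsZ1K S K a → tr.toFun (cupB2K 𝔓 a y) = 0) →
    IsB2cK 𝔓 y

end cone

/-! ### The interface of E4 -/

/-- **TopK**: Poitou–Tate for the trivial module over every base field `K`, for every place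
system and every nonzero `K`-level trace. -/
def Stmt_TopK : Prop :=
  ∀ (p : ℕ) [Fact p.Prime], p ≠ 2 → ∀ (S : Finset Nat.Primes), pPrime p ∈ S →
    ∀ K : IntermediateField ℚ (AlgebraicClosure ℚ), IsBaseField S p K →
    ∀ (𝔓 : PlaceSys S K) (tr : TraceK 𝔓 (ZMod p)),
      (∃ x : 𝔓.C3 (ZMod p), IsZ3cK 𝔓 x ∧ tr.toFun x ≠ 0) →
      AlphaTwoEpiK tr ∧ AlphaThreeMonoK tr ∧ BetaOneEpiK tr ∧ BetaTwoMonoK tr

/-- **TopQ**: for every base field `K` there is a trace over `ℚ` whose pairing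
`H³_c(P_K) × H⁰(P_K') → k` is not identically zero. -/
def Stmt_TopQ : Prop :=
  ∀ (p : ℕ) [Fact p.Prime], p ≠ 2 → ∀ (S : Finset Nat.Primes), pPrime p ∈ S →
    ∀ K : IntermediateField ℚ (AlgebraicClosure ℚ), IsBaseField S p K →
    ∃ tr : Trace S (cycloChar p),
      ∃ (x : C3c S (permRep (ZMod p) K)) (m' : Md (cycloChar p) (permRep (ZMod p) K)),
        IsZ3c S (permRep (ZMod p) K) x ∧
        (∀ g : GQ, (Md (cycloChar p) (permRep (ZMod p) K)).ρ g m' = m') ∧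
        tr.toFun (cupA3 S (cycloChar p) (permRep (ZMod p) K) x m') ≠ 0

end Fermat.Agent.S55.Top

end
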