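/-
S55 (Poitou–Tate), package E4, PT-LIN: the exact inputs `Stmt_I1 … Stmt_I4`, `Stmt_G1K` of
the `K`-level counting argument, in terms of the `K`-level cone of `Top/Defs.lean`.
Owner: helper48.  Plans: NOTES/plan/S55_E4.md §2a, NOTES/plan/S55_GS.md §2.

PT-LIN (files `Top/H48_PT*.lean`) proves
  `Stmt_I1 → Stmt_I2 → Stmt_I3 → Stmt_I4 → Stmt_G1K → Stmt_TopK`.

Notation (`K` a base field, `𝔓` a place system, `k = 𝔽_p`, trivial coefficients):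
* `Z1K`  = level-`S` homomorphisms `G_K → k`            (`= H¹_S(G_K, k)`, there are no coboundaries);
* `H2K`  = `Z2K / B2K` = `H²_S(G_K, k)`;
* `Z1w`  = level-constant homomorphisms `Γ_w → k`        (`= H¹(K_w, k)`);
* `H2w`  = `Z2w / B2w` = `H²(K_w, k)`;
* `nPl 𝔓` = the number of places of `K` over `S`.

Inputs:
* `Stmt_I1` (LOC-5): `H¹(K_w)` is finite, `dim H²(K_w) = 1`, the cup product
  `H¹(K_w) × H¹(K_w) → H²(K_w)` is nondegenerate, `Σ_w dim H¹(K_w) = 2 #V + [K:ℚ]`.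
* `Stmt_I2` (GS): `H³_S(G_K, k) = 0`.
* `Stmt_I3` (GS): `H¹_S`, `H²_S` are finite and `2 h² + [K:ℚ] + 2 ≤ 2 h¹`
  (Euler characteristic: `h¹ - h² = r₂ + 1`).
* `Stmt_I4` (GS): (a) the cokernel of `H²_S(G_K) → ⊕_w H²(K_w)` has dimension `≤ 1`;
  (b) a class of the image with at most one nonzero local component is locally trivial.
* `Stmt_G1K`: a nonzero locally trivial class of `H¹_S(G_K, k)` pairs nontrivially with some cone
  2-cocycle (the snake argument for `E_χ`; with I4 for `K(χ)`).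
-/
import Fermat.Agent.S55.Top.Defs

set_option autoImplicit false

open CategoryTheory Module groupCohomology ExtCitation

noncomputable section

namespace Fermat.Agent.S55.Top

open Fermat.Agent.S55

/-! ### Linearity of the differentials with trivial coefficients -/

section trivLin

variable {k : Type} [Field k] {Δ : Type} [Group Δ]

lemma tOne_add (f f' : Δ → k) : tOne (f + f') = tOne f + tOne f' := by
  funext t; simp only [tOne, Pi.add_apply]; ring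

lemma tOne_smul (c : k) (f : Δ → k) : tOne (c • f) = c • tOne f := by
  funext t; simp only [tOne, Pi.smul_apply, smul_eq_mul]; ring

lemma tOne_zero : tOne (0 : Δ → k) = 0 := by
  funext t; simp [tOne]

lemma tTwo_add (f f' : Δ × Δ → k) : tTwo (f + f') = tTwo f + tTwo f' := by
  funext t; simp only [tTwo, Pi.add_apply]; ring

lemma tTwo_smul (c : k) (f : Δ × Δ → k) : tTwo (c • f) = c • tTwo f := by
  funext t; simp only [tTwo, Pi.smul_apply, smul_eq_mul]; ring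

lemma tTwo_zero : tTwo (0 : Δ × Δ → k) = 0 := by
  funext t; simp [tTwo]

lemma tThree_add (f f' : Δ × Δ × Δ → k) : tThree (f + f') = tThree f + tThree f' := by
  funext t; simp only [tThree, Pi.add_apply]; ring

lemma tThree_smul (c : k) (f : Δ × Δ × Δ → k) : tThree (c • f) = c • tThree f := by
  funext t; simp only [tThree, Pi.smul_apply, smul_eq_mul]; ring

lemma tThree_zero : tThree (0 : Δ × Δ × Δ → k) = 0 := by
  funext t; simp [tThree]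

end trivLin

/-! ### Level conditions on `G_K`: closure properties -/

section levK

variable {S : Finset Nat.Primes} {K : IntermediateField ℚ (AlgebraicClosure ℚ)}

lemma isLevK₁_const {X : Type*} (x : X) : IsLevK₁ S K (fun _ : ↥K.fixingSubgroup => x) :=
  ⟨⊥, IntermediateField.isUnramifiedOutside_bot S, fun _ _ _ => rfl⟩

lemma isLevK₂_const {X : Type*} (x : X) :
    IsLevK₂ S K (fun _ : ↥K.fixingSubgroup × ↥K.fixingSubgroup => x) :=
  ⟨⊥, IntermediateField.isUnramifiedOutside_bot S, fun _ _ _ _ _ _ => rfl⟩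

lemma isLevK₃_const {X : Type*} (x : X) :
    IsLevK₃ S K (fun _ : ↥K.fixingSubgroup × ↥K.fixingSubgroup × ↥K.fixingSubgroup => x) :=
  ⟨⊥, IntermediateField.isUnramifiedOutside_bot S, fun _ _ _ _ _ _ _ _ _ => rfl⟩

lemma IsLevK₁.comp {X Y : Type*} {f : ↥K.fixingSubgroup → X} (hf : IsLevK₁ S K f)
    (φ : X → Y) : IsLevK₁ S K (fun g => φ (f g)) := by
  obtain ⟨F, hF, h⟩ := hf
  exact ⟨F, hF, fun g s hs => by simp only [h g s hs]⟩

lemma IsLevK₂.comp {X Y : Type*} {f : ↥K.fixingSubgroup × ↥K.fixingSubgroup → X}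
    (hf : IsLevK₂ S K f) (φ : X → Y) : IsLevK₂ S K (fun t => φ (f t)) := by
  obtain ⟨F, hF, h⟩ := hf
  exact ⟨F, hF, fun g₁ g₂ s₁ s₂ h₁ h₂ => by simp only [h g₁ g₂ s₁ s₂ h₁ h₂]⟩

lemma IsLevK₃.comp {X Y : Type*}
    {f : ↥K.fixingSubgroup × ↥K.fixingSubgroup × ↥K.fixingSubgroup → X}
    (hf : IsLevK₃ S K f) (φ : X → Y) : IsLevK₃ S K (fun t => φ (f t)) := by
  obtain ⟨F, hF, h⟩ := hf
  exact ⟨F, hF, fun g₁ g₂ g₃ s₁ s₂ s₃ h₁ h₂ h₃ => by simp only [h g₁ g₂ g₃ s₁ s₂ s₃ h₁ h₂ h₃]⟩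

lemma IsLevK₁.pair {X Y : Type*} {f : ↥K.fixingSubgroup → X} {f' : ↥K.fixingSubgroup → Y}
    (hf : IsLevK₁ S K f) (hf' : IsLevK₁ S K f') : IsLevK₁ S K (fun g => (f g, f' g)) := by
  obtain ⟨F, hF, h⟩ := hf
  obtain ⟨F', hF', h'⟩ := hf'
  refine ⟨F ⊔ F', hF.sup hF', fun g s hs => ?_⟩
  show (f _, f' _) = (f _, f' _)
  rw [h g s (IntermediateField.fixingSubgroup_antitone le_sup_left hs),
    h' g s (IntermediateField.fixingSubgroup_antitone le_sup_right hs)]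

lemma IsLevK₂.pair {X Y : Type*} {f : ↥K.fixingSubgroup × ↥K.fixingSubgroup → X}
    {f' : ↥K.fixingSubgroup × ↥K.fixingSubgroup → Y}
    (hf : IsLevK₂ S K f) (hf' : IsLevK₂ S K f') : IsLevK₂ S K (fun t => (f t, f' t)) := by
  obtain ⟨F, hF, h⟩ := hf
  obtain ⟨F', hF', h'⟩ := hf'
  refine ⟨F ⊔ F', hF.sup hF', fun g₁ g₂ s₁ s₂ h₁ h₂ => ?_⟩
  show (f _, f' _) = (f _, f' _)
  rw [h g₁ g₂ s₁ s₂ (IntermediateField.fixingSubgroup_antitone le_sup_left h₁)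
      (IntermediateField.fixingSubgroup_antitone le_sup_left h₂),
    h' g₁ g₂ s₁ s₂ (IntermediateField.fixingSubgroup_antitone le_sup_right h₁)
      (IntermediateField.fixingSubgroup_antitone le_sup_right h₂)]

lemma IsLevK₃.pair {X Y : Type*}
    {f : ↥K.fixingSubgroup × ↥K.fixingSubgroup × ↥K.fixingSubgroup → X}
    {f' : ↥K.fixingSubgroup × ↥K.fixingSubgroup × ↥K.fixingSubgroup → Y}
    (hf : IsLevK₃ S K f) (hf' : IsLevK₃ S K f') : IsLevK₃ S K (fun t => (f t, f' t)) := by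
  obtain ⟨F, hF, h⟩ := hf
  obtain ⟨F', hF', h'⟩ := hf'
  refine ⟨F ⊔ F', hF.sup hF', fun g₁ g₂ g₃ s₁ s₂ s₃ h₁ h₂ h₃ => ?_⟩
  show (f _, f' _) = (f _, f' _)
  rw [h g₁ g₂ g₃ s₁ s₂ s₃ (IntermediateField.fixingSubgroup_antitone le_sup_left h₁)
      (IntermediateField.fixingSubgroup_antitone le_sup_left h₂)
      (IntermediateField.fixingSubgroup_antitone le_sup_left h₃),
    h' g₁ g₂ g₃ s₁ s₂ s₃ (IntermediateField.fixingSubgroup_antitone le_sup_right h₁)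
      (IntermediateField.fixingSubgroup_antitone le_sup_right h₂)
      (IntermediateField.fixingSubgroup_antitone le_sup_right h₃)]

lemma IsLevK₁.add {X : Type*} [Add X] {f f' : ↥K.fixingSubgroup → X}
    (hf : IsLevK₁ S K f) (hf' : IsLevK₁ S K f') : IsLevK₁ S K (f + f') :=
  (hf.pair hf').comp (fun p => p.1 + p.2)

lemma IsLevK₂.add {X : Type*} [Add X] {f f' : ↥K.fixingSubgroup × ↥K.fixingSubgroup → X}
    (hf : IsLevK₂ S K f) (hf' : IsLevK₂ S K f') : IsLevK₂ S K (f + f') :=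
  (hf.pair hf').comp (fun p => p.1 + p.2)

lemma IsLevK₃.add {X : Type*} [Add X]
    {f f' : ↥K.fixingSubgroup × ↥K.fixingSubgroup × ↥K.fixingSubgroup → X}
    (hf : IsLevK₃ S K f) (hf' : IsLevK₃ S K f') : IsLevK₃ S K (f + f') :=
  (hf.pair hf').comp (fun p => p.1 + p.2)

end levK

/-! ### The `K`-level cohomology groups as vector spaces -/

section spaces

variable (k : Type) [Field k] (S : Finset Nat.Primes)
  (K : IntermediateField ℚ (AlgebraicClosure ℚ))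

/-- `Z¹_S(G_K, k) = H¹_S(G_K, k)`: the level-`S` homomorphisms `G_K → k`. -/
def Z1K : Submodule k (↥K.fixingSubgroup → k) where
  carrier := {b | IsZ1K S K b}
  add_mem' := by
    intro b b' hb hb'
    exact ⟨by rw [tOne_add, hb.1, hb'.1, add_zero], hb.2.add hb'.2⟩
  zero_mem' := ⟨tOne_zero, isLevK₁_const (0 : k)⟩
  smul_mem' := by
    intro c b hb
    exact ⟨by rw [tOne_smul, hb.1, smul_zero], hb.2.comp (c • ·)⟩

/-- `Z²_S(G_K, k)`. -/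
def Z2K : Submodule k (↥K.fixingSubgroup × ↥K.fixingSubgroup → k) where
  carrier := {a | IsZ2K S K a}
  add_mem' := by
    intro a a' ha ha'
    exact ⟨by rw [tTwo_add, ha.1, ha'.1, add_zero], ha.2.add ha'.2⟩
  zero_mem' := ⟨tTwo_zero, isLevK₂_const (0 : k)⟩
  smul_mem' := by
    intro c a ha
    exact ⟨by rw [tTwo_smul, ha.1, smul_zero], ha.2.comp (c • ·)⟩

/-- `B²_S(G_K, k)`. -/
def B2K : Submodule k (↥K.fixingSubgroup × ↥K.fixingSubgroup → k) where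
  carrier := {a | IsB2K S K a}
  add_mem' := by
    rintro a a' ⟨f, hf, rfl⟩ ⟨f', hf', rfl⟩
    exact ⟨f + f', hf.add hf', tOne_add f f'⟩
  zero_mem' := ⟨0, isLevK₁_const (0 : k), tOne_zero⟩
  smul_mem' := by
    rintro c a ⟨f, hf, rfl⟩
    exact ⟨c • f, hf.comp (c • ·), tOne_smul c f⟩

/-- `H²_S(G_K, k) = Z² / B²`. -/
abbrev H2K : Type := ↥(Z2K k S K) ⧸ (B2K k S K).comap (Z2K k S K).subtype

variable {S K} (𝔓 : PlaceSys S K) (q : ↥S) (w : 𝔓.W q)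

/-- `Z¹(Γ_w, k) = H¹(K_w, k)`: the level-constant homomorphisms `Γ_w → k`. -/
def Z1w : Submodule k (𝔓.Γw q w → k) where
  carrier := {b | tOne b = 0 ∧ IsLevelConstant₁ (𝔓.rw q w) b}
  add_mem' := by
    intro b b' hb hb'
    exact ⟨by rw [tOne_add, hb.1, hb'.1, add_zero], hb.2.add hb'.2⟩
  zero_mem' := ⟨tOne_zero, isLevelConstant₁_const (𝔓.rw q w) (0 : k)⟩
  smul_mem' := by
    intro c b hb
    exact ⟨by rw [tOne_smul, hb.1, smul_zero], hb.2.comp (c • ·)⟩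

/-- `Z²(Γ_w, k)`: the level-constant 2-cocycles. -/
def Z2w : Submodule k (𝔓.Γw q w × 𝔓.Γw q w → k) where
  carrier := {c | tTwo c = 0 ∧ IsLevelConstant₂ (𝔓.rw q w) c}
  add_mem' := by
    intro c c' hc hc'
    exact ⟨by rw [tTwo_add, hc.1, hc'.1, add_zero], hc.2.add hc'.2⟩
  zero_mem' := ⟨tTwo_zero, isLevelConstant₂_const (𝔓.rw q w) (0 : k)⟩
  smul_mem' := by
    intro a c hc
    exact ⟨by rw [tTwo_smul, hc.1, smul_zero], hc.2.comp (a • ·)⟩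

/-- `B²(Γ_w, k)`: the coboundaries of level-constant 1-cochains. -/
def B2w : Submodule k (𝔓.Γw q w × 𝔓.Γw q w → k) where
  carrier := {c | ∃ g : 𝔓.Γw q w → k, IsLevelConstant₁ (𝔓.rw q w) g ∧ tOne g = c}
  add_mem' := by
    rintro c c' ⟨g, hg, rfl⟩ ⟨g', hg', rfl⟩
    exact ⟨g + g', hg.add hg', tOne_add g g'⟩
  zero_mem' := ⟨0, isLevelConstant₁_const (𝔓.rw q w) (0 : k), tOne_zero⟩
  smul_mem' := by
    rintro a c ⟨g, hg, rfl⟩
    exact ⟨a • g, hg.comp (a • ·), tOne_smul a g⟩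

/-- `H²(K_w, k) = Z² / B²`. -/
abbrev H2w : Type := ↥(Z2w k 𝔓 q w) ⧸ (B2w k 𝔓 q w).comap (Z2w k 𝔓 q w).subtype

/-- The number of places of `K` over `S`. -/
def nPl : ℕ := ∑ q : ↥S, @Fintype.card (𝔓.W q) (𝔓.fin q)

/-- `Σ_w dim H¹(K_w, k)`. -/
def sumH1w : ℕ :=
  ∑ q : ↥S, @Finset.sum (𝔓.W q) ℕ _ (@Finset.univ _ (𝔓.fin q))
    (fun w => Module.finrank k ↥(Z1w k 𝔓 q w))

end spaces

/-! ### The inputs of PT-LIN -/

/-- **I1** (local, LOC-5): `H¹(K_w, 𝔽_p)` is finite, `dim H²(K_w, 𝔽_p) = 1`, the cup product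
`H¹ × H¹ → H²` is nondegenerate, and `Σ_w dim H¹(K_w, 𝔽_p) = 2 #V + [K : ℚ]`. -/
def Stmt_I1 : Prop :=
  ∀ (p : ℕ) [Fact p.Prime], p ≠ 2 → ∀ (S : Finset Nat.Primes), pPrime p ∈ S →
    ∀ K : IntermediateField ℚ (AlgebraicClosure ℚ), IsBaseField S p K →
    ∀ 𝔓 : PlaceSys S K,
      (∀ (q : ↥S) (w : 𝔓.W q), Module.Finite (ZMod p) ↥(Z1w (ZMod p) 𝔓 q w)) ∧
      (∀ (q : ↥S) (w : 𝔓.W q), Module.finrank (ZMod p) (H2w (ZMod p) 𝔓 q w) = 1) ∧
      (∀ (q : ↥S) (w : 𝔓.W q) (g : 𝔓.Γw q w → ZMod p), g ∈ Z1w (ZMod p) 𝔓 q w → g ≠ 0 →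
        ∃ b : 𝔓.Γw q w → ZMod p, b ∈ Z1w (ZMod p) 𝔓 q w ∧
          (fun t : 𝔓.Γw q w × 𝔓.Γw q w => g t.1 * b t.2) ∉ B2w (ZMod p) 𝔓 q w) ∧
      sumH1w (ZMod p) 𝔓 = 2 * nPl 𝔓 + Module.finrank ℚ ↥K

/-- **I2** (global, GS): `H³_S(G_K, 𝔽_p) = 0`. -/
def Stmt_I2 : Prop :=
  ∀ (p : ℕ) [Fact p.Prime], p ≠ 2 → ∀ (S : Finset Nat.Primes), pPrime p ∈ S →
    ∀ K : IntermediateField ℚ (AlgebraicClosure ℚ), IsBaseField S p K →
    ∀ F : ↥K.fixingSubgroup × ↥K.fixingSubgroup × ↥K.fixingSubgroup → ZMod p,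
      tThree F = 0 → IsLevK₃ S K F →
      ∃ f : ↥K.fixingSubgroup × ↥K.fixingSubgroup → ZMod p, IsLevK₂ S K f ∧ tTwo f = F

/-- **I3** (global, GS): `H¹_S(G_K, 𝔽_p)` and `H²_S(G_K, 𝔽_p)` are finite and
`2 h² + [K : ℚ] + 2 ≤ 2 h¹`  (i.e. `h¹ - h² ≥ r₂ + 1`). -/
def Stmt_I3 : Prop :=
  ∀ (p : ℕ) [Fact p.Prime], p ≠ 2 → ∀ (S : Finset Nat.Primes), pPrime p ∈ S →
    ∀ K : IntermediateField ℚ (AlgebraicClosure ℚ), IsBaseField S p K →
      Module.Finite (ZMod p) ↥(Z1K (ZMod p) S K) ∧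
      Module.Finite (ZMod p) (H2K (ZMod p) S K) ∧
      2 * Module.finrank (ZMod p) (H2K (ZMod p) S K) + Module.finrank ℚ ↥K + 2 ≤
        2 * Module.finrank (ZMod p) ↥(Z1K (ZMod p) S K)

/-- **I4** (global, GS).  For families `c = (c_w)` of local 2-cocycles, `(0, c)` is a `K`-level
cone 3-coboundary iff `c` is, up to local coboundaries, the restriction of a global level-`S`
2-cocycle.
(a) the cokernel of `H²_S(G_K) → ⊕_w H²(K_w)` has dimension `≤ 1`: of two families of local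
cocycles some nontrivial combination is global;
(b) a global family with at most one nonzero component is locally trivial. -/
def Stmt_I4 : Prop :=
  ∀ (p : ℕ) [Fact p.Prime], p ≠ 2 → ∀ (S : Finset Nat.Primes), pPrime p ∈ S →
    ∀ K : IntermediateField ℚ (AlgebraicClosure ℚ), IsBaseField S p K →
    ∀ 𝔓 : PlaceSys S K,
      (∀ c c' : ∀ (q : ↥S) (w : 𝔓.W q), 𝔓.Γw q w × 𝔓.Γw q w → ZMod p,
        (∀ q w, c q w ∈ Z2w (ZMod p) 𝔓 q w) → (∀ q w, c' q w ∈ Z2w (ZMod p) 𝔓 q w) →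
        ∃ α β : ZMod p, (α ≠ 0 ∨ β ≠ 0) ∧
          IsB3cK 𝔓 ((0, fun q w => α • c q w + β • c' q w) : 𝔓.C3 (ZMod p))) ∧
      (∀ c : ∀ (q : ↥S) (w : 𝔓.W q), 𝔓.Γw q w × 𝔓.Γw q w → ZMod p,
        (∀ q w, c q w ∈ Z2w (ZMod p) 𝔓 q w) →
        IsB3cK 𝔓 ((0, c) : 𝔓.C3 (ZMod p)) →
        ∀ (q₀ : ↥S) (w₀ : 𝔓.W q₀),
          (∀ (q : ↥S) (w : 𝔓.W q), (⟨q, w⟩ : Σ q : ↥S, 𝔓.W q) ≠ ⟨q₀, w₀⟩ → c q w = 0) →
          c q₀ w₀ ∈ B2w (ZMod p) 𝔓 q₀ w₀)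

/-- **G1K**: a nonzero locally trivial level-`S` homomorphism `b : G_K → 𝔽_p` pairs
nontrivially with some `K`-level cone 2-cocycle. -/
def Stmt_G1K : Prop :=
  ∀ (p : ℕ) [Fact p.Prime], p ≠ 2 → ∀ (S : Finset Nat.Primes), pPrime p ∈ S →
    ∀ K : IntermediateField ℚ (AlgebraicClosure ℚ), IsBaseField S p K →
    ∀ (𝔓 : PlaceSys S K) (tr : TraceK 𝔓 (ZMod p)),
      (∃ x : 𝔓.C3 (ZMod p), IsZ3cK 𝔓 x ∧ tr.toFun x ≠ 0) →
      ∀ b : ↥K.fixingSubgroup → ZMod p, IsZ1K S K b →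
        (∀ (q : ↥S) (w : 𝔓.W q), 𝔓.res₁ q w b = 0) → b ≠ 0 →
        ∃ x : 𝔓.C2 (ZMod p), IsZ2cK 𝔓 x ∧ tr.toFun (cupA2K 𝔓 x b) ≠ 0

end Fermat.Agent.S55.Top

end
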