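/-
S55 (Poitou–Tate), package E4-top (SH): the function model `FX = Fun(G_ℚ/G_K, k)` of the
permutation module, and the untwisted coordinates of its twisted dual.
Owner: helper49.
-/
import Fermat.Agent.S55.Top.Defs
import Fermat.Agent.S55.Coh.Basic

set_option autoImplicit false
set_option linter.unusedSectionVars false

open CategoryTheory Module groupCohomology ExtCitation

noncomputable section

namespace Fermat.Agent.S55.Top

open Fermat.Agent.S55

variable (k : Type) [Field k] (K : IntermediateField ℚ (AlgebraicClosure ℚ))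

/-- The representation of `G_ℚ` on the functions on `G_ℚ / G_K`: `(g φ)(x) = φ(g⁻¹ x)`. -/
def funRho : Representation k GQ (XK K → k) where
  toFun g := LinearMap.funLeft k k (fun x : XK K => g⁻¹ • x)
  map_one' := by
    apply LinearMap.ext
    intro φ
    funext x
    simp [LinearMap.funLeft]
  map_mul' g h := by
    apply LinearMap.ext
    intro φ
    funext x
    simp [LinearMap.funLeft, mul_smul]

/-- The function model of the permutation module. -/
abbrev FX : Rep.{0} k GQ := Rep.of (funRho k K)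

variable {k K}

lemma FX_rho_apply (g : GQ) (φ : FX k K) (x : XK K) :
    ((FX k K).ρ g φ : XK K → k) x = (φ : XK K → k) (g⁻¹ • x) := rfl

/-! ### The function model is isomorphic to the permutation module -/

section retract

variable [Finite (XK K)]

/-- coefficients -/
def permToFun : permRep k K ⟶ FX k K :=
  Rep.ofHom ⟨((Finsupp.linearEquivFunOnFinite k k (XK K)).toLinearMap ∘ₗ
      (MonoidAlgebra.coeffLinearEquiv k).toLinearMap : MonoidAlgebra k (XK K) →ₗ[k] (XK K → k)),
    fun g => by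
      apply LinearMap.ext
      intro m
      funext x
      show ((Representation.ofMulAction k GQ (XK K)) g m).coeff x = m.coeff (g⁻¹ • x)
      exact Representation.coeff_ofMulAction g m x⟩

/-- the element with given coefficients -/
def funToPerm : FX k K ⟶ permRep k K :=
  Rep.ofHom ⟨((MonoidAlgebra.coeffLinearEquiv k).symm.toLinearMap ∘ₗ
      (Finsupp.linearEquivFunOnFinite k k (XK K)).symm.toLinearMap :
        (XK K → k) →ₗ[k] MonoidAlgebra k (XK K)),
    fun g => by
      apply LinearMap.ext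
      intro φ
      apply MonoidAlgebra.coeff_injective
      apply Finsupp.ext
      intro x
      show ((Finsupp.linearEquivFunOnFinite k k (XK K)).symm (fun y => φ (g⁻¹ • y))) x =
        ((Representation.ofMulAction k GQ (XK K)) g (MonoidAlgebra.ofCoeff
          ((Finsupp.linearEquivFunOnFinite k k (XK K)).symm φ))).coeff x
      rw [Representation.coeff_ofMulAction]
      rfl⟩

theorem isRetract_perm_FX : IsRetract (permRep k K) (FX k K) := by
  refine ⟨permToFun, funToPerm, fun m => ?_⟩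
  apply MonoidAlgebra.coeff_injective
  apply Finsupp.ext
  intro x
  rfl

end retract

/-! ### Untwisting the dual -/

/-- A function `u` on `G_ℚ / G_K` with `u (g x) = χ(g) u(x)` (it exists when `χ` is trivial on
`G_K`). -/
structure Untwist (χ : GQ →* kˣ) (K : IntermediateField ℚ (AlgebraicClosure ℚ)) where
  /-- the function -/
  u : XK K → kˣ
  smul : ∀ (g : GQ) (x : XK K), u (g • x) = χ g * u x

section untwist

variable {χ : GQ →* kˣ} (𝔲 : Untwist χ K) [Fintype (XK K)] [DecidableEq (XK K)]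

/-- The twisted sum `Σ_χ φ = Σ_x u(x) φ(x)`. -/
def Untwist.sum (φ : XK K → k) : k := ∑ x, (𝔲.u x : k) * φ x

lemma Untwist.sum_smul (g : GQ) (φ : XK K → k) :
    𝔲.sum (fun x => φ (g⁻¹ • x)) = (χ g : k) * 𝔲.sum φ := by
  unfold Untwist.sum
  rw [Finset.mul_sum]
  refine Fintype.sum_equiv (MulAction.toPerm g⁻¹) _ _ (fun x => ?_)
  have h := 𝔲.smul g (g⁻¹ • x)
  rw [smul_inv_smul] at h
  simp only [MulAction.toPerm_apply]
  rw [h]
  push_cast
  ring

/-- untwisted coordinates of the dual: `φ ↦ (x ↦ φ(δ_x) / u(x))`. -/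
def Untwist.coLin : Md χ (FX k K) →ₗ[k] (XK K → k) where
  toFun φ := fun x => (𝔲.u x : k)⁻¹ * (show Module.Dual k (XK K → k) from φ) (Pi.single x 1)
  map_add' φ ψ := by
    funext x
    show _ * ((show Module.Dual k (XK K → k) from φ) (Pi.single x 1) +
      (show Module.Dual k (XK K → k) from ψ) (Pi.single x 1)) = _
    simp [mul_add]
  map_smul' c φ := by
    funext x
    show _ * (c * (show Module.Dual k (XK K → k) from φ) (Pi.single x 1)) = _
    simp
    ring

/-- the functional with given untwisted coordinates: `ψ ↦ (m ↦ Σ_x u(x) m(x) ψ(x))`. -/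
def Untwist.ocLin : (XK K → k) →ₗ[k] Md χ (FX k K) where
  toFun ψ :=
    ({ toFun := fun m => 𝔲.sum (fun x => m x * ψ x)
       map_add' := fun m m' => by
        simp only [Untwist.sum, Pi.add_apply, add_mul, mul_add, Finset.sum_add_distrib]
       map_smul' := fun c m => by
        simp only [Untwist.sum, Pi.smul_apply, smul_eq_mul, RingHom.id_apply, Finset.mul_sum]
        refine Finset.sum_congr rfl fun x _ => ?_
        ring } : Module.Dual k (XK K → k))
  map_add' ψ ψ' := by
    apply LinearMap.ext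
    intro m
    show 𝔲.sum _ = 𝔲.sum _ + 𝔲.sum _
    simp only [Untwist.sum, Pi.add_apply, mul_add, Finset.sum_add_distrib]
  map_smul' c ψ := by
    apply LinearMap.ext
    intro m
    show 𝔲.sum _ = c * 𝔲.sum _
    simp only [Untwist.sum, Pi.smul_apply, smul_eq_mul, Finset.mul_sum]
    refine Finset.sum_congr rfl fun x _ => ?_
    ring

lemma Untwist.ev_ocLin (m : FX k K) (ψ : XK K → k) :
    ev χ (FX k K) m (𝔲.ocLin ψ) = 𝔲.sum (fun x => (m : XK K → k) x * ψ x) := rfl

lemma Untwist.coLin_apply (φ : Md χ (FX k K)) (x : XK K) :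
    𝔲.coLin φ x = (𝔲.u x : k)⁻¹ * ev χ (FX k K) (Pi.single x 1 : XK K → k) φ := rfl

lemma Untwist.u_ne_zero (x : XK K) : (𝔲.u x : k) ≠ 0 := (𝔲.u x).ne_zero

/-- The pairing in untwisted coordinates. -/
lemma Untwist.ev_eq (m : FX k K) (φ : Md χ (FX k K)) :
    ev χ (FX k K) m φ = 𝔲.sum (fun x => (m : XK K → k) x * 𝔲.coLin φ x) := by
  have h := LinearMap.pi_apply_eq_sum_univ (show Module.Dual k (XK K → k) from φ)
    (m : XK K → k)
  have h2 : ∀ x : XK K, (fun j => if x = j then (1 : k) else 0) =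
      (Pi.single x (1 : k) : XK K → k) := by
    intro x
    funext j
    by_cases hj : x = j
    · subst hj; simp
    · simp [hj, Ne.symm hj]
  unfold Untwist.sum
  show (show Module.Dual k (XK K → k) from φ) m = _
  rw [h]
  refine Finset.sum_congr rfl fun x _ => ?_
  show (m : XK K → k) x • (show Module.Dual k (XK K → k) from φ)
      (fun j => if x = j then (1 : k) else 0) =
    (𝔲.u x : k) * ((m : XK K → k) x * ((𝔲.u x : k)⁻¹ *
      (show Module.Dual k (XK K → k) from φ) (Pi.single x 1)))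
  rw [h2 x, smul_eq_mul]
  have hu := 𝔲.u_ne_zero x
  field_simp

lemma Untwist.coLin_ocLin (ψ : XK K → k) : 𝔲.coLin (𝔲.ocLin ψ) = ψ := by
  funext x
  rw [Untwist.coLin_apply, Untwist.ev_ocLin]
  unfold Untwist.sum
  rw [Finset.sum_eq_single x]
  · have hu := 𝔲.u_ne_zero x
    simp only [Pi.single_eq_same, one_mul]
    field_simp
  · intro y _ hy
    simp [Pi.single_apply, hy]
  · intro h
    exact absurd (Finset.mem_univ x) h

lemma Untwist.ocLin_coLin (φ : Md χ (FX k K)) : 𝔲.ocLin (𝔲.coLin φ) = φ := by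
  apply Md_ext
  intro m
  rw [Untwist.ev_ocLin, ← Untwist.ev_eq]

/-- equivariance of the untwisted coordinates. -/
lemma Untwist.coLin_rho (g : GQ) (φ : Md χ (FX k K)) (x : XK K) :
    𝔲.coLin ((Md χ (FX k K)).ρ g φ) x = 𝔲.coLin φ (g⁻¹ • x) := by
  rw [Untwist.coLin_apply, Untwist.coLin_apply, Md_rho_apply]
  have h1 : ((FX k K).ρ g⁻¹ (Pi.single x 1 : XK K → k) : XK K → k) =
      (Pi.single (g⁻¹ • x) 1 : XK K → k) := by
    funext y
    rw [FX_rho_apply, inv_inv]
    by_cases hy : y = g⁻¹ • x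
    · subst hy; simp
    · have hy' : g • y ≠ x := fun h => hy (by rw [← h, inv_smul_smul])
      simp [Pi.single_apply, hy, hy']
  rw [h1]
  have h2 := 𝔲.smul g (g⁻¹ • x)
  rw [smul_inv_smul] at h2
  have h2' : (𝔲.u x : k) = (χ g : k) * (𝔲.u (g⁻¹ • x) : k) := by
    rw [h2]; push_cast; rfl
  rw [h2']
  have hu := 𝔲.u_ne_zero (g⁻¹ • x)
  have hχ : (χ g : k) ≠ 0 := (χ g).ne_zero
  field_simp

/-- The untwisted coordinates as a morphism of representations. -/
def Untwist.coHom : Md χ (FX k K) ⟶ FX k K :=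
  Rep.ofHom ⟨𝔲.coLin, fun g => by
    apply LinearMap.ext
    intro φ
    funext x
    exact 𝔲.coLin_rho g φ x⟩

/-- The inverse of the untwisted coordinates as a morphism of representations. -/
def Untwist.ocHom : FX k K ⟶ Md χ (FX k K) :=
  Rep.ofHom ⟨𝔲.ocLin, fun g => by
    apply LinearMap.ext
    intro ψ
    show 𝔲.ocLin ((FX k K).ρ g ψ) = (Md χ (FX k K)).ρ g (𝔲.ocLin ψ)
    have h : 𝔲.coLin (𝔲.ocLin ((FX k K).ρ g ψ)) = 𝔲.coLin ((Md χ (FX k K)).ρ g (𝔲.ocLin ψ)) := by
      funext x
      rw [𝔲.coLin_ocLin, 𝔲.coLin_rho, 𝔲.coLin_ocLin]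
      rfl
    have := congrArg 𝔲.ocLin h
    rwa [𝔲.ocLin_coLin, 𝔲.ocLin_coLin] at this⟩

lemma Untwist.coHom_apply (φ : Md χ (FX k K)) : 𝔲.coHom.hom φ = 𝔲.coLin φ := rfl

lemma Untwist.ocHom_apply (ψ : FX k K) : 𝔲.ocHom.hom ψ = 𝔲.ocLin ψ := rfl

end untwist

end Fermat.Agent.S55.Top

end
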