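/-
S55 (Poitou–Tate), package E4-top (SH): existence of orbit data and of place systems; the
untwisting function of a character which is trivial on `G_K`.
Owner: helper49.
-/
import Fermat.Agent.S55.Top.FunRep
import Fermat.Agent.S55.Coh.Level

set_option autoImplicit false
set_option linter.unusedSectionVars false

open CategoryTheory Module groupCohomology ExtCitation

noncomputable section

namespace Fermat.Agent.S55.Top

open Fermat.Agent.S55

/-! ### Orbit data exist -/

section orbit

variable (Γ : Type) [Group Γ] (X : Type) [MulAction Γ X]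

/-- The orbit data given by a choice of representatives of the orbits. -/
def orbitDataOut : OrbitData Γ X (MulAction.orbitRel.Quotient Γ X) := by
  classical
  have hex : ∀ x : X, ∃ g : Γ, g • (Quotient.out (Quotient.mk (MulAction.orbitRel Γ X) x)) = x := by
    intro x
    have h : Quotient.mk (MulAction.orbitRel Γ X) x =
        Quotient.mk (MulAction.orbitRel Γ X)
          (Quotient.out (Quotient.mk (MulAction.orbitRel Γ X) x)) := (Quotient.out_eq _).symm
    have h2 := Quotient.exact h
    obtain ⟨g, hg⟩ := (MulAction.orbitRel_apply.1 h2)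
    exact ⟨g, hg⟩
  exact
  { rep := fun r => Quotient.out r
    o := fun x => Quotient.mk (MulAction.orbitRel Γ X) x
    t := fun x => if x = Quotient.out (Quotient.mk (MulAction.orbitRel Γ X) x) then 1
      else (hex x).choose
    t_smul := fun x => by
      by_cases h : x = Quotient.out (Quotient.mk (MulAction.orbitRel Γ X) x)
      · rw [if_pos h, one_smul]; exact h.symm
      · rw [if_neg h]; exact (hex x).choose_spec
    o_smul := fun γ x => by
      apply Quotient.sound
      exact MulAction.orbitRel_apply.2 ⟨γ, rfl⟩
    o_rep := fun r => Quotient.out_eq r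
    t_rep := fun r => by
      have h : Quotient.out r =
          Quotient.out (Quotient.mk (MulAction.orbitRel Γ X) (Quotient.out r)) := by
        rw [Quotient.out_eq]
      rw [if_pos h] }

end orbit

/-! ### Place systems exist -/

section places

variable (S : Finset Nat.Primes) (K : IntermediateField ℚ (AlgebraicClosure ℚ))

attribute [local instance] locAct

/-- Coset representatives of `G_ℚ / G_K`, with `1` for the base coset. -/
def globData : OrbitData GQ (XK K) Unit := by
  classical
  exact
  { rep := fun _ => x0 K
    o := fun _ => ()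
    t := fun x => if x = x0 K then 1 else Quotient.out x
    t_smul := fun x => by
      by_cases h : x = x0 K
      · rw [if_pos h, one_smul]; exact h.symm
      · rw [if_neg h]
        show (Quotient.out x : GQ) • ((1 : GQ) : GQ ⧸ K.fixingSubgroup) = x
        rw [MulAction.Quotient.smul_mk, smul_eq_mul, mul_one]
        exact QuotientGroup.out_eq' x
    o_smul := fun _ _ => rfl
    o_rep := fun _ => rfl
    t_rep := fun _ => if_pos rfl }

lemma globData_rep : (globData K).rep () = x0 K := rfl

variable [Finite (XK K)]

/-- A place system. -/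
def placeSysOut : PlaceSys S K where
  glob := globData K
  glob_rep := rfl
  W := fun q => MulAction.orbitRel.Quotient (Gl q.1) (XK K)
  fin := fun q => by
    haveI : Finite (MulAction.orbitRel.Quotient (Gl q.1) (XK K)) := Quotient.finite _
    exact Fintype.ofFinite _
  loc := fun q => orbitDataOut (Gl q.1) (XK K)

end places

/-! ### Finiteness of `G_ℚ / G_K` -/

lemma finite_XK {S : Finset Nat.Primes} {K : IntermediateField ℚ (AlgebraicClosure ℚ)}
    (hK : K.IsUnramifiedOutside S) : Finite (XK K) := by
  have hfd := hK.1
  have hgal := h49_qbar_isGalois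
  exact Subgroup.quotient_finite_of_isOpen K.fixingSubgroup K.fixingSubgroup_isOpen

/-! ### The untwisting function -/

section untw

variable {k : Type} [Field k] {S : Finset Nat.Primes}
  {K : IntermediateField ℚ (AlgebraicClosure ℚ)}

lemma mem_fix_of_smul_x0 {g : GQ} (h : g • x0 K = x0 K) : g ∈ K.fixingSubgroup := by
  have h3 : ((g : GQ) : GQ ⧸ K.fixingSubgroup) = ((1 : GQ) : GQ ⧸ K.fixingSubgroup) := by
    simpa [x0, MulAction.Quotient.smul_mk] using h
  have h4 := QuotientGroup.eq.1 h3
  simpa using K.fixingSubgroup.inv_mem h4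

lemma smul_x0_of_mem_fix {g : GQ} (h : g ∈ K.fixingSubgroup) : g • x0 K = x0 K := by
  show g • ((1 : GQ) : GQ ⧸ K.fixingSubgroup) = ((1 : GQ) : GQ ⧸ K.fixingSubgroup)
  rw [MulAction.Quotient.smul_mk, smul_eq_mul, mul_one]
  apply QuotientGroup.eq.2
  simpa using K.fixingSubgroup.inv_mem h

/-- The untwisting function `x ↦ χ(t(x))` of a character which is trivial on `G_K`. -/
def PlaceSys.untwist (𝔓 : PlaceSys S K) (χ : GQ →* kˣ)
    (hχ : ∀ s ∈ K.fixingSubgroup, χ s = 1) : Untwist χ K where
  u := fun x => χ (𝔓.glob.t x)
  smul := fun g x => by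
    have h1 : ((𝔓.glob.t (g • x))⁻¹ * g * 𝔓.glob.t x) • x0 K = x0 K := by
      have ha := 𝔓.glob.t_smul x
      have hb := 𝔓.glob.t_smul (g • x)
      rw [show 𝔓.glob.rep (𝔓.glob.o x) = x0 K from 𝔓.glob_rep] at ha
      rw [show 𝔓.glob.rep (𝔓.glob.o (g • x)) = x0 K from 𝔓.glob_rep] at hb
      rw [mul_smul, mul_smul, ha, inv_smul_eq_iff, hb]
    have h2 := hχ _ (mem_fix_of_smul_x0 h1)
    rw [map_mul, map_mul, map_inv, mul_assoc, inv_mul_eq_one] at h2
    exact h2

end untw

end Fermat.Agent.S55.Top

end
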