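/-
S55 (Poitou–Tate), package E4, PT-LIN part B: formal identities for the `K`-level cone
(trivial coefficients): cone differentials, Leibniz rules, adjointness, graded commutativity,
isotropy, and the level bookkeeping.
Owner: helper48.
-/
import Fermat.Agent.S55.Top.Defs_PT
import Fermat.Agent.S55.H48_NC
import Fermat.Agent.S55.Coh.Level

set_option autoImplicit false

open CategoryTheory Module groupCohomology ExtCitation

noncomputable section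

namespace Fermat.Agent.S55.Top.H48

open Fermat.Agent.S55 Fermat.Agent.S55.Top

variable {k : Type} [Field k] {S : Finset Nat.Primes}
  {K : IntermediateField ℚ (AlgebraicClosure ℚ)} (𝔓 : PlaceSys S K)

/-! ### Cone differentials -/

/-- The `K`-level cone differential `C¹ → C²_c` on global cochains: `f ↦ (d f, res f)`. -/
def dCone1K (f : ↥K.fixingSubgroup → k) : 𝔓.C2 k := (tOne f, fun q w => 𝔓.res₁ q w f)

/-- The `K`-level cone differential `C²_c → C³_c`: `(f, g) ↦ (d f, res f - d g)`. -/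
def dCone2K (u : 𝔓.C2 k) : 𝔓.C3 k :=
  (tTwo u.1, fun q w => 𝔓.res₂ q w u.1 - tOne (u.2 q w))

lemma isB3cK_dCone2K {u : 𝔓.C2 k} (h1 : IsLevK₂ S K u.1)
    (h2 : ∀ (q : ↥S) (w : 𝔓.W q), IsLevelConstant₁ (𝔓.rw q w) (u.2 q w)) :
    IsB3cK 𝔓 (dCone2K 𝔓 u) :=
  ⟨u.1, u.2, h1, h2, rfl, fun _ _ => rfl⟩

lemma isB3cK_iff (z : 𝔓.C3 k) :
    IsB3cK 𝔓 z ↔ ∃ u : 𝔓.C2 k, IsLevK₂ S K u.1 ∧
      (∀ (q : ↥S) (w : 𝔓.W q), IsLevelConstant₁ (𝔓.rw q w) (u.2 q w)) ∧ z = dCone2K 𝔓 u := by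
  constructor
  · rintro ⟨f, g, hf, hg, h1, h2⟩
    exact ⟨(f, g), hf, hg, Prod.ext h1 (funext fun q => funext fun w => h2 q w)⟩
  · rintro ⟨u, h1, h2, rfl⟩
    exact isB3cK_dCone2K 𝔓 h1 h2

lemma isB2cK_dCone1K {f : ↥K.fixingSubgroup → k} (h : IsLevK₁ S K f) :
    IsB2cK 𝔓 (dCone1K 𝔓 f) :=
  ⟨f, h, rfl, fun _ _ => rfl⟩

lemma isB2cK_iff (x : 𝔓.C2 k) :
    IsB2cK 𝔓 x ↔ ∃ f : ↥K.fixingSubgroup → k, IsLevK₁ S K f ∧ x = dCone1K 𝔓 f := by
  constructor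
  · rintro ⟨f, hf, h1, h2⟩
    exact ⟨f, hf, Prod.ext h1 (funext fun q => funext fun w => h2 q w)⟩
  · rintro ⟨f, hf, rfl⟩
    exact isB2cK_dCone1K 𝔓 hf

/-! ### Restriction and differentials -/

lemma res₂_tOne (q : ↥S) (w : 𝔓.W q) (f : ↥K.fixingSubgroup → k) :
    𝔓.res₂ q w (tOne f) = tOne (𝔓.res₁ q w f) := by
  funext t
  simp only [PlaceSys.res₂, PlaceSys.res₁, tOne, map_mul]

lemma res₃_tTwo (q : ↥S) (w : 𝔓.W q) (f : ↥K.fixingSubgroup × ↥K.fixingSubgroup → k) :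
    𝔓.res₃ q w (tTwo f) = tTwo (𝔓.res₂ q w f) := by
  funext t
  simp only [PlaceSys.res₃, PlaceSys.res₂, tTwo, map_mul]

lemma tTwo_tOne {Δ : Type} [Group Δ] (f : Δ → k) : tTwo (tOne f) = 0 := by
  funext t
  simp only [tTwo, tOne, Pi.zero_apply, mul_assoc]
  ring

/-! ### Homomorphisms -/

/-- A 1-cocycle with trivial coefficients is additive. -/
lemma hom_mul {Δ : Type} [Group Δ] {b : Δ → k} (hb : tOne b = 0) (g h : Δ) :
    b (g * h) = b g + b h := by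
  have := congrFun hb (g, h)
  simp only [tOne, Pi.zero_apply] at this
  linear_combination -this

lemma hom_one {Δ : Type} [Group Δ] {b : Δ → k} (hb : tOne b = 0) : b 1 = 0 := by
  have := hom_mul hb 1 1
  rw [mul_one] at this
  linear_combination -this

/-- A 2-cocycle with trivial coefficients. -/
lemma coc2 {Δ : Type} [Group Δ] {a : Δ × Δ → k} (ha : tTwo a = 0) (g₁ g₂ g₃ : Δ) :
    a (g₂, g₃) - a (g₁ * g₂, g₃) + a (g₁, g₂ * g₃) - a (g₁, g₂) = 0 := by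
  have := congrFun ha (g₁, g₂, g₃)
  simpa only [tTwo, Pi.zero_apply] using this

/-! ### Levels -/

section levels

variable {𝔓}

/-- A level-`S` homomorphism vanishes on its level group. -/
lemma hom_level {b : ↥K.fixingSubgroup → k} (hb : IsZ1K S K b) :
    ∃ F : IntermediateField ℚ (AlgebraicClosure ℚ), F.IsUnramifiedOutside S ∧
      ∀ s : ↥K.fixingSubgroup, (s : GQ) ∈ F.fixingSubgroup → b s = 0 := by
  obtain ⟨hd, F, hF, h⟩ := hb
  refine ⟨F, hF, fun s hs => ?_⟩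
  have := h 1 s hs
  rw [one_mul, hom_one hd] at this
  exact this

/-- `(g₁, g₂) ↦ f g₁ * b g₂` is of level `S`. -/
lemma levK₂_mul {f b : ↥K.fixingSubgroup → k} (hf : IsLevK₁ S K f) (hb : IsLevK₁ S K b) :
    IsLevK₂ S K (fun t : ↥K.fixingSubgroup × ↥K.fixingSubgroup => f t.1 * b t.2) := by
  obtain ⟨F, hF, h⟩ := hf
  obtain ⟨F', hF', h'⟩ := hb
  refine ⟨F ⊔ F', hF.sup hF', fun g₁ g₂ s₁ s₂ h₁ h₂ => ?_⟩
  show f (g₁ * s₁) * b (g₂ * s₂) = f g₁ * b g₂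
  rw [h g₁ s₁ (IntermediateField.fixingSubgroup_antitone le_sup_left h₁),
    h' g₂ s₂ (IntermediateField.fixingSubgroup_antitone le_sup_right h₂)]

/-- `(g₁, g₂) ↦ a (g₁ g₂) * y (g₁, g₂)` is of level `S` for a level-`S` homomorphism `a`. -/
lemma levK₂_hom_mul {a : ↥K.fixingSubgroup → k} (ha : IsZ1K S K a)
    {y : ↥K.fixingSubgroup × ↥K.fixingSubgroup → k} (hy : IsLevK₂ S K y) :
    IsLevK₂ S K (fun t : ↥K.fixingSubgroup × ↥K.fixingSubgroup => a (t.1 * t.2) * y t) := by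
  obtain ⟨F, hF, h⟩ := hom_level ha
  obtain ⟨F', hF', h'⟩ := hy
  refine ⟨F ⊔ F', hF.sup hF', fun g₁ g₂ s₁ s₂ h₁ h₂ => ?_⟩
  show a (g₁ * s₁ * (g₂ * s₂)) * y (g₁ * s₁, g₂ * s₂) = a (g₁ * g₂) * y (g₁, g₂)
  rw [h' g₁ g₂ s₁ s₂ (IntermediateField.fixingSubgroup_antitone le_sup_right h₁)
      (IntermediateField.fixingSubgroup_antitone le_sup_right h₂),
    hom_mul ha.1, hom_mul ha.1, hom_mul ha.1, hom_mul ha.1,
    h s₁ (IntermediateField.fixingSubgroup_antitone le_sup_left h₁),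
    h s₂ (IntermediateField.fixingSubgroup_antitone le_sup_left h₂)]
  ring

/-- The restriction of a level-`S` function on `G_K` to a local group is level constant. -/
lemma levL₁_res₁ {X : Type} {f : ↥K.fixingSubgroup → X} (hf : IsLevK₁ S K f) (q : ↥S)
    (w : 𝔓.W q) : IsLevelConstant₁ (𝔓.rw q w) (𝔓.res₁ q w f) := by
  obtain ⟨F₀, hF₀, h⟩ := hf
  obtain ⟨F, hle, hF, hn⟩ := Fermat.Agent.S55.H48.exists_normal_level S F₀ hF₀
  refine ⟨F, hF.1, fun g s hs => ?_⟩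
  show f (𝔓.ρw q w (g * s)) = f (𝔓.ρw q w g)
  rw [map_mul]
  refine h _ _ ?_
  have h1 : (𝔓.σ q w)⁻¹ * rl q.1 s.1 * 𝔓.σ q w ∈ F.fixingSubgroup := conj_mem_fix hn _ hs
  exact IntermediateField.fixingSubgroup_antitone hle h1

/-- The restriction of a level-`S` function on `G_K × G_K` to a local group is level
constant. -/
lemma levL₂_res₂ {X : Type} {f : ↥K.fixingSubgroup × ↥K.fixingSubgroup → X}
    (hf : IsLevK₂ S K f) (q : ↥S) (w : 𝔓.W q) :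
    IsLevelConstant₂ (𝔓.rw q w) (𝔓.res₂ q w f) := by
  obtain ⟨F₀, hF₀, h⟩ := hf
  obtain ⟨F, hle, hF, hn⟩ := Fermat.Agent.S55.H48.exists_normal_level S F₀ hF₀
  refine ⟨F, hF.1, fun g g' s s' hs hs' => ?_⟩
  show f (𝔓.ρw q w (g * s), 𝔓.ρw q w (g' * s')) = f (𝔓.ρw q w g, 𝔓.ρw q w g')
  rw [map_mul, map_mul]
  refine h _ _ _ _ ?_ ?_
  · have h1 : (𝔓.σ q w)⁻¹ * rl q.1 s.1 * 𝔓.σ q w ∈ F.fixingSubgroup := conj_mem_fix hn _ hs
    exact IntermediateField.fixingSubgroup_antitone hle h1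
  · have h1 : (𝔓.σ q w)⁻¹ * rl q.1 s'.1 * 𝔓.σ q w ∈ F.fixingSubgroup := conj_mem_fix hn _ hs'
    exact IntermediateField.fixingSubgroup_antitone hle h1

/-- Products of level-constant functions on a local group are level constant. -/
lemma levL₁_mul (q : ↥S) (w : 𝔓.W q) {f f' : 𝔓.Γw q w → k}
    (hf : IsLevelConstant₁ (𝔓.rw q w) f) (hf' : IsLevelConstant₁ (𝔓.rw q w) f') :
    IsLevelConstant₁ (𝔓.rw q w) (fun t => f t * f' t) := by
  obtain ⟨F, hF, h⟩ := hf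
  obtain ⟨F', hF', h'⟩ := hf'
  haveI := hF
  haveI := hF'
  refine ⟨F ⊔ F', IntermediateField.finiteDimensional_sup F F', fun g s hs => ?_⟩
  show f (g * s) * f' (g * s) = f g * f' g
  rw [h g s (IntermediateField.fixingSubgroup_antitone le_sup_left hs),
    h' g s (IntermediateField.fixingSubgroup_antitone le_sup_right hs)]

/-- `(h₁, h₂) ↦ f h₁ * f' h₂` is level constant on a local group. -/
lemma levL₂_mul (q : ↥S) (w : 𝔓.W q) {f f' : 𝔓.Γw q w → k}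
    (hf : IsLevelConstant₁ (𝔓.rw q w) f) (hf' : IsLevelConstant₁ (𝔓.rw q w) f') :
    IsLevelConstant₂ (𝔓.rw q w) (fun t : 𝔓.Γw q w × 𝔓.Γw q w => f t.1 * f' t.2) := by
  obtain ⟨F, hF, h⟩ := hf
  obtain ⟨F', hF', h'⟩ := hf'
  haveI := hF
  haveI := hF'
  refine ⟨F ⊔ F', IntermediateField.finiteDimensional_sup F F', fun g g' s s' hs hs' => ?_⟩
  show f (g * s) * f' (g' * s') = f g * f' g'
  rw [h g s (IntermediateField.fixingSubgroup_antitone le_sup_left hs),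
    h' g' s' (IntermediateField.fixingSubgroup_antitone le_sup_right hs')]

lemma levL₁_smul (q : ↥S) (w : 𝔓.W q) (m : k) {f : 𝔓.Γw q w → k}
    (hf : IsLevelConstant₁ (𝔓.rw q w) f) : IsLevelConstant₁ (𝔓.rw q w) (m • f) :=
  hf.comp (m • ·)

lemma levL₁_neg (q : ↥S) (w : 𝔓.W q) {f : 𝔓.Γw q w → k}
    (hf : IsLevelConstant₁ (𝔓.rw q w) f) : IsLevelConstant₁ (𝔓.rw q w) (-f) :=
  hf.comp (fun x => -x)

end levels

/-! ### The identities -/

section identities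

/-- `(d f, res f) ∪ b = d_cone (f ∪ b, 0)` for a homomorphism `b`. -/
lemma cupA2K_dCone1K (f b : ↥K.fixingSubgroup → k) (hb : tOne b = 0) :
    cupA2K 𝔓 (dCone1K 𝔓 f) b =
      dCone2K 𝔓 ((fun t => f t.1 * b t.2, 0) : 𝔓.C2 k) := by
  refine Prod.ext (funext fun t => ?_) (funext fun q => funext fun w => funext fun t => ?_)
  · obtain ⟨g₁, g₂, g₃⟩ := t
    simp only [cupA2K, dCone1K, dCone2K, tTwo, tOne]
    rw [hom_mul hb g₂ g₃]
    ring
  · obtain ⟨h₁, h₂⟩ := t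
    simp only [cupA2K, dCone1K, dCone2K, PlaceSys.res₁, PlaceSys.res₂, Pi.sub_apply, tOne,
      Pi.zero_apply]
    ring

/-- `d f ∪ (b, m) = d_cone (f ∪ b, - m res f)` for a cone 1-cocycle `(b, m)`. -/
lemma cupB1K_tOne (f : ↥K.fixingSubgroup → k) (y : 𝔓.C1 k) (hy : IsZ1cK 𝔓 y) :
    cupB1K 𝔓 (tOne f) y =
      dCone2K 𝔓 ((fun t => f t.1 * y.1 t.2,
        fun q w t => - (y.2 q w * f (𝔓.ρw q w t))) : 𝔓.C2 k) := by
  refine Prod.ext (funext fun t => ?_) (funext fun q => funext fun w => funext fun t => ?_)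
  · obtain ⟨g₁, g₂, g₃⟩ := t
    simp only [cupB1K, dCone2K, tTwo, tOne]
    rw [hom_mul hy.1.1 g₂ g₃]
    ring
  · obtain ⟨h₁, h₂⟩ := t
    have h0 : y.1 (𝔓.ρw q w h₂) = 0 := congrFun (hy.2 q w) h₂
    simp only [cupB1K, dCone2K, PlaceSys.res₂, Pi.sub_apply, tOne, map_mul, h0]
    ring

/-- `a ∪ (0, m) = d_cone (m a, 0)` for a 2-cocycle `a` and a constant `m`. -/
lemma cupB1K_const (a : ↥K.fixingSubgroup × ↥K.fixingSubgroup → k) (ha : tTwo a = 0) (m : k) :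
    cupB1K 𝔓 a ((0, fun _ _ => m) : 𝔓.C1 k) = dCone2K 𝔓 ((m • a, 0) : 𝔓.C2 k) := by
  refine Prod.ext (funext fun t => ?_) (funext fun q => funext fun w => funext fun t => ?_)
  · simp only [cupB1K, dCone2K, Pi.zero_apply, mul_zero, tTwo_smul, ha, smul_zero]
  · simp only [cupB1K, dCone2K, PlaceSys.res₂, Pi.sub_apply, Pi.smul_apply, smul_eq_mul,
      tOne_zero, Pi.zero_apply, sub_zero]
    ring

/-- **Adjointness**: `x ∪ b - a ∪ y = d_cone (0, m g)` for `x = (a, g)`, `y = (b, m)` cone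
cocycles. -/
lemma cupA2K_sub_cupB1K (x : 𝔓.C2 k) (y : 𝔓.C1 k) (hx : IsZ2cK 𝔓 x) (hy : IsZ1cK 𝔓 y) :
    cupA2K 𝔓 x y.1 - cupB1K 𝔓 x.1 y =
      dCone2K 𝔓 ((0, fun q w t => y.2 q w * x.2 q w t) : 𝔓.C2 k) := by
  refine Prod.ext (funext fun t => ?_) (funext fun q => funext fun w => funext fun t => ?_)
  · simp only [cupA2K, cupB1K, dCone2K, Prod.fst_sub, Pi.sub_apply, sub_self, tTwo_zero,
      Pi.zero_apply]
  · obtain ⟨h₁, h₂⟩ := t
    have h0 : y.1 (𝔓.ρw q w h₂) = 0 := congrFun (hy.2 q w) h₂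
    have h1 : x.1 (𝔓.ρw q w h₁, 𝔓.ρw q w h₂) = tOne (x.2 q w) (h₁, h₂) :=
      congrFun (hx.2 q w).2 (h₁, h₂)
    simp only [cupA2K, cupB1K, dCone2K, Prod.snd_sub, Pi.sub_apply, PlaceSys.res₂,
      Pi.zero_apply, h0, h1, tOne]
    ring

/-- **Isotropy**: `(0, res b ∪ res b') = d_cone (b ∪ b', 0)` for homomorphisms `b`, `b'`. -/
lemma isotropy (b b' : ↥K.fixingSubgroup → k) (hb : tOne b = 0) (hb' : tOne b' = 0) :
    ((0, fun q w t => 𝔓.res₁ q w b t.1 * 𝔓.res₁ q w b' t.2) : 𝔓.C3 k) =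
      dCone2K 𝔓 ((fun t => b t.1 * b' t.2, 0) : 𝔓.C2 k) := by
  refine Prod.ext (funext fun t => ?_) (funext fun q => funext fun w => funext fun t => ?_)
  · obtain ⟨g₁, g₂, g₃⟩ := t
    simp only [dCone2K, tTwo, Pi.zero_apply]
    rw [hom_mul hb g₁ g₂, hom_mul hb' g₂ g₃]
    ring
  · simp only [dCone2K, PlaceSys.res₁, PlaceSys.res₂, Pi.sub_apply, tOne_zero, Pi.zero_apply,
      sub_zero]

/-- **Graded commutativity**: `y ∪ a - a ∪ y = d_cone (a(g₁ g₂) y(g₁, g₂), res a · g)` for a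
homomorphism `a` and a cone 2-cocycle `y = (y₁, g)`. -/
lemma cupA2K_sub_cupB2K (a : ↥K.fixingSubgroup → k) (ha : tOne a = 0) (y : 𝔓.C2 k)
    (hy : IsZ2cK 𝔓 y) :
    cupA2K 𝔓 y a - cupB2K 𝔓 a y =
      dCone2K 𝔓 ((fun t => a (t.1 * t.2) * y.1 t,
        fun q w t => a (𝔓.ρw q w t) * y.2 q w t) : 𝔓.C2 k) := by
  refine Prod.ext (funext fun t => ?_) (funext fun q => funext fun w => funext fun t => ?_)
  · obtain ⟨g₁, g₂, g₃⟩ := t
    have hc := coc2 hy.1.1 g₁ g₂ g₃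
    simp only [cupA2K, cupB2K, dCone2K, Prod.fst_sub, Pi.sub_apply, tTwo]
    rw [hom_mul ha (g₁ * g₂) g₃, hom_mul ha g₁ (g₂ * g₃), hom_mul ha g₂ g₃, hom_mul ha g₁ g₂]
    linear_combination (-(a g₁ + a g₂ + a g₃)) * hc
  · obtain ⟨h₁, h₂⟩ := t
    have h1 : y.1 (𝔓.ρw q w h₁, 𝔓.ρw q w h₂) = tOne (y.2 q w) (h₁, h₂) :=
      congrFun (hy.2 q w).2 (h₁, h₂)
    simp only [cupA2K, cupB2K, dCone2K, Prod.snd_sub, Pi.sub_apply, PlaceSys.res₂, h1, tOne,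
      map_mul]
    rw [hom_mul ha (𝔓.ρw q w h₁) (𝔓.ρw q w h₂)]
    ring

/-- A family of scaled local coboundaries is a cone coboundary. -/
lemma local_cob (g : ∀ (q : ↥S) (w : 𝔓.W q), 𝔓.Γw q w → k) :
    ((0, fun q w => tOne (g q w)) : 𝔓.C3 k) = dCone2K 𝔓 ((0, fun q w => - g q w) : 𝔓.C2 k) := by
  refine Prod.ext (funext fun t => ?_) (funext fun q => funext fun w => funext fun t => ?_)
  · simp only [dCone2K, tTwo_zero]
  · simp only [dCone2K, PlaceSys.res₂, Pi.sub_apply, Pi.zero_apply, tOne, Pi.neg_apply]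
    ring

end identities

end Fermat.Agent.S55.Top.H48

end
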