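/-
S55 (Poitou–Tate), package E4-top (SH): cup products in coordinates and their compatibility
with induction and with the Shapiro homotopy.
Owner: helper49.

Coordinate cochains `Γⁿ → X → k` take values in the ring of functions on `X`
(`(g • φ) x = φ (g⁻¹ • x)`); the cup product is the pointwise product.
-/
import Fermat.Agent.S55.Top.ShapiroCore

set_option autoImplicit false
set_option linter.unusedSectionVars false
set_option linter.unusedSimpArgs false

namespace Fermat.Agent.S55.Top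

namespace OrbitData

variable {k : Type} [CommRing k] {Γ : Type} [Group Γ] {X : Type} [MulAction Γ X] {R : Type}
  (D : OrbitData Γ X R)

/-! ### Cup products of coordinate cochains -/

/-- degrees `(1, 0)`. -/
def cup10 (A : Γ → X → k) (m : X → k) : Γ → X → k := fun g x => A g x * m (g⁻¹ • x)

/-- degrees `(2, 0)`. -/
def cup20 (A : Γ × Γ → X → k) (m : X → k) : Γ × Γ → X → k :=
  fun t x => A t x * m (t.2⁻¹ • t.1⁻¹ • x)

/-- degrees `(3, 0)`. -/
def cup30 (A : Γ × Γ × Γ → X → k) (m : X → k) : Γ × Γ × Γ → X → k :=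
  fun t x => A t x * m (t.2.2⁻¹ • t.2.1⁻¹ • t.1⁻¹ • x)

/-- degrees `(0, 1)`. -/
def cup01 (m : X → k) (A : Γ → X → k) : Γ → X → k := fun g x => m x * A g x

/-- degrees `(0, 2)`. -/
def cup02 (m : X → k) (A : Γ × Γ → X → k) : Γ × Γ → X → k := fun t x => m x * A t x

/-- degrees `(1, 1)`. -/
def cup11 (A B : Γ → X → k) : Γ × Γ → X → k := fun t x => A t.1 x * B t.2 (t.1⁻¹ • x)

/-- degrees `(2, 1)`. -/
def cup21 (A : Γ × Γ → X → k) (B : Γ → X → k) : Γ × Γ × Γ → X → k :=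
  fun t x => A (t.1, t.2.1) x * B t.2.2 (t.2.1⁻¹ • t.1⁻¹ • x)

/-- degrees `(1, 2)`. -/
def cup12 (A : Γ → X → k) (B : Γ × Γ → X → k) : Γ × Γ × Γ → X → k :=
  fun t x => A t.1 x * B (t.2.1, t.2.2) (t.1⁻¹ • x)

/-! ### Cup products of pure cochains -/

/-- pure, degrees `(2, 0)`. -/
def pc20 (a : R → Γ × Γ → k) (m : R → k) : R → Γ × Γ → k := fun r t => a r t * m r

/-- pure, degrees `(1, 1)`. -/
def pc11 (a b : R → Γ → k) : R → Γ × Γ → k := fun r t => a r t.1 * b r t.2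

/-- pure, degrees `(2, 1)`. -/
def pc21 (a : R → Γ × Γ → k) (b : R → Γ → k) : R → Γ × Γ × Γ → k :=
  fun r t => a r (t.1, t.2.1) * b r t.2.2

/-- pure, degrees `(1, 2)`. -/
def pc12 (a : R → Γ → k) (b : R → Γ × Γ → k) : R → Γ × Γ × Γ → k :=
  fun r t => a r t.1 * b r (t.2.1, t.2.2)

/-! ### Induction is multiplicative -/

lemma ind2_pc20 (a : R → Γ × Γ → k) (m : R → k) :
    D.ind2 (pc20 a m) = cup20 (D.ind2 a) (D.ind0 m) := by
  funext t x
  simp only [ind2, pc20, cup20, ind0, D.o_smul]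

lemma ind2_pc11 (a b : R → Γ → k) : D.ind2 (pc11 a b) = cup11 (D.ind1 a) (D.ind1 b) := by
  funext t x
  simp only [ind2, pc11, cup11, ind1, D.o_smul]

lemma ind3_pc21 (a : R → Γ × Γ → k) (b : R → Γ → k) :
    D.ind3 (pc21 a b) = cup21 (D.ind2 a) (D.ind1 b) := by
  funext t x
  simp only [ind3, pc21, cup21, ind2, ind1, D.o_smul]

lemma ind3_pc12 (a : R → Γ → k) (b : R → Γ × Γ → k) :
    D.ind3 (pc12 a b) = cup12 (D.ind1 a) (D.ind2 b) := by
  funext t x
  simp only [ind3, pc12, cup12, ind2, ind1, D.o_smul]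

/-! ### The Leibniz rule -/

lemma d1_cup10 (V : Γ → X → k) (β : X → k) :
    d1 (cup10 V β) = cup20 (d1 V) β - cup11 V (d0 β) := by
  funext t x
  simp only [d1, cup10, cup20, cup11, d0, Pi.sub_apply, mul_inv_rev, mul_smul]
  ring

lemma d2_cup20 (A : Γ × Γ → X → k) (β : X → k) :
    d2 (cup20 A β) = cup30 (d2 A) β + cup21 A (d0 β) := by
  funext t x
  simp only [d2, cup20, cup30, cup21, d0, Pi.add_apply, mul_inv_rev, mul_smul]
  ring

lemma d1_cup01 (α : X → k) (V : Γ → X → k) :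
    d1 (cup01 α V) = cup11 (d0 α) V + cup02 α (d1 V) := by
  funext t x
  simp only [d1, cup01, cup02, cup11, d0, Pi.add_apply]
  ring

/-- degrees `(0, 3)`. -/
def cup03 (m : X → k) (A : Γ × Γ × Γ → X → k) : Γ × Γ × Γ → X → k := fun t x => m x * A t x

lemma d2_cup02 (α : X → k) (B : Γ × Γ → X → k) :
    d2 (cup02 α B) = cup12 (d0 α) B + cup03 α (d2 B) := by
  funext t x
  simp only [d2, cup02, cup03, cup12, d0, Pi.add_apply]
  ring

lemma cup30_zero (β : X → k) : cup30 (fun (_ : Γ × Γ × Γ) (_ : X) => (0 : k)) β = 0 := by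
  funext t x
  simp [cup30]

lemma cup03_zero (α : X → k) : cup03 α (fun (_ : Γ × Γ × Γ) (_ : X) => (0 : k)) = 0 := by
  funext t x
  simp [cup03]

/-! ### The homotopy and cup products with induced cochains -/

lemma hty3_cup21_ind (A : Γ × Γ → X → k) (c : R → Γ → k) (hc : ∀ r, c r 1 = 0) :
    D.hty3 (cup21 A (D.ind1 c)) = cup11 (D.hty2 A) (D.ind1 c) := by
  funext t x
  obtain ⟨g₁, g₂⟩ := t
  have h1 := D.cc_inv_smul g₁ x
  have h2 := D.t_smul (g₁⁻¹ • x)
  rw [D.o_smul] at h2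
  have h3 := D.cc_inv_smul g₂ (g₁⁻¹ • x)
  rw [D.o_smul] at h3
  have h4 := D.cc_t_inv (g₂⁻¹ • g₁⁻¹ • x)
  rw [D.o_smul, D.o_smul] at h4
  simp only [hty3, cup21, cup11, hty2, ind1, inv_inv, D.t_smul, D.o_rep, D.o_smul, h1, h2, h3,
    h4, hc, mul_zero, add_zero]
  ring

lemma hty3_cup12_ind (c : R → Γ → k) (B : Γ × Γ → X → k) (hc : ∀ r, c r 1 = 0) :
    D.hty3 (cup12 (D.ind1 c) B) = - cup11 (D.ind1 c) (D.hty2 B) := by
  funext t x
  obtain ⟨g₁, g₂⟩ := t
  have h1 := D.cc_inv_smul g₁ x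
  have h2 := D.cc_t_inv x
  have h3 := D.cc_of_stab (D.o x) (D.cc g₁ x) (D.cc_smul g₁ x)
  simp only [hty3, cup12, cup11, hty2, ind1, inv_inv, D.t_smul, D.o_rep, D.o_smul, h1, h2, h3,
    hc, zero_mul, zero_sub, Pi.neg_apply]
  ring

/-! ### Values at the representatives -/

lemma hty1_rep (B : Γ → X → k) (r : R) : D.hty1 B (D.rep r) = B 1 (D.rep r) := by
  simp [hty1, D.t_rep, D.o_rep]

lemma ind2_sh2_cup20 (A : Γ × Γ → X → k) (β : X → k) (hβ : ∀ r, β (D.rep r) = 0) :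
    D.ind2 (D.sh2 (cup20 A β)) = 0 := by
  funext t x
  have h1 := D.cc_inv_smul t.1 x
  have h2 := D.cc_inv_smul t.2 (t.1⁻¹ • x)
  rw [D.o_smul] at h2
  simp [ind2, sh2, cup20, h1, h2, hβ]

lemma ind2_sh2_cup02 (α : X → k) (B : Γ × Γ → X → k) (hα : ∀ r, α (D.rep r) = 0) :
    D.ind2 (D.sh2 (cup02 α B)) = 0 := by
  funext t x
  simp [ind2, sh2, cup02, hα]

end OrbitData

end Fermat.Agent.S55.Top
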