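/-
S55 (Poitou–Tate), package E4-top (SH): generic bookkeeping for Shapiro's maps:
* pure cochains which agree on the stabilisers have the same induction;
* invariance under a normal subgroup `N` which acts trivially on `X` (level conditions).
Owner: helper49.
-/
import Fermat.Agent.S55.Top.ShapiroCup

set_option autoImplicit false
set_option linter.unusedSectionVars false
set_option linter.unusedSimpArgs false

namespace Fermat.Agent.S55.Top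

namespace OrbitData

variable {k : Type} [CommRing k] {Γ : Type} [Group Γ] {X : Type} [MulAction Γ X] {R : Type}
  (D : OrbitData Γ X R)

/-! ### Agreement on the stabilisers -/

/-- two pure 1-cochains agree on the stabilisers. -/
def Agree₁ (f f' : R → Γ → k) : Prop :=
  ∀ r g, g • D.rep r = D.rep r → f r g = f' r g

/-- two pure 2-cochains agree on the stabilisers. -/
def Agree₂ (f f' : R → Γ × Γ → k) : Prop :=
  ∀ r (t : Γ × Γ), t.1 • D.rep r = D.rep r → t.2 • D.rep r = D.rep r → f r t = f' r t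

/-- two pure 3-cochains agree on the stabilisers. -/
def Agree₃ (f f' : R → Γ × Γ × Γ → k) : Prop :=
  ∀ r (t : Γ × Γ × Γ), t.1 • D.rep r = D.rep r → t.2.1 • D.rep r = D.rep r →
    t.2.2 • D.rep r = D.rep r → f r t = f' r t

variable {D}

lemma Agree₁.symm {f f' : R → Γ → k} (h : D.Agree₁ f f') : D.Agree₁ f' f :=
  fun r g hg => (h r g hg).symm

lemma Agree₂.symm {f f' : R → Γ × Γ → k} (h : D.Agree₂ f f') : D.Agree₂ f' f :=
  fun r t h1 h2 => (h r t h1 h2).symm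

lemma Agree₃.symm {f f' : R → Γ × Γ × Γ → k} (h : D.Agree₃ f f') : D.Agree₃ f' f :=
  fun r t h1 h2 h3 => (h r t h1 h2 h3).symm

lemma Agree₁.trans {f f' f'' : R → Γ → k} (h : D.Agree₁ f f') (h' : D.Agree₁ f' f'') :
    D.Agree₁ f f'' :=
  fun r g hg => (h r g hg).trans (h' r g hg)

lemma Agree₂.trans {f f' f'' : R → Γ × Γ → k} (h : D.Agree₂ f f') (h' : D.Agree₂ f' f'') :
    D.Agree₂ f f'' :=
  fun r t h1 h2 => (h r t h1 h2).trans (h' r t h1 h2)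

lemma Agree₃.trans {f f' f'' : R → Γ × Γ × Γ → k} (h : D.Agree₃ f f')
    (h' : D.Agree₃ f' f'') : D.Agree₃ f f'' :=
  fun r t h1 h2 h3 => (h r t h1 h2 h3).trans (h' r t h1 h2 h3)

lemma Agree₁.sub {f f' g g' : R → Γ → k} (h : D.Agree₁ f f') (h' : D.Agree₁ g g') :
    D.Agree₁ (f - g) (f' - g') :=
  fun r t ht => by simp only [Pi.sub_apply, h r t ht, h' r t ht]

lemma Agree₂.sub {f f' g g' : R → Γ × Γ → k} (h : D.Agree₂ f f') (h' : D.Agree₂ g g') :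
    D.Agree₂ (f - g) (f' - g') :=
  fun r t h1 h2 => by simp only [Pi.sub_apply, h r t h1 h2, h' r t h1 h2]

variable (D)

lemma cc_smul' (g : Γ) (x : X) (y : X) (hy : D.o y = D.o x) :
    D.cc g y • D.rep (D.o x) = D.rep (D.o x) := by
  rw [← hy]
  exact D.cc_smul g y

lemma ind1_congr {f f' : R → Γ → k} (h : D.Agree₁ f f') : D.ind1 f = D.ind1 f' := by
  funext g x
  exact h _ _ (D.cc_smul g x)

lemma ind2_congr {f f' : R → Γ × Γ → k} (h : D.Agree₂ f f') : D.ind2 f = D.ind2 f' := by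
  funext t x
  exact h _ _ (D.cc_smul t.1 x) (D.cc_smul' t.2 x _ (D.o_smul _ _))

lemma ind3_congr {f f' : R → Γ × Γ × Γ → k} (h : D.Agree₃ f f') : D.ind3 f = D.ind3 f' := by
  funext t x
  refine h _ _ (D.cc_smul t.1 x) (D.cc_smul' t.2.1 x _ (D.o_smul _ _))
    (D.cc_smul' t.2.2 x _ ?_)
  rw [D.o_smul, D.o_smul]

lemma agree_sh2_d1 (f : Γ → X → k) : D.Agree₂ (D.sh2 (d1 f)) (e1 (D.sh1 f)) :=
  fun r t h1 _ => D.sh2_d1 f r t h1

lemma agree_sh3_d2 (f : Γ × Γ → X → k) : D.Agree₃ (D.sh3 (d2 f)) (e2 (D.sh2 f)) :=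
  fun r t h1 _ _ => D.sh3_d2 f r t h1

lemma agree_sh1_ind1 (f : R → Γ → k) : D.Agree₁ (D.sh1 (D.ind1 f)) f :=
  fun r g hg => D.sh1_ind1 f r g hg

lemma agree_sh2_ind2 (f : R → Γ × Γ → k) : D.Agree₂ (D.sh2 (D.ind2 f)) f :=
  fun r t h1 h2 => D.sh2_ind2 f r t h1 h2

lemma agree_sh3_ind3 (f : R → Γ × Γ × Γ → k) : D.Agree₃ (D.sh3 (D.ind3 f)) f :=
  fun r t h1 h2 h3 => D.sh3_ind3 f r t h1 h2 h3

/-! ### Linearity -/

lemma ind1_sub (f f' : R → Γ → k) : D.ind1 (f - f') = D.ind1 f - D.ind1 f' := rfl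

lemma ind2_sub (f f' : R → Γ × Γ → k) : D.ind2 (f - f') = D.ind2 f - D.ind2 f' := rfl

lemma ind3_sub (f f' : R → Γ × Γ × Γ → k) : D.ind3 (f - f') = D.ind3 f - D.ind3 f' := rfl

lemma ind1_zero : D.ind1 (0 : R → Γ → k) = 0 := rfl

lemma ind2_zero : D.ind2 (0 : R → Γ × Γ → k) = 0 := rfl

lemma ind3_zero : D.ind3 (0 : R → Γ × Γ × Γ → k) = 0 := rfl

lemma hty1_zero : D.hty1 (0 : Γ → X → k) = 0 := rfl

lemma hty2_zero : D.hty2 (0 : Γ × Γ → X → k) = 0 := by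
  funext g x; simp [hty2]

lemma hty3_zero : D.hty3 (0 : Γ × Γ × Γ → X → k) = 0 := by
  funext g x; simp [hty3]

lemma hty4_zero : D.hty4 (0 : Γ × Γ × Γ × Γ → X → k) = 0 := by
  funext g x; simp [hty4]

lemma hty2_sub (f f' : Γ × Γ → X → k) : D.hty2 (f - f') = D.hty2 f - D.hty2 f' := by
  funext g x; simp only [hty2, Pi.sub_apply]; ring

lemma hty3_sub (f f' : Γ × Γ × Γ → X → k) : D.hty3 (f - f') = D.hty3 f - D.hty3 f' := by
  funext g x; simp only [hty3, Pi.sub_apply]; ring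

lemma d0_sub (f f' : X → k) : d0 (Γ := Γ) (f - f') = d0 f - d0 f' := by
  funext g x; simp only [d0, Pi.sub_apply]; ring

lemma d1_sub (f f' : Γ → X → k) : d1 (f - f') = d1 f - d1 f' := by
  funext g x; simp only [d1, Pi.sub_apply]; ring

lemma d2_sub (f f' : Γ × Γ → X → k) : d2 (f - f') = d2 f - d2 f' := by
  funext g x; simp only [d2, Pi.sub_apply]; ring

lemma d1_add (f f' : Γ → X → k) : d1 (f + f') = d1 f + d1 f' := by
  funext g x; simp only [d1, Pi.add_apply]; ring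

lemma d0_add (f f' : X → k) : d0 (Γ := Γ) (f + f') = d0 f + d0 f' := by
  funext g x; simp only [d0, Pi.add_apply]; ring

lemma d0_neg (f : X → k) : d0 (Γ := Γ) (-f) = - d0 f := by
  funext g x; simp only [d0, Pi.neg_apply]; ring

lemma d1_neg (f : Γ → X → k) : d1 (-f) = - d1 f := by
  funext g x; simp only [d1, Pi.neg_apply]; ring

lemma d1_zero : d1 (0 : Γ → X → k) = 0 := by
  funext g x; simp [d1]

lemma d2_zero : d2 (0 : Γ × Γ → X → k) = 0 := by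
  funext g x; simp [d2]

/-- the homotopy identities as equalities of functions -/
lemma hty_one' (f : Γ → X → k) :
    f - D.ind1 (D.sh1 f) = d0 (D.hty1 f) + D.hty2 (d1 f) := by
  funext g x
  exact D.hty_one f g x

lemma hty_two' (f : Γ × Γ → X → k) :
    f - D.ind2 (D.sh2 f) = d1 (D.hty2 f) + D.hty3 (d2 f) := by
  funext t x
  exact D.hty_two f t x

lemma hty_three' (f : Γ × Γ × Γ → X → k) :
    f - D.ind3 (D.sh3 f) = d2 (D.hty3 f) + D.hty4 (d3 f) := by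
  funext t x
  exact D.hty_three f t x

/-! ### Invariance under a normal subgroup acting trivially -/

section inv

variable (N : Subgroup Γ) (hN : N.Normal) (htriv : ∀ s ∈ N, ∀ x : X, s • x = x)

include hN htriv

lemma inv_smul_of_triv (g s : Γ) (hs : s ∈ N) (x : X) : (g * s)⁻¹ • x = g⁻¹ • x := by
  rw [mul_inv_rev, mul_smul]
  have h1 : s⁻¹ • (g⁻¹ • x) = g⁻¹ • x := htriv _ (N.inv_mem hs) _
  -- `s⁻¹ g⁻¹ x = g⁻¹ (g s⁻¹ g⁻¹) x`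
  have h2 : g * s⁻¹ * g⁻¹ ∈ N := hN.conj_mem _ (N.inv_mem hs) g
  have h3 := htriv _ h2 x
  calc s⁻¹ • g⁻¹ • x = g⁻¹ • (g * s⁻¹ * g⁻¹) • x := by
        rw [← mul_smul, ← mul_smul]; congr 1; group
    _ = g⁻¹ • x := by rw [h3]

lemma cc_mul_right (g s : Γ) (hs : s ∈ N) (x : X) :
    ∃ s' ∈ N, D.cc (g * s) x = D.cc g x * s' := by
  refine ⟨(D.t (g⁻¹ • x))⁻¹ * s * D.t (g⁻¹ • x), ?_, ?_⟩
  · have := hN.conj_mem s hs (D.t (g⁻¹ • x))⁻¹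
    simpa using this
  · unfold cc
    rw [inv_smul_of_triv N hN htriv g s hs x]
    group

lemma inv_ind1 {f : R → Γ → k} (hf : ∀ r g s, s ∈ N → f r (g * s) = f r g)
    (g s : Γ) (hs : s ∈ N) : D.ind1 f (g * s) = D.ind1 f g := by
  funext x
  obtain ⟨s', hs', h⟩ := D.cc_mul_right N hN htriv g s hs x
  simp only [ind1, h, hf _ _ _ hs']

lemma inv_ind2 {f : R → Γ × Γ → k}
    (hf : ∀ r g₁ g₂ s₁ s₂, s₁ ∈ N → s₂ ∈ N → f r (g₁ * s₁, g₂ * s₂) = f r (g₁, g₂))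
    (g₁ g₂ s₁ s₂ : Γ) (h₁ : s₁ ∈ N) (h₂ : s₂ ∈ N) :
    D.ind2 f (g₁ * s₁, g₂ * s₂) = D.ind2 f (g₁, g₂) := by
  funext x
  obtain ⟨s₁', hs₁', e₁⟩ := D.cc_mul_right N hN htriv g₁ s₁ h₁ x
  obtain ⟨s₂', hs₂', e₂⟩ := D.cc_mul_right N hN htriv g₂ s₂ h₂ (g₁⁻¹ • x)
  simp only [ind2, e₁, e₂, inv_smul_of_triv N hN htriv g₁ s₁ h₁ x, hf _ _ _ _ _ hs₁' hs₂']

lemma inv_hty2 {B : Γ × Γ → X → k}
    (hB : ∀ g₁ g₂ s₁ s₂, s₁ ∈ N → s₂ ∈ N → B (g₁ * s₁, g₂ * s₂) = B (g₁, g₂))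
    (g s : Γ) (hs : s ∈ N) : D.hty2 B (g * s) = D.hty2 B g := by
  funext x
  obtain ⟨s', hs', e⟩ := D.cc_mul_right N hN htriv g s hs x
  have h1 := hB (D.t x)⁻¹ g 1 s N.one_mem hs
  rw [mul_one] at h1
  have h2 := hB (D.cc g x) (D.t (g⁻¹ • x))⁻¹ s' 1 hs' N.one_mem
  rw [mul_one] at h2
  simp only [hty2, e, inv_smul_of_triv N hN htriv g s hs x, h1, h2]

lemma inv_hty3 {A : Γ × Γ × Γ → X → k}
    (hA : ∀ g₁ g₂ g₃ s₁ s₂ s₃, s₁ ∈ N → s₂ ∈ N → s₃ ∈ N →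
      A (g₁ * s₁, g₂ * s₂, g₃ * s₃) = A (g₁, g₂, g₃))
    (g₁ g₂ s₁ s₂ : Γ) (h₁ : s₁ ∈ N) (h₂ : s₂ ∈ N) :
    D.hty3 A (g₁ * s₁, g₂ * s₂) = D.hty3 A (g₁, g₂) := by
  funext x
  obtain ⟨s₁', hs₁', e₁⟩ := D.cc_mul_right N hN htriv g₁ s₁ h₁ x
  obtain ⟨s₂', hs₂', e₂⟩ := D.cc_mul_right N hN htriv g₂ s₂ h₂ (g₁⁻¹ • x)
  have i₁ := inv_smul_of_triv N hN htriv g₁ s₁ h₁ x
  have i₂ := inv_smul_of_triv N hN htriv g₂ s₂ h₂ (g₁⁻¹ • x)
  have a1 := hA (D.t x)⁻¹ g₁ g₂ 1 s₁ s₂ N.one_mem h₁ h₂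
  rw [mul_one] at a1
  have a2 := hA (D.cc g₁ x) (D.t (g₁⁻¹ • x))⁻¹ g₂ s₁' 1 s₂ hs₁' N.one_mem h₂
  rw [mul_one] at a2
  have a3 := hA (D.cc g₁ x) (D.cc g₂ (g₁⁻¹ • x)) (D.t (g₂⁻¹ • g₁⁻¹ • x))⁻¹ s₁' s₂' 1 hs₁' hs₂'
    N.one_mem
  rw [mul_one] at a3
  simp only [hty3, e₁, e₂, i₁, i₂, a1, a2, a3]

lemma inv_cup10 {V : Γ → X → k} (hV : ∀ g s, s ∈ N → V (g * s) = V g) (β : X → k)
    (g s : Γ) (hs : s ∈ N) : cup10 V β (g * s) = cup10 V β g := by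
  funext x
  simp only [cup10, hV g s hs, inv_smul_of_triv N hN htriv g s hs x]

lemma inv_cup20 {A : Γ × Γ → X → k}
    (hA : ∀ g₁ g₂ s₁ s₂, s₁ ∈ N → s₂ ∈ N → A (g₁ * s₁, g₂ * s₂) = A (g₁, g₂)) (β : X → k)
    (g₁ g₂ s₁ s₂ : Γ) (h₁ : s₁ ∈ N) (h₂ : s₂ ∈ N) :
    cup20 A β (g₁ * s₁, g₂ * s₂) = cup20 A β (g₁, g₂) := by
  funext x
  simp only [cup20, hA g₁ g₂ s₁ s₂ h₁ h₂, inv_smul_of_triv N hN htriv g₁ s₁ h₁ x,
    inv_smul_of_triv N hN htriv g₂ s₂ h₂ (g₁⁻¹ • x)]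

end inv

end OrbitData

end Fermat.Agent.S55.Top
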