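/-
S55 (Poitou–Tate), package E4-top (SH): `K`-level cochains versus pure cochains; the `K`-level
induction and Shapiro maps (global and local) and their compatibility with the differentials
and with restriction to the places.
Owner: helper49.
-/
import Fermat.Agent.S55.Top.PlaceEx
import Fermat.Agent.S55.Top.ShapiroLev

set_option autoImplicit false
set_option linter.unusedSectionVars false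
set_option linter.unusedSimpArgs false

open CategoryTheory Module groupCohomology ExtCitation

noncomputable section

namespace Fermat.Agent.S55.Top

open Fermat.Agent.S55 OrbitData

attribute [local instance] locAct

variable {k : Type} [Field k] {S : Finset Nat.Primes}
  {K : IntermediateField ℚ (AlgebraicClosure ℚ)} (𝔓 : PlaceSys S K)

/-! ### Stabilisers -/

lemma PlaceSys.glob_stab (g : GQ) :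
    g • 𝔓.glob.rep () = 𝔓.glob.rep () ↔ g ∈ K.fixingSubgroup := by
  rw [𝔓.glob_rep]
  exact ⟨mem_fix_of_smul_x0, smul_x0_of_mem_fix⟩

lemma PlaceSys.glob_stab' (g : ↥K.fixingSubgroup) :
    (g : GQ) • 𝔓.glob.rep () = 𝔓.glob.rep () := (𝔓.glob_stab g).2 g.2

lemma PlaceSys.glob_stab_inv (g : ↥K.fixingSubgroup) :
    (g : GQ)⁻¹ • 𝔓.glob.rep () = 𝔓.glob.rep () := by
  rw [inv_smul_eq_iff, 𝔓.glob_stab']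

lemma PlaceSys.loc_stab (q : ↥S) (w : 𝔓.W q) (h : Gl q.1) :
    h • (𝔓.loc q).rep w = (𝔓.loc q).rep w ↔ h ∈ 𝔓.Γw q w := Iff.rfl

lemma PlaceSys.loc_stab' (q : ↥S) (w : 𝔓.W q) (h : 𝔓.Γw q w) :
    (h : Gl q.1) • (𝔓.loc q).rep w = (𝔓.loc q).rep w := h.2

lemma PlaceSys.loc_stab_inv (q : ↥S) (w : 𝔓.W q) (h : 𝔓.Γw q w) :
    (h : Gl q.1)⁻¹ • (𝔓.loc q).rep w = (𝔓.loc q).rep w := by
  rw [inv_smul_eq_iff, 𝔓.loc_stab']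

lemma PlaceSys.glob_o (x : XK K) : 𝔓.glob.o x = () := rfl

/-- the global `cc` has values in `G_K`. -/
lemma PlaceSys.cc_mem (g : GQ) (x : XK K) : 𝔓.glob.cc g x ∈ K.fixingSubgroup :=
  (𝔓.glob_stab _).1 (𝔓.glob.cc_smul g x)

/-- the global `cc` at a representative of a place. -/
lemma PlaceSys.cc_rep (q : ↥S) (w : 𝔓.W q) (h : 𝔓.Γw q w) :
    𝔓.glob.cc (rl q.1 h.1) ((𝔓.loc q).rep w) = ((𝔓.ρw q w h : ↥K.fixingSubgroup) : GQ) := by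
  have h1 : (rl q.1 h.1)⁻¹ • (𝔓.loc q).rep w = (𝔓.loc q).rep w := by
    rw [inv_smul_eq_iff]
    exact (h.2 : rl q.1 h.1 • (𝔓.loc q).rep w = (𝔓.loc q).rep w).symm
  unfold OrbitData.cc
  rw [h1]
  rfl

/-! ### Extension by zero -/

open Classical in
/-- extension by zero of a function on `G_K`. -/
def eG₁ (b : ↥K.fixingSubgroup → k) : Unit → GQ → k :=
  fun _ g => if h : g ∈ K.fixingSubgroup then b ⟨g, h⟩ else 0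

open Classical in
/-- extension by zero of a function on `G_K × G_K`. -/
def eG₂ (a : ↥K.fixingSubgroup × ↥K.fixingSubgroup → k) : Unit → GQ × GQ → k :=
  fun _ t => if h : t.1 ∈ K.fixingSubgroup ∧ t.2 ∈ K.fixingSubgroup then
    a (⟨t.1, h.1⟩, ⟨t.2, h.2⟩) else 0

open Classical in
/-- extension by zero of a function on `G_K × G_K × G_K`. -/
def eG₃ (a : ↥K.fixingSubgroup × ↥K.fixingSubgroup × ↥K.fixingSubgroup → k) :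
    Unit → GQ × GQ × GQ → k :=
  fun _ t => if h : t.1 ∈ K.fixingSubgroup ∧ t.2.1 ∈ K.fixingSubgroup ∧
      t.2.2 ∈ K.fixingSubgroup then
    a (⟨t.1, h.1⟩, ⟨t.2.1, h.2.1⟩, ⟨t.2.2, h.2.2⟩) else 0

open Classical in
/-- extension by zero of a family of functions on the `Γw`. -/
def PlaceSys.eL₁ (q : ↥S) (z : ∀ w : 𝔓.W q, 𝔓.Γw q w → k) : 𝔓.W q → Gl q.1 → k :=
  fun w h => if hh : h ∈ 𝔓.Γw q w then z w ⟨h, hh⟩ else 0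

open Classical in
/-- extension by zero of a family of functions on the `Γw × Γw`. -/
def PlaceSys.eL₂ (q : ↥S) (z : ∀ w : 𝔓.W q, 𝔓.Γw q w × 𝔓.Γw q w → k) :
    𝔓.W q → Gl q.1 × Gl q.1 → k :=
  fun w t => if hh : t.1 ∈ 𝔓.Γw q w ∧ t.2 ∈ 𝔓.Γw q w then z w (⟨t.1, hh.1⟩, ⟨t.2, hh.2⟩)
    else 0

lemma eG₁_mem (b : ↥K.fixingSubgroup → k) {g : GQ} (h : g ∈ K.fixingSubgroup) :
    eG₁ b () g = b ⟨g, h⟩ := dif_pos h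

lemma eG₂_mem (a : ↥K.fixingSubgroup × ↥K.fixingSubgroup → k) {g₁ g₂ : GQ}
    (h₁ : g₁ ∈ K.fixingSubgroup) (h₂ : g₂ ∈ K.fixingSubgroup) :
    eG₂ a () (g₁, g₂) = a (⟨g₁, h₁⟩, ⟨g₂, h₂⟩) := dif_pos ⟨h₁, h₂⟩

lemma eG₃_mem (a : ↥K.fixingSubgroup × ↥K.fixingSubgroup × ↥K.fixingSubgroup → k)
    {g₁ g₂ g₃ : GQ} (h₁ : g₁ ∈ K.fixingSubgroup) (h₂ : g₂ ∈ K.fixingSubgroup)
    (h₃ : g₃ ∈ K.fixingSubgroup) :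
    eG₃ a () (g₁, g₂, g₃) = a (⟨g₁, h₁⟩, ⟨g₂, h₂⟩, ⟨g₃, h₃⟩) := dif_pos ⟨h₁, h₂, h₃⟩

lemma PlaceSys.eL₁_mem (q : ↥S) (z : ∀ w : 𝔓.W q, 𝔓.Γw q w → k) (w : 𝔓.W q) {h : Gl q.1}
    (hh : h ∈ 𝔓.Γw q w) : 𝔓.eL₁ q z w h = z w ⟨h, hh⟩ := dif_pos hh

lemma PlaceSys.eL₂_mem (q : ↥S) (z : ∀ w : 𝔓.W q, 𝔓.Γw q w × 𝔓.Γw q w → k) (w : 𝔓.W q)
    {h₁ h₂ : Gl q.1} (hh₁ : h₁ ∈ 𝔓.Γw q w) (hh₂ : h₂ ∈ 𝔓.Γw q w) :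
    𝔓.eL₂ q z w (h₁, h₂) = z w (⟨h₁, hh₁⟩, ⟨h₂, hh₂⟩) := dif_pos ⟨hh₁, hh₂⟩

lemma eG₁_sub (b b' : ↥K.fixingSubgroup → k) : eG₁ (b - b') = eG₁ b - eG₁ b' := by
  funext u g
  by_cases h : g ∈ K.fixingSubgroup
  · simp [eG₁, h]
  · simp [eG₁, h]

lemma eG₂_sub (a a' : ↥K.fixingSubgroup × ↥K.fixingSubgroup → k) :
    eG₂ (a - a') = eG₂ a - eG₂ a' := by
  funext u t
  by_cases h : t.1 ∈ K.fixingSubgroup ∧ t.2 ∈ K.fixingSubgroup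
  · simp [eG₂, h]
  · simp only [eG₂, Pi.sub_apply]
    rw [dif_neg h, dif_neg h, dif_neg h, sub_zero]

lemma PlaceSys.eL₂_sub (q : ↥S) (z z' : ∀ w : 𝔓.W q, 𝔓.Γw q w × 𝔓.Γw q w → k) :
    𝔓.eL₂ q (z - z') = 𝔓.eL₂ q z - 𝔓.eL₂ q z' := by
  funext w t
  by_cases h : t.1 ∈ 𝔓.Γw q w ∧ t.2 ∈ 𝔓.Γw q w
  · simp [PlaceSys.eL₂, h]
  · simp [PlaceSys.eL₂, h]

lemma PlaceSys.eL₁_sub (q : ↥S) (z z' : ∀ w : 𝔓.W q, 𝔓.Γw q w → k) :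
    𝔓.eL₁ q (z - z') = 𝔓.eL₁ q z - 𝔓.eL₁ q z' := by
  funext w t
  by_cases h : t ∈ 𝔓.Γw q w
  · simp [PlaceSys.eL₁, h]
  · simp [PlaceSys.eL₁, h]

lemma eG₁_zero : eG₁ (0 : ↥K.fixingSubgroup → k) = 0 := by
  funext u g; simp [eG₁]

lemma eG₂_zero : eG₂ (0 : ↥K.fixingSubgroup × ↥K.fixingSubgroup → k) = 0 := by
  funext u g; simp [eG₂]

lemma eG₃_zero : eG₃ (0 : ↥K.fixingSubgroup × ↥K.fixingSubgroup × ↥K.fixingSubgroup → k) = 0 := by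
  funext u g; simp [eG₃]

lemma PlaceSys.eL₁_zero (q : ↥S) : 𝔓.eL₁ q (0 : ∀ w : 𝔓.W q, 𝔓.Γw q w → k) = 0 := by
  funext u g; simp [PlaceSys.eL₁]

lemma PlaceSys.eL₂_zero (q : ↥S) :
    𝔓.eL₂ q (0 : ∀ w : 𝔓.W q, 𝔓.Γw q w × 𝔓.Γw q w → k) = 0 := by
  funext u g; simp [PlaceSys.eL₂]

/-! ### `K`-level induction and Shapiro maps -/

/-- global induction, degree 1. -/
def PlaceSys.indK₁ (b : ↥K.fixingSubgroup → k) : GQ → XK K → k := 𝔓.glob.ind1 (eG₁ b)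

/-- global induction, degree 2. -/
def PlaceSys.indK₂ (a : ↥K.fixingSubgroup × ↥K.fixingSubgroup → k) : GQ × GQ → XK K → k :=
  𝔓.glob.ind2 (eG₂ a)

/-- global induction, degree 3. -/
def PlaceSys.indK₃ (a : ↥K.fixingSubgroup × ↥K.fixingSubgroup × ↥K.fixingSubgroup → k) :
    GQ × GQ × GQ → XK K → k :=
  𝔓.glob.ind3 (eG₃ a)

/-- local induction, degree 1. -/
def PlaceSys.indL₁ (q : ↥S) (z : ∀ w : 𝔓.W q, 𝔓.Γw q w → k) : Gl q.1 → XK K → k :=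
  (𝔓.loc q).ind1 (𝔓.eL₁ q z)

/-- local induction, degree 2. -/
def PlaceSys.indL₂ (q : ↥S) (z : ∀ w : 𝔓.W q, 𝔓.Γw q w × 𝔓.Γw q w → k) :
    Gl q.1 × Gl q.1 → XK K → k :=
  (𝔓.loc q).ind2 (𝔓.eL₂ q z)

/-- global Shapiro map, degree 1. -/
def PlaceSys.shK₁ (B : GQ → XK K → k) : ↥K.fixingSubgroup → k :=
  fun g => B g.1 (𝔓.glob.rep ())

/-- global Shapiro map, degree 2. -/
def PlaceSys.shK₂ (B : GQ × GQ → XK K → k) : ↥K.fixingSubgroup × ↥K.fixingSubgroup → k :=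
  fun t => B (t.1.1, t.2.1) (𝔓.glob.rep ())

/-- global Shapiro map, degree 3. -/
def PlaceSys.shK₃ (B : GQ × GQ × GQ → XK K → k) :
    ↥K.fixingSubgroup × ↥K.fixingSubgroup × ↥K.fixingSubgroup → k :=
  fun t => B (t.1.1, t.2.1.1, t.2.2.1) (𝔓.glob.rep ())

/-- local Shapiro map, degree 1. -/
def PlaceSys.shL₁ (q : ↥S) (Z : Gl q.1 → XK K → k) : ∀ w : 𝔓.W q, 𝔓.Γw q w → k :=
  fun w h => Z h.1 ((𝔓.loc q).rep w)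

/-- local Shapiro map, degree 2. -/
def PlaceSys.shL₂ (q : ↥S) (Z : Gl q.1 × Gl q.1 → XK K → k) :
    ∀ w : 𝔓.W q, 𝔓.Γw q w × 𝔓.Γw q w → k :=
  fun w t => Z (t.1.1, t.2.1) ((𝔓.loc q).rep w)

/-! ### Agreement lemmas -/

lemma PlaceSys.agree_eG₁_shK₁ (B : GQ → XK K → k) :
    𝔓.glob.Agree₁ (eG₁ (𝔓.shK₁ B)) (𝔓.glob.sh1 B) := by
  intro r g hg
  rw [eG₁_mem _ ((𝔓.glob_stab g).1 hg)]
  rfl

lemma PlaceSys.agree_eG₂_shK₂ (B : GQ × GQ → XK K → k) :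
    𝔓.glob.Agree₂ (eG₂ (𝔓.shK₂ B)) (𝔓.glob.sh2 B) := by
  intro r t h1 h2
  obtain ⟨g₁, g₂⟩ := t
  rw [eG₂_mem _ ((𝔓.glob_stab g₁).1 h1) ((𝔓.glob_stab g₂).1 h2)]
  rfl

lemma PlaceSys.agree_eG₃_shK₃ (B : GQ × GQ × GQ → XK K → k) :
    𝔓.glob.Agree₃ (eG₃ (𝔓.shK₃ B)) (𝔓.glob.sh3 B) := by
  intro r t h1 h2 h3
  obtain ⟨g₁, g₂, g₃⟩ := t
  rw [eG₃_mem _ ((𝔓.glob_stab g₁).1 h1) ((𝔓.glob_stab g₂).1 h2) ((𝔓.glob_stab g₃).1 h3)]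
  rfl

lemma PlaceSys.agree_eL₁_shL₁ (q : ↥S) (Z : Gl q.1 → XK K → k) :
    (𝔓.loc q).Agree₁ (𝔓.eL₁ q (𝔓.shL₁ q Z)) ((𝔓.loc q).sh1 Z) := by
  intro w h hh
  rw [𝔓.eL₁_mem q _ w hh]
  rfl

lemma PlaceSys.agree_eL₂_shL₂ (q : ↥S) (Z : Gl q.1 × Gl q.1 → XK K → k) :
    (𝔓.loc q).Agree₂ (𝔓.eL₂ q (𝔓.shL₂ q Z)) ((𝔓.loc q).sh2 Z) := by
  intro w t h1 h2
  obtain ⟨g₁, g₂⟩ := t
  rw [𝔓.eL₂_mem q _ w h1 h2]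
  rfl

lemma PlaceSys.indK₁_shK₁ (B : GQ → XK K → k) :
    𝔓.indK₁ (𝔓.shK₁ B) = 𝔓.glob.ind1 (𝔓.glob.sh1 B) :=
  𝔓.glob.ind1_congr (𝔓.agree_eG₁_shK₁ B)

lemma PlaceSys.indK₂_shK₂ (B : GQ × GQ → XK K → k) :
    𝔓.indK₂ (𝔓.shK₂ B) = 𝔓.glob.ind2 (𝔓.glob.sh2 B) :=
  𝔓.glob.ind2_congr (𝔓.agree_eG₂_shK₂ B)

lemma PlaceSys.indK₃_shK₃ (B : GQ × GQ × GQ → XK K → k) :
    𝔓.indK₃ (𝔓.shK₃ B) = 𝔓.glob.ind3 (𝔓.glob.sh3 B) :=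
  𝔓.glob.ind3_congr (𝔓.agree_eG₃_shK₃ B)

lemma PlaceSys.indL₁_shL₁ (q : ↥S) (Z : Gl q.1 → XK K → k) :
    𝔓.indL₁ q (𝔓.shL₁ q Z) = (𝔓.loc q).ind1 ((𝔓.loc q).sh1 Z) :=
  (𝔓.loc q).ind1_congr (𝔓.agree_eL₁_shL₁ q Z)

lemma PlaceSys.indL₂_shL₂ (q : ↥S) (Z : Gl q.1 × Gl q.1 → XK K → k) :
    𝔓.indL₂ q (𝔓.shL₂ q Z) = (𝔓.loc q).ind2 ((𝔓.loc q).sh2 Z) :=
  (𝔓.loc q).ind2_congr (𝔓.agree_eL₂_shL₂ q Z)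

/-! ### Induction commutes with the differentials -/

lemma PlaceSys.d1_indK₁ (b : ↥K.fixingSubgroup → k) :
    d1 (𝔓.indK₁ b) = 𝔓.indK₂ (tOne b) := by
  unfold PlaceSys.indK₁ PlaceSys.indK₂
  rw [d1_ind1]
  apply ind2_congr
  intro r t h1 h2
  obtain ⟨g₁, g₂⟩ := t
  have m1 := (𝔓.glob_stab g₁).1 h1
  have m2 := (𝔓.glob_stab g₂).1 h2
  rw [eG₂_mem _ m1 m2]
  simp only [e1, eG₁_mem _ m1, eG₁_mem _ m2, eG₁_mem _ (K.fixingSubgroup.mul_mem m1 m2)]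
  rfl

lemma PlaceSys.d2_indK₂ (a : ↥K.fixingSubgroup × ↥K.fixingSubgroup → k) :
    d2 (𝔓.indK₂ a) = 𝔓.indK₃ (tTwo a) := by
  unfold PlaceSys.indK₂ PlaceSys.indK₃
  rw [d2_ind2]
  apply ind3_congr
  intro r t h1 h2 h3
  obtain ⟨g₁, g₂, g₃⟩ := t
  have m1 := (𝔓.glob_stab g₁).1 h1
  have m2 := (𝔓.glob_stab g₂).1 h2
  have m3 := (𝔓.glob_stab g₃).1 h3
  rw [eG₃_mem _ m1 m2 m3]
  simp only [e2, eG₂_mem _ m1 m2, eG₂_mem _ m2 m3, eG₂_mem _ (K.fixingSubgroup.mul_mem m1 m2) m3,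
    eG₂_mem _ m1 (K.fixingSubgroup.mul_mem m2 m3)]
  rfl

lemma PlaceSys.d1_indL₁ (q : ↥S) (z : ∀ w : 𝔓.W q, 𝔓.Γw q w → k) :
    d1 (𝔓.indL₁ q z) = 𝔓.indL₂ q (fun w => tOne (z w)) := by
  unfold PlaceSys.indL₁ PlaceSys.indL₂
  rw [d1_ind1]
  apply ind2_congr
  intro w t h1 h2
  obtain ⟨g₁, g₂⟩ := t
  have m1 : g₁ ∈ 𝔓.Γw q w := h1
  have m2 : g₂ ∈ 𝔓.Γw q w := h2
  rw [𝔓.eL₂_mem q _ w m1 m2]
  simp only [e1, 𝔓.eL₁_mem q _ w m1, 𝔓.eL₁_mem q _ w m2,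
    𝔓.eL₁_mem q _ w ((𝔓.Γw q w).mul_mem m1 m2)]
  rfl

/-! ### Restriction to the places -/

lemma PlaceSys.sh_res_ind₁ (q : ↥S) (b : ↥K.fixingSubgroup → k) :
    𝔓.shL₁ q (resOne q.1 (𝔓.indK₁ b)) = fun w => 𝔓.res₁ q w b := by
  funext w h
  show eG₁ b () (𝔓.glob.cc (rl q.1 h.1) ((𝔓.loc q).rep w)) = b (𝔓.ρw q w h)
  rw [𝔓.cc_rep q w h, eG₁_mem _ (𝔓.ρw q w h).2]

lemma PlaceSys.cc_rep' (q : ↥S) (w : 𝔓.W q) (h h' : 𝔓.Γw q w) :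
    𝔓.glob.cc (rl q.1 h.1) ((rl q.1 h'.1)⁻¹ • (𝔓.loc q).rep w) =
      ((𝔓.ρw q w h : ↥K.fixingSubgroup) : GQ) := by
  have h1 : (rl q.1 h'.1)⁻¹ • (𝔓.loc q).rep w = (𝔓.loc q).rep w := by
    rw [inv_smul_eq_iff]
    exact (h'.2 : rl q.1 h'.1 • (𝔓.loc q).rep w = (𝔓.loc q).rep w).symm
  rw [h1, 𝔓.cc_rep]

lemma PlaceSys.sh_res_ind₂ (q : ↥S) (a : ↥K.fixingSubgroup × ↥K.fixingSubgroup → k) :
    𝔓.shL₂ q (resTwo q.1 (𝔓.indK₂ a)) = fun w => 𝔓.res₂ q w a := by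
  funext w t
  obtain ⟨h₁, h₂⟩ := t
  show eG₂ a () (𝔓.glob.cc (rl q.1 h₁.1) ((𝔓.loc q).rep w),
    𝔓.glob.cc (rl q.1 h₂.1) ((rl q.1 h₁.1)⁻¹ • (𝔓.loc q).rep w)) = a (𝔓.ρw q w h₁, 𝔓.ρw q w h₂)
  rw [𝔓.cc_rep q w h₁, 𝔓.cc_rep' q w h₂ h₁, eG₂_mem _ (𝔓.ρw q w h₁).2 (𝔓.ρw q w h₂).2]

lemma PlaceSys.sh_res_ind₃ (q : ↥S) (w : 𝔓.W q)
    (a : ↥K.fixingSubgroup × ↥K.fixingSubgroup × ↥K.fixingSubgroup → k)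
    (t : 𝔓.Γw q w × 𝔓.Γw q w × 𝔓.Γw q w) :
    resThree q.1 (𝔓.indK₃ a) (t.1.1, t.2.1.1, t.2.2.1) ((𝔓.loc q).rep w) = 𝔓.res₃ q w a t := by
  obtain ⟨h₁, h₂, h₃⟩ := t
  show eG₃ a () (𝔓.glob.cc (rl q.1 h₁.1) ((𝔓.loc q).rep w),
    𝔓.glob.cc (rl q.1 h₂.1) ((rl q.1 h₁.1)⁻¹ • (𝔓.loc q).rep w),
    𝔓.glob.cc (rl q.1 h₃.1) ((rl q.1 h₂.1)⁻¹ • (rl q.1 h₁.1)⁻¹ • (𝔓.loc q).rep w)) =
      a (𝔓.ρw q w h₁, 𝔓.ρw q w h₂, 𝔓.ρw q w h₃)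
  have h1 : (rl q.1 h₁.1)⁻¹ • (𝔓.loc q).rep w = (𝔓.loc q).rep w := by
    rw [inv_smul_eq_iff]
    exact (h₁.2 : rl q.1 h₁.1 • (𝔓.loc q).rep w = (𝔓.loc q).rep w).symm
  rw [h1, 𝔓.cc_rep q w h₁, 𝔓.cc_rep q w h₂, 𝔓.cc_rep' q w h₃ h₂,
    eG₃_mem _ (𝔓.ρw q w h₁).2 (𝔓.ρw q w h₂).2 (𝔓.ρw q w h₃).2]

/-- `ind ∘ sh ∘ Res ∘ ind = ind ∘ res` (degree 1). -/
lemma PlaceSys.ind_sh_res_ind₁ (q : ↥S) (b : ↥K.fixingSubgroup → k) :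
    (𝔓.loc q).ind1 ((𝔓.loc q).sh1 (resOne q.1 (𝔓.indK₁ b))) =
      𝔓.indL₁ q (fun w => 𝔓.res₁ q w b) := by
  rw [← 𝔓.indL₁_shL₁, 𝔓.sh_res_ind₁]

/-- `ind ∘ sh ∘ Res ∘ ind = ind ∘ res` (degree 2). -/
lemma PlaceSys.ind_sh_res_ind₂ (q : ↥S) (a : ↥K.fixingSubgroup × ↥K.fixingSubgroup → k) :
    (𝔓.loc q).ind2 ((𝔓.loc q).sh2 (resTwo q.1 (𝔓.indK₂ a))) =
      𝔓.indL₂ q (fun w => 𝔓.res₂ q w a) := by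
  rw [← 𝔓.indL₂_shL₂, 𝔓.sh_res_ind₂]

/-! ### The Shapiro maps commute with the differentials -/

lemma PlaceSys.tOne_shK₁ (B : GQ → XK K → k) :
    tOne (𝔓.shK₁ B) = 𝔓.shK₂ (d1 B) := by
  funext t
  simp only [tOne, PlaceSys.shK₁, PlaceSys.shK₂, d1, 𝔓.glob_stab_inv]
  rfl

lemma PlaceSys.tTwo_shK₂ (B : GQ × GQ → XK K → k) :
    tTwo (𝔓.shK₂ B) = 𝔓.shK₃ (d2 B) := by
  funext t
  simp only [tTwo, PlaceSys.shK₂, PlaceSys.shK₃, d2, 𝔓.glob_stab_inv]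
  rfl

lemma PlaceSys.tThree_shK₃ (B : GQ × GQ × GQ → XK K → k) (hB : d3 B = 0) :
    tThree (𝔓.shK₃ B) = 0 := by
  funext t
  have h := congrFun (congrFun hB (t.1.1, t.2.1.1, t.2.2.1.1, t.2.2.2.1)) (𝔓.glob.rep ())
  simp only [d3, 𝔓.glob_stab_inv, Pi.zero_apply] at h
  simp only [tThree, PlaceSys.shK₃, Pi.zero_apply]
  exact h

lemma PlaceSys.tOne_shL₁ (q : ↥S) (Y : Gl q.1 → XK K → k) (w : 𝔓.W q) :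
    tOne (𝔓.shL₁ q Y w) = 𝔓.shL₂ q (d1 Y) w := by
  funext t
  simp only [tOne, PlaceSys.shL₁, PlaceSys.shL₂, d1, 𝔓.loc_stab_inv]
  rfl

lemma PlaceSys.tTwo_shL₂ (q : ↥S) (Y : Gl q.1 × Gl q.1 → XK K → k) (w : 𝔓.W q)
    (t : 𝔓.Γw q w × 𝔓.Γw q w × 𝔓.Γw q w) :
    tTwo (𝔓.shL₂ q Y w) t = d2 Y (t.1.1, t.2.1.1, t.2.2.1) ((𝔓.loc q).rep w) := by
  simp only [tTwo, PlaceSys.shL₂, d2, 𝔓.loc_stab_inv]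
  rfl

end Fermat.Agent.S55.Top

end
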