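/-
S55 (Poitou–Tate), package E4, `Stmt_G1K`, part 1: the field `K(b)` cut out by a level-`S`
homomorphism `b : G_K → 𝔽_p`, and the data `KbData` used in the proof of `Stmt_G1K`.
Owner: helper49.

Plan of the proof of `Stmt_G1K` (files `Top/G1K_*.lean`): only `Stmt_I2` for `K` and
`Stmt_I4` (a) for `K' = K(b)` are used.
-/
import Fermat.Agent.S55.Top.H48_PTCone
import Fermat.Agent.S55.Top.KPure
import Fermat.Agent.S55.H13_E3

set_option autoImplicit false
set_option linter.unusedSectionVars false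
set_option linter.unusedSimpArgs false

open CategoryTheory Module groupCohomology ExtCitation

noncomputable section

namespace Fermat.Agent.S55.Top

open Fermat.Agent.S55

section field

variable {p : ℕ} [Fact p.Prime] {S : Finset Nat.Primes}
  {K : IntermediateField ℚ (AlgebraicClosure ℚ)}

lemma g1k_hom_inv {Δ : Type} [Group Δ] {b : Δ → ZMod p} (hb : tOne b = 0) (g : Δ) :
    b g⁻¹ = - b g := by
  have h1 := H48.hom_mul hb g g⁻¹
  rw [mul_inv_cancel, H48.hom_one hb] at h1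
  linear_combination -h1

lemma g1k_hom_pow {Δ : Type} [Group Δ] {b : Δ → ZMod p} (hb : tOne b = 0) (g : Δ) (n : ℕ) :
    b (g ^ n) = n * b g := by
  induction n with
  | zero => simp [H48.hom_one hb]
  | succ n ih =>
    rw [pow_succ, H48.hom_mul hb, ih]
    push_cast
    ring

/-- The kernel of `b`, as a subgroup of `G_ℚ`. -/
def kerG (b : ↥K.fixingSubgroup → ZMod p) (hb : tOne b = 0) : Subgroup GQ where
  carrier := {g | ∃ h : g ∈ K.fixingSubgroup, b ⟨g, h⟩ = 0}
  one_mem' := ⟨K.fixingSubgroup.one_mem, H48.hom_one hb⟩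
  mul_mem' := by
    rintro g g' ⟨h, hg⟩ ⟨h', hg'⟩
    refine ⟨K.fixingSubgroup.mul_mem h h', ?_⟩
    have := H48.hom_mul hb (⟨g, h⟩ : ↥K.fixingSubgroup) ⟨g', h'⟩
    rw [hg, hg', add_zero] at this
    exact this
  inv_mem' := by
    rintro g ⟨h, hg⟩
    refine ⟨K.fixingSubgroup.inv_mem h, ?_⟩
    have := g1k_hom_inv hb (⟨g, h⟩ : ↥K.fixingSubgroup)
    rw [hg, neg_zero] at this
    exact this

lemma mem_kerG {b : ↥K.fixingSubgroup → ZMod p} {hb : tOne b = 0} {g : GQ} :
    g ∈ kerG b hb ↔ ∃ h : g ∈ K.fixingSubgroup, b ⟨g, h⟩ = 0 := Iff.rfl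

/-- The field `K(b)`: the fixed field of the kernel of `b`. -/
def Kb (b : ↥K.fixingSubgroup → ZMod p) (hb : tOne b = 0) :
    IntermediateField ℚ (AlgebraicClosure ℚ) :=
  IntermediateField.fixedField (kerG b hb)

/-- `G_{K(b)} = ker b`, and `K(b)` is contained in the compositum of `K` and a level field of
`b`. -/
theorem Kb_spec (hK : K.IsUnramifiedOutside S) {b : ↥K.fixingSubgroup → ZMod p}
    (hb : IsZ1K S K b) :
    (Kb b hb.1).fixingSubgroup = kerG b hb.1 ∧ (Kb b hb.1).IsUnramifiedOutside S ∧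
      K ≤ Kb b hb.1 := by
  obtain ⟨F, hF, hFb⟩ := H48.hom_level hb
  have hKF := hK.sup hF
  haveI : FiniteDimensional ℚ ↥(K ⊔ F) := hKF.1
  have hle : (K ⊔ F).fixingSubgroup ≤ kerG b hb.1 := by
    intro s hs
    rw [IntermediateField.fixingSubgroup_sup] at hs
    exact ⟨hs.1, hFb ⟨s, hs.1⟩ hs.2⟩
  obtain ⟨h1, h2, -⟩ := H13.fixedField_of_le (K ⊔ F) (kerG b hb.1) hle
  refine ⟨h1, IntermediateField.IsUnramifiedOutside.of_le h2 hKF, ?_⟩
  intro x hx
  show x ∈ IntermediateField.fixedField (kerG b hb.1)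
  rw [IntermediateField.mem_fixedField_iff]
  rintro s ⟨hs, -⟩
  exact (IntermediateField.mem_fixingSubgroup_iff K s).1 hs x hx

/-- `K(b)` is a base field. -/
theorem Kb_isBaseField (hK : IsBaseField S p K) {b : ↥K.fixingSubgroup → ZMod p}
    (hb : IsZ1K S K b) : IsBaseField S p (Kb b hb.1) := by
  obtain ⟨h1, h2, h3⟩ := Kb_spec hK.1 hb
  obtain ⟨ζ, hζ, hζp⟩ := hK.2
  exact ⟨h2, ζ, h3 hζ, hζp⟩

end field

end Fermat.Agent.S55.Top

end
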