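/-
S55 (Poitou–Tate), package E4, `Stmt_G1K`, part 2: the relative place system of `K' = K(b)`.
Owner: helper49.

`b : G_K → 𝔽_p` is a homomorphism which is trivial on all local groups `Γ_w`, `h₀ ∈ G_K` with
`b h₀ = 1`, `G_{K'} = ker b`.  The places of `K'` over `w` are `(w, j)`, `j ∈ ℤ/p`, with
`σ_{(w,j)} = σ_w h₀^j`, `Γ_{(w,j)} = Γ_w`, `ρ_{(w,j)} = h₀^{-j} ρ_w h₀^j`.
-/
import Fermat.Agent.S55.Top.G1K_Field

set_option autoImplicit false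
set_option linter.unusedSectionVars false
set_option linter.unusedSimpArgs false

open CategoryTheory Module groupCohomology ExtCitation

noncomputable section

namespace Fermat.Agent.S55.Top

open Fermat.Agent.S55

attribute [local instance] locAct

/-- The data used in the proof of `Stmt_G1K`. -/
structure KbData {p : ℕ} [Fact p.Prime] {S : Finset Nat.Primes}
    {K : IntermediateField ℚ (AlgebraicClosure ℚ)} (𝔓 : PlaceSys S K)
    (b : ↥K.fixingSubgroup → ZMod p) where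
  /-- the field `K(b)` -/
  K' : IntermediateField ℚ (AlgebraicClosure ℚ)
  hb : tOne b = 0
  hmem : ∀ g : GQ, g ∈ K'.fixingSubgroup ↔ ∃ h : g ∈ K.fixingSubgroup, b ⟨g, h⟩ = 0
  /-- an element with `b h₀ = 1` -/
  h0 : ↥K.fixingSubgroup
  hh0 : b h0 = 1
  hloc : ∀ (q : ↥S) (w : 𝔓.W q) (h : 𝔓.Γw q w), b (𝔓.ρw q w h) = 0

section pre

variable {S : Finset Nat.Primes} {K : IntermediateField ℚ (AlgebraicClosure ℚ)}

lemma g1k_smul_x0K (g : GQ) : g • x0 K = (QuotientGroup.mk g : XK K) := by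
  show g • ((1 : GQ) : GQ ⧸ K.fixingSubgroup) = _
  rw [MulAction.Quotient.smul_mk, smul_eq_mul, mul_one]

lemma g1k_glob_t_mk (𝔓 : PlaceSys S K) (g : GQ) :
    (𝔓.glob.t (QuotientGroup.mk g : XK K))⁻¹ * g ∈ K.fixingSubgroup := by
  have h := 𝔓.glob.t_smul (QuotientGroup.mk g : XK K)
  rw [show 𝔓.glob.rep (𝔓.glob.o (QuotientGroup.mk g : XK K)) = x0 K from 𝔓.glob_rep,
    g1k_smul_x0K] at h
  exact QuotientGroup.eq.1 h

lemma g1k_loc_t_mk (𝔓 : PlaceSys S K) (q : ↥S) (g : GQ) :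
    (rl q.1 ((𝔓.loc q).t (QuotientGroup.mk g : XK K)) *
      𝔓.σ q ((𝔓.loc q).o (QuotientGroup.mk g : XK K)))⁻¹ * g ∈ K.fixingSubgroup := by
  have h := (𝔓.loc q).t_smul (QuotientGroup.mk g : XK K)
  rw [locAct_smul, ← 𝔓.σ_smul, ← mul_smul, g1k_smul_x0K] at h
  exact QuotientGroup.eq.1 h

end pre

namespace KbData

variable {p : ℕ} [Fact p.Prime] {S : Finset Nat.Primes}
  {K : IntermediateField ℚ (AlgebraicClosure ℚ)} {𝔓 : PlaceSys S K}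
  {b : ↥K.fixingSubgroup → ZMod p} (D : KbData 𝔓 b)

/-- `b`, extended by zero to `G_ℚ`. -/
def β (_D : KbData 𝔓 b) : GQ → ZMod p := eG₁ b ()

lemma β_mem {g : GQ} (h : g ∈ K.fixingSubgroup) : D.β g = b ⟨g, h⟩ := eG₁_mem b h

lemma le : D.K'.fixingSubgroup ≤ K.fixingSubgroup := fun g hg => ((D.hmem g).1 hg).1

lemma b_eq_zero {g : GQ} (hg : g ∈ D.K'.fixingSubgroup) : b ⟨g, D.le hg⟩ = 0 :=
  ((D.hmem g).1 hg).2

lemma mem_of_b {g : ↥K.fixingSubgroup} (hg : b g = 0) : (g : GQ) ∈ D.K'.fixingSubgroup :=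
  (D.hmem g).2 ⟨g.2, hg⟩

lemma β_mul_mem {a g : GQ} (ha : a ∈ K.fixingSubgroup) (hg : g ∈ K.fixingSubgroup) :
    D.β (a * g) = b ⟨a, ha⟩ + b ⟨g, hg⟩ := by
  rw [D.β_mem (K.fixingSubgroup.mul_mem ha hg)]
  exact H48.hom_mul D.hb ⟨a, ha⟩ ⟨g, hg⟩

/-- `β` is invariant under right translation by `G_{K'}`. -/
lemma β_mul_right (g : GQ) {κ : GQ} (hκ : κ ∈ D.K'.fixingSubgroup) : D.β (g * κ) = D.β g := by
  by_cases hg : g ∈ K.fixingSubgroup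
  · rw [D.β_mul_mem hg (D.le hκ), D.b_eq_zero hκ, add_zero, D.β_mem hg]
  · have h2 : g * κ ∉ K.fixingSubgroup := fun h => hg (by
      have := K.fixingSubgroup.mul_mem h (K.fixingSubgroup.inv_mem (D.le hκ))
      simpa using this)
    unfold β eG₁
    rw [dif_neg hg, dif_neg h2]

/-- the powers of `h₀`. -/
def pw (j : ZMod p) : ↥K.fixingSubgroup := D.h0 ^ j.val

lemma b_pw (j : ZMod p) : b (D.pw j) = j := by
  unfold pw
  rw [g1k_hom_pow D.hb, D.hh0, mul_one]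
  exact ZMod.natCast_zmod_val j

lemma pw_zero : D.pw 0 = 1 := by
  unfold pw
  rw [ZMod.val_zero, pow_zero]

lemma β_pw (j : ZMod p) : D.β (D.pw j : GQ) = j := by
  rw [D.β_mem (D.pw j).2]
  exact D.b_pw j

/-- the projection `G_ℚ/G_{K'} → G_ℚ/G_K`. -/
def πK (x : XK D.K') : XK K :=
  Quotient.liftOn' x (fun g => (QuotientGroup.mk g : XK K)) (by
    intro g g' h
    have h1 : g⁻¹ * g' ∈ D.K'.fixingSubgroup := QuotientGroup.leftRel_apply.1 h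
    exact QuotientGroup.eq.2 (D.le h1))

lemma πK_mk (g : GQ) : D.πK (QuotientGroup.mk g : XK D.K') = (QuotientGroup.mk g : XK K) := rfl

lemma πK_smul (γ : GQ) (x : XK D.K') : D.πK (γ • x) = γ • D.πK x := by
  induction x using QuotientGroup.induction_on with
  | H g => rfl

/-- the fibre coordinate of `x = g G_{K'}` relative to `s`: `b (s⁻¹ g)`. -/
def jc (s : GQ) (x : XK D.K') : ZMod p :=
  Quotient.liftOn' x (fun g => D.β (s⁻¹ * g)) (by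
    intro g g' h
    have h1 : g⁻¹ * g' ∈ D.K'.fixingSubgroup := QuotientGroup.leftRel_apply.1 h
    have e : s⁻¹ * g' = s⁻¹ * g * (g⁻¹ * g') := by group
    show D.β (s⁻¹ * g) = D.β (s⁻¹ * g')
    rw [e, D.β_mul_right _ h1])

lemma jc_mk (s g : GQ) : D.jc s (QuotientGroup.mk g : XK D.K') = D.β (s⁻¹ * g) := rfl

lemma smul_x0' (g : GQ) : g • x0 D.K' = (QuotientGroup.mk g : XK D.K') := by
  show g • ((1 : GQ) : GQ ⧸ D.K'.fixingSubgroup) = _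
  rw [MulAction.Quotient.smul_mk, smul_eq_mul, mul_one]

lemma mk_eq_mk' {g g' : GQ} (h : g⁻¹ * g' ∈ K.fixingSubgroup) (h0 : b ⟨g⁻¹ * g', h⟩ = 0) :
    (QuotientGroup.mk g : XK D.K') = QuotientGroup.mk g' :=
  QuotientGroup.eq.2 ((D.hmem _).2 ⟨h, h0⟩)

/-- the key computation: `s h₀^j G_{K'} = g G_{K'}` for `j = b (s⁻¹ g)`. -/
lemma smul_pw {s g : GQ} (h : s⁻¹ * g ∈ K.fixingSubgroup) :
    (QuotientGroup.mk (s * (D.pw (D.β (s⁻¹ * g)) : GQ)) : XK D.K') = QuotientGroup.mk g := by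
  have e : (s * (D.pw (D.β (s⁻¹ * g)) : GQ))⁻¹ * g =
      ((D.pw (D.β (s⁻¹ * g)))⁻¹ * ⟨s⁻¹ * g, h⟩ : ↥K.fixingSubgroup) := by
    simp only [Subgroup.coe_mul, Subgroup.coe_inv]
    group
  have hm : (s * (D.pw (D.β (s⁻¹ * g)) : GQ))⁻¹ * g ∈ K.fixingSubgroup := by
    rw [e]; exact Subtype.property _
  refine D.mk_eq_mk' hm ?_
  have e2 : (⟨_, hm⟩ : ↥K.fixingSubgroup) = (D.pw (D.β (s⁻¹ * g)))⁻¹ * ⟨s⁻¹ * g, h⟩ :=
    Subtype.ext e
  rw [e2, H48.hom_mul D.hb, g1k_hom_inv D.hb, D.b_pw, D.β_mem h]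
  ring

/-! ### The place system of `K'` -/

/-- coset representatives of `G_ℚ/G_{K'}`. -/
def globK' : OrbitData GQ (XK D.K') Unit where
  rep := fun _ => x0 D.K'
  o := fun _ => ()
  t := fun x => 𝔓.glob.t (D.πK x) * (D.pw (D.jc (𝔓.glob.t (D.πK x)) x) : GQ)
  t_smul := fun x => by
    induction x using QuotientGroup.induction_on with
    | H g =>
      rw [D.πK_mk, D.jc_mk, D.smul_x0']
      exact D.smul_pw (g1k_glob_t_mk 𝔓 g)
  o_smul := fun _ _ => rfl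
  o_rep := fun _ => rfl
  t_rep := fun _ => by
    have h1 : D.πK (x0 D.K') = 𝔓.glob.rep () := by rw [𝔓.glob_rep]; rfl
    have h2 : 𝔓.glob.t (D.πK (x0 D.K')) = 1 := by rw [h1]; exact 𝔓.glob.t_rep ()
    show 𝔓.glob.t (D.πK (x0 D.K')) * (D.pw (D.jc (𝔓.glob.t (D.πK (x0 D.K'))) (x0 D.K')) : GQ) = 1
    rw [h2]
    have h3 : D.jc 1 (x0 D.K') = 0 := by
      show D.β ((1 : GQ)⁻¹ * 1) = 0
      rw [inv_one, mul_one, D.β_mem K.fixingSubgroup.one_mem]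
      exact H48.hom_one D.hb
    rw [h3, D.pw_zero]
    simp

/-- the representative of the place `(w, j)`. -/
def repK' (q : ↥S) (wj : 𝔓.W q × ZMod p) : XK D.K' :=
  (QuotientGroup.mk (𝔓.σ q wj.1 * (D.pw wj.2 : GQ)) : XK D.K')

lemma πK_repK' (q : ↥S) (wj : 𝔓.W q × ZMod p) : D.πK (D.repK' q wj) = (𝔓.loc q).rep wj.1 := by
  unfold repK'
  rw [D.πK_mk, ← 𝔓.σ_smul, g1k_smul_x0K]
  refine QuotientGroup.eq.2 ?_
  have e : (𝔓.σ q wj.1 * (D.pw wj.2 : GQ))⁻¹ * 𝔓.σ q wj.1 = ((D.pw wj.2)⁻¹ : ↥K.fixingSubgroup) := by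
    simp only [Subgroup.coe_inv]
    group
  rw [e]
  exact Subtype.property _

/-- the orbit of a point of `G_ℚ/G_{K'}` under the local group. -/
def oK' (q : ↥S) (x : XK D.K') : 𝔓.W q × ZMod p :=
  ((𝔓.loc q).o (D.πK x),
    D.jc (rl q.1 ((𝔓.loc q).t (D.πK x)) * 𝔓.σ q ((𝔓.loc q).o (D.πK x))) x)

lemma oK'_smul (q : ↥S) (γ : Gl q.1) (x : XK D.K') : D.oK' q (γ • x) = D.oK' q x := by
  induction x using QuotientGroup.induction_on with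
  | H g =>
    have e0 : γ • (QuotientGroup.mk g : XK D.K') = (QuotientGroup.mk (rl q.1 γ * g) : XK D.K') := by
      rw [locAct_smul, MulAction.Quotient.smul_mk, smul_eq_mul]
    have e1 : γ • (QuotientGroup.mk g : XK K) = (QuotientGroup.mk (rl q.1 γ * g) : XK K) := by
      rw [locAct_smul, MulAction.Quotient.smul_mk, smul_eq_mul]
    rw [e0]
    unfold oK'
    rw [D.πK_mk, D.πK_mk, D.jc_mk, D.jc_mk]
    have hw : (𝔓.loc q).o (QuotientGroup.mk (rl q.1 γ * g) : XK K) =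
        (𝔓.loc q).o (QuotientGroup.mk g : XK K) := by
      rw [← e1]; exact (𝔓.loc q).o_smul γ _
    refine Prod.ext hw ?_
    show D.β _ = D.β _
    rw [hw]
    set w := (𝔓.loc q).o (QuotientGroup.mk g : XK K) with hwdef
    set τ := (𝔓.loc q).t (QuotientGroup.mk g : XK K) with hτdef
    set τ' := (𝔓.loc q).t (QuotientGroup.mk (rl q.1 γ * g) : XK K) with hτ'def
    -- η := τ'⁻¹ γ τ stabilises the representative of w
    have hη : τ'⁻¹ * γ * τ ∈ 𝔓.Γw q w := by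
      show rl q.1 (τ'⁻¹ * γ * τ) • (𝔓.loc q).rep w = (𝔓.loc q).rep w
      have h1 := (𝔓.loc q).t_smul (QuotientGroup.mk g : XK K)
      have h2 := (𝔓.loc q).t_smul (QuotientGroup.mk (rl q.1 γ * g) : XK K)
      rw [hw] at h2
      rw [← locAct_smul, mul_smul, mul_smul, h1, e1, inv_smul_eq_iff]
      exact h2.symm
    have hA := g1k_loc_t_mk 𝔓 q g
    have e : (rl q.1 τ' * 𝔓.σ q w)⁻¹ * (rl q.1 γ * g) =
        ((𝔓.ρw q w ⟨_, hη⟩ : ↥K.fixingSubgroup) : GQ) * ((rl q.1 τ * 𝔓.σ q w)⁻¹ * g) := by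
      show _ = ((𝔓.σ q w)⁻¹ * rl q.1 (τ'⁻¹ * γ * τ) * 𝔓.σ q w) * ((rl q.1 τ * 𝔓.σ q w)⁻¹ * g)
      simp only [map_mul, map_inv]
      group
    rw [e, D.β_mul_mem (Subtype.property _) hA, D.hloc, zero_add, D.β_mem hA]

/-- the local orbit data of `K'`. -/
def locK' (q : ↥S) : @OrbitData (Gl q.1) _ (XK D.K') (locAct D.K' q.1) (𝔓.W q × ZMod p) where
  rep := D.repK' q
  o := D.oK' q
  t := fun x => (𝔓.loc q).t (D.πK x)
  t_smul := fun x => by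
    induction x using QuotientGroup.induction_on with
    | H g =>
      show rl q.1 ((𝔓.loc q).t (D.πK (QuotientGroup.mk g))) •
        (QuotientGroup.mk (𝔓.σ q (D.oK' q (QuotientGroup.mk g)).1 *
          (D.pw (D.oK' q (QuotientGroup.mk g)).2 : GQ)) : XK D.K') = QuotientGroup.mk g
      rw [MulAction.Quotient.smul_mk, smul_eq_mul, ← mul_assoc]
      exact D.smul_pw (g1k_loc_t_mk 𝔓 q g)
  o_smul := fun γ x => D.oK'_smul q γ x
  o_rep := fun wj => by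
    have h1 := D.πK_repK' q wj
    unfold oK'
    rw [h1, (𝔓.loc q).o_rep, (𝔓.loc q).t_rep]
    refine Prod.ext rfl ?_
    show D.jc (rl q.1 1 * 𝔓.σ q wj.1) (D.repK' q wj) = wj.2
    unfold repK'
    rw [D.jc_mk, map_one, one_mul, inv_mul_cancel_left]
    exact D.β_pw wj.2
  t_rep := fun wj => by
    show (𝔓.loc q).t (D.πK (D.repK' q wj)) = 1
    rw [D.πK_repK', (𝔓.loc q).t_rep]

/-- **The relative place system** of `K' = K(b)`. -/
@[reducible] def placeSys : PlaceSys S D.K' where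
  glob := D.globK'
  glob_rep := rfl
  W := fun q => 𝔓.W q × ZMod p
  fin := fun q => @instFintypeProd _ _ (𝔓.fin q) (ZMod.fintype p)
  loc := fun q => D.locK' q

/-! ### The places of `K'` -/

/-- the place `(w, j)` of `K'`. -/
@[reducible] def mkW (q : ↥S) (w : 𝔓.W q) (j : ZMod p) : D.placeSys.W q := (w, j)

lemma placeSys_rep (q : ↥S) (w : 𝔓.W q) (j : ZMod p) :
    (D.placeSys.loc q).rep (D.mkW q w j) =
      (QuotientGroup.mk (𝔓.σ q w * (D.pw j : GQ)) : XK D.K') := rfl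

/-- `σ_{(w,j)} = σ_w h₀^j`. -/
lemma σ_mkW (q : ↥S) (w : 𝔓.W q) (j : ZMod p) :
    D.placeSys.σ q (D.mkW q w j) = 𝔓.σ q w * (D.pw j : GQ) := by
  show 𝔓.glob.t (D.πK (D.repK' q (w, j))) *
    (D.pw (D.jc (𝔓.glob.t (D.πK (D.repK' q (w, j)))) (D.repK' q (w, j))) : GQ) = _
  rw [D.πK_repK']
  show 𝔓.σ q w * (D.pw (D.jc (𝔓.σ q w) (D.repK' q (w, j))) : GQ) = _
  unfold repK'
  rw [D.jc_mk, inv_mul_cancel_left, D.β_pw]

lemma mem_Γw_iff (q : ↥S) (w : 𝔓.W q) (h : Gl q.1) :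
    h ∈ 𝔓.Γw q w ↔ (𝔓.σ q w)⁻¹ * rl q.1 h * 𝔓.σ q w ∈ K.fixingSubgroup := by
  constructor
  · intro hh
    exact 𝔓.conj_mem q w ⟨h, hh⟩
  · intro hh
    show rl q.1 h • (𝔓.loc q).rep w = (𝔓.loc q).rep w
    rw [← 𝔓.σ_smul, ← mul_smul]
    have e : rl q.1 h * 𝔓.σ q w = 𝔓.σ q w * ((𝔓.σ q w)⁻¹ * rl q.1 h * 𝔓.σ q w) := by group
    rw [e, mul_smul, smul_x0_of_mem_fix hh]

/-- `Γ_{(w,j)} = Γ_w`. -/
lemma mem_Γw' (q : ↥S) (w : 𝔓.W q) (j : ZMod p) (h : Gl q.1) :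
    h ∈ D.placeSys.Γw q (D.mkW q w j) ↔ h ∈ 𝔓.Γw q w := by
  have e : (𝔓.σ q w * (D.pw j : GQ))⁻¹ * (rl q.1 h * (𝔓.σ q w * (D.pw j : GQ))) =
      (D.pw j : GQ)⁻¹ * ((𝔓.σ q w)⁻¹ * rl q.1 h * 𝔓.σ q w) * (D.pw j : GQ) := by group
  constructor
  · intro hh
    have h1 : rl q.1 h • (D.placeSys.loc q).rep (D.mkW q w j) =
        (D.placeSys.loc q).rep (D.mkW q w j) := hh
    rw [D.placeSys_rep, MulAction.Quotient.smul_mk, smul_eq_mul] at h1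
    have h2 := D.le (QuotientGroup.eq.1 h1.symm)
    rw [e] at h2
    rw [mem_Γw_iff]
    have h3 := K.fixingSubgroup.mul_mem (K.fixingSubgroup.mul_mem (D.pw j).2 h2)
      (K.fixingSubgroup.inv_mem (D.pw j).2)
    have e2 : (D.pw j : GQ) * ((D.pw j : GQ)⁻¹ * ((𝔓.σ q w)⁻¹ * rl q.1 h * 𝔓.σ q w) *
        (D.pw j : GQ)) * (D.pw j : GQ)⁻¹ = (𝔓.σ q w)⁻¹ * rl q.1 h * 𝔓.σ q w := by group
    rwa [e2] at h3
  · intro hh
    show rl q.1 h • (D.placeSys.loc q).rep (D.mkW q w j) =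
        (D.placeSys.loc q).rep (D.mkW q w j)
    rw [D.placeSys_rep, MulAction.Quotient.smul_mk, smul_eq_mul]
    symm
    have e3 : (𝔓.σ q w * (D.pw j : GQ))⁻¹ * (rl q.1 h * (𝔓.σ q w * (D.pw j : GQ))) =
        (((D.pw j)⁻¹ * 𝔓.ρw q w ⟨h, hh⟩ * D.pw j : ↥K.fixingSubgroup) : GQ) := by
      rw [e]; rfl
    have hm : (𝔓.σ q w * (D.pw j : GQ))⁻¹ * (rl q.1 h * (𝔓.σ q w * (D.pw j : GQ))) ∈
        K.fixingSubgroup := by
      rw [e3]; exact Subtype.property _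
    refine D.mk_eq_mk' hm ?_
    have e4 : (⟨_, hm⟩ : ↥K.fixingSubgroup) = (D.pw j)⁻¹ * 𝔓.ρw q w ⟨h, hh⟩ * D.pw j :=
      Subtype.ext e3
    rw [e4, H48.hom_mul D.hb, H48.hom_mul D.hb, g1k_hom_inv D.hb, D.hloc]
    ring

/-- the identification `Γ_w → Γ_{(w,j)}`. -/
def eIn (q : ↥S) (w : 𝔓.W q) (j : ZMod p) : 𝔓.Γw q w →* D.placeSys.Γw q (D.mkW q w j) :=
  Subgroup.inclusion (fun h hh => (D.mem_Γw' q w j h).2 hh)

/-- the identification `Γ_{(w,j)} → Γ_w`. -/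
def eOut (q : ↥S) (w : 𝔓.W q) (j : ZMod p) : D.placeSys.Γw q (D.mkW q w j) →* 𝔓.Γw q w :=
  Subgroup.inclusion (fun h hh => (D.mem_Γw' q w j h).1 hh)

@[simp] lemma coe_eIn (q : ↥S) (w : 𝔓.W q) (j : ZMod p) (h : 𝔓.Γw q w) :
    ((D.eIn q w j h : D.placeSys.Γw q (D.mkW q w j)) : Gl q.1) = h := rfl

@[simp] lemma coe_eOut (q : ↥S) (w : 𝔓.W q) (j : ZMod p) (h : D.placeSys.Γw q (D.mkW q w j)) :
    ((D.eOut q w j h : 𝔓.Γw q w) : Gl q.1) = h := rfl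

@[simp] lemma eOut_eIn (q : ↥S) (w : 𝔓.W q) (j : ZMod p) (h : 𝔓.Γw q w) :
    D.eOut q w j (D.eIn q w j h) = h := Subtype.ext rfl

@[simp] lemma eIn_eOut (q : ↥S) (w : 𝔓.W q) (j : ZMod p) (h : D.placeSys.Γw q (D.mkW q w j)) :
    D.eIn q w j (D.eOut q w j h) = h := Subtype.ext rfl

/-- `ρ_{(w,j)} = h₀^{-j} ρ_w h₀^j`. -/
lemma ρw_mkW (q : ↥S) (w : 𝔓.W q) (j : ZMod p) (h : 𝔓.Γw q w) :
    ((D.placeSys.ρw q (D.mkW q w j) (D.eIn q w j h) : ↥D.K'.fixingSubgroup) : GQ) =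
      (((D.pw j)⁻¹ * 𝔓.ρw q w h * D.pw j : ↥K.fixingSubgroup) : GQ) := by
  show (D.placeSys.σ q (D.mkW q w j))⁻¹ * rl q.1 h.1 * D.placeSys.σ q (D.mkW q w j) =
    (D.pw j : GQ)⁻¹ * ((𝔓.σ q w)⁻¹ * rl q.1 h.1 * 𝔓.σ q w) * (D.pw j : GQ)
  rw [D.σ_mkW]
  group

/-- level constancy is the same for `Γ_w` and `Γ_{(w,j)}`. -/
lemma levL₁_eIn (q : ↥S) (w : 𝔓.W q) (j : ZMod p) {X : Type}
    {g : D.placeSys.Γw q (D.mkW q w j) → X}
    (hg : IsLevelConstant₁ (D.placeSys.rw q (D.mkW q w j)) g) :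
    IsLevelConstant₁ (𝔓.rw q w) (fun h => g (D.eIn q w j h)) := by
  obtain ⟨F, hF, h⟩ := hg
  refine ⟨F, hF, fun a s hs => ?_⟩
  show g (D.eIn q w j (a * s)) = g (D.eIn q w j a)
  rw [map_mul]
  exact h _ _ hs

lemma levL₂_eOut (q : ↥S) (w : 𝔓.W q) (j : ZMod p) {X : Type}
    {c : 𝔓.Γw q w × 𝔓.Γw q w → X} (hc : IsLevelConstant₂ (𝔓.rw q w) c) :
    IsLevelConstant₂ (D.placeSys.rw q (D.mkW q w j))
      (fun t => c (D.eOut q w j t.1, D.eOut q w j t.2)) := by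
  obtain ⟨F, hF, h⟩ := hc
  refine ⟨F, hF, fun a a' s s' hs hs' => ?_⟩
  show c (D.eOut q w j (a * s), D.eOut q w j (a' * s')) = c (D.eOut q w j a, D.eOut q w j a')
  rw [map_mul, map_mul]
  exact h _ _ _ _ hs hs'

end KbData

end Fermat.Agent.S55.Top

end
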