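/-
S55 (Poitou–Tate), package E4, `Stmt_G1K`, part 3: relative induction from `K' = K(b)` to `K`
(values in the functions on `ℤ/p`, on which `G_K` acts by translation through `b`) and the
moments `M₀ F = ∑_j F(·)(j)`, `M₁ F = ∑_j j F(·)(j)`.
Owner: helper49.
-/
import Fermat.Agent.S55.Top.G1K_Place

set_option autoImplicit false
set_option linter.unusedSectionVars false
set_option linter.unusedSimpArgs false

open CategoryTheory Module groupCohomology ExtCitation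

noncomputable section

namespace Fermat.Agent.S55.Top

open Fermat.Agent.S55

attribute [local instance] locAct

namespace KbData

variable {p : ℕ} [Fact p.Prime] {S : Finset Nat.Primes}
  {K : IntermediateField ℚ (AlgebraicClosure ℚ)} {𝔓 : PlaceSys S K}
  {b : ↥K.fixingSubgroup → ZMod p} (D : KbData 𝔓 b)

/-! ### The cocycle of the induced module -/

lemma κ_aux (g : ↥K.fixingSubgroup) (j : ZMod p) :
    b ((D.pw j)⁻¹ * g * D.pw (j - b g)) = 0 := by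
  rw [H48.hom_mul D.hb, H48.hom_mul D.hb, g1k_hom_inv D.hb, D.b_pw, D.b_pw]
  ring

/-- `κ(g, j) = h₀^{-j} g h₀^{j - b g} ∈ G_{K'}`. -/
def κ (g : ↥K.fixingSubgroup) (j : ZMod p) : ↥D.K'.fixingSubgroup :=
  ⟨(((D.pw j)⁻¹ * g * D.pw (j - b g) : ↥K.fixingSubgroup) : GQ), D.mem_of_b (D.κ_aux g j)⟩

lemma coe_κ (g : ↥K.fixingSubgroup) (j : ZMod p) :
    ((D.κ g j : ↥D.K'.fixingSubgroup) : GQ) =
      (D.pw j : GQ)⁻¹ * (g : GQ) * (D.pw (j - b g) : GQ) := rfl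

lemma κ_mul (g g' : ↥K.fixingSubgroup) (j : ZMod p) :
    D.κ (g * g') j = D.κ g j * D.κ g' (j - b g) := by
  apply Subtype.ext
  rw [Subgroup.coe_mul, D.coe_κ, D.coe_κ, D.coe_κ, H48.hom_mul D.hb, sub_add_eq_sub_sub,
    Subgroup.coe_mul]
  group

/-- `κ` on an element of `ker b` is a conjugate. -/
lemma coe_κ_of_b {s : ↥K.fixingSubgroup} (hs : b s = 0) (j : ZMod p) :
    ((D.κ s j : ↥D.K'.fixingSubgroup) : GQ) = (D.pw j : GQ)⁻¹ * (s : GQ) * (D.pw j : GQ) := by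
  rw [D.coe_κ, hs, sub_zero]

/-- `κ` on the local groups is `ρ_{(w,j)}`. -/
lemma κ_ρw (q : ↥S) (w : 𝔓.W q) (j : ZMod p) (h : 𝔓.Γw q w) :
    D.κ (𝔓.ρw q w h) j = D.placeSys.ρw q (D.mkW q w j) (D.eIn q w j h) := by
  apply Subtype.ext
  rw [D.ρw_mkW, D.coe_κ_of_b (D.hloc q w h)]
  rfl

/-! ### Relative induction in degree 2 -/

/-- relative induction of a 2-cochain of `G_{K'}`. -/
def ind₂ (f : ↥D.K'.fixingSubgroup × ↥D.K'.fixingSubgroup → ZMod p) :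
    ↥K.fixingSubgroup × ↥K.fixingSubgroup → ZMod p → ZMod p :=
  fun t j => f (D.κ t.1 j, D.κ t.2 (j - b t.1))

/-- the induced cochain of a cocycle is a (twisted) cocycle. -/
lemma ind₂_coc {f : ↥D.K'.fixingSubgroup × ↥D.K'.fixingSubgroup → ZMod p} (hf : tTwo f = 0)
    (g₁ g₂ g₃ : ↥K.fixingSubgroup) (j : ZMod p) :
    D.ind₂ f (g₂, g₃) (j - b g₁) - D.ind₂ f (g₁ * g₂, g₃) j + D.ind₂ f (g₁, g₂ * g₃) j
      - D.ind₂ f (g₁, g₂) j = 0 := by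
  have h := congrFun hf (D.κ g₁ j, D.κ g₂ (j - b g₁), D.κ g₃ (j - b g₁ - b g₂))
  simp only [tTwo, Pi.zero_apply] at h
  simp only [ind₂]
  rw [D.κ_mul g₁ g₂ j, D.κ_mul g₂ g₃ (j - b g₁), H48.hom_mul D.hb g₁ g₂, sub_add_eq_sub_sub]
  exact h

/-- restriction to the local groups: strict compatibility. -/
lemma ind₂_res (f : ↥D.K'.fixingSubgroup × ↥D.K'.fixingSubgroup → ZMod p) (q : ↥S)
    (w : 𝔓.W q) (j : ZMod p) (h₁ h₂ : 𝔓.Γw q w) :
    D.ind₂ f (𝔓.ρw q w h₁, 𝔓.ρw q w h₂) j =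
      D.placeSys.res₂ q (D.mkW q w j) f (D.eIn q w j h₁, D.eIn q w j h₂) := by
  simp only [ind₂, PlaceSys.res₂]
  rw [D.hloc q w h₁, sub_zero, D.κ_ρw, D.κ_ρw]

/-- the induced cochain is of level `S`, uniformly in `j`. -/
lemma ind₂_lev (hK' : D.K'.IsUnramifiedOutside S)
    {f : ↥D.K'.fixingSubgroup × ↥D.K'.fixingSubgroup → ZMod p} (hf : IsLevK₂ S D.K' f) :
    ∃ F : IntermediateField ℚ (AlgebraicClosure ℚ), F.IsUnramifiedOutside S ∧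
      ∀ (j : ZMod p) (g₁ g₂ s₁ s₂ : ↥K.fixingSubgroup), (s₁ : GQ) ∈ F.fixingSubgroup →
        (s₂ : GQ) ∈ F.fixingSubgroup → D.ind₂ f (g₁ * s₁, g₂ * s₂) j = D.ind₂ f (g₁, g₂) j := by
  obtain ⟨F₁, hF₁, h⟩ := hf
  obtain ⟨F, hle, hF, hn⟩ := Fermat.Agent.S55.H48.exists_normal_level S (F₁ ⊔ D.K') (hF₁.sup hK')
  refine ⟨F, hF, fun j g₁ g₂ s₁ s₂ hs₁ hs₂ => ?_⟩
  have hb0 : ∀ s : ↥K.fixingSubgroup, (s : GQ) ∈ F.fixingSubgroup → b s = 0 := fun s hs =>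
    D.b_eq_zero (IntermediateField.fixingSubgroup_antitone (le_sup_right.trans hle) hs)
  have hκ : ∀ (s : ↥K.fixingSubgroup) (i : ZMod p), (s : GQ) ∈ F.fixingSubgroup →
      ((D.κ s i : ↥D.K'.fixingSubgroup) : GQ) ∈ F₁.fixingSubgroup := by
    intro s i hs
    rw [D.coe_κ_of_b (hb0 s hs)]
    exact IntermediateField.fixingSubgroup_antitone (le_sup_left.trans hle)
      (conj_mem_fix hn _ hs)
  simp only [ind₂]
  rw [D.κ_mul g₁ s₁ j, D.κ_mul g₂ s₂, H48.hom_mul D.hb g₁ s₁, hb0 s₁ hs₁, add_zero]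
  exact h _ _ _ _ (hκ _ _ hs₁) (hκ _ _ hs₂)

/-! ### Moments -/

/-- the zeroth moment. -/
def M0 {A : Type} (F : A → ZMod p → ZMod p) : A → ZMod p := fun t => ∑ j : ZMod p, F t j

/-- the first moment. -/
def M1 {A : Type} (F : A → ZMod p → ZMod p) : A → ZMod p := fun t => ∑ j : ZMod p, j * F t j

lemma sum_shift (φ : ZMod p → ZMod p) (c : ZMod p) :
    ∑ j : ZMod p, φ (j - c) = ∑ j : ZMod p, φ j :=
  Fintype.sum_equiv (Equiv.subRight c) _ _ (fun _ => rfl)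

lemma sum_shift_mul (φ : ZMod p → ZMod p) (c : ZMod p) :
    ∑ j : ZMod p, j * φ (j - c) = ∑ j : ZMod p, j * φ j + c * ∑ j : ZMod p, φ j := by
  rw [Finset.mul_sum, ← Finset.sum_add_distrib]
  refine Fintype.sum_equiv (Equiv.subRight c) _ _ (fun j => ?_)
  show j * φ (j - c) = (j - c) * φ (j - c) + c * φ (j - c)
  ring

/-- `M₀` of a twisted cocycle is a cocycle. -/
lemma tTwo_M0 {F : ↥K.fixingSubgroup × ↥K.fixingSubgroup → ZMod p → ZMod p}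
    (hF : ∀ (g₁ g₂ g₃ : ↥K.fixingSubgroup) (j : ZMod p),
      F (g₂, g₃) (j - b g₁) - F (g₁ * g₂, g₃) j + F (g₁, g₂ * g₃) j - F (g₁, g₂) j = 0) :
    tTwo (M0 F) = 0 := by
  funext t
  obtain ⟨g₁, g₂, g₃⟩ := t
  have h : ∑ j : ZMod p,
      (F (g₂, g₃) (j - b g₁) - F (g₁ * g₂, g₃) j + F (g₁, g₂ * g₃) j - F (g₁, g₂) j) = 0 :=
    Finset.sum_eq_zero (fun j _ => hF g₁ g₂ g₃ j)
  rw [Finset.sum_sub_distrib, Finset.sum_add_distrib, Finset.sum_sub_distrib,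
    sum_shift (F (g₂, g₃)) (b g₁)] at h
  simpa only [tTwo, M0, Pi.zero_apply] using h

/-- `d (M₁ F) = - b ∪ M₀ F` for a twisted cocycle `F`. -/
lemma tTwo_M1 {F : ↥K.fixingSubgroup × ↥K.fixingSubgroup → ZMod p → ZMod p}
    (hF : ∀ (g₁ g₂ g₃ : ↥K.fixingSubgroup) (j : ZMod p),
      F (g₂, g₃) (j - b g₁) - F (g₁ * g₂, g₃) j + F (g₁, g₂ * g₃) j - F (g₁, g₂) j = 0)
    (t : ↥K.fixingSubgroup × ↥K.fixingSubgroup × ↥K.fixingSubgroup) :
    tTwo (M1 F) t = - (b t.1 * M0 F (t.2.1, t.2.2)) := by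
  obtain ⟨g₁, g₂, g₃⟩ := t
  have h : ∑ j : ZMod p, j *
      (F (g₂, g₃) (j - b g₁) - F (g₁ * g₂, g₃) j + F (g₁, g₂ * g₃) j - F (g₁, g₂) j) = 0 :=
    Finset.sum_eq_zero (fun j _ => by rw [hF g₁ g₂ g₃ j, mul_zero])
  simp only [mul_sub, mul_add] at h
  rw [Finset.sum_sub_distrib, Finset.sum_add_distrib, Finset.sum_sub_distrib,
    sum_shift_mul (F (g₂, g₃)) (b g₁)] at h
  simp only [tTwo, M1, M0]
  linear_combination h

lemma levK₂_M0 {F : ↥K.fixingSubgroup × ↥K.fixingSubgroup → ZMod p → ZMod p}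
    (hF : ∃ F₀ : IntermediateField ℚ (AlgebraicClosure ℚ), F₀.IsUnramifiedOutside S ∧
      ∀ (j : ZMod p) (g₁ g₂ s₁ s₂ : ↥K.fixingSubgroup), (s₁ : GQ) ∈ F₀.fixingSubgroup →
        (s₂ : GQ) ∈ F₀.fixingSubgroup → F (g₁ * s₁, g₂ * s₂) j = F (g₁, g₂) j) :
    IsLevK₂ S K (M0 F) := by
  obtain ⟨F₀, hF₀, h⟩ := hF
  refine ⟨F₀, hF₀, fun g₁ g₂ s₁ s₂ h₁ h₂ => ?_⟩
  simp only [M0]
  exact Finset.sum_congr rfl (fun j _ => h j g₁ g₂ s₁ s₂ h₁ h₂)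

lemma levK₂_M1 {F : ↥K.fixingSubgroup × ↥K.fixingSubgroup → ZMod p → ZMod p}
    (hF : ∃ F₀ : IntermediateField ℚ (AlgebraicClosure ℚ), F₀.IsUnramifiedOutside S ∧
      ∀ (j : ZMod p) (g₁ g₂ s₁ s₂ : ↥K.fixingSubgroup), (s₁ : GQ) ∈ F₀.fixingSubgroup →
        (s₂ : GQ) ∈ F₀.fixingSubgroup → F (g₁ * s₁, g₂ * s₂) j = F (g₁, g₂) j) :
    IsLevK₂ S K (M1 F) := by
  obtain ⟨F₀, hF₀, h⟩ := hF
  refine ⟨F₀, hF₀, fun g₁ g₂ s₁ s₂ h₁ h₂ => ?_⟩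
  simp only [M1]
  exact Finset.sum_congr rfl (fun j _ => by rw [h j g₁ g₂ s₁ s₂ h₁ h₂])

/-- finite sums of level-constant functions are level constant. -/
lemma levL₁_sum (q : ↥S) (w : 𝔓.W q) (G : ZMod p → 𝔓.Γw q w → ZMod p)
    (hG : ∀ j, IsLevelConstant₁ (𝔓.rw q w) (G j)) (s : Finset (ZMod p)) :
    IsLevelConstant₁ (𝔓.rw q w) (fun h => ∑ j ∈ s, G j h) := by
  classical
  induction s using Finset.induction_on with
  | empty =>
    simp only [Finset.sum_empty]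
    exact isLevelConstant₁_const (𝔓.rw q w) (0 : ZMod p)
  | insert a s ha ih =>
    have e : (fun h => ∑ j ∈ insert a s, G j h) = G a + fun h => ∑ j ∈ s, G j h := by
      funext h
      rw [Finset.sum_insert ha]
      rfl
    rw [e]
    exact (hG a).add ih

end KbData

end Fermat.Agent.S55.Top

end
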