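/-
S55 (Poitou–Tate), package E4, PT-LIN part A: the counting argument as abstract linear algebra.

Setting: finite-dimensional spaces `H1` (global `H¹`), `P1` (local `H¹`), `H2` (global `H²`) with
a subspace `Sh2` (`Ш²`), spaces `C2` (`H²_c`), `C1` (`H¹_c`), maps
  `r1 : H1 → P1`, `δ1 : P1 → C2`, `π2 : C2 → H2`, `π1 : C1 → H1`,
pairings `ΦL : C2 × H1 → k`, `ΨR : H2 × C1 → k`, `λ11 : P1 × P1 → k`.
From isotropy of `r1 H1`, nondegeneracy of `λ11`, the injection `Ш¹ ↪ (Ш²)^*` (G1) and the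
dimension inequality `2 dim Ш² + dim P1 ≤ 2 dim H1` all pairings are nondegenerate.
Owner: helper48.
-/
import Mathlib.LinearAlgebra.Dual.Lemmas
import Mathlib.LinearAlgebra.FiniteDimensional.Lemmas
import Mathlib.LinearAlgebra.Isomorphisms

set_option autoImplicit false

open Module

namespace Fermat.Agent.S55.Top.H48

section orth

variable {k : Type*} [Field k] {P : Type*} [AddCommGroup P] [Module k P] [FiniteDimensional k P]
  (lam : P →ₗ[k] P →ₗ[k] k)

/-- A left-nondegenerate form on a finite-dimensional space induces a surjection onto the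
dual. -/
lemma surjective_of_left_nondeg (nd : ∀ b, (∀ b', lam b b' = 0) → b = 0) :
    Function.Surjective lam := by
  have hinj : Function.Injective lam := by
    rw [← LinearMap.ker_eq_bot, LinearMap.ker_eq_bot']
    intro b hb
    exact nd b (fun b' => by rw [hb]; rfl)
  have hdim : finrank k P = finrank k (P →ₗ[k] k) := (Subspace.dual_finrank_eq (K := k) (V := P)).symm
  exact (LinearMap.injective_iff_surjective_of_finrank_eq_finrank hdim).1 hinj

/-- A left-nondegenerate form on a finite-dimensional space is right-nondegenerate. -/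
lemma right_nondeg_of_left_nondeg (nd : ∀ b, (∀ b', lam b b' = 0) → b = 0) (b' : P)
    (h : ∀ b, lam b b' = 0) : b' = 0 := by
  have hs := surjective_of_left_nondeg lam nd
  rw [← Module.forall_dual_apply_eq_zero_iff k b']
  intro φ
  obtain ⟨b, rfl⟩ := hs φ
  exact h b

/-- The left orthogonal of a subspace. -/
def lorth (U : Submodule k P) : Submodule k P where
  carrier := {b | ∀ u ∈ U, lam b u = 0}
  add_mem' := by
    intro b b' hb hb' u hu
    rw [map_add, LinearMap.add_apply, hb u hu, hb' u hu, add_zero]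
  zero_mem' := by
    intro u _
    simp
  smul_mem' := by
    intro c b hb u hu
    rw [map_smul, LinearMap.smul_apply, hb u hu, smul_zero]

/-- `dim U^⊥ + dim U = dim P` for a left-nondegenerate form. -/
lemma finrank_lorth (nd : ∀ b, (∀ b', lam b b' = 0) → b = 0) (U : Submodule k P) :
    finrank k ↥(lorth lam U) + finrank k ↥U = finrank k P := by
  let R : P →ₗ[k] Module.Dual k ↥U := (Submodule.dualRestrict U).comp lam
  have hR : Function.Surjective R := by
    intro φ
    obtain ⟨ψ, hψ⟩ := Subspace.dualRestrict_surjective (W := U) φ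
    obtain ⟨b, hb⟩ := surjective_of_left_nondeg lam nd ψ
    refine ⟨b, ?_⟩
    show Submodule.dualRestrict U (lam b) = φ
    rw [hb, hψ]
  have hker : LinearMap.ker R = lorth lam U := by
    ext b
    rw [LinearMap.mem_ker]
    constructor
    · intro h u hu
      have := congrArg (fun f : Module.Dual k ↥U => f ⟨u, hu⟩) h
      exact this
    · intro h
      apply LinearMap.ext
      rintro ⟨u, hu⟩
      exact h u hu
  have h1 := LinearMap.finrank_range_add_finrank_ker R
  rw [LinearMap.range_eq_top.2 hR, finrank_top, Subspace.dual_finrank_eq, hker] at h1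
  omega

end orth

/-- **The counting argument.** -/
theorem pt_count {k : Type*} [Field k] {H1 P1 C2 H2 C1 : Type*}
    [AddCommGroup H1] [Module k H1] [FiniteDimensional k H1]
    [AddCommGroup P1] [Module k P1] [FiniteDimensional k P1]
    [AddCommGroup C2] [Module k C2]
    [AddCommGroup H2] [Module k H2] [FiniteDimensional k H2]
    [AddCommGroup C1] [Module k C1]
    (r1 : H1 →ₗ[k] P1) (δ1 : P1 →ₗ[k] C2) (π2 : C2 →ₗ[k] H2) (π1 : C1 →ₗ[k] H1)
    (Sh2 : Submodule k H2)
    (hπ2 : ∀ x, π2 x ∈ Sh2) (hSh2 : ∀ a ∈ Sh2, ∃ x, π2 x = a)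
    (ex_C2 : ∀ x, π2 x = 0 → ∃ b, δ1 b = x)
    (hδr : ∀ a, δ1 (r1 a) = 0)
    (ex_H1 : ∀ a, r1 a = 0 → ∃ y, π1 y = a)
    (ΦL : C2 →ₗ[k] H1 →ₗ[k] k) (ΨR : H2 →ₗ[k] C1 →ₗ[k] k) (lam : P1 →ₗ[k] P1 →ₗ[k] k)
    (c1 : ∀ b a, ΦL (δ1 b) a = lam b (r1 a))
    (adj : ∀ x y, ΦL x (π1 y) = ΨR (π2 x) y)
    (iso : ∀ a a', lam (r1 a) (r1 a') = 0)
    (nd11 : ∀ b, (∀ b', lam b b' = 0) → b = 0)
    (nd20 : ∀ a, (∀ y, ΨR a y = 0) → a ∈ Sh2)
    (G1 : ∀ a, r1 a = 0 → (∀ x, ΦL x a = 0) → a = 0)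
    (dim : 2 * finrank k ↥Sh2 + finrank k P1 ≤ 2 * finrank k H1) :
    (∀ a, (∀ x, ΦL x a = 0) → a = 0) ∧ (∀ x, (∀ a, ΦL x a = 0) → x = 0) ∧
      (∀ a, (∀ y, ΨR a y = 0) → a = 0) := by
  classical
  -- the isotropic subspace `U = r1 H1`
  set U : Submodule k P1 := LinearMap.range r1 with hU
  have hUle : U ≤ lorth lam U := by
    rintro _ ⟨a, rfl⟩ _ ⟨a', rfl⟩
    exact iso a a'
  have hperp := finrank_lorth lam nd11 U
  have hUle' : finrank k ↥U ≤ finrank k ↥(lorth lam U) := Submodule.finrank_mono hUle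
  have hrn : finrank k ↥U + finrank k ↥(LinearMap.ker r1) = finrank k H1 :=
    LinearMap.finrank_range_add_finrank_ker r1
  -- a linear section of `π2 : C2 → Sh2`
  let π2' : C2 →ₗ[k] ↥Sh2 := π2.codRestrict Sh2 hπ2
  have hπ2' : Function.Surjective π2' := by
    rintro ⟨a, ha⟩
    obtain ⟨x, hx⟩ := hSh2 a ha
    exact ⟨x, Subtype.ext hx⟩
  obtain ⟨s2, hs2⟩ := LinearMap.exists_rightInverse_of_surjective π2'
    (LinearMap.range_eq_top.2 hπ2')
  have hs2' : ∀ a : ↥Sh2, π2 (s2 a) = a.1 := by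
    intro a
    have := congrArg (fun f : ↥Sh2 →ₗ[k] ↥Sh2 => (f a).1) hs2
    exact this
  -- `Θ : Ш¹ → (Ш²)^*`
  let Θ : ↥(LinearMap.ker r1) →ₗ[k] Module.Dual k ↥Sh2 :=
    ((ΦL.comp s2).flip).comp (LinearMap.ker r1).subtype
  have hΘ : ∀ (a₁ : ↥(LinearMap.ker r1)) (a₂ : ↥Sh2), Θ a₁ a₂ = ΦL (s2 a₂) a₁.1 := fun _ _ => rfl
  have key : ∀ (a₁ : H1), r1 a₁ = 0 → ∀ x : C2, ΦL x a₁ = ΦL (s2 (π2' x)) a₁ := by
    intro a₁ ha₁ x
    have h0 : π2 (x - s2 (π2' x)) = 0 := by
      rw [map_sub, hs2' (π2' x)]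
      exact sub_self _
    obtain ⟨b, hb⟩ := ex_C2 _ h0
    have h1 : ΦL (x - s2 (π2' x)) a₁ = 0 := by
      rw [← hb, c1, ha₁, map_zero]
    rw [map_sub, LinearMap.sub_apply, sub_eq_zero] at h1
    exact h1
  have hΘinj : Function.Injective Θ := by
    rw [← LinearMap.ker_eq_bot, LinearMap.ker_eq_bot']
    rintro ⟨a₁, ha₁⟩ h
    have ha₁' : r1 a₁ = 0 := ha₁
    apply Subtype.ext
    refine G1 a₁ ha₁' (fun x => ?_)
    rw [key a₁ ha₁' x]
    have := congrArg (fun f : Module.Dual k ↥Sh2 => f (π2' x)) h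
    exact this
  have hle : finrank k ↥(LinearMap.ker r1) ≤ finrank k ↥Sh2 := by
    have := LinearMap.finrank_le_finrank_of_injective hΘinj
    rwa [Subspace.dual_finrank_eq] at this
  -- all dimensions are forced
  have hUP : 2 * finrank k ↥U = finrank k P1 := by omega
  have hn : finrank k ↥(LinearMap.ker r1) = finrank k ↥Sh2 := by omega
  have hΘsurj : Function.Surjective Θ := by
    have hdim : finrank k ↥(LinearMap.ker r1) = finrank k (Module.Dual k ↥Sh2) := by
      rw [Subspace.dual_finrank_eq, hn]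
    exact (LinearMap.injective_iff_surjective_of_finrank_eq_finrank hdim).1 hΘinj
  have hUeq : U = lorth lam U :=
    Submodule.eq_of_le_of_finrank_eq hUle (by omega)
  -- step 3: `Ш²` is nondegenerate
  have step3 : ∀ a ∈ Sh2, (∀ y, ΨR a y = 0) → a = 0 := by
    intro a ha h
    have h0 : (⟨a, ha⟩ : ↥Sh2) = 0 := by
      rw [← Module.forall_dual_apply_eq_zero_iff k]
      intro φ
      obtain ⟨⟨a₁, ha₁⟩, rfl⟩ := hΘsurj φ
      obtain ⟨y, hy⟩ := ex_H1 a₁ ha₁
      rw [hΘ]
      show ΦL (s2 ⟨a, ha⟩) a₁ = 0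
      rw [← hy, adj, hs2']
      exact h y
    exact congrArg Subtype.val h0
  refine ⟨?_, ?_, ?_⟩
  · intro a h
    have hr : r1 a = 0 := by
      apply right_nondeg_of_left_nondeg lam nd11
      intro b
      rw [← c1]
      exact h _
    exact G1 a hr h
  · intro x h
    have h1 : π2 x = 0 := by
      apply step3 _ (hπ2 x)
      intro y
      rw [← adj]
      exact h _
    obtain ⟨b, rfl⟩ := ex_C2 x h1
    have hb : b ∈ lorth lam U := by
      rintro _ ⟨a, rfl⟩
      rw [← c1]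
      exact h a
    rw [← hUeq] at hb
    obtain ⟨a₀, rfl⟩ := hb
    exact hδr a₀
  · intro a h
    exact step3 a (nd20 a h) h

end Fermat.Agent.S55.Top.H48
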