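/-
S55 (Poitou–Tate), package E4, PT-LIN part C: the `K`-level cohomology spaces, the maps of the
cone sequence and the pairings, as linear maps.
Owner: helper48.
-/
import Fermat.Agent.S55.Top.H48_PTCone

set_option autoImplicit false

open CategoryTheory Module groupCohomology ExtCitation

noncomputable section

namespace Fermat.Agent.S55.Top.H48

open Fermat.Agent.S55 Fermat.Agent.S55.Top

variable {k : Type} [Field k] {S : Finset Nat.Primes}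
  {K : IntermediateField ℚ (AlgebraicClosure ℚ)} (𝔓 : PlaceSys S K)

/-! ### Cone cocycles and coboundaries as submodules -/

lemma isZ2cK_add {x x' : 𝔓.C2 k} (hx : IsZ2cK 𝔓 x) (hx' : IsZ2cK 𝔓 x') : IsZ2cK 𝔓 (x + x') := by
  refine ⟨⟨?_, hx.1.2.add hx'.1.2⟩, fun q w => ⟨(hx.2 q w).1.add (hx'.2 q w).1, ?_⟩⟩
  · rw [Prod.fst_add, tTwo_add, hx.1.1, hx'.1.1, add_zero]
  · show 𝔓.res₂ q w (x.1 + x'.1) = tOne (x.2 q w + x'.2 q w)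
    rw [tOne_add, ← (hx.2 q w).2, ← (hx'.2 q w).2]
    rfl

lemma isZ2cK_smul (c : k) {x : 𝔓.C2 k} (hx : IsZ2cK 𝔓 x) : IsZ2cK 𝔓 (c • x) := by
  refine ⟨⟨?_, hx.1.2.comp (c • ·)⟩, fun q w => ⟨(hx.2 q w).1.comp (c • ·), ?_⟩⟩
  · rw [Prod.smul_fst, tTwo_smul, hx.1.1, smul_zero]
  · show 𝔓.res₂ q w (c • x.1) = tOne (c • x.2 q w)
    rw [tOne_smul, ← (hx.2 q w).2]
    rfl

lemma isZ2cK_zero : IsZ2cK 𝔓 (0 : 𝔓.C2 k) := by
  refine ⟨⟨tTwo_zero, isLevK₂_const (0 : k)⟩, fun q w =>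
    ⟨isLevelConstant₁_const (𝔓.rw q w) (0 : k), ?_⟩⟩
  show 𝔓.res₂ q w (0 : ↥K.fixingSubgroup × ↥K.fixingSubgroup → k) = tOne (0 : 𝔓.Γw q w → k)
  rw [tOne_zero]
  rfl

variable (k) in
/-- The `K`-level cone 2-cocycles. -/
def Z2cK : Submodule k (𝔓.C2 k) where
  carrier := {x | IsZ2cK 𝔓 x}
  add_mem' := fun hx hx' => isZ2cK_add 𝔓 hx hx'
  zero_mem' := isZ2cK_zero 𝔓
  smul_mem' := fun c _ hx => isZ2cK_smul 𝔓 c hx

lemma dCone1K_add (f f' : ↥K.fixingSubgroup → k) :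
    dCone1K 𝔓 (f + f') = dCone1K 𝔓 f + dCone1K 𝔓 f' := by
  refine Prod.ext (tOne_add f f') rfl

lemma dCone1K_smul (c : k) (f : ↥K.fixingSubgroup → k) :
    dCone1K 𝔓 (c • f) = c • dCone1K 𝔓 f := by
  refine Prod.ext (tOne_smul c f) rfl

lemma dCone1K_zero : dCone1K 𝔓 (0 : ↥K.fixingSubgroup → k) = 0 := by
  refine Prod.ext tOne_zero rfl

variable (k) in
/-- The `K`-level cone 2-coboundaries. -/
def B2cK : Submodule k (𝔓.C2 k) where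
  carrier := {x | IsB2cK 𝔓 x}
  add_mem' := by
    intro x x' hx hx'
    obtain ⟨f, hf, rfl⟩ := (isB2cK_iff 𝔓 x).1 hx
    obtain ⟨f', hf', rfl⟩ := (isB2cK_iff 𝔓 x').1 hx'
    exact (isB2cK_iff 𝔓 _).2 ⟨f + f', hf.add hf', (dCone1K_add 𝔓 f f').symm⟩
  zero_mem' := (isB2cK_iff 𝔓 _).2 ⟨0, isLevK₁_const (0 : k), (dCone1K_zero 𝔓).symm⟩
  smul_mem' := by
    intro c x hx
    obtain ⟨f, hf, rfl⟩ := (isB2cK_iff 𝔓 x).1 hx
    exact (isB2cK_iff 𝔓 _).2 ⟨c • f, hf.comp (c • ·), (dCone1K_smul 𝔓 c f).symm⟩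

variable (k) in
/-- `H²_c(K) = Z²_c / B²_c`. -/
abbrev Hc2 : Type := ↥(Z2cK k 𝔓) ⧸ (B2cK k 𝔓).comap (Z2cK k 𝔓).subtype

variable (k) in
/-- The `K`-level cone 1-cocycles. -/
def Z1cK : Submodule k (𝔓.C1 k) where
  carrier := {y | IsZ1cK 𝔓 y}
  add_mem' := by
    intro y y' hy hy'
    refine ⟨(Z1K k S K).add_mem hy.1 hy'.1, fun q w => ?_⟩
    show 𝔓.res₁ q w (y.1 + y'.1) = 0
    have h1 := hy.2 q w
    have h2 := hy'.2 q w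
    funext t
    have e1 := congrFun h1 t
    have e2 := congrFun h2 t
    simp only [PlaceSys.res₁, Pi.add_apply, Pi.zero_apply] at e1 e2 ⊢
    rw [e1, e2, add_zero]
  zero_mem' := ⟨(Z1K k S K).zero_mem, fun q w => rfl⟩
  smul_mem' := by
    intro c y hy
    refine ⟨(Z1K k S K).smul_mem c hy.1, fun q w => ?_⟩
    show 𝔓.res₁ q w (c • y.1) = 0
    funext t
    have e1 := congrFun (hy.2 q w) t
    simp only [PlaceSys.res₁, Pi.smul_apply, Pi.zero_apply] at e1 ⊢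
    rw [e1, smul_zero]

variable (k) in
/-- `⊕_w H¹(K_w, k)`. -/
abbrev P1 : Type := ∀ (q : ↥S) (w : 𝔓.W q), ↥(Z1w k 𝔓 q w)

/-! ### The maps of the cone sequence -/

variable (k) in
/-- `r1 : H¹_S(G_K) → ⊕_w H¹(K_w)`. -/
def r1 : ↥(Z1K k S K) →ₗ[k] P1 k 𝔓 where
  toFun b := fun q w => ⟨𝔓.res₁ q w b.1, by
    refine ⟨?_, levL₁_res₁ b.2.2 q w⟩
    rw [← res₂_tOne, b.2.1]
    rfl⟩
  map_add' _ _ := rfl
  map_smul' _ _ := rfl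

lemma r1_apply (b : ↥(Z1K k S K)) (q : ↥S) (w : 𝔓.W q) :
    ((r1 k 𝔓 b q w : ↥(Z1w k 𝔓 q w)) : 𝔓.Γw q w → k) = 𝔓.res₁ q w b.1 := rfl

variable (k) in
/-- The cone 2-cocycle `(0, g)` of a family of local homomorphisms. -/
def δ1c : P1 k 𝔓 →ₗ[k] ↥(Z2cK k 𝔓) where
  toFun g := ⟨(0, fun q w => (g q w).1), by
    refine ⟨⟨tTwo_zero, isLevK₂_const (0 : k)⟩, fun q w => ⟨(g q w).2.2, ?_⟩⟩
    show 𝔓.res₂ q w (0 : ↥K.fixingSubgroup × ↥K.fixingSubgroup → k) = tOne (g q w).1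
    rw [(g q w).2.1]
    rfl⟩
  map_add' g g' := by
    apply Subtype.ext
    refine Prod.ext ?_ rfl
    show (0 : ↥K.fixingSubgroup × ↥K.fixingSubgroup → k) = 0 + 0
    rw [add_zero]
  map_smul' c g := by
    apply Subtype.ext
    refine Prod.ext ?_ rfl
    show (0 : ↥K.fixingSubgroup × ↥K.fixingSubgroup → k) =
      c • (0 : ↥K.fixingSubgroup × ↥K.fixingSubgroup → k)
    rw [smul_zero]

lemma δ1c_coe (g : P1 k 𝔓) :
    ((δ1c k 𝔓 g : ↥(Z2cK k 𝔓)) : 𝔓.C2 k) = (0, fun q w => (g q w).1) := rfl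

variable (k) in
/-- `δ1 : ⊕_w H¹(K_w) → H²_c(K)`. -/
def δ1 : P1 k 𝔓 →ₗ[k] Hc2 k 𝔓 := (Submodule.mkQ _).comp (δ1c k 𝔓)

variable (k) in
/-- The global component of a cone 2-cocycle. -/
def π2c : ↥(Z2cK k 𝔓) →ₗ[k] ↥(Z2K k S K) where
  toFun x := ⟨x.1.1, x.2.1⟩
  map_add' _ _ := rfl
  map_smul' _ _ := rfl

variable (k) in
/-- `π2 : H²_c(K) → H²_S(G_K)`. -/
def π2 : Hc2 k 𝔓 →ₗ[k] H2K k S K :=
  Submodule.mapQ _ _ (π2c k 𝔓) (by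
    intro x hx
    obtain ⟨f, hf, h1, _⟩ := (hx : IsB2cK 𝔓 x.1)
    exact ⟨f, hf, h1.symm⟩)

lemma π2_mk (x : ↥(Z2cK k 𝔓)) :
    π2 k 𝔓 (Submodule.Quotient.mk x) = Submodule.Quotient.mk (π2c k 𝔓 x) := rfl

variable (k) in
/-- `π1 : Z¹_c(K) → H¹_S(G_K)`, the global component. -/
def π1 : ↥(Z1cK k 𝔓) →ₗ[k] ↥(Z1K k S K) where
  toFun y := ⟨y.1.1, y.2.1⟩
  map_add' _ _ := rfl
  map_smul' _ _ := rfl

/-! ### Exactness -/

lemma ex_C2 (x : Hc2 k 𝔓) (hx : π2 k 𝔓 x = 0) : ∃ g : P1 k 𝔓, δ1 k 𝔓 g = x := by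
  obtain ⟨x, rfl⟩ := Submodule.mkQ_surjective _ x
  rw [Submodule.mkQ_apply, π2_mk, Submodule.Quotient.mk_eq_zero] at hx
  obtain ⟨f, hf, hfx⟩ := (hx : IsB2K S K x.1.1)
  have hfx : tOne f = x.1.1 := hfx
  have hx2 := x.2.2
  refine ⟨fun q w => ⟨x.1.2 q w - 𝔓.res₁ q w f, ?_, ?_⟩, ?_⟩
  · rw [sub_eq_add_neg, tOne_add, ← (hx2 q w).2, ← hfx, res₂_tOne]
    have : tOne (-𝔓.res₁ q w f) = - tOne (𝔓.res₁ q w f) := by
      have := tOne_smul (-1 : k) (𝔓.res₁ q w f)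
      simpa using this
    rw [this, add_neg_cancel]
  · have h1 := (hx2 q w).1
    have h2 := levL₁_neg q w (levL₁_res₁ (𝔓 := 𝔓) hf q w)
    rw [sub_eq_add_neg]
    exact h1.add h2
  · show Submodule.Quotient.mk _ = Submodule.Quotient.mk x
    rw [Submodule.Quotient.eq]
    show IsB2cK 𝔓 (_ - x.1)
    rw [isB2cK_iff]
    refine ⟨-f, hf.comp (fun c => -c), ?_⟩
    refine Prod.ext ?_ (funext fun q => funext fun w => ?_)
    · show (0 : ↥K.fixingSubgroup × ↥K.fixingSubgroup → k) - x.1.1 = tOne (-f)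
      have : tOne (-f) = - tOne f := by
        have := tOne_smul (-1 : k) f
        simpa using this
      rw [this, hfx, zero_sub]
    · show (x.1.2 q w - 𝔓.res₁ q w f) - x.1.2 q w = 𝔓.res₁ q w (-f)
      funext t
      simp [PlaceSys.res₁]

lemma δ1_r1 (b : ↥(Z1K k S K)) : δ1 k 𝔓 (r1 k 𝔓 b) = 0 := by
  show Submodule.Quotient.mk _ = 0
  rw [Submodule.Quotient.mk_eq_zero]
  show IsB2cK 𝔓 _
  rw [isB2cK_iff]
  refine ⟨b.1, b.2.2, ?_⟩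
  refine Prod.ext ?_ rfl
  show (0 : ↥K.fixingSubgroup × ↥K.fixingSubgroup → k) = tOne b.1
  rw [b.2.1]

lemma ex_H1 (b : ↥(Z1K k S K)) (hb : r1 k 𝔓 b = 0) : ∃ y : ↥(Z1cK k 𝔓), π1 k 𝔓 y = b := by
  refine ⟨⟨(b.1, 0), b.2, fun q w => ?_⟩, Subtype.ext rfl⟩
  have := congrArg (fun g : P1 k 𝔓 => ((g q w : ↥(Z1w k 𝔓 q w)) : 𝔓.Γw q w → k)) hb
  exact this

end Fermat.Agent.S55.Top.H48

end
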