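/-
S55 (Poitou–Tate), package E4, PT-LIN part D: the pairings of the `K`-level cone as bilinear
maps on the cohomology spaces, and their formal properties (compatibility with the connecting
map, adjointness, isotropy).
Owner: helper48.
-/
import Fermat.Agent.S55.Top.H48_PTSpaces

set_option autoImplicit false

open CategoryTheory Module groupCohomology ExtCitation

noncomputable section

namespace Fermat.Agent.S55.Top.H48

open Fermat.Agent.S55 Fermat.Agent.S55.Top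

variable {k : Type} [Field k] {S : Finset Nat.Primes}
  {K : IntermediateField ℚ (AlgebraicClosure ℚ)} (𝔓 : PlaceSys S K)

/-! ### Cone 3-coboundaries as a submodule -/

lemma dCone2K_add (u u' : 𝔓.C2 k) : dCone2K 𝔓 (u + u') = dCone2K 𝔓 u + dCone2K 𝔓 u' := by
  refine Prod.ext (tTwo_add u.1 u'.1) (funext fun q => funext fun w => funext fun t => ?_)
  simp only [dCone2K, Prod.snd_add, Prod.fst_add, Pi.add_apply, Pi.sub_apply, PlaceSys.res₂,
    tOne]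
  ring

lemma dCone2K_smul (c : k) (u : 𝔓.C2 k) : dCone2K 𝔓 (c • u) = c • dCone2K 𝔓 u := by
  refine Prod.ext (tTwo_smul c u.1) (funext fun q => funext fun w => funext fun t => ?_)
  simp only [dCone2K, Prod.smul_snd, Prod.smul_fst, Pi.smul_apply, Pi.sub_apply, PlaceSys.res₂,
    tOne, smul_eq_mul]
  ring

lemma dCone2K_zero : dCone2K 𝔓 (0 : 𝔓.C2 k) = 0 := by
  have := dCone2K_smul 𝔓 (0 : k) (0 : 𝔓.C2 k)
  rwa [zero_smul, zero_smul] at this

variable (k) in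
/-- The `K`-level cone 3-coboundaries. -/
def B3cK : Submodule k (𝔓.C3 k) where
  carrier := {z | IsB3cK 𝔓 z}
  add_mem' := by
    intro z z' hz hz'
    obtain ⟨u, h1, h2, rfl⟩ := (isB3cK_iff 𝔓 z).1 hz
    obtain ⟨u', h1', h2', rfl⟩ := (isB3cK_iff 𝔓 z').1 hz'
    exact (isB3cK_iff 𝔓 _).2 ⟨u + u', h1.add h1', fun q w => (h2 q w).add (h2' q w),
      (dCone2K_add 𝔓 u u').symm⟩
  zero_mem' := (isB3cK_iff 𝔓 _).2 ⟨0, isLevK₂_const (0 : k),
    fun q w => isLevelConstant₁_const (𝔓.rw q w) (0 : k), (dCone2K_zero 𝔓).symm⟩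
  smul_mem' := by
    intro c z hz
    obtain ⟨u, h1, h2, rfl⟩ := (isB3cK_iff 𝔓 z).1 hz
    exact (isB3cK_iff 𝔓 _).2 ⟨c • u, h1.comp (c • ·), fun q w => (h2 q w).comp (c • ·),
      (dCone2K_smul 𝔓 c u).symm⟩

lemma mem_B3cK (z : 𝔓.C3 k) : z ∈ B3cK k 𝔓 ↔ IsB3cK 𝔓 z := Iff.rfl

variable {𝔓}

lemma tr_eq_of_sub (tr : TraceK 𝔓 k) {z z' : 𝔓.C3 k} (h : IsB3cK 𝔓 (z - z')) :
    tr.toFun z = tr.toFun z' := by
  have := tr.zero_of_isB3cK _ h
  rwa [map_sub, sub_eq_zero] at this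

/-! ### Bilinearity of the cups -/

lemma cupA2K_add_left (x x' : 𝔓.C2 k) (b : ↥K.fixingSubgroup → k) :
    cupA2K 𝔓 (x + x') b = cupA2K 𝔓 x b + cupA2K 𝔓 x' b := by
  refine Prod.ext (funext fun t => ?_) (funext fun q => funext fun w => funext fun t => ?_)
  · simp only [cupA2K, Prod.fst_add, Pi.add_apply]; ring
  · simp only [cupA2K, Prod.snd_add, Pi.add_apply]; ring

lemma cupA2K_smul_left (c : k) (x : 𝔓.C2 k) (b : ↥K.fixingSubgroup → k) :
    cupA2K 𝔓 (c • x) b = c • cupA2K 𝔓 x b := by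
  refine Prod.ext (funext fun t => ?_) (funext fun q => funext fun w => funext fun t => ?_)
  · simp only [cupA2K, Prod.smul_fst, Pi.smul_apply, smul_eq_mul]; ring
  · simp only [cupA2K, Prod.smul_snd, Pi.smul_apply, smul_eq_mul]; ring

lemma cupA2K_add_right (x : 𝔓.C2 k) (b b' : ↥K.fixingSubgroup → k) :
    cupA2K 𝔓 x (b + b') = cupA2K 𝔓 x b + cupA2K 𝔓 x b' := by
  refine Prod.ext (funext fun t => ?_) (funext fun q => funext fun w => funext fun t => ?_)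
  · simp only [cupA2K, Prod.fst_add, Pi.add_apply]; ring
  · simp only [cupA2K, Prod.snd_add, Pi.add_apply]; ring

lemma cupA2K_smul_right (c : k) (x : 𝔓.C2 k) (b : ↥K.fixingSubgroup → k) :
    cupA2K 𝔓 x (c • b) = c • cupA2K 𝔓 x b := by
  refine Prod.ext (funext fun t => ?_) (funext fun q => funext fun w => funext fun t => ?_)
  · simp only [cupA2K, Prod.smul_fst, Pi.smul_apply, smul_eq_mul]; ring
  · simp only [cupA2K, Prod.smul_snd, Pi.smul_apply, smul_eq_mul]; ring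

lemma cupB1K_add_left (a a' : ↥K.fixingSubgroup × ↥K.fixingSubgroup → k) (y : 𝔓.C1 k) :
    cupB1K 𝔓 (a + a') y = cupB1K 𝔓 a y + cupB1K 𝔓 a' y := by
  refine Prod.ext (funext fun t => ?_) (funext fun q => funext fun w => funext fun t => ?_)
  · simp only [cupB1K, Prod.fst_add, Pi.add_apply]; ring
  · simp only [cupB1K, Prod.snd_add, Pi.add_apply]; ring

lemma cupB1K_smul_left (c : k) (a : ↥K.fixingSubgroup × ↥K.fixingSubgroup → k) (y : 𝔓.C1 k) :
    cupB1K 𝔓 (c • a) y = c • cupB1K 𝔓 a y := by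
  refine Prod.ext (funext fun t => ?_) (funext fun q => funext fun w => funext fun t => ?_)
  · simp only [cupB1K, Prod.smul_fst, Pi.smul_apply, smul_eq_mul]; ring
  · simp only [cupB1K, Prod.smul_snd, Pi.smul_apply, smul_eq_mul]; ring

lemma cupB1K_add_right (a : ↥K.fixingSubgroup × ↥K.fixingSubgroup → k) (y y' : 𝔓.C1 k) :
    cupB1K 𝔓 a (y + y') = cupB1K 𝔓 a y + cupB1K 𝔓 a y' := by
  refine Prod.ext (funext fun t => ?_) (funext fun q => funext fun w => funext fun t => ?_)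
  · simp only [cupB1K, Prod.fst_add, Pi.add_apply]; ring
  · simp only [cupB1K, Prod.snd_add, Pi.add_apply]; ring

lemma cupB1K_smul_right (c : k) (a : ↥K.fixingSubgroup × ↥K.fixingSubgroup → k) (y : 𝔓.C1 k) :
    cupB1K 𝔓 a (c • y) = c • cupB1K 𝔓 a y := by
  refine Prod.ext (funext fun t => ?_) (funext fun q => funext fun w => funext fun t => ?_)
  · simp only [cupB1K, Prod.smul_fst, Pi.smul_apply, smul_eq_mul]; ring
  · simp only [cupB1K, Prod.smul_snd, Pi.smul_apply, smul_eq_mul]; ring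

/-- The cone 3-cochain `(0, g ∪ b)` of two families of local 1-cochains. -/
def cupLoc (g b : ∀ (q : ↥S) (w : 𝔓.W q), 𝔓.Γw q w → k) : 𝔓.C3 k :=
  (0, fun q w t => g q w t.1 * b q w t.2)

lemma cupLoc_add_left (g g' b : ∀ (q : ↥S) (w : 𝔓.W q), 𝔓.Γw q w → k) :
    cupLoc (g + g') b = cupLoc g b + cupLoc g' b := by
  refine Prod.ext ?_ (funext fun q => funext fun w => funext fun t => ?_)
  · show (0 : ↥K.fixingSubgroup × ↥K.fixingSubgroup × ↥K.fixingSubgroup → k) = 0 + 0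
    rw [add_zero]
  · simp only [cupLoc, Prod.snd_add, Pi.add_apply]; ring

lemma cupLoc_smul_left (c : k) (g b : ∀ (q : ↥S) (w : 𝔓.W q), 𝔓.Γw q w → k) :
    cupLoc (c • g) b = c • cupLoc g b := by
  refine Prod.ext ?_ (funext fun q => funext fun w => funext fun t => ?_)
  · show (0 : ↥K.fixingSubgroup × ↥K.fixingSubgroup × ↥K.fixingSubgroup → k) =
      c • (0 : ↥K.fixingSubgroup × ↥K.fixingSubgroup × ↥K.fixingSubgroup → k)
    rw [smul_zero]
  · simp only [cupLoc, Prod.smul_snd, Pi.smul_apply, smul_eq_mul]; ring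

lemma cupLoc_add_right (g b b' : ∀ (q : ↥S) (w : 𝔓.W q), 𝔓.Γw q w → k) :
    cupLoc g (b + b') = cupLoc g b + cupLoc g b' := by
  refine Prod.ext ?_ (funext fun q => funext fun w => funext fun t => ?_)
  · show (0 : ↥K.fixingSubgroup × ↥K.fixingSubgroup × ↥K.fixingSubgroup → k) = 0 + 0
    rw [add_zero]
  · simp only [cupLoc, Prod.snd_add, Pi.add_apply]; ring

lemma cupLoc_smul_right (c : k) (g b : ∀ (q : ↥S) (w : 𝔓.W q), 𝔓.Γw q w → k) :
    cupLoc g (c • b) = c • cupLoc g b := by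
  refine Prod.ext ?_ (funext fun q => funext fun w => funext fun t => ?_)
  · show (0 : ↥K.fixingSubgroup × ↥K.fixingSubgroup × ↥K.fixingSubgroup → k) =
      c • (0 : ↥K.fixingSubgroup × ↥K.fixingSubgroup × ↥K.fixingSubgroup → k)
    rw [smul_zero]
  · simp only [cupLoc, Prod.smul_snd, Pi.smul_apply, smul_eq_mul]; ring

/-! ### The pairings -/

variable (tr : TraceK 𝔓 k)

/-- The pairing `Z²_c × Z¹ → k`. -/
def ΦL0 : ↥(Z2cK k 𝔓) →ₗ[k] ↥(Z1K k S K) →ₗ[k] k :=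
  LinearMap.mk₂ k (fun x b => tr.toFun (cupA2K 𝔓 x.1 b.1))
    (fun x x' b => by
      show tr.toFun (cupA2K 𝔓 (x.1 + x'.1) b.1) = _
      rw [cupA2K_add_left, map_add])
    (fun c x b => by
      show tr.toFun (cupA2K 𝔓 (c • x.1) b.1) = _
      rw [cupA2K_smul_left, map_smul])
    (fun x b b' => by
      show tr.toFun (cupA2K 𝔓 x.1 (b.1 + b'.1)) = _
      rw [cupA2K_add_right, map_add])
    (fun c x b => by
      show tr.toFun (cupA2K 𝔓 x.1 (c • b.1)) = _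
      rw [cupA2K_smul_right, map_smul])

lemma ΦL0_apply (x : ↥(Z2cK k 𝔓)) (b : ↥(Z1K k S K)) :
    ΦL0 tr x b = tr.toFun (cupA2K 𝔓 x.1 b.1) := rfl

/-- The pairing `H²_c × H¹ → k`. -/
def ΦL : Hc2 k 𝔓 →ₗ[k] ↥(Z1K k S K) →ₗ[k] k :=
  Submodule.liftQ _ (ΦL0 tr) (by
    intro x hx
    obtain ⟨f, hf, hxf⟩ := (isB2cK_iff 𝔓 x.1).1 hx
    rw [LinearMap.mem_ker]
    apply LinearMap.ext
    intro b
    rw [ΦL0_apply, hxf, cupA2K_dCone1K 𝔓 f b.1 b.2.1]
    exact tr.zero_of_isB3cK _ (isB3cK_dCone2K 𝔓 (levK₂_mul hf b.2.2)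
      (fun q w => isLevelConstant₁_const (𝔓.rw q w) (0 : k))))

lemma ΦL_mk (x : ↥(Z2cK k 𝔓)) (b : ↥(Z1K k S K)) :
    ΦL tr (Submodule.Quotient.mk x) b = tr.toFun (cupA2K 𝔓 x.1 b.1) := rfl

/-- The pairing `Z² × Z¹_c → k`. -/
def ΨR0 : ↥(Z2K k S K) →ₗ[k] ↥(Z1cK k 𝔓) →ₗ[k] k :=
  LinearMap.mk₂ k (fun a y => tr.toFun (cupB1K 𝔓 a.1 y.1))
    (fun a a' y => by
      show tr.toFun (cupB1K 𝔓 (a.1 + a'.1) y.1) = _
      rw [cupB1K_add_left, map_add])
    (fun c a y => by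
      show tr.toFun (cupB1K 𝔓 (c • a.1) y.1) = _
      rw [cupB1K_smul_left, map_smul])
    (fun a y y' => by
      show tr.toFun (cupB1K 𝔓 a.1 (y.1 + y'.1)) = _
      rw [cupB1K_add_right, map_add])
    (fun c a y => by
      show tr.toFun (cupB1K 𝔓 a.1 (c • y.1)) = _
      rw [cupB1K_smul_right, map_smul])

lemma ΨR0_apply (a : ↥(Z2K k S K)) (y : ↥(Z1cK k 𝔓)) :
    ΨR0 tr a y = tr.toFun (cupB1K 𝔓 a.1 y.1) := rfl

/-- The pairing `H² × Z¹_c → k`. -/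
def ΨR : H2K k S K →ₗ[k] ↥(Z1cK k 𝔓) →ₗ[k] k :=
  Submodule.liftQ _ (ΨR0 tr) (by
    intro a ha
    obtain ⟨f, hf, hfa⟩ := (ha : IsB2K S K a.1)
    have hfa : tOne f = a.1 := hfa
    rw [LinearMap.mem_ker]
    apply LinearMap.ext
    intro y
    rw [ΨR0_apply, ← hfa, cupB1K_tOne 𝔓 f y.1 y.2]
    refine tr.zero_of_isB3cK _ (isB3cK_dCone2K 𝔓 (levK₂_mul hf y.2.1.2) (fun q w => ?_))
    exact levL₁_neg q w (levL₁_smul q w (y.1.2 q w) (levL₁_res₁ hf q w)))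

lemma ΨR_mk (a : ↥(Z2K k S K)) (y : ↥(Z1cK k 𝔓)) :
    ΨR tr (Submodule.Quotient.mk a) y = tr.toFun (cupB1K 𝔓 a.1 y.1) := rfl

/-- The local pairing `⊕ H¹(K_w) × ⊕ H¹(K_w) → k`. -/
def lam : P1 k 𝔓 →ₗ[k] P1 k 𝔓 →ₗ[k] k :=
  LinearMap.mk₂ k (fun g b => tr.toFun (cupLoc (fun q w => (g q w).1) (fun q w => (b q w).1)))
    (fun g g' b => by
      show tr.toFun (cupLoc ((fun q w => (g q w).1) + (fun q w => (g' q w).1)) _) = _
      rw [cupLoc_add_left, map_add])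
    (fun c g b => by
      show tr.toFun (cupLoc (c • (fun q w => (g q w).1)) _) = _
      rw [cupLoc_smul_left, map_smul])
    (fun g b b' => by
      show tr.toFun (cupLoc _ ((fun q w => (b q w).1) + (fun q w => (b' q w).1))) = _
      rw [cupLoc_add_right, map_add])
    (fun c g b => by
      show tr.toFun (cupLoc _ (c • (fun q w => (b q w).1))) = _
      rw [cupLoc_smul_right, map_smul])

lemma lam_apply (g b : P1 k 𝔓) :
    lam tr g b = tr.toFun (cupLoc (fun q w => (g q w).1) (fun q w => (b q w).1)) := rfl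

/-! ### Formal properties -/

/-- Compatibility with the connecting map. -/
lemma ΦL_δ1 (g : P1 k 𝔓) (a : ↥(Z1K k S K)) : ΦL tr (δ1 k 𝔓 g) a = lam tr g (r1 k 𝔓 a) := by
  show tr.toFun (cupA2K 𝔓 (δ1c k 𝔓 g).1 a.1) = _
  rw [lam_apply]
  congr 1
  refine Prod.ext (funext fun t => ?_) rfl
  show (0 : k) * _ = 0
  rw [zero_mul]

/-- Adjointness. -/
lemma ΦL_π1 (x : Hc2 k 𝔓) (y : ↥(Z1cK k 𝔓)) : ΦL tr x (π1 k 𝔓 y) = ΨR tr (π2 k 𝔓 x) y := by
  obtain ⟨x, rfl⟩ := Submodule.mkQ_surjective _ x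
  show tr.toFun (cupA2K 𝔓 x.1 y.1.1) = tr.toFun (cupB1K 𝔓 x.1.1 y.1)
  apply tr_eq_of_sub
  rw [cupA2K_sub_cupB1K 𝔓 x.1 y.1 x.2 y.2]
  refine isB3cK_dCone2K 𝔓 (isLevK₂_const (0 : k)) (fun q w => ?_)
  exact levL₁_smul q w (y.1.2 q w) (x.2.2 q w).1

/-- Isotropy of the image of the global classes. -/
lemma lam_r1_r1 (a a' : ↥(Z1K k S K)) : lam tr (r1 k 𝔓 a) (r1 k 𝔓 a') = 0 := by
  rw [lam_apply]
  have := isotropy 𝔓 a.1 a'.1 a.2.1 a'.2.1
  refine tr.zero_of_isB3cK _ ?_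
  show IsB3cK 𝔓 ((0, fun q w t => 𝔓.res₁ q w a.1 t.1 * 𝔓.res₁ q w a'.1 t.2) : 𝔓.C3 k)
  rw [this]
  exact isB3cK_dCone2K 𝔓 (levK₂_mul a.2.2 a'.2.2)
    (fun q w => isLevelConstant₁_const (𝔓.rw q w) (0 : k))

end Fermat.Agent.S55.Top.H48

end
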