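/-
S55 (Poitou–Tate), package E4, PT-LIN part E: the arithmetic inputs in the form needed by the
counting argument: `α³mono`, nondegeneracy of the local pairing, the restriction map
`H²_S(G_K) → ⊕ H²(K_w)` and the bound for `Ш²`.
Owner: helper48.
-/
import Fermat.Agent.S55.Top.H48_PTPair
import Fermat.Agent.S55.Top.H48_PTCount

set_option autoImplicit false

open CategoryTheory Module groupCohomology ExtCitation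

noncomputable section

namespace Fermat.Agent.S55.Top.H48

open Fermat.Agent.S55 Fermat.Agent.S55.Top

variable {k : Type} [Field k] {S : Finset Nat.Primes}
  {K : IntermediateField ℚ (AlgebraicClosure ℚ)} {𝔓 : PlaceSys S K}

/-! ### Families of local cocycles -/

/-- `(0, c)` is a cone 3-cocycle for a family `c` of local 2-cocycles. -/
lemma isZ3cK_loc (c : ∀ (q : ↥S) (w : 𝔓.W q), 𝔓.Γw q w × 𝔓.Γw q w → k)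
    (hc : ∀ q w, c q w ∈ Z2w k 𝔓 q w) : IsZ3cK 𝔓 ((0, c) : 𝔓.C3 k) := by
  refine ⟨⟨tThree_zero, isLevK₃_const (0 : k)⟩, fun q w => ⟨(hc q w).2, ?_⟩⟩
  show 𝔓.res₃ q w (0 : ↥K.fixingSubgroup × ↥K.fixingSubgroup × ↥K.fixingSubgroup → k) =
    tTwo (c q w)
  rw [(hc q w).1]
  rfl

lemma cupA3K_eq_smul (x : 𝔓.C3 k) (m : k) : cupA3K 𝔓 x m = m • x := by
  refine Prod.ext (funext fun t => ?_) (funext fun q => funext fun w => funext fun t => ?_)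
  · simp only [cupA3K, Prod.smul_fst, Pi.smul_apply, smul_eq_mul]; ring
  · simp only [cupA3K, Prod.smul_snd, Pi.smul_apply, smul_eq_mul]; ring

/-- The cup product of two local homomorphisms is a local 2-cocycle. -/
lemma cup_mem_Z2w (q : ↥S) (w : 𝔓.W q) {g b : 𝔓.Γw q w → k} (hg : g ∈ Z1w k 𝔓 q w)
    (hb : b ∈ Z1w k 𝔓 q w) :
    (fun t : 𝔓.Γw q w × 𝔓.Γw q w => g t.1 * b t.2) ∈ Z2w k 𝔓 q w := by
  refine ⟨?_, levL₂_mul q w hg.2 hb.2⟩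
  funext t
  obtain ⟨t₁, t₂, t₃⟩ := t
  simp only [tTwo, Pi.zero_apply]
  rw [hom_mul hg.1 t₁ t₂, hom_mul hb.1 t₂ t₃]
  ring

lemma pair_loc_add (c c' : ∀ (q : ↥S) (w : 𝔓.W q), 𝔓.Γw q w × 𝔓.Γw q w → k) :
    ((0, c + c') : 𝔓.C3 k) = (0, c) + (0, c') := by
  refine Prod.ext ?_ rfl
  show (0 : ↥K.fixingSubgroup × ↥K.fixingSubgroup × ↥K.fixingSubgroup → k) = 0 + 0
  rw [add_zero]

lemma pair_loc_smul (α : k) (c : ∀ (q : ↥S) (w : 𝔓.W q), 𝔓.Γw q w × 𝔓.Γw q w → k) :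
    ((0, α • c) : 𝔓.C3 k) = α • ((0, c) : 𝔓.C3 k) := by
  refine Prod.ext ?_ rfl
  show (0 : ↥K.fixingSubgroup × ↥K.fixingSubgroup × ↥K.fixingSubgroup → k) =
    α • (0 : ↥K.fixingSubgroup × ↥K.fixingSubgroup × ↥K.fixingSubgroup → k)
  rw [smul_zero]

/-! ### `α³mono` -/

/-- Every cone 3-cocycle is cohomologous to a family of local 2-cocycles, if `H³_S(G_K) = 0`. -/
lemma exists_loc_rep
    (hI2 : ∀ F : ↥K.fixingSubgroup × ↥K.fixingSubgroup × ↥K.fixingSubgroup → k,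
      tThree F = 0 → IsLevK₃ S K F →
      ∃ f : ↥K.fixingSubgroup × ↥K.fixingSubgroup → k, IsLevK₂ S K f ∧ tTwo f = F)
    (x : 𝔓.C3 k) (hx : IsZ3cK 𝔓 x) :
    ∃ c : ∀ (q : ↥S) (w : 𝔓.W q), 𝔓.Γw q w × 𝔓.Γw q w → k,
      (∀ q w, c q w ∈ Z2w k 𝔓 q w) ∧ IsB3cK 𝔓 (x - (0, c)) := by
  obtain ⟨f, hf, hfx⟩ := hI2 x.1 hx.1.1 hx.1.2
  refine ⟨fun q w => x.2 q w - 𝔓.res₂ q w f, fun q w => ?_, ?_⟩
  · refine ⟨?_, ?_⟩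
    · show tTwo (x.2 q w - 𝔓.res₂ q w f) = 0
      rw [sub_eq_add_neg, tTwo_add, ← (hx.2 q w).2, ← hfx, res₃_tTwo]
      have : tTwo (-𝔓.res₂ q w f) = - tTwo (𝔓.res₂ q w f) := by
        have := tTwo_smul (-1 : k) (𝔓.res₂ q w f)
        simpa using this
      rw [this, add_neg_cancel]
    · show IsLevelConstant₂ (𝔓.rw q w) (x.2 q w - 𝔓.res₂ q w f)
      rw [sub_eq_add_neg]
      exact (hx.2 q w).1.add ((levL₂_res₂ hf q w).comp (fun c => -c))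
  · rw [isB3cK_iff]
    refine ⟨(f, 0), hf, fun q w => isLevelConstant₁_const (𝔓.rw q w) (0 : k), ?_⟩
    refine Prod.ext ?_ (funext fun q => funext fun w => funext fun t => ?_)
    · show x.1 - 0 = tTwo f
      rw [sub_zero, hfx]
    · simp only [dCone2K, Prod.snd_sub, Pi.sub_apply, tOne_zero, Pi.zero_apply, sub_zero]
      ring

/-- **`α³mono` at `K`-level** from `H³_S(G_K) = 0`, `dim coker(H²_S → ⊕ H²(K_w)) ≤ 1` and the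
nontriviality of the trace. -/
theorem alphaThreeMonoK_of (tr : TraceK 𝔓 k)
    (hI2 : ∀ F : ↥K.fixingSubgroup × ↥K.fixingSubgroup × ↥K.fixingSubgroup → k,
      tThree F = 0 → IsLevK₃ S K F →
      ∃ f : ↥K.fixingSubgroup × ↥K.fixingSubgroup → k, IsLevK₂ S K f ∧ tTwo f = F)
    (hI4a : ∀ c c' : ∀ (q : ↥S) (w : 𝔓.W q), 𝔓.Γw q w × 𝔓.Γw q w → k,
      (∀ q w, c q w ∈ Z2w k 𝔓 q w) → (∀ q w, c' q w ∈ Z2w k 𝔓 q w) →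
      ∃ α β : k, (α ≠ 0 ∨ β ≠ 0) ∧
        IsB3cK 𝔓 ((0, fun q w => α • c q w + β • c' q w) : 𝔓.C3 k))
    (hne : ∃ x : 𝔓.C3 k, IsZ3cK 𝔓 x ∧ tr.toFun x ≠ 0) : AlphaThreeMonoK tr := by
  intro x hx hx0
  obtain ⟨x₀, hx₀, hne⟩ := hne
  obtain ⟨c, hc, hxc⟩ := exists_loc_rep hI2 x hx
  obtain ⟨c₀, hc₀, hxc₀⟩ := exists_loc_rep hI2 x₀ hx₀
  have h1 : tr.toFun ((0, c) : 𝔓.C3 k) = 0 := by
    rw [← tr_eq_of_sub tr hxc]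
    have := hx0 1
    rwa [cupA3K_eq_smul, one_smul] at this
  have h2 : tr.toFun ((0, c₀) : 𝔓.C3 k) ≠ 0 := by
    rwa [← tr_eq_of_sub tr hxc₀]
  obtain ⟨α, β, hαβ, hB⟩ := hI4a c c₀ hc hc₀
  have e : ((0, fun q w => α • c q w + β • c₀ q w) : 𝔓.C3 k) =
      α • ((0, c) : 𝔓.C3 k) + β • ((0, c₀) : 𝔓.C3 k) := by
    rw [← pair_loc_smul, ← pair_loc_smul, ← pair_loc_add]
    rfl
  have h3 := tr.zero_of_isB3cK _ hB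
  rw [e, map_add, map_smul, map_smul, h1, smul_zero, zero_add, smul_eq_mul] at h3
  have hβ : β = 0 := (mul_eq_zero.1 h3).resolve_right h2
  have hα : α ≠ 0 := by
    rcases hαβ with h | h
    · exact h
    · exact absurd hβ h
  rw [e, hβ, zero_smul, add_zero] at hB
  have h4 : IsB3cK 𝔓 ((0, c) : 𝔓.C3 k) := by
    have := (B3cK k 𝔓).smul_mem α⁻¹ hB
    rwa [smul_smul, inv_mul_cancel₀ hα, one_smul] at this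
  have h5 := (B3cK k 𝔓).add_mem hxc h4
  rwa [sub_add_cancel] at h5

/-- A family of local 2-cocycles of trace zero is a cone coboundary. -/
lemma isB3cK_loc_of_tr_eq_zero (tr : TraceK 𝔓 k) (hα3 : AlphaThreeMonoK tr)
    (c : ∀ (q : ↥S) (w : 𝔓.W q), 𝔓.Γw q w × 𝔓.Γw q w → k)
    (hc : ∀ q w, c q w ∈ Z2w k 𝔓 q w) (h : tr.toFun ((0, c) : 𝔓.C3 k) = 0) :
    IsB3cK 𝔓 ((0, c) : 𝔓.C3 k) := by
  refine hα3 _ (isZ3cK_loc c hc) (fun m => ?_)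
  rw [cupA3K_eq_smul, map_smul, h, smul_zero]

/-! ### Nondegeneracy of the local pairing -/

theorem lam_nondeg (tr : TraceK 𝔓 k) (hα3 : AlphaThreeMonoK tr)
    (hI1c : ∀ (q : ↥S) (w : 𝔓.W q) (g : 𝔓.Γw q w → k), g ∈ Z1w k 𝔓 q w → g ≠ 0 →
      ∃ b : 𝔓.Γw q w → k, b ∈ Z1w k 𝔓 q w ∧
        (fun t : 𝔓.Γw q w × 𝔓.Γw q w => g t.1 * b t.2) ∉ B2w k 𝔓 q w)
    (hI4b : ∀ c : ∀ (q : ↥S) (w : 𝔓.W q), 𝔓.Γw q w × 𝔓.Γw q w → k,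
      (∀ q w, c q w ∈ Z2w k 𝔓 q w) → IsB3cK 𝔓 ((0, c) : 𝔓.C3 k) →
      ∀ (q₀ : ↥S) (w₀ : 𝔓.W q₀),
        (∀ (q : ↥S) (w : 𝔓.W q), (⟨q, w⟩ : Σ q : ↥S, 𝔓.W q) ≠ ⟨q₀, w₀⟩ → c q w = 0) →
        c q₀ w₀ ∈ B2w k 𝔓 q₀ w₀)
    (g : P1 k 𝔓) (hg : ∀ b, lam tr g b = 0) : g = 0 := by
  classical
  by_contra hne
  have : ∃ (q₀ : ↥S) (w₀ : 𝔓.W q₀), g q₀ w₀ ≠ 0 := by
    by_contra h
    simp only [not_exists, not_not] at h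
    exact hne (funext fun q => funext fun w => h q w)
  obtain ⟨q₀, w₀, hgw⟩ := this
  have hgw' : (g q₀ w₀).1 ≠ 0 := fun h => hgw (Subtype.ext h)
  obtain ⟨b, hb, hnb⟩ := hI1c q₀ w₀ (g q₀ w₀).1 (g q₀ w₀).2 hgw'
  let B : ∀ i : (Σ q : ↥S, 𝔓.W q), ↥(Z1w k 𝔓 i.1 i.2) :=
    Function.update (fun _ => 0) (⟨q₀, w₀⟩ : Σ q : ↥S, 𝔓.W q) ⟨b, hb⟩
  let b' : P1 k 𝔓 := fun q w => B ⟨q, w⟩
  have hb'0 : b' q₀ w₀ = ⟨b, hb⟩ := Function.update_self _ _ _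
  have hb'1 : ∀ (q : ↥S) (w : 𝔓.W q), (⟨q, w⟩ : Σ q : ↥S, 𝔓.W q) ≠ ⟨q₀, w₀⟩ → b' q w = 0 :=
    fun q w h => Function.update_of_ne h _ _
  let c : ∀ (q : ↥S) (w : 𝔓.W q), 𝔓.Γw q w × 𝔓.Γw q w → k :=
    fun q w t => (g q w).1 t.1 * (b' q w).1 t.2
  have hc : ∀ q w, c q w ∈ Z2w k 𝔓 q w := fun q w => cup_mem_Z2w q w (g q w).2 (b' q w).2
  have h0 : tr.toFun ((0, c) : 𝔓.C3 k) = 0 := hg b'
  have hB := isB3cK_loc_of_tr_eq_zero tr hα3 c hc h0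
  have h1 := hI4b c hc hB q₀ w₀ (fun q w h => by
    funext t
    show (g q w).1 t.1 * (b' q w).1 t.2 = 0
    rw [hb'1 q w h]
    show (g q w).1 t.1 * (0 : 𝔓.Γw q w → k) t.2 = 0
    rw [Pi.zero_apply, mul_zero])
  apply hnb
  have e : c q₀ w₀ = fun t : 𝔓.Γw q₀ w₀ × 𝔓.Γw q₀ w₀ => (g q₀ w₀).1 t.1 * b t.2 := by
    funext t
    show (g q₀ w₀).1 t.1 * (b' q₀ w₀).1 t.2 = _
    rw [hb'0]
  rw [← e]
  exact h1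

/-! ### The restriction map `H²_S(G_K) → ⊕ H²(K_w)` -/

variable (k 𝔓) in
/-- `⊕_w H²(K_w, k)`. -/
abbrev P2 : Type := ∀ (q : ↥S) (w : 𝔓.W q), H2w k 𝔓 q w

lemma res₂_mem_Z2w {a : ↥K.fixingSubgroup × ↥K.fixingSubgroup → k} (ha : IsZ2K S K a) (q : ↥S)
    (w : 𝔓.W q) : 𝔓.res₂ q w a ∈ Z2w k 𝔓 q w := by
  refine ⟨?_, levL₂_res₂ ha.2 q w⟩
  rw [← res₃_tTwo, ha.1]
  rfl

variable (k 𝔓) in
/-- Restriction of global 2-cocycles to the local group at `w`. -/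
def r2wc (q : ↥S) (w : 𝔓.W q) : ↥(Z2K k S K) →ₗ[k] ↥(Z2w k 𝔓 q w) where
  toFun a := ⟨𝔓.res₂ q w a.1, res₂_mem_Z2w a.2 q w⟩
  map_add' _ _ := rfl
  map_smul' _ _ := rfl

lemma r2wc_B2K (q : ↥S) (w : 𝔓.W q) :
    (B2K k S K).comap (Z2K k S K).subtype ≤
      ((B2w k 𝔓 q w).comap (Z2w k 𝔓 q w).subtype).comap (r2wc k 𝔓 q w) := by
  intro a ha
  obtain ⟨f, hf, hfa⟩ := (ha : IsB2K S K a.1)
  have hfa : tOne f = a.1 := hfa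
  show 𝔓.res₂ q w a.1 ∈ B2w k 𝔓 q w
  refine ⟨𝔓.res₁ q w f, levL₁_res₁ hf q w, ?_⟩
  rw [← res₂_tOne, hfa]

variable (k 𝔓) in
/-- `H²_S(G_K) → H²(K_w)`. -/
def r2w (q : ↥S) (w : 𝔓.W q) : H2K k S K →ₗ[k] H2w k 𝔓 q w :=
  Submodule.mapQ _ _ (r2wc k 𝔓 q w) (r2wc_B2K q w)

lemma r2w_mk (q : ↥S) (w : 𝔓.W q) (a : ↥(Z2K k S K)) :
    r2w k 𝔓 q w (Submodule.Quotient.mk a) = Submodule.Quotient.mk (r2wc k 𝔓 q w a) := rfl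

lemma r2w_mk_eq_zero_iff (q : ↥S) (w : 𝔓.W q) (a : ↥(Z2K k S K)) :
    r2w k 𝔓 q w (Submodule.Quotient.mk a) = 0 ↔ 𝔓.res₂ q w a.1 ∈ B2w k 𝔓 q w := by
  rw [r2w_mk, Submodule.Quotient.mk_eq_zero]
  rfl

variable (k 𝔓) in
/-- `r2 : H²_S(G_K) → ⊕_w H²(K_w)`. -/
def r2 : H2K k S K →ₗ[k] P2 k 𝔓 :=
  LinearMap.pi (fun q => LinearMap.pi (fun w => r2w k 𝔓 q w))

lemma r2_apply (a : H2K k S K) (q : ↥S) (w : 𝔓.W q) : r2 k 𝔓 a q w = r2w k 𝔓 q w a := rfl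

lemma r2_mk_eq_zero_iff (a : ↥(Z2K k S K)) :
    r2 k 𝔓 (Submodule.Quotient.mk a) = 0 ↔
      ∀ (q : ↥S) (w : 𝔓.W q), 𝔓.res₂ q w a.1 ∈ B2w k 𝔓 q w := by
  constructor
  · intro h q w
    rw [← r2w_mk_eq_zero_iff, ← r2_apply, h]
    rfl
  · intro h
    funext q w
    rw [r2_apply]
    exact (r2w_mk_eq_zero_iff q w a).2 (h q w)

/-- `Ш² ⊇ im(H²_c)`. -/
lemma π2_mem_ker_r2 (x : Hc2 k 𝔓) : π2 k 𝔓 x ∈ LinearMap.ker (r2 k 𝔓) := by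
  obtain ⟨x, rfl⟩ := Submodule.mkQ_surjective _ x
  rw [LinearMap.mem_ker, Submodule.mkQ_apply, π2_mk, r2_mk_eq_zero_iff]
  intro q w
  exact ⟨x.1.2 q w, (x.2.2 q w).1, (x.2.2 q w).2.symm⟩

/-- `Ш² ⊆ im(H²_c)`. -/
lemma exists_π2_of_mem_ker_r2 (a : H2K k S K) (ha : a ∈ LinearMap.ker (r2 k 𝔓)) :
    ∃ x : Hc2 k 𝔓, π2 k 𝔓 x = a := by
  obtain ⟨a, rfl⟩ := Submodule.mkQ_surjective _ a
  rw [LinearMap.mem_ker, Submodule.mkQ_apply, r2_mk_eq_zero_iff] at ha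
  choose g hg1 hg2 using ha
  exact ⟨Submodule.Quotient.mk ⟨(a.1, g), a.2, fun q w => ⟨hg1 q w, (hg2 q w).symm⟩⟩, rfl⟩

/-- A class of `H²_S(G_K)` orthogonal to all cone 1-cocycles is locally trivial. -/
theorem mem_ker_r2_of_orth (tr : TraceK 𝔓 k) (hα3 : AlphaThreeMonoK tr)
    (hI4b : ∀ c : ∀ (q : ↥S) (w : 𝔓.W q), 𝔓.Γw q w × 𝔓.Γw q w → k,
      (∀ q w, c q w ∈ Z2w k 𝔓 q w) → IsB3cK 𝔓 ((0, c) : 𝔓.C3 k) →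
      ∀ (q₀ : ↥S) (w₀ : 𝔓.W q₀),
        (∀ (q : ↥S) (w : 𝔓.W q), (⟨q, w⟩ : Σ q : ↥S, 𝔓.W q) ≠ ⟨q₀, w₀⟩ → c q w = 0) →
        c q₀ w₀ ∈ B2w k 𝔓 q₀ w₀)
    (a : H2K k S K) (ha : ∀ y, ΨR tr a y = 0) : a ∈ LinearMap.ker (r2 k 𝔓) := by
  classical
  obtain ⟨a, rfl⟩ := Submodule.mkQ_surjective _ a
  rw [LinearMap.mem_ker, Submodule.mkQ_apply, r2_mk_eq_zero_iff]
  intro q₀ w₀
  let m : ∀ (q : ↥S), 𝔓.W q → k :=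
    fun q w => if (⟨q, w⟩ : Σ q : ↥S, 𝔓.W q) = ⟨q₀, w₀⟩ then 1 else 0
  have hm0 : m q₀ w₀ = 1 := if_pos rfl
  have hm1 : ∀ (q : ↥S) (w : 𝔓.W q), (⟨q, w⟩ : Σ q : ↥S, 𝔓.W q) ≠ ⟨q₀, w₀⟩ → m q w = 0 :=
    fun q w h => if_neg h
  let y : ↥(Z1cK k 𝔓) := ⟨(0, m), (Z1K k S K).zero_mem, fun q w => rfl⟩
  let c : ∀ (q : ↥S) (w : 𝔓.W q), 𝔓.Γw q w × 𝔓.Γw q w → k :=
    fun q w => m q w • 𝔓.res₂ q w a.1
  have hc : ∀ q w, c q w ∈ Z2w k 𝔓 q w :=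
    fun q w => (Z2w k 𝔓 q w).smul_mem _ (res₂_mem_Z2w a.2 q w)
  have e : cupB1K 𝔓 a.1 y.1 = ((0, c) : 𝔓.C3 k) := by
    refine Prod.ext (funext fun t => ?_) (funext fun q => funext fun w => funext fun t => ?_)
    · show a.1 (t.1, t.2.1) * (0 : ↥K.fixingSubgroup → k) t.2.2 = 0
      rw [Pi.zero_apply, mul_zero]
    · show a.1 (𝔓.ρw q w t.1, 𝔓.ρw q w t.2) * m q w = m q w * 𝔓.res₂ q w a.1 t
      rw [mul_comm]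
      rfl
  have h0 : tr.toFun ((0, c) : 𝔓.C3 k) = 0 := by
    rw [← e]
    exact ha y
  have hB := isB3cK_loc_of_tr_eq_zero tr hα3 c hc h0
  have h1 := hI4b c hc hB q₀ w₀ (fun q w h => by
    show m q w • 𝔓.res₂ q w a.1 = 0
    rw [hm1 q w h, zero_smul])
  have e2 : c q₀ w₀ = 𝔓.res₂ q₀ w₀ a.1 := by
    show m q₀ w₀ • 𝔓.res₂ q₀ w₀ a.1 = _
    rw [hm0, one_smul]
  rw [← e2]
  exact h1

end Fermat.Agent.S55.Top.H48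

end
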