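/-
S55 (Poitou–Tate), package E4: **`Stmt_G1K` from `Stmt_I2` and `Stmt_I4`**.
Owner: helper49.

`b : G_K → 𝔽_p` nonzero, of level `S`, locally trivial; `tr` a `K`-level trace with
`tr z₀ ≠ 0`.  By `I2` for `K`, `z₀ ≡ (0, c₀)`.  Let `K' = K(b)` with the relative place system
(`Top/G1K_Place.lean`).  `I4` (a) for `K'`, applied to the families `c₀` placed at the places
`(w, 0)`, resp. `(w, 1)`, gives `(α, β) ≠ 0` and a `K'`-level cone 2-cochain `(f', g')` with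
`d (f', g') = (0, α c₀ δ₀ + β c₀ δ₁)`.  Its relative induction `Y` is a `K`-level cone 2-cochain
with values in the functions on `ℤ/p`, and the moments `u₀ = M₀ Y`, `u₁ = M₁ Y` satisfy
`d u₀ = (α + β) (0, c₀)` (so `α + β = 0` and `u₀` is a cone 2-cocycle) and
`d u₁ + b ∪ u₀ = β (0, c₀)`.  Hence `tr (b ∪ u₀) = β tr z₀ ≠ 0`, and `u₀ ∪ b ≡ b ∪ u₀`.
-/
import Fermat.Agent.S55.Top.G1K_Ind
import Fermat.Agent.S55.Top.H48_PTLoc

set_option autoImplicit false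
set_option linter.unusedSectionVars false
set_option linter.unusedSimpArgs false

open CategoryTheory Module groupCohomology ExtCitation

noncomputable section

namespace Fermat.Agent.S55.Top

open Fermat.Agent.S55

attribute [local instance] locAct

namespace KbData

variable {p : ℕ} [Fact p.Prime] {S : Finset Nat.Primes}
  {K : IntermediateField ℚ (AlgebraicClosure ℚ)} {𝔓 : PlaceSys S K}
  {b : ↥K.fixingSubgroup → ZMod p} (D : KbData 𝔓 b)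

/-- the family `c₀`, placed at the places `(w, i)` of `K'`. -/
def cfam (c₀ : ∀ (q : ↥S) (w : 𝔓.W q), 𝔓.Γw q w × 𝔓.Γw q w → ZMod p) (i : ZMod p) :
    ∀ (q : ↥S) (w : D.placeSys.W q), D.placeSys.Γw q w × D.placeSys.Γw q w → ZMod p :=
  fun q w t => if w.2 = i then c₀ q w.1 (D.eOut q w.1 w.2 t.1, D.eOut q w.1 w.2 t.2) else 0

lemma cfam_mkW (c₀ : ∀ (q : ↥S) (w : 𝔓.W q), 𝔓.Γw q w × 𝔓.Γw q w → ZMod p) (i : ZMod p)
    (q : ↥S) (w : 𝔓.W q) (j : ZMod p) (h₁ h₂ : 𝔓.Γw q w) :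
    D.cfam c₀ i q (D.mkW q w j) (D.eIn q w j h₁, D.eIn q w j h₂) =
      if j = i then c₀ q w (h₁, h₂) else 0 := by
  show (if j = i then c₀ q w (D.eOut q w j (D.eIn q w j h₁), D.eOut q w j (D.eIn q w j h₂))
    else 0) = _
  rw [D.eOut_eIn, D.eOut_eIn]

lemma cfam_mem (c₀ : ∀ (q : ↥S) (w : 𝔓.W q), 𝔓.Γw q w × 𝔓.Γw q w → ZMod p)
    (hc₀ : ∀ q w, c₀ q w ∈ Z2w (ZMod p) 𝔓 q w) (i : ZMod p) (q : ↥S) (w : D.placeSys.W q) :
    D.cfam c₀ i q w ∈ Z2w (ZMod p) D.placeSys q w := by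
  obtain ⟨w, j⟩ := w
  by_cases hj : j = i
  · have e : D.cfam c₀ i q (w, j) =
        fun t => c₀ q w (D.eOut q w j t.1, D.eOut q w j t.2) := by
      funext t
      show (if j = i then _ else 0) = _
      rw [if_pos hj]
    rw [e]
    refine ⟨?_, D.levL₂_eOut q w j (hc₀ q w).2⟩
    funext t
    have h := congrFun (hc₀ q w).1 (D.eOut q w j t.1, D.eOut q w j t.2.1, D.eOut q w j t.2.2)
    simp only [tTwo, Pi.zero_apply] at h ⊢
    rw [map_mul, map_mul]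
    exact h
  · have e : D.cfam c₀ i q (w, j) = 0 := by
      funext t
      show (if j = i then _ else 0) = _
      rw [if_neg hj]
      rfl
    rw [e]
    exact (Z2w (ZMod p) D.placeSys q (w, j)).zero_mem

lemma sum_delta (i : ZMod p) (φ : ZMod p → ZMod p) :
    ∑ j : ZMod p, (if j = i then φ j else 0) = φ i := by
  rw [Finset.sum_ite_eq' Finset.univ i φ, if_pos (Finset.mem_univ i)]

/-- the two moments of the induced cone 2-cochain. -/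
def u0 (f : ↥D.K'.fixingSubgroup × ↥D.K'.fixingSubgroup → ZMod p)
    (g : ∀ (q : ↥S) (w : D.placeSys.W q), D.placeSys.Γw q w → ZMod p) : 𝔓.C2 (ZMod p) :=
  (M0 (D.ind₂ f), fun q w h => ∑ j : ZMod p, g q (D.mkW q w j) (D.eIn q w j h))

/-- the first moment of the induced cone 2-cochain. -/
def u1 (f : ↥D.K'.fixingSubgroup × ↥D.K'.fixingSubgroup → ZMod p)
    (g : ∀ (q : ↥S) (w : D.placeSys.W q), D.placeSys.Γw q w → ZMod p) : 𝔓.C2 (ZMod p) :=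
  (M1 (D.ind₂ f), fun q w h => ∑ j : ZMod p, j * g q (D.mkW q w j) (D.eIn q w j h))

section core

variable (c₀ : ∀ (q : ↥S) (w : 𝔓.W q), 𝔓.Γw q w × 𝔓.Γw q w → ZMod p) (α β : ZMod p)
  (f : ↥D.K'.fixingSubgroup × ↥D.K'.fixingSubgroup → ZMod p)
  (g : ∀ (q : ↥S) (w : D.placeSys.W q), D.placeSys.Γw q w → ZMod p)

/-- the pointwise identity at the place `(w, j)`. -/
lemma pointwise
    (h2 : ∀ (q : ↥S) (w : D.placeSys.W q),
      (α • D.cfam c₀ 0 q w + β • D.cfam c₀ 1 q w) = D.placeSys.res₂ q w f - tOne (g q w))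
    (q : ↥S) (w : 𝔓.W q) (j : ZMod p) (h₁ h₂ : 𝔓.Γw q w) :
    α * (if j = 0 then c₀ q w (h₁, h₂) else 0) + β * (if j = 1 then c₀ q w (h₁, h₂) else 0) =
      D.ind₂ f (𝔓.ρw q w h₁, 𝔓.ρw q w h₂) j -
        (g q (D.mkW q w j) (D.eIn q w j h₂) - g q (D.mkW q w j) (D.eIn q w j (h₁ * h₂)) +
          g q (D.mkW q w j) (D.eIn q w j h₁)) := by
  have h := congrFun (h2 q (D.mkW q w j)) (D.eIn q w j h₁, D.eIn q w j h₂)
  simp only [Pi.add_apply, Pi.smul_apply, smul_eq_mul, Pi.sub_apply, tOne] at h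
  rw [D.cfam_mkW, D.cfam_mkW, ← D.ind₂_res, ← map_mul] at h
  exact h

/-- `d u₀ = (α + β) (0, c₀)`, local part. -/
lemma u0_loc
    (h2 : ∀ (q : ↥S) (w : D.placeSys.W q),
      (α • D.cfam c₀ 0 q w + β • D.cfam c₀ 1 q w) = D.placeSys.res₂ q w f - tOne (g q w))
    (q : ↥S) (w : 𝔓.W q) (t : 𝔓.Γw q w × 𝔓.Γw q w) :
    𝔓.res₂ q w (D.u0 f g).1 t - tOne ((D.u0 f g).2 q w) t = (α + β) * c₀ q w t := by
  obtain ⟨h₁, h₂⟩ := t
  have h : ∑ j : ZMod p, (α * (if j = 0 then c₀ q w (h₁, h₂) else 0) +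
      β * (if j = 1 then c₀ q w (h₁, h₂) else 0)) =
      ∑ j : ZMod p, (D.ind₂ f (𝔓.ρw q w h₁, 𝔓.ρw q w h₂) j -
        (g q (D.mkW q w j) (D.eIn q w j h₂) - g q (D.mkW q w j) (D.eIn q w j (h₁ * h₂)) +
          g q (D.mkW q w j) (D.eIn q w j h₁))) :=
    Finset.sum_congr rfl (fun j _ => D.pointwise c₀ α β f g h2 q w j h₁ h₂)
  simp only [mul_ite, mul_zero, Finset.sum_add_distrib, Finset.sum_sub_distrib, sum_delta] at h
  simp only [u0, M0, PlaceSys.res₂, tOne]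
  linear_combination -h

/-- `d u₁ + b ∪ u₀ = β (0, c₀)`, local part. -/
lemma u1_loc
    (h2 : ∀ (q : ↥S) (w : D.placeSys.W q),
      (α • D.cfam c₀ 0 q w + β • D.cfam c₀ 1 q w) = D.placeSys.res₂ q w f - tOne (g q w))
    (q : ↥S) (w : 𝔓.W q) (t : 𝔓.Γw q w × 𝔓.Γw q w) :
    𝔓.res₂ q w (D.u1 f g).1 t - tOne ((D.u1 f g).2 q w) t = β * c₀ q w t := by
  obtain ⟨h₁, h₂⟩ := t
  have h : ∑ j : ZMod p, j * (α * (if j = 0 then c₀ q w (h₁, h₂) else 0) +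
      β * (if j = 1 then c₀ q w (h₁, h₂) else 0)) =
      ∑ j : ZMod p, j * (D.ind₂ f (𝔓.ρw q w h₁, 𝔓.ρw q w h₂) j -
        (g q (D.mkW q w j) (D.eIn q w j h₂) - g q (D.mkW q w j) (D.eIn q w j (h₁ * h₂)) +
          g q (D.mkW q w j) (D.eIn q w j h₁))) :=
    Finset.sum_congr rfl (fun j _ => by rw [D.pointwise c₀ α β f g h2 q w j h₁ h₂])
  simp only [mul_add, mul_sub, mul_ite, mul_zero, Finset.sum_add_distrib,
    Finset.sum_sub_distrib, sum_delta] at h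
  simp only [u1, M1, PlaceSys.res₂, tOne]
  linear_combination -h

end core

/-- **The core of `G1K`**: from the `K'`-level primitive to the `K`-level cone 2-cocycle. -/
theorem g1k_core (hbL : IsLevK₁ S K b) (hK' : D.K'.IsUnramifiedOutside S)
    (tr : TraceK 𝔓 (ZMod p))
    (c₀ : ∀ (q : ↥S) (w : 𝔓.W q), 𝔓.Γw q w × 𝔓.Γw q w → ZMod p)
    (htr : tr.toFun ((0, c₀) : 𝔓.C3 (ZMod p)) ≠ 0)
    (α β : ZMod p) (hαβ : α ≠ 0 ∨ β ≠ 0)
    (hB : IsB3cK D.placeSys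
      ((0, fun q w => α • D.cfam c₀ 0 q w + β • D.cfam c₀ 1 q w) : D.placeSys.C3 (ZMod p))) :
    ∃ x : 𝔓.C2 (ZMod p), IsZ2cK 𝔓 x ∧ tr.toFun (cupA2K 𝔓 x b) ≠ 0 := by
  obtain ⟨f, g, hf, hg, h1, h2⟩ := hB
  have hcoc : tTwo f = 0 := h1.symm
  have hb : IsZ1K S K b := ⟨D.hb, hbL⟩
  -- the twisted cocycle condition, and levels
  have hF := fun g₁ g₂ g₃ j => D.ind₂_coc hcoc g₁ g₂ g₃ j
  have hlev := D.ind₂_lev hK' hf
  have hl0 : ∀ (q : ↥S) (w : 𝔓.W q), IsLevelConstant₁ (𝔓.rw q w) ((D.u0 f g).2 q w) :=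
    fun q w => levL₁_sum q w (fun j h => g q (D.mkW q w j) (D.eIn q w j h))
      (fun j => D.levL₁_eIn q w j (hg q (D.mkW q w j))) Finset.univ
  have hl1 : ∀ (q : ↥S) (w : 𝔓.W q), IsLevelConstant₁ (𝔓.rw q w) ((D.u1 f g).2 q w) :=
    fun q w => levL₁_sum q w (fun j h => j * g q (D.mkW q w j) (D.eIn q w j h))
      (fun j => (D.levL₁_eIn q w j (hg q (D.mkW q w j))).comp (fun c => j * c)) Finset.univ
  -- `d u₀ = (α + β) (0, c₀)`
  have hd0 : H48.dCone2K 𝔓 (D.u0 f g) = (α + β) • ((0, c₀) : 𝔓.C3 (ZMod p)) := by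
    refine Prod.ext ?_ (funext fun q => funext fun w => funext fun t => ?_)
    · show tTwo (M0 (D.ind₂ f)) = (α + β) •
        (0 : ↥K.fixingSubgroup × ↥K.fixingSubgroup × ↥K.fixingSubgroup → ZMod p)
      rw [tTwo_M0 hF, smul_zero]
    · exact D.u0_loc c₀ α β f g h2 q w t
  have hB0 : IsB3cK 𝔓 (H48.dCone2K 𝔓 (D.u0 f g)) :=
    H48.isB3cK_dCone2K 𝔓 (levK₂_M0 hlev) hl0
  have h0 := tr.zero_of_isB3cK _ hB0
  rw [hd0, map_smul, smul_eq_mul] at h0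
  have hαβ0 : α + β = 0 := (mul_eq_zero.1 h0).resolve_right htr
  have hβ : β ≠ 0 := by
    rcases hαβ with h | h
    · intro hβ
      rw [hβ, add_zero] at hαβ0
      exact h hαβ0
    · exact h
  -- `u₀` is a cone 2-cocycle
  have hu0 : IsZ2cK 𝔓 (D.u0 f g) := by
    refine ⟨⟨tTwo_M0 hF, levK₂_M0 hlev⟩, fun q w => ⟨hl0 q w, ?_⟩⟩
    funext t
    have := D.u0_loc c₀ α β f g h2 q w t
    rw [hαβ0, zero_mul, sub_eq_zero] at this
    exact this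
  -- `b ∪ u₀ = - d u₁ + β (0, c₀)`
  have hd1 : cupB2K 𝔓 b (D.u0 f g) =
      - H48.dCone2K 𝔓 (D.u1 f g) + β • ((0, c₀) : 𝔓.C3 (ZMod p)) := by
    refine Prod.ext (funext fun t => ?_) (funext fun q => funext fun w => funext fun t => ?_)
    · show b t.1 * M0 (D.ind₂ f) (t.2.1, t.2.2) =
        - tTwo (M1 (D.ind₂ f)) t + β • (0 : ZMod p)
      rw [tTwo_M1 hF t, smul_zero]
      ring
    · show - (b (𝔓.ρw q w t.1) * (D.u0 f g).2 q w t.2) =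
        - (𝔓.res₂ q w (D.u1 f g).1 t - tOne ((D.u1 f g).2 q w) t) + β * c₀ q w t
      rw [D.u1_loc c₀ α β f g h2 q w t, D.hloc q w t.1]
      ring
  have hB1 : IsB3cK 𝔓 (H48.dCone2K 𝔓 (D.u1 f g)) :=
    H48.isB3cK_dCone2K 𝔓 (levK₂_M1 hlev) hl1
  have htr1 : tr.toFun (cupB2K 𝔓 b (D.u0 f g)) ≠ 0 := by
    rw [hd1, map_add, map_neg, tr.zero_of_isB3cK _ hB1, neg_zero, zero_add, map_smul,
      smul_eq_mul]
    exact mul_ne_zero hβ htr
  -- graded commutativity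
  refine ⟨D.u0 f g, hu0, ?_⟩
  have hcomm : tr.toFun (cupA2K 𝔓 (D.u0 f g) b) = tr.toFun (cupB2K 𝔓 b (D.u0 f g)) := by
    apply H48.tr_eq_of_sub
    rw [H48.cupA2K_sub_cupB2K 𝔓 b hb.1 (D.u0 f g) hu0]
    refine H48.isB3cK_dCone2K 𝔓 (H48.levK₂_hom_mul hb hu0.1.2) (fun q w => ?_)
    exact H48.levL₁_mul q w (H48.levL₁_res₁ hb.2 q w) (hu0.2 q w).1
  rw [hcomm]
  exact htr1

end KbData

/-- **`Stmt_G1K` follows from `Stmt_I2` and `Stmt_I4`** (only `I2` for `K` and `I4` (a) for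
`K(b)` are used). -/
theorem stmt_G1K_of (hI2 : Stmt_I2) (hI4 : Stmt_I4) : Stmt_G1K := by
  intro p _ hp2 S hpS K hK 𝔓 tr hne b hb hloc hb0
  obtain ⟨z₀, hz₀, htr⟩ := hne
  -- step 1: `z₀ ≡ (0, c₀)`
  obtain ⟨c₀, hc₀, hzc⟩ := H48.exists_loc_rep (hI2 p hp2 S hpS K hK) z₀ hz₀
  have htr0 : tr.toFun ((0, c₀) : 𝔓.C3 (ZMod p)) ≠ 0 := by
    rwa [← H48.tr_eq_of_sub tr hzc]
  -- step 2: `h₀` with `b h₀ = 1`
  obtain ⟨g, hg⟩ : ∃ g, b g ≠ 0 := by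
    by_contra h
    exact hb0 (funext fun x => by_contra fun hx => h ⟨x, hx⟩)
  have hh0 : b (g ^ ((b g)⁻¹).val) = 1 := by
    rw [g1k_hom_pow hb.1, ZMod.natCast_zmod_val, inv_mul_cancel₀ hg]
  obtain ⟨hfix, hun, -⟩ := Kb_spec hK.1 hb
  let D : KbData 𝔓 b :=
    { K' := Kb b hb.1
      hb := hb.1
      hmem := fun g => by rw [hfix]; exact Iff.rfl
      h0 := g ^ ((b g)⁻¹).val
      hh0 := hh0
      hloc := fun q w h => congrFun (hloc q w) h }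
  have hK' : IsBaseField S p D.K' := Kb_isBaseField hK hb
  -- step 3: `I4` (a) for `K'`
  obtain ⟨α, β, hαβ, hB⟩ := (hI4 p hp2 S hpS D.K' hK' D.placeSys).1 (D.cfam c₀ 0) (D.cfam c₀ 1)
    (fun q w => D.cfam_mem c₀ hc₀ 0 q w) (fun q w => D.cfam_mem c₀ hc₀ 1 q w)
  exact D.g1k_core hb.2 hK'.1 tr c₀ htr0 α β hαβ hB

end Fermat.Agent.S55.Top

end
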