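/-
S55 (Poitou–Tate), package E4, PT-LIN part F: the dimension count
`2 dim Ш² + dim ⊕ H¹(K_w) ≤ 2 dim H¹_S(G_K)`.
Owner: helper48.
-/
import Fermat.Agent.S55.Top.H48_PTLoc

set_option autoImplicit false

open CategoryTheory Module groupCohomology ExtCitation

noncomputable section

namespace Fermat.Agent.S55.Top.H48

open Fermat.Agent.S55 Fermat.Agent.S55.Top

/-- If any two vectors are linearly dependent modulo `W` then `W` has codimension `≤ 1`. -/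
lemma finrank_le_of_dep {k : Type*} [Field k] {P : Type*} [AddCommGroup P] [Module k P]
    [FiniteDimensional k P] (W : Submodule k P)
    (h : ∀ e e' : P, ∃ α β : k, (α ≠ 0 ∨ β ≠ 0) ∧ α • e + β • e' ∈ W) :
    finrank k P ≤ finrank k ↥W + 1 := by
  have h1 : finrank k (P ⧸ W) ≤ 1 := by
    rw [finrank_le_one_iff]
    by_cases hz : ∀ v : P ⧸ W, v = 0
    · exact ⟨0, fun w => ⟨0, by rw [hz w, smul_zero]⟩⟩
    · simp only [not_forall] at hz
      obtain ⟨v, hv⟩ := hz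
      refine ⟨v, fun w => ?_⟩
      obtain ⟨v', rfl⟩ := Submodule.mkQ_surjective W v
      obtain ⟨w', rfl⟩ := Submodule.mkQ_surjective W w
      obtain ⟨α, β, hαβ, hmem⟩ := h v' w'
      have e : α • W.mkQ v' + β • W.mkQ w' = 0 := by
        rw [← map_smul, ← map_smul, ← map_add]
        exact (Submodule.Quotient.mk_eq_zero W).2 hmem
      have hβ : β ≠ 0 := by
        rintro rfl
        rw [zero_smul, add_zero] at e
        rcases hαβ with hα | hβ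
        · exact hv ((smul_eq_zero.1 e).resolve_left hα)
        · exact hβ rfl
      refine ⟨-(β⁻¹ * α), ?_⟩
      have e2 : β • W.mkQ w' = -(α • W.mkQ v') := eq_neg_of_add_eq_zero_right e
      have e3 : W.mkQ w' = β⁻¹ • (β • W.mkQ w') := by
        rw [smul_smul, inv_mul_cancel₀ hβ, one_smul]
      rw [e3, e2, smul_neg, smul_smul, neg_smul]
  have h2 := Submodule.finrank_quotient_add_finrank W
  omega

variable {k : Type} [Field k] {S : Finset Nat.Primes}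
  {K : IntermediateField ℚ (AlgebraicClosure ℚ)} {𝔓 : PlaceSys S K}

/-- `⊕ H¹(K_w)` is finite-dimensional. -/
lemma finite_P1 (h : ∀ (q : ↥S) (w : 𝔓.W q), Module.Finite k ↥(Z1w k 𝔓 q w)) :
    Module.Finite k (P1 k 𝔓) := by
  letI : ∀ q : ↥S, Fintype (𝔓.W q) := 𝔓.fin
  haveI := h
  exact inferInstance

/-- `dim ⊕ H¹(K_w) = Σ dim H¹(K_w)`. -/
lemma finrank_P1 (h : ∀ (q : ↥S) (w : 𝔓.W q), Module.Finite k ↥(Z1w k 𝔓 q w)) :
    finrank k (P1 k 𝔓) = sumH1w k 𝔓 := by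
  letI : ∀ q : ↥S, Fintype (𝔓.W q) := 𝔓.fin
  haveI := h
  rw [Module.finrank_pi_fintype]
  unfold sumH1w
  refine Finset.sum_congr rfl (fun q _ => ?_)
  rw [Module.finrank_pi_fintype]

lemma finite_H2w (h : ∀ (q : ↥S) (w : 𝔓.W q), finrank k (H2w k 𝔓 q w) = 1) (q : ↥S)
    (w : 𝔓.W q) : Module.Finite k (H2w k 𝔓 q w) :=
  Module.finite_of_finrank_pos (by rw [h q w]; exact Nat.one_pos)

/-- A coordinate on the line `H²(K_w)`. -/
def coordw (h : ∀ (q : ↥S) (w : 𝔓.W q), finrank k (H2w k 𝔓 q w) = 1) (q : ↥S) (w : 𝔓.W q) :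
    H2w k 𝔓 q w ≃ₗ[k] k :=
  haveI := finite_H2w h q w
  LinearEquiv.ofFinrankEq _ _ (by rw [h q w, Module.finrank_self])

/-- The restriction map `H²_S(G_K) → ⊕_w H²(K_w)` in coordinates. -/
def r2k (h : ∀ (q : ↥S) (w : 𝔓.W q), finrank k (H2w k 𝔓 q w) = 1) :
    H2K k S K →ₗ[k] (∀ q : ↥S, 𝔓.W q → k) :=
  LinearMap.pi (fun q => LinearMap.pi (fun w => (coordw h q w).toLinearMap ∘ₗ r2w k 𝔓 q w))

lemma r2k_apply (h : ∀ (q : ↥S) (w : 𝔓.W q), finrank k (H2w k 𝔓 q w) = 1) (a : H2K k S K)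
    (q : ↥S) (w : 𝔓.W q) : r2k h a q w = coordw h q w (r2w k 𝔓 q w a) := rfl

lemma ker_r2k (h : ∀ (q : ↥S) (w : 𝔓.W q), finrank k (H2w k 𝔓 q w) = 1) :
    LinearMap.ker (r2k h) = LinearMap.ker (r2 k 𝔓) := by
  ext a
  rw [LinearMap.mem_ker, LinearMap.mem_ker]
  constructor
  · intro ha
    funext q w
    have h1 : r2k h a q w = 0 := by rw [ha]; rfl
    rw [r2k_apply] at h1
    rw [r2_apply]
    exact (LinearEquiv.map_eq_zero_iff _).1 h1
  · intro ha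
    funext q w
    have h1 : r2 k 𝔓 a q w = 0 := by rw [ha]; rfl
    rw [r2_apply] at h1
    rw [r2k_apply, h1, map_zero]
    rfl

/-- `dim k^V = #V`. -/
lemma finrank_kV : finrank k (∀ q : ↥S, 𝔓.W q → k) = nPl 𝔓 := by
  letI : ∀ q : ↥S, Fintype (𝔓.W q) := 𝔓.fin
  rw [Module.finrank_pi_fintype]
  unfold nPl
  refine Finset.sum_congr rfl (fun q _ => ?_)
  rw [Module.finrank_fintype_fun_eq_card]

lemma finite_kV : Module.Finite k (∀ q : ↥S, 𝔓.W q → k) := by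
  letI : ∀ q : ↥S, Fintype (𝔓.W q) := 𝔓.fin
  exact inferInstance

/-- Any two families of local classes are dependent modulo the image of `H²_S(G_K)`. -/
lemma dep_of_I4a (h : ∀ (q : ↥S) (w : 𝔓.W q), finrank k (H2w k 𝔓 q w) = 1)
    (hI4a : ∀ c c' : ∀ (q : ↥S) (w : 𝔓.W q), 𝔓.Γw q w × 𝔓.Γw q w → k,
      (∀ q w, c q w ∈ Z2w k 𝔓 q w) → (∀ q w, c' q w ∈ Z2w k 𝔓 q w) →
      ∃ α β : k, (α ≠ 0 ∨ β ≠ 0) ∧
        IsB3cK 𝔓 ((0, fun q w => α • c q w + β • c' q w) : 𝔓.C3 k))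
    (e e' : ∀ q : ↥S, 𝔓.W q → k) :
    ∃ α β : k, (α ≠ 0 ∨ β ≠ 0) ∧ α • e + β • e' ∈ LinearMap.range (r2k h) := by
  have hs : ∀ (q : ↥S) (w : 𝔓.W q) (x : k),
      ∃ c : ↥(Z2w k 𝔓 q w), coordw h q w (Submodule.Quotient.mk c) = x := by
    intro q w x
    obtain ⟨c, hc⟩ := Submodule.mkQ_surjective _ ((coordw h q w).symm x)
    refine ⟨c, ?_⟩
    rw [← Submodule.mkQ_apply, hc, LinearEquiv.apply_symm_apply]
  choose c hc using fun q w => hs q w (e q w)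
  choose c' hc' using fun q w => hs q w (e' q w)
  obtain ⟨α, β, hαβ, hB⟩ := hI4a (fun q w => (c q w).1) (fun q w => (c' q w).1)
    (fun q w => (c q w).2) (fun q w => (c' q w).2)
  refine ⟨α, β, hαβ, ?_⟩
  obtain ⟨f, g, hf, hg, h1, h2⟩ := hB
  have hfZ : IsZ2K S K f := ⟨h1.symm, hf⟩
  refine ⟨Submodule.Quotient.mk ⟨f, hfZ⟩, ?_⟩
  funext q w
  rw [r2k_apply, r2w_mk]
  show _ = α • e q w + β • e' q w
  rw [← hc q w, ← hc' q w, ← map_smul, ← map_smul, ← map_add]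
  congr 1
  rw [← Submodule.Quotient.mk_smul, ← Submodule.Quotient.mk_smul,
    ← Submodule.Quotient.mk_add, Submodule.Quotient.eq]
  show 𝔓.res₂ q w f - (α • (c q w).1 + β • (c' q w).1) ∈ B2w k 𝔓 q w
  refine ⟨g q w, hg q w, ?_⟩
  have e1 : α • (c q w).1 + β • (c' q w).1 = 𝔓.res₂ q w f - tOne (g q w) := h2 q w
  rw [e1, sub_sub_cancel]

/-- `dim Ш² + #V ≤ dim H²_S(G_K) + 1`. -/
theorem finrank_ker_r2_le [Module.Finite k (H2K k S K)]
    (hI1b : ∀ (q : ↥S) (w : 𝔓.W q), finrank k (H2w k 𝔓 q w) = 1)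
    (hI4a : ∀ c c' : ∀ (q : ↥S) (w : 𝔓.W q), 𝔓.Γw q w × 𝔓.Γw q w → k,
      (∀ q w, c q w ∈ Z2w k 𝔓 q w) → (∀ q w, c' q w ∈ Z2w k 𝔓 q w) →
      ∃ α β : k, (α ≠ 0 ∨ β ≠ 0) ∧
        IsB3cK 𝔓 ((0, fun q w => α • c q w + β • c' q w) : 𝔓.C3 k)) :
    finrank k ↥(LinearMap.ker (r2 k 𝔓)) + nPl 𝔓 ≤ finrank k (H2K k S K) + 1 := by
  haveI : Module.Finite k (∀ q : ↥S, 𝔓.W q → k) := finite_kV
  have h1 := finrank_le_of_dep (LinearMap.range (r2k hI1b)) (dep_of_I4a hI1b hI4a)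
  rw [finrank_kV] at h1
  have h2 := LinearMap.finrank_range_add_finrank_ker (r2k hI1b)
  rw [ker_r2k hI1b] at h2
  omega

end Fermat.Agent.S55.Top.H48

end
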