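/-
S55 (Poitou–Tate), package E4, PT-LIN: the `K`-level Poitou–Tate properties from the inputs
`Stmt_I1 … Stmt_I4`, `Stmt_G1K` of `Top/Defs_PT.lean`:

  `stmt_TopK_of : Stmt_I1 → Stmt_I2 → Stmt_I3 → Stmt_I4 → Stmt_G1K → Stmt_TopK`

and the two further nondegeneracy statements `BetaOneMonoK`, `AlphaTwoMonoK`
(`stmt_TopK_mono_of`).
Owner: helper48.
-/
import Fermat.Agent.S55.Top.H48_PTDim

set_option autoImplicit false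

open CategoryTheory Module groupCohomology ExtCitation

noncomputable section

namespace Fermat.Agent.S55.Top.H48

open Fermat.Agent.S55 Fermat.Agent.S55.Top

/-- A pairing `X × A → k` which is nondegenerate on the finite-dimensional right factor `A`
induces a surjection of `X` onto the dual of `A`. -/
lemma surj_of_right_nondeg {k : Type*} [Field k] {X A : Type*} [AddCommGroup X] [Module k X]
    [AddCommGroup A] [Module k A] [FiniteDimensional k A] (Φ : X →ₗ[k] A →ₗ[k] k)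
    (nd : ∀ a, (∀ x, Φ x a = 0) → a = 0) (ψ : A →ₗ[k] k) : ∃ x, Φ x = ψ := by
  have h1 : (LinearMap.range Φ).dualCoannihilator = ⊥ := by
    rw [eq_bot_iff]
    intro a ha
    rw [Submodule.mem_dualCoannihilator] at ha
    rw [Submodule.mem_bot]
    exact nd a (fun x => ha (Φ x) ⟨x, rfl⟩)
  have h2 := Subspace.finrank_add_finrank_dualCoannihilator_eq (LinearMap.range Φ)
  rw [h1, finrank_bot, add_zero] at h2
  have h3 : LinearMap.range Φ = ⊤ :=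
    Submodule.eq_top_of_finrank_eq (by rw [h2, Subspace.dual_finrank_eq])
  have h4 : ψ ∈ LinearMap.range Φ := by rw [h3]; trivial
  exact h4

variable {k : Type} [Field k] {S : Finset Nat.Primes}
  {K : IntermediateField ℚ (AlgebraicClosure ℚ)} {𝔓 : PlaceSys S K}

/-- `K`-level `β¹mono`: a class of `H²_S(G_K)` orthogonal to all cone 1-cocycles is trivial. -/
def BetaOneMonoK (tr : TraceK 𝔓 k) : Prop :=
  ∀ a : ↥K.fixingSubgroup × ↥K.fixingSubgroup → k, IsZ2K S K a →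
    (∀ y : 𝔓.C1 k, IsZ1cK 𝔓 y → tr.toFun (cupB1K 𝔓 a y) = 0) → IsB2K S K a

/-- `K`-level `α²mono`: a class of `H²_c(K)` orthogonal to `H¹_S(G_K)` is trivial. -/
def AlphaTwoMonoK (tr : TraceK 𝔓 k) : Prop :=
  ∀ x : 𝔓.C2 k, IsZ2cK 𝔓 x →
    (∀ b : ↥K.fixingSubgroup → k, IsZ1K S K b → tr.toFun (cupA2K 𝔓 x b) = 0) → IsB2cK 𝔓 x

/-- **PT-LIN**, for one base field, one place system and one trace. -/
theorem topK_general (tr : TraceK 𝔓 k)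
    (hne : ∃ x : 𝔓.C3 k, IsZ3cK 𝔓 x ∧ tr.toFun x ≠ 0)
    (hI1a : ∀ (q : ↥S) (w : 𝔓.W q), Module.Finite k ↥(Z1w k 𝔓 q w))
    (hI1b : ∀ (q : ↥S) (w : 𝔓.W q), finrank k (H2w k 𝔓 q w) = 1)
    (hI1c : ∀ (q : ↥S) (w : 𝔓.W q) (g : 𝔓.Γw q w → k), g ∈ Z1w k 𝔓 q w → g ≠ 0 →
      ∃ b : 𝔓.Γw q w → k, b ∈ Z1w k 𝔓 q w ∧
        (fun t : 𝔓.Γw q w × 𝔓.Γw q w => g t.1 * b t.2) ∉ B2w k 𝔓 q w)
    (hI1d : sumH1w k 𝔓 = 2 * nPl 𝔓 + finrank ℚ ↥K)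
    (hI2 : ∀ F : ↥K.fixingSubgroup × ↥K.fixingSubgroup × ↥K.fixingSubgroup → k,
      tThree F = 0 → IsLevK₃ S K F →
      ∃ f : ↥K.fixingSubgroup × ↥K.fixingSubgroup → k, IsLevK₂ S K f ∧ tTwo f = F)
    (hI3a : Module.Finite k ↥(Z1K k S K)) (hI3b : Module.Finite k (H2K k S K))
    (hI3c : 2 * finrank k (H2K k S K) + finrank ℚ ↥K + 2 ≤ 2 * finrank k ↥(Z1K k S K))
    (hI4a : ∀ c c' : ∀ (q : ↥S) (w : 𝔓.W q), 𝔓.Γw q w × 𝔓.Γw q w → k,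
      (∀ q w, c q w ∈ Z2w k 𝔓 q w) → (∀ q w, c' q w ∈ Z2w k 𝔓 q w) →
      ∃ α β : k, (α ≠ 0 ∨ β ≠ 0) ∧
        IsB3cK 𝔓 ((0, fun q w => α • c q w + β • c' q w) : 𝔓.C3 k))
    (hI4b : ∀ c : ∀ (q : ↥S) (w : 𝔓.W q), 𝔓.Γw q w × 𝔓.Γw q w → k,
      (∀ q w, c q w ∈ Z2w k 𝔓 q w) → IsB3cK 𝔓 ((0, c) : 𝔓.C3 k) →
      ∀ (q₀ : ↥S) (w₀ : 𝔓.W q₀),
        (∀ (q : ↥S) (w : 𝔓.W q), (⟨q, w⟩ : Σ q : ↥S, 𝔓.W q) ≠ ⟨q₀, w₀⟩ → c q w = 0) →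
        c q₀ w₀ ∈ B2w k 𝔓 q₀ w₀)
    (hG1 : ∀ b : ↥K.fixingSubgroup → k, IsZ1K S K b →
      (∀ (q : ↥S) (w : 𝔓.W q), 𝔓.res₁ q w b = 0) → b ≠ 0 →
      ∃ x : 𝔓.C2 k, IsZ2cK 𝔓 x ∧ tr.toFun (cupA2K 𝔓 x b) ≠ 0) :
    (AlphaTwoEpiK tr ∧ AlphaThreeMonoK tr ∧ BetaOneEpiK tr ∧ BetaTwoMonoK tr) ∧
      BetaOneMonoK tr ∧ AlphaTwoMonoK tr := by
  have hα3 := alphaThreeMonoK_of tr hI2 hI4a hne
  haveI := hI3a
  haveI := hI3b
  haveI : Module.Finite k (P1 k 𝔓) := finite_P1 hI1a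
  have hdim : 2 * finrank k ↥(LinearMap.ker (r2 k 𝔓)) + finrank k (P1 k 𝔓) ≤
      2 * finrank k ↥(Z1K k S K) := by
    have h1 := finrank_ker_r2_le hI1b hI4a
    rw [finrank_P1 hI1a, hI1d]
    omega
  have G1 : ∀ a : ↥(Z1K k S K), r1 k 𝔓 a = 0 → (∀ x, ΦL tr x a = 0) → a = 0 := by
    intro a ha h
    by_contra hne'
    have ha1 : a.1 ≠ 0 := fun h0 => hne' (Subtype.ext h0)
    have ha2 : ∀ (q : ↥S) (w : 𝔓.W q), 𝔓.res₁ q w a.1 = 0 := by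
      intro q w
      have := congrArg (fun g : P1 k 𝔓 => ((g q w : ↥(Z1w k 𝔓 q w)) : 𝔓.Γw q w → k)) ha
      exact this
    obtain ⟨x, hx, hx'⟩ := hG1 a.1 a.2 ha2 ha1
    exact hx' (h (Submodule.Quotient.mk ⟨x, hx⟩))
  obtain ⟨hA, hB, hC⟩ := pt_count (r1 k 𝔓) (δ1 k 𝔓) (π2 k 𝔓) (π1 k 𝔓)
    (LinearMap.ker (r2 k 𝔓)) π2_mem_ker_r2 exists_π2_of_mem_ker_r2 (ex_C2 𝔓) (δ1_r1 𝔓)
    (ex_H1 𝔓) (ΦL tr) (ΨR tr) (lam tr) (ΦL_δ1 tr) (ΦL_π1 tr) (lam_r1_r1 tr)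
    (lam_nondeg tr hα3 hI1c hI4b) (mem_ker_r2_of_orth tr hα3 hI4b) G1 hdim
  have hα2m : AlphaTwoMonoK tr := by
    intro x hx h
    have h0 : (Submodule.Quotient.mk ⟨x, hx⟩ : Hc2 k 𝔓) = 0 :=
      hB _ (fun a => h a.1 a.2)
    rw [Submodule.Quotient.mk_eq_zero] at h0
    exact h0
  have hβ1m : BetaOneMonoK tr := by
    intro a ha h
    have h0 : (Submodule.Quotient.mk ⟨a, ha⟩ : H2K k S K) = 0 :=
      hC _ (fun y => h y.1 y.2)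
    rw [Submodule.Quotient.mk_eq_zero] at h0
    exact h0
  refine ⟨⟨?_, hα3, ?_, ?_⟩, hβ1m, hα2m⟩
  · -- `α²epi`
    intro φ
    obtain ⟨x, hx⟩ := surj_of_right_nondeg (ΦL tr) hA (φ.comp (Z1K k S K).subtype)
    obtain ⟨x, rfl⟩ := Submodule.mkQ_surjective _ x
    refine ⟨x.1, x.2, fun b hb => ?_⟩
    have := congrArg (fun f : ↥(Z1K k S K) →ₗ[k] k => f ⟨b, hb⟩) hx
    exact this
  · -- `β¹epi`
    intro φ hφ
    let φ' : H2K k S K →ₗ[k] k :=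
      Submodule.liftQ ((B2K k S K).comap (Z2K k S K).subtype) (φ.comp (Z2K k S K).subtype)
        (fun a ha => by
          rw [LinearMap.mem_ker]
          exact hφ a.1 ha)
    obtain ⟨y, hy⟩ := surj_of_right_nondeg (ΨR tr).flip
      (fun a h => hC a (fun y => h y)) φ'
    refine ⟨y.1, y.2, fun a ha => ?_⟩
    have := congrArg (fun f : H2K k S K →ₗ[k] k => f (Submodule.Quotient.mk ⟨a, ha⟩)) hy
    exact this
  · -- `β²mono`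
    intro y hy h
    refine hα2m y hy (fun a ha => ?_)
    rw [← h a ha]
    apply tr_eq_of_sub
    rw [cupA2K_sub_cupB2K 𝔓 a ha.1 y hy]
    refine isB3cK_dCone2K 𝔓 (levK₂_hom_mul ha hy.1.2) (fun q w => ?_)
    exact levL₁_mul q w (levL₁_res₁ ha.2 q w) (hy.2 q w).1

/-- The two further nondegeneracy statements of the `K`-level duality. -/
def Stmt_TopK_mono : Prop :=
  ∀ (p : ℕ) [Fact p.Prime], p ≠ 2 → ∀ (S : Finset Nat.Primes), pPrime p ∈ S →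
    ∀ K : IntermediateField ℚ (AlgebraicClosure ℚ), IsBaseField S p K →
    ∀ (𝔓 : PlaceSys S K) (tr : TraceK 𝔓 (ZMod p)),
      (∃ x : 𝔓.C3 (ZMod p), IsZ3cK 𝔓 x ∧ tr.toFun x ≠ 0) →
      BetaOneMonoK tr ∧ AlphaTwoMonoK tr

/-- **PT-LIN**: all `K`-level duality statements from `I1`–`I4` and `G1K`. -/
theorem stmt_TopK_all (h1 : Stmt_I1) (h2 : Stmt_I2) (h3 : Stmt_I3) (h4 : Stmt_I4)
    (hG : Stmt_G1K) : Stmt_TopK ∧ Stmt_TopK_mono := by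
  have key : ∀ (p : ℕ) [Fact p.Prime], p ≠ 2 → ∀ (S : Finset Nat.Primes), pPrime p ∈ S →
      ∀ K : IntermediateField ℚ (AlgebraicClosure ℚ), IsBaseField S p K →
      ∀ (𝔓 : PlaceSys S K) (tr : TraceK 𝔓 (ZMod p)),
        (∃ x : 𝔓.C3 (ZMod p), IsZ3cK 𝔓 x ∧ tr.toFun x ≠ 0) →
        (AlphaTwoEpiK tr ∧ AlphaThreeMonoK tr ∧ BetaOneEpiK tr ∧ BetaTwoMonoK tr) ∧
          BetaOneMonoK tr ∧ AlphaTwoMonoK tr := by
    intro p _ hp S hpS K hK 𝔓 tr hne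
    obtain ⟨h1a, h1b, h1c, h1d⟩ := h1 p hp S hpS K hK 𝔓
    obtain ⟨h3a, h3b, h3c⟩ := h3 p hp S hpS K hK
    obtain ⟨h4a, h4b⟩ := h4 p hp S hpS K hK 𝔓
    exact topK_general tr hne h1a h1b h1c h1d (h2 p hp S hpS K hK) h3a h3b h3c h4a h4b
      (hG p hp S hpS K hK 𝔓 tr hne)
  exact ⟨fun p _ hp S hpS K hK 𝔓 tr hne => (key p hp S hpS K hK 𝔓 tr hne).1,
    fun p _ hp S hpS K hK 𝔓 tr hne => (key p hp S hpS K hK 𝔓 tr hne).2⟩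

/-- **PT-LIN**: `I1 → I2 → I3 → I4 → G1K → TopK`. -/
theorem stmt_TopK_of : Stmt_I1 → Stmt_I2 → Stmt_I3 → Stmt_I4 → Stmt_G1K → Stmt_TopK :=
  fun h1 h2 h3 h4 hG => (stmt_TopK_all h1 h2 h3 h4 hG).1

/-- **PT-LIN**: `I1 → I2 → I3 → I4 → G1K → TopK_mono`. -/
theorem stmt_TopK_mono_of :
    Stmt_I1 → Stmt_I2 → Stmt_I3 → Stmt_I4 → Stmt_G1K → Stmt_TopK_mono :=
  fun h1 h2 h3 h4 hG => (stmt_TopK_all h1 h2 h3 h4 hG).2

end Fermat.Agent.S55.Top.H48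

end
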