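/-
S55 (Poitou–Tate), package E4, PT-LIN, supplement: the cone side of the `β¹` pairing at
`K`-level,  `H¹_c(K) ↪ H²_S(G_K)^∨`  (`BetaOneMonoConeK`), from `α²epi`, `α³mono`, `I1(b)`, `I4(b)`.
Owner: helper48.
-/
import Fermat.Agent.S55.Top.H48_PTLin

set_option autoImplicit false

open CategoryTheory Module groupCohomology ExtCitation

noncomputable section

namespace Fermat.Agent.S55.Top.H48

open Fermat.Agent.S55 Fermat.Agent.S55.Top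

variable {k : Type} [Field k] {S : Finset Nat.Primes}
  {K : IntermediateField ℚ (AlgebraicClosure ℚ)} {𝔓 : PlaceSys S K}

/-- `K`-level `β¹mono`, cone side: a cone 1-cocycle orthogonal to all of `Z²_S(G_K)` is a cone
1-coboundary. -/
def BetaOneMonoConeK (tr : TraceK 𝔓 k) : Prop :=
  ∀ y : 𝔓.C1 k, IsZ1cK 𝔓 y →
    (∀ a : ↥K.fixingSubgroup × ↥K.fixingSubgroup → k, IsZ2K S K a →
      tr.toFun (cupB1K 𝔓 a y) = 0) → IsB1cK 𝔓 y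

section single

open Classical in
/-- The family of local 2-cochains supported at the place `i` with value `z`. -/
def sg (i : Σ q : ↥S, 𝔓.W q) (z : 𝔓.Γw i.1 i.2 × 𝔓.Γw i.1 i.2 → k) :
    ∀ (q : ↥S) (w : 𝔓.W q), 𝔓.Γw q w × 𝔓.Γw q w → k :=
  fun q w => (Function.update
    (fun j : (Σ q : ↥S, 𝔓.W q) => (0 : 𝔓.Γw j.1 j.2 × 𝔓.Γw j.1 j.2 → k)) i z) ⟨q, w⟩

lemma sg_self (i : Σ q : ↥S, 𝔓.W q) (z : 𝔓.Γw i.1 i.2 × 𝔓.Γw i.1 i.2 → k) :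
    sg i z i.1 i.2 = z := by
  classical
  exact Function.update_self _ _ _

lemma sg_ne (i : Σ q : ↥S, 𝔓.W q) (z : 𝔓.Γw i.1 i.2 × 𝔓.Γw i.1 i.2 → k) (q : ↥S)
    (w : 𝔓.W q) (h : (⟨q, w⟩ : Σ q : ↥S, 𝔓.W q) ≠ i) : sg i z q w = 0 := by
  classical
  exact Function.update_of_ne h _ _

lemma sg_mem (i : Σ q : ↥S, 𝔓.W q) {z : 𝔓.Γw i.1 i.2 × 𝔓.Γw i.1 i.2 → k}
    (hz : z ∈ Z2w k 𝔓 i.1 i.2) (q : ↥S) (w : 𝔓.W q) : sg i z q w ∈ Z2w k 𝔓 q w := by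
  by_cases h : (⟨q, w⟩ : Σ q : ↥S, 𝔓.W q) = i
  · subst h
    rw [sg_self]
    exact hz
  · rw [sg_ne i z q w h]
    exact (Z2w k 𝔓 q w).zero_mem

lemma smul_sg (c : ∀ q : ↥S, 𝔓.W q → k) (i : Σ q : ↥S, 𝔓.W q)
    (z : 𝔓.Γw i.1 i.2 × 𝔓.Γw i.1 i.2 → k) (q : ↥S) (w : 𝔓.W q) :
    c q w • sg i z q w = sg i (c i.1 i.2 • z) q w := by
  by_cases h : (⟨q, w⟩ : Σ q : ↥S, 𝔓.W q) = i
  · subst h
    rw [sg_self, sg_self]
  · rw [sg_ne i z q w h, sg_ne i _ q w h, smul_zero]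

end single

/-- The local trace at a place does not vanish on a class that is not a coboundary. -/
lemma tr_sg_ne_zero (tr : TraceK 𝔓 k) (hα3 : AlphaThreeMonoK tr)
    (hI4b : ∀ c : ∀ (q : ↥S) (w : 𝔓.W q), 𝔓.Γw q w × 𝔓.Γw q w → k,
      (∀ q w, c q w ∈ Z2w k 𝔓 q w) → IsB3cK 𝔓 ((0, c) : 𝔓.C3 k) →
      ∀ (q₀ : ↥S) (w₀ : 𝔓.W q₀),
        (∀ (q : ↥S) (w : 𝔓.W q), (⟨q, w⟩ : Σ q : ↥S, 𝔓.W q) ≠ ⟨q₀, w₀⟩ → c q w = 0) →
        c q₀ w₀ ∈ B2w k 𝔓 q₀ w₀)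
    (i : Σ q : ↥S, 𝔓.W q) {z : 𝔓.Γw i.1 i.2 × 𝔓.Γw i.1 i.2 → k}
    (hz : z ∈ Z2w k 𝔓 i.1 i.2) (hz' : z ∉ B2w k 𝔓 i.1 i.2) :
    tr.toFun ((0, sg i z) : 𝔓.C3 k) ≠ 0 := by
  intro h0
  have hB := isB3cK_loc_of_tr_eq_zero tr hα3 (sg i z) (sg_mem i hz) h0
  have h1 := hI4b (sg i z) (sg_mem i hz) hB i.1 i.2 (fun q w h => sg_ne i z q w h)
  rw [sg_self] at h1
  exact hz' h1

/-- Every local `H²` contains a class which is not a coboundary. -/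
lemma exists_not_mem_B2w (hI1b : ∀ (q : ↥S) (w : 𝔓.W q), finrank k (H2w k 𝔓 q w) = 1)
    (q : ↥S) (w : 𝔓.W q) :
    ∃ z : 𝔓.Γw q w × 𝔓.Γw q w → k, z ∈ Z2w k 𝔓 q w ∧ z ∉ B2w k 𝔓 q w := by
  haveI : Nontrivial (H2w k 𝔓 q w) :=
    Module.nontrivial_of_finrank_pos (R := k) (by rw [hI1b q w]; exact Nat.one_pos)
  obtain ⟨x, hx⟩ := exists_ne (0 : H2w k 𝔓 q w)
  obtain ⟨z, rfl⟩ := Submodule.mkQ_surjective _ x
  refine ⟨z.1, z.2, fun h => hx ?_⟩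
  exact (Submodule.Quotient.mk_eq_zero _).2 h

/-- **`β¹mono`, cone side.** -/
theorem betaOneMonoConeK_of (tr : TraceK 𝔓 k) (hα2 : AlphaTwoEpiK tr)
    (hα3 : AlphaThreeMonoK tr)
    (hI1b : ∀ (q : ↥S) (w : 𝔓.W q), finrank k (H2w k 𝔓 q w) = 1)
    (hI4b : ∀ c : ∀ (q : ↥S) (w : 𝔓.W q), 𝔓.Γw q w × 𝔓.Γw q w → k,
      (∀ q w, c q w ∈ Z2w k 𝔓 q w) → IsB3cK 𝔓 ((0, c) : 𝔓.C3 k) →
      ∀ (q₀ : ↥S) (w₀ : 𝔓.W q₀),
        (∀ (q : ↥S) (w : 𝔓.W q), (⟨q, w⟩ : Σ q : ↥S, 𝔓.W q) ≠ ⟨q₀, w₀⟩ → c q w = 0) →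
        c q₀ w₀ ∈ B2w k 𝔓 q₀ w₀) :
    BetaOneMonoConeK tr := by
  classical
  intro y hy h
  -- step 1: the global component vanishes
  have hb : y.1 = 0 := by
    by_contra hne
    obtain ⟨g, hg⟩ : ∃ g, y.1 g ≠ 0 := by
      by_contra h'
      simp only [not_exists, not_not] at h'
      exact hne (funext h')
    obtain ⟨x, hx, hxφ⟩ := hα2 (LinearMap.proj g)
    have h1 := hxφ y.1 hy.1
    have h2 : tr.toFun (cupA2K 𝔓 x y.1) = tr.toFun (cupB1K 𝔓 x.1 y) := by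
      apply tr_eq_of_sub
      rw [cupA2K_sub_cupB1K 𝔓 x y hx hy]
      exact isB3cK_dCone2K 𝔓 (isLevK₂_const (0 : k))
        (fun q w => levL₁_smul q w (y.2 q w) (hx.2 q w).1)
    rw [h2, h x.1 hx.1] at h1
    exact hg h1.symm
  -- the pairing with a global cocycle in terms of the local components
  have hcup : ∀ a : ↥K.fixingSubgroup × ↥K.fixingSubgroup → k,
      cupB1K 𝔓 a y = ((0, fun q w => y.2 q w • 𝔓.res₂ q w a) : 𝔓.C3 k) := by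
    intro a
    refine Prod.ext (funext fun t => ?_) (funext fun q => funext fun w => funext fun t => ?_)
    · show a (t.1, t.2.1) * y.1 t.2.2 = 0
      rw [hb, Pi.zero_apply, mul_zero]
    · show a (𝔓.ρw q w t.1, 𝔓.ρw q w t.2) * y.2 q w = y.2 q w * 𝔓.res₂ q w a t
      rw [mul_comm]
      rfl
  -- step 2: the local components are constant
  have key : ∀ i j : (Σ q : ↥S, 𝔓.W q), i ≠ j → y.2 i.1 i.2 = y.2 j.1 j.2 := by
    intro i j hij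
    obtain ⟨z₁, hz₁, hz₁'⟩ := exists_not_mem_B2w hI1b i.1 i.2
    obtain ⟨z₂, hz₂, hz₂'⟩ := exists_not_mem_B2w hI1b j.1 j.2
    have ht₁ := tr_sg_ne_zero tr hα3 hI4b i hz₁ hz₁'
    have ht₂ := tr_sg_ne_zero tr hα3 hI4b j hz₂ hz₂'
    set t₁ := tr.toFun ((0, sg i z₁) : 𝔓.C3 k) with ht₁def
    set t₂ := tr.toFun ((0, sg j z₂) : 𝔓.C3 k) with ht₂def
    -- the family `Z = t₂ • sg i z₁ - t₁ • sg j z₂` has trace zero
    let Z : ∀ (q : ↥S) (w : 𝔓.W q), 𝔓.Γw q w × 𝔓.Γw q w → k :=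
      t₂ • sg i z₁ + (-t₁) • sg j z₂
    have hZmem : ∀ q w, Z q w ∈ Z2w k 𝔓 q w := fun q w =>
      (Z2w k 𝔓 q w).add_mem ((Z2w k 𝔓 q w).smul_mem _ (sg_mem i hz₁ q w))
        ((Z2w k 𝔓 q w).smul_mem _ (sg_mem j hz₂ q w))
    have hZtr : tr.toFun ((0, Z) : 𝔓.C3 k) = 0 := by
      show tr.toFun ((0, t₂ • sg i z₁ + (-t₁) • sg j z₂) : 𝔓.C3 k) = 0
      rw [pair_loc_add, pair_loc_smul, pair_loc_smul, map_add, map_smul, map_smul,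
        ← ht₁def, ← ht₂def, smul_eq_mul, smul_eq_mul]
      ring
    obtain ⟨f, g, hf, hg, h1, h2⟩ := isB3cK_loc_of_tr_eq_zero tr hα3 Z hZmem hZtr
    have hfZ : IsZ2K S K f := ⟨h1.symm, hf⟩
    have h3 := h f hfZ
    rw [hcup] at h3
    -- `res f = Z + d g`
    have h4 : ∀ q w, 𝔓.res₂ q w f = Z q w + tOne (g q w) := by
      intro q w
      have e1 : Z q w = 𝔓.res₂ q w f - tOne (g q w) := h2 q w
      rw [e1, sub_add_cancel]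
    have h5 : ((0, fun q w => y.2 q w • 𝔓.res₂ q w f) : 𝔓.C3 k) =
        ((0, (t₂ * y.2 i.1 i.2) • sg i z₁ + (-(t₁ * y.2 j.1 j.2)) • sg j z₂) : 𝔓.C3 k) +
          ((0, fun q w => tOne (y.2 q w • g q w)) : 𝔓.C3 k) := by
      rw [← pair_loc_add]
      congr 1
      funext q w
      rw [h4 q w, smul_add]
      show y.2 q w • Z q w + y.2 q w • tOne (g q w) =
        ((t₂ * y.2 i.1 i.2) • sg i z₁ q w + (-(t₁ * y.2 j.1 j.2)) • sg j z₂ q w) +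
          tOne (y.2 q w • g q w)
      rw [tOne_smul]
      congr 1
      show y.2 q w • (t₂ • sg i z₁ q w + (-t₁) • sg j z₂ q w) =
        (t₂ * y.2 i.1 i.2) • sg i z₁ q w + (-(t₁ * y.2 j.1 j.2)) • sg j z₂ q w
      rw [smul_add, smul_comm (y.2 q w) t₂, smul_comm (y.2 q w) (-t₁), smul_sg, smul_sg]
      have e1 : sg i (y.2 i.1 i.2 • z₁) q w = y.2 i.1 i.2 • sg i z₁ q w := by
        by_cases hq : (⟨q, w⟩ : Σ q : ↥S, 𝔓.W q) = i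
        · subst hq
          rw [sg_self, sg_self]
        · rw [sg_ne i _ q w hq, sg_ne i _ q w hq, smul_zero]
      have e2 : sg j (y.2 j.1 j.2 • z₂) q w = y.2 j.1 j.2 • sg j z₂ q w := by
        by_cases hq : (⟨q, w⟩ : Σ q : ↥S, 𝔓.W q) = j
        · subst hq
          rw [sg_self, sg_self]
        · rw [sg_ne j _ q w hq, sg_ne j _ q w hq, smul_zero]
      rw [e1, e2, smul_smul, smul_smul, neg_mul]
    have h6 : tr.toFun ((0, fun q w => tOne (y.2 q w • g q w)) : 𝔓.C3 k) = 0 := by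
      apply tr.zero_of_isB3cK
      rw [local_cob]
      exact isB3cK_dCone2K 𝔓 (isLevK₂_const (0 : k))
        (fun q w => levL₁_neg q w (levL₁_smul q w (y.2 q w) (hg q w)))
    rw [h5, map_add, h6, add_zero, pair_loc_add, pair_loc_smul, pair_loc_smul, map_add,
      map_smul, map_smul, ← ht₁def, ← ht₂def, smul_eq_mul, smul_eq_mul] at h3
    have h7 : (y.2 i.1 i.2 - y.2 j.1 j.2) * (t₁ * t₂) = 0 := by
      linear_combination h3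
    rcases mul_eq_zero.1 h7 with h8 | h8
    · exact sub_eq_zero.1 h8
    · exact absurd h8 (mul_ne_zero ht₁ ht₂)
  by_cases hV : Nonempty (Σ q : ↥S, 𝔓.W q)
  · obtain ⟨i⟩ := hV
    refine ⟨y.2 i.1 i.2, hb, fun q w => ?_⟩
    by_cases hq : (⟨q, w⟩ : Σ q : ↥S, 𝔓.W q) = i
    · subst hq
      rfl
    · exact key ⟨q, w⟩ i hq
  · exact ⟨0, hb, fun q w => absurd ⟨⟨q, w⟩⟩ hV⟩

/-- The cone side of `β¹mono` for all base fields. -/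
def Stmt_TopK_cone : Prop :=
  ∀ (p : ℕ) [Fact p.Prime], p ≠ 2 → ∀ (S : Finset Nat.Primes), pPrime p ∈ S →
    ∀ K : IntermediateField ℚ (AlgebraicClosure ℚ), IsBaseField S p K →
    ∀ (𝔓 : PlaceSys S K) (tr : TraceK 𝔓 (ZMod p)),
      (∃ x : 𝔓.C3 (ZMod p), IsZ3cK 𝔓 x ∧ tr.toFun x ≠ 0) →
      BetaOneMonoConeK tr

/-- **PT-LIN**, cone side of `β¹mono`: `I1 → I4 → TopK → TopK_cone`. -/
theorem stmt_TopK_cone_of_topK (h1 : Stmt_I1) (h4 : Stmt_I4) (hT : Stmt_TopK) :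
    Stmt_TopK_cone := by
  intro p _ hp S hpS K hK 𝔓 tr hne
  obtain ⟨hα2, hα3, -, -⟩ := hT p hp S hpS K hK 𝔓 tr hne
  exact betaOneMonoConeK_of tr hα2 hα3 (h1 p hp S hpS K hK 𝔓).2.1 (h4 p hp S hpS K hK 𝔓).2

/-- **PT-LIN**, cone side of `β¹mono`: `I1 → I2 → I3 → I4 → G1K → TopK_cone`. -/
theorem stmt_TopK_cone_of (h1 : Stmt_I1) (h2 : Stmt_I2) (h3 : Stmt_I3) (h4 : Stmt_I4)
    (hG : Stmt_G1K) : Stmt_TopK_cone :=
  stmt_TopK_cone_of_topK h1 h4 (stmt_TopK_of h1 h2 h3 h4 hG)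

end Fermat.Agent.S55.Top.H48

end
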