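/-
S55 (Poitou–Tate), package E4-top (SH): Shapiro's maps between the `K`-level cone and the
cone over `ℚ` with coefficients in `FX = Fun(G_ℚ/G_K, k)`; algebraic identities.
Owner: helper49.

* `U₁, U₂, U₃` : `K`-level cone cochains → cone cochains of `FX`  (`(a, z) ↦ (ind a, ind z + hty (Res ind a))`);
* `Sh₂, Sh₃`   : cone cochains of `FX` → `K`-level cone cochains  (`(A, Z) ↦ (sh A, sh (Z - Res hty A))`);
* `H₂, H₃`     : the cone homotopy, `x - U (Sh x) = d (H x)` on cocycles.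
-/
import Fermat.Agent.S55.Top.KPure
import Fermat.Agent.S55.Coh.Cone

set_option autoImplicit false
set_option linter.unusedSectionVars false
set_option linter.unusedSimpArgs false

open CategoryTheory Module groupCohomology ExtCitation

noncomputable section

namespace Fermat.Agent.S55.Top

open Fermat.Agent.S55 OrbitData

attribute [local instance] locAct

variable {k : Type} [Field k] {S : Finset Nat.Primes}
  {K : IntermediateField ℚ (AlgebraicClosure ℚ)}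

/-! ### The differentials of `FX` in coordinates -/

lemma dZero_FX (m : FX k K) : dZero (FX k K) m = d0 (m : XK K → k) := rfl

lemma dOne_FX (f : GQ → FX k K) : dOne (FX k K) f = d1 (f : GQ → XK K → k) := rfl

lemma dTwo_FX (f : GQ × GQ → FX k K) : dTwo (FX k K) f = d2 (f : GQ × GQ → XK K → k) := rfl

lemma dThree_FX (f : GQ × GQ × GQ → FX k K) :
    dThree (FX k K) f = d3 (f : GQ × GQ × GQ → XK K → k) := rfl

lemma dZeroL_FX (q : Nat.Primes) (m : FX k K) :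
    dZeroL (FX k K) q m = d0 (Γ := Gl q) (m : XK K → k) := by
  funext h x
  show m ((rl q h)⁻¹ • x) - m x = m (h⁻¹ • x) - m x
  rw [locAct_smul, map_inv]

lemma dOneL_FX (q : Nat.Primes) (f : Gl q → FX k K) :
    dOneL (FX k K) q f = d1 (f : Gl q → XK K → k) := by
  funext t x
  show f t.2 ((rl q t.1)⁻¹ • x) - f (t.1 * t.2) x + f t.1 x = _
  simp only [d1, locAct_smul, map_inv]

lemma dTwoL_FX (q : Nat.Primes) (f : Gl q × Gl q → FX k K) :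
    dTwoL (FX k K) q f = d2 (f : Gl q × Gl q → XK K → k) := by
  funext t x
  show f (t.2.1, t.2.2) ((rl q t.1)⁻¹ • x) - f (t.1 * t.2.1, t.2.2) x + f (t.1, t.2.1 * t.2.2) x
    - f (t.1, t.2.1) x = _
  simp only [d2, locAct_smul, map_inv]

lemma res_d1 (q : Nat.Primes) (B : GQ → XK K → k) :
    resTwo q (d1 B) = d1 (resOne q B) := by
  rw [← dOneL_FX]
  exact resTwo_dOne (M := FX k K) (q := q) B

lemma res_d2 (q : Nat.Primes) (B : GQ × GQ → XK K → k) :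
    resThree q (d2 B) = d2 (resTwo q B) := by
  rw [← dTwoL_FX]
  exact resThree_dTwo (M := FX k K) (q := q) B

lemma resOne_sub' (q : Nat.Primes) (B B' : GQ → XK K → k) :
    resOne q (B - B') = resOne q B - resOne q B' := rfl

lemma resTwo_sub' (q : Nat.Primes) (B B' : GQ × GQ → XK K → k) :
    resTwo q (B - B') = resTwo q B - resTwo q B' := rfl

lemma resThree_sub' (q : Nat.Primes) (B B' : GQ × GQ × GQ → XK K → k) :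
    resThree q (B - B') = resThree q B - resThree q B' := rfl

lemma resTwo_add' (q : Nat.Primes) (B B' : GQ × GQ → XK K → k) :
    resTwo q (B + B') = resTwo q B + resTwo q B' := rfl

lemma resThree_add' (q : Nat.Primes) (B B' : GQ × GQ × GQ → XK K → k) :
    resThree q (B + B') = resThree q B + resThree q B' := rfl

lemma resThree_zero' (q : Nat.Primes) :
    resThree q (0 : GQ × GQ × GQ → XK K → k) = 0 := rfl

variable (𝔓 : PlaceSys S K)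

/-! ### The `K`-level cone differentials -/

/-- `K`-level cone differential `C¹ → C²` (the local `d⁰` vanishes). -/
def PlaceSys.dK1 (y : 𝔓.C1 k) : 𝔓.C2 k := (tOne y.1, fun q w => 𝔓.res₁ q w y.1)

/-- `K`-level cone differential `C² → C³`. -/
def PlaceSys.dK2 (x : 𝔓.C2 k) : 𝔓.C3 k :=
  (tTwo x.1, fun q w => 𝔓.res₂ q w x.1 - tOne (x.2 q w))

/-! ### The maps -/

/-- `U₁`. -/
def PlaceSys.U₁ (y : 𝔓.C1 k) : C1c S (FX k K) :=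
  (𝔓.indK₁ y.1, fun q => (𝔓.loc q).ind0 (y.2 q) + (𝔓.loc q).hty1 (resOne q.1 (𝔓.indK₁ y.1)))

/-- `U₂`. -/
def PlaceSys.U₂ (x : 𝔓.C2 k) : C2c S (FX k K) :=
  (𝔓.indK₂ x.1, fun q => 𝔓.indL₁ q (x.2 q) + (𝔓.loc q).hty2 (resTwo q.1 (𝔓.indK₂ x.1)))

/-- `U₃`. -/
def PlaceSys.U₃ (x : 𝔓.C3 k) : C3c S (FX k K) :=
  (𝔓.indK₃ x.1, fun q => 𝔓.indL₂ q (x.2 q) + (𝔓.loc q).hty3 (resThree q.1 (𝔓.indK₃ x.1)))

/-- `Sh₂`. -/
def PlaceSys.Sh₂ (y : C2c S (FX k K)) : 𝔓.C2 k :=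
  (𝔓.shK₂ y.1, fun q => 𝔓.shL₁ q (y.2 q - resOne q.1 (𝔓.glob.hty2 y.1)))

/-- `Sh₃`. -/
def PlaceSys.Sh₃ (x : C3c S (FX k K)) : 𝔓.C3 k :=
  (𝔓.shK₃ x.1, fun q => 𝔓.shL₂ q (x.2 q - resTwo q.1 (𝔓.glob.hty3 x.1)))

/-- the cone homotopy `C² → C¹`. -/
def PlaceSys.H₂ (y : C2c S (FX k K)) : C1c S (FX k K) :=
  (𝔓.glob.hty2 y.1, fun q => - (𝔓.loc q).hty1 (y.2 q - resOne q.1 (𝔓.glob.hty2 y.1)))

/-- the cone homotopy `C³ → C²`. -/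
def PlaceSys.H₃ (x : C3c S (FX k K)) : C2c S (FX k K) :=
  (𝔓.glob.hty3 x.1, fun q => - (𝔓.loc q).hty2 (x.2 q - resTwo q.1 (𝔓.glob.hty3 x.1)))

/-! ### `U` commutes with the differentials -/

lemma PlaceSys.U₂_dK1 (y : 𝔓.C1 k) : 𝔓.U₂ (𝔓.dK1 y) = dCone1 S (FX k K) (𝔓.U₁ y) := by
  refine Prod.ext ?_ (funext fun q => ?_)
  · show 𝔓.indK₂ (tOne y.1) = d1 (𝔓.indK₁ y.1)
    rw [𝔓.d1_indK₁]
  · show 𝔓.indL₁ q (fun w => 𝔓.res₁ q w y.1) +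
        (𝔓.loc q).hty2 (resTwo q.1 (𝔓.indK₂ (tOne y.1))) =
      resOne q.1 (𝔓.indK₁ y.1) - dZeroL (FX k K) q.1
        ((𝔓.loc q).ind0 (y.2 q) + (𝔓.loc q).hty1 (resOne q.1 (𝔓.indK₁ y.1)))
    have h := (𝔓.loc q).hty_one' (resOne q.1 (𝔓.indK₁ y.1))
    rw [𝔓.ind_sh_res_ind₁, ← res_d1, 𝔓.d1_indK₁] at h
    rw [dZeroL_FX, d0_add, d0_ind0]
    have h0 : (fun (_ : Gl q.1) (_ : XK K) => (0 : k)) = 0 := rfl
    rw [h0, zero_add]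
    linear_combination (exp := 1) -h

lemma PlaceSys.U₃_dK2 (x : 𝔓.C2 k) : 𝔓.U₃ (𝔓.dK2 x) = dCone2 S (FX k K) (𝔓.U₂ x) := by
  refine Prod.ext ?_ (funext fun q => ?_)
  · show 𝔓.indK₃ (tTwo x.1) = d2 (𝔓.indK₂ x.1)
    rw [𝔓.d2_indK₂]
  · show 𝔓.indL₂ q (fun w => 𝔓.res₂ q w x.1 - tOne (x.2 q w)) +
        (𝔓.loc q).hty3 (resThree q.1 (𝔓.indK₃ (tTwo x.1))) =
      resTwo q.1 (𝔓.indK₂ x.1) - dOneL (FX k K) q.1
        (𝔓.indL₁ q (x.2 q) + (𝔓.loc q).hty2 (resTwo q.1 (𝔓.indK₂ x.1)))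
    have h := (𝔓.loc q).hty_two' (resTwo q.1 (𝔓.indK₂ x.1))
    rw [𝔓.ind_sh_res_ind₂, ← res_d2, 𝔓.d2_indK₂] at h
    rw [dOneL_FX, d1_add, 𝔓.d1_indL₁]
    have h1 : 𝔓.indL₂ q (fun w => 𝔓.res₂ q w x.1 - tOne (x.2 q w)) =
        𝔓.indL₂ q (fun w => 𝔓.res₂ q w x.1) - 𝔓.indL₂ q (fun w => tOne (x.2 q w)) := by
      unfold PlaceSys.indL₂
      rw [← ind2_sub, ← 𝔓.eL₂_sub]
      rfl
    rw [h1]
    linear_combination (exp := 1) -h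

/-! ### `U` of zero -/

lemma PlaceSys.indK₂_zero : 𝔓.indK₂ (0 : ↥K.fixingSubgroup × ↥K.fixingSubgroup → k) = 0 := by
  unfold PlaceSys.indK₂
  rw [eG₂_zero]
  rfl

lemma PlaceSys.indK₃_zero :
    𝔓.indK₃ (0 : ↥K.fixingSubgroup × ↥K.fixingSubgroup × ↥K.fixingSubgroup → k) = 0 := by
  unfold PlaceSys.indK₃
  rw [eG₃_zero]
  rfl

lemma PlaceSys.indL₁_zero (q : ↥S) : 𝔓.indL₁ q (0 : ∀ w : 𝔓.W q, 𝔓.Γw q w → k) = 0 := by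
  unfold PlaceSys.indL₁
  rw [𝔓.eL₁_zero]
  rfl

lemma PlaceSys.indL₂_zero (q : ↥S) :
    𝔓.indL₂ q (0 : ∀ w : 𝔓.W q, 𝔓.Γw q w × 𝔓.Γw q w → k) = 0 := by
  unfold PlaceSys.indL₂
  rw [𝔓.eL₂_zero]
  rfl

lemma PlaceSys.U₂_zero : 𝔓.U₂ (0 : 𝔓.C2 k) = 0 := by
  refine Prod.ext ?_ (funext fun q => ?_)
  · exact 𝔓.indK₂_zero
  · show 𝔓.indL₁ q 0 + (𝔓.loc q).hty2 (resTwo q.1 (𝔓.indK₂ 0)) = 0
    rw [𝔓.indL₁_zero, 𝔓.indK₂_zero]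
    have : resTwo q.1 (0 : GQ × GQ → XK K → k) = 0 := rfl
    rw [this, hty2_zero, add_zero]

lemma PlaceSys.U₃_zero : 𝔓.U₃ (0 : 𝔓.C3 k) = 0 := by
  refine Prod.ext ?_ (funext fun q => ?_)
  · exact 𝔓.indK₃_zero
  · show 𝔓.indL₂ q 0 + (𝔓.loc q).hty3 (resThree q.1 (𝔓.indK₃ 0)) = 0
    rw [𝔓.indL₂_zero, 𝔓.indK₃_zero, resThree_zero', hty3_zero, add_zero]

/-! ### `Sh` maps cocycles to cocycles -/

lemma PlaceSys.dK2_Sh₂ (y : C2c S (FX k K)) (hy : dCone2 S (FX k K) y = 0) :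
    𝔓.dK2 (𝔓.Sh₂ y) = 0 := by
  have h1 : d2 (y.1 : GQ × GQ → XK K → k) = 0 := congrArg Prod.fst hy
  have h2 : ∀ q : ↥S, resTwo q.1 y.1 = d1 (y.2 q : Gl q.1 → XK K → k) := fun q => by
    have := congrFun (congrArg Prod.snd hy) q
    rw [← dOneL_FX]
    exact sub_eq_zero.1 this
  refine Prod.ext ?_ (funext fun q => funext fun w => ?_)
  · show tTwo (𝔓.shK₂ y.1) = 0
    rw [𝔓.tTwo_shK₂, h1]
    rfl
  · show 𝔓.res₂ q w (𝔓.shK₂ y.1) -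
      tOne (𝔓.shL₁ q (y.2 q - resOne q.1 (𝔓.glob.hty2 y.1)) w) = 0
    rw [𝔓.tOne_shL₁, d1_sub, ← res_d1, ← h2 q, ← resTwo_sub']
    have h := 𝔓.glob.hty_two' y.1
    rw [h1, hty3_zero, add_zero] at h
    rw [← h, sub_sub_cancel, ← 𝔓.indK₂_shK₂, 𝔓.sh_res_ind₂, sub_self]

lemma PlaceSys.isZ_Sh₃ (x : C3c S (FX k K)) (h1 : d3 (x.1 : GQ × GQ × GQ → XK K → k) = 0)
    (h2 : ∀ q : ↥S, resThree q.1 x.1 = d2 (x.2 q : Gl q.1 × Gl q.1 → XK K → k)) :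
    tThree (𝔓.Sh₃ x).1 = 0 ∧
      ∀ (q : ↥S) (w : 𝔓.W q), 𝔓.res₃ q w (𝔓.Sh₃ x).1 = tTwo ((𝔓.Sh₃ x).2 q w) := by
  refine ⟨𝔓.tThree_shK₃ x.1 h1, fun q w => funext fun t => ?_⟩
  show 𝔓.res₃ q w (𝔓.shK₃ x.1) t = tTwo (𝔓.shL₂ q (x.2 q - resTwo q.1 (𝔓.glob.hty3 x.1)) w) t
  rw [𝔓.tTwo_shL₂, d2_sub, ← res_d2, ← h2 q, ← resThree_sub']
  have h := 𝔓.glob.hty_three' x.1
  rw [h1, hty4_zero, add_zero] at h
  rw [← h, sub_sub_cancel, ← 𝔓.indK₃_shK₃, 𝔓.sh_res_ind₃]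

/-! ### The cone homotopy -/

lemma PlaceSys.sub_U₂_Sh₂ (y : C2c S (FX k K)) (hy : dCone2 S (FX k K) y = 0) :
    y - 𝔓.U₂ (𝔓.Sh₂ y) = dCone1 S (FX k K) (𝔓.H₂ y) := by
  have h1 : d2 (y.1 : GQ × GQ → XK K → k) = 0 := congrArg Prod.fst hy
  have h2 : ∀ q : ↥S, resTwo q.1 y.1 = d1 (y.2 q : Gl q.1 → XK K → k) := fun q => by
    have := congrFun (congrArg Prod.snd hy) q
    rw [← dOneL_FX]
    exact sub_eq_zero.1 this
  have hg := 𝔓.glob.hty_two' y.1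
  rw [h1, hty3_zero, add_zero] at hg
  refine Prod.ext ?_ (funext fun q => ?_)
  · show y.1 - 𝔓.indK₂ (𝔓.shK₂ y.1) = d1 (𝔓.glob.hty2 y.1)
    rw [𝔓.indK₂_shK₂, hg]
  · show y.2 q - (𝔓.indL₁ q (𝔓.shL₁ q (y.2 q - resOne q.1 (𝔓.glob.hty2 y.1))) +
        (𝔓.loc q).hty2 (resTwo q.1 (𝔓.indK₂ (𝔓.shK₂ y.1)))) =
      resOne q.1 (𝔓.glob.hty2 y.1) - dZeroL (FX k K) q.1
        (- (𝔓.loc q).hty1 (y.2 q - resOne q.1 (𝔓.glob.hty2 y.1)))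
    have hY : d1 (y.2 q - resOne q.1 (𝔓.glob.hty2 y.1)) =
        resTwo q.1 (𝔓.indK₂ (𝔓.shK₂ y.1)) := by
      rw [d1_sub, ← res_d1, ← h2 q, ← resTwo_sub', ← hg, sub_sub_cancel, 𝔓.indK₂_shK₂]
    have hl := (𝔓.loc q).hty_one' (y.2 q - resOne q.1 (𝔓.glob.hty2 y.1))
    rw [hY] at hl
    rw [𝔓.indL₁_shL₁, dZeroL_FX, d0_neg]
    linear_combination (exp := 1) hl

lemma PlaceSys.sub_U₃_Sh₃ (x : C3c S (FX k K))
    (h1 : d3 (x.1 : GQ × GQ × GQ → XK K → k) = 0)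
    (h2 : ∀ q : ↥S, resThree q.1 x.1 = d2 (x.2 q : Gl q.1 × Gl q.1 → XK K → k)) :
    x - 𝔓.U₃ (𝔓.Sh₃ x) = dCone2 S (FX k K) (𝔓.H₃ x) := by
  have hg := 𝔓.glob.hty_three' x.1
  rw [h1, hty4_zero, add_zero] at hg
  refine Prod.ext ?_ (funext fun q => ?_)
  · show x.1 - 𝔓.indK₃ (𝔓.shK₃ x.1) = d2 (𝔓.glob.hty3 x.1)
    rw [𝔓.indK₃_shK₃, hg]
  · show x.2 q - (𝔓.indL₂ q (𝔓.shL₂ q (x.2 q - resTwo q.1 (𝔓.glob.hty3 x.1))) +
        (𝔓.loc q).hty3 (resThree q.1 (𝔓.indK₃ (𝔓.shK₃ x.1)))) =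
      resTwo q.1 (𝔓.glob.hty3 x.1) - dOneL (FX k K) q.1
        (- (𝔓.loc q).hty2 (x.2 q - resTwo q.1 (𝔓.glob.hty3 x.1)))
    have hY : d2 (x.2 q - resTwo q.1 (𝔓.glob.hty3 x.1)) =
        resThree q.1 (𝔓.indK₃ (𝔓.shK₃ x.1)) := by
      rw [d2_sub, ← res_d2, ← h2 q, ← resThree_sub', ← hg, sub_sub_cancel, 𝔓.indK₃_shK₃]
    have hl := (𝔓.loc q).hty_two' (x.2 q - resTwo q.1 (𝔓.glob.hty3 x.1))
    rw [hY] at hl
    rw [𝔓.indL₂_shL₂, dOneL_FX, d1_neg]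
    linear_combination (exp := 1) hl

end Fermat.Agent.S55.Top

end
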