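/-
S55 (Poitou–Tate), package E4-top (SH): level bookkeeping for Shapiro's maps.
Owner: helper49.
-/
import Fermat.Agent.S55.Top.ConeMaps
import Fermat.Agent.S55.Coh.Level
import Fermat.Agent.S55.H48_NC

set_option autoImplicit false
set_option linter.unusedSectionVars false
set_option linter.unusedSimpArgs false

open CategoryTheory Module groupCohomology ExtCitation

noncomputable section

namespace Fermat.Agent.S55.Top

open Fermat.Agent.S55 OrbitData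

attribute [local instance] locAct

variable {k : Type} [Field k] {S : Finset Nat.Primes}
  {K : IntermediateField ℚ (AlgebraicClosure ℚ)}

/-! ### Good level fields -/

/-- `F` is a good level field for `K`: it is normal and contains `K`. -/
structure GoodLev (K F : IntermediateField ℚ (AlgebraicClosure ℚ)) : Prop where
  normal : F.fixingSubgroup.Normal
  le : K ≤ F

lemma GoodLev.mem_fixK {F : IntermediateField ℚ (AlgebraicClosure ℚ)} (h : GoodLev K F)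
    {s : GQ} (hs : s ∈ F.fixingSubgroup) : s ∈ K.fixingSubgroup :=
  mem_fix_of_le h.le hs

lemma GoodLev.triv {F : IntermediateField ℚ (AlgebraicClosure ℚ)} (h : GoodLev K F)
    (s : GQ) (hs : s ∈ F.fixingSubgroup) (x : XK K) : s • x = x := by
  induction x using QuotientGroup.induction_on with
  | H γ =>
    rw [MulAction.Quotient.smul_mk, smul_eq_mul]
    apply QuotientGroup.eq.2
    have h1 : γ⁻¹ * s⁻¹ * γ ∈ F.fixingSubgroup := by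
      have := h.normal.conj_mem s⁻¹ (F.fixingSubgroup.inv_mem hs) γ⁻¹
      simpa using this
    have h2 := h.mem_fixK h1
    have h3 : (s * γ)⁻¹ * γ = γ⁻¹ * s⁻¹ * γ := by group
    rw [h3]
    exact h2

lemma GoodLev.trivL {F : IntermediateField ℚ (AlgebraicClosure ℚ)} (h : GoodLev K F)
    (q : Nat.Primes) (s : Gl q) (hs : s ∈ F.fixingSubgroup.comap (rl q)) (x : XK K) :
    s • x = x :=
  h.triv (rl q s) hs x

lemma GoodLev.normalL {F : IntermediateField ℚ (AlgebraicClosure ℚ)} (h : GoodLev K F)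
    (q : Nat.Primes) : (F.fixingSubgroup.comap (rl q)).Normal :=
  h.normal.comap _

lemma exists_goodLev_S (hK : K.IsUnramifiedOutside S)
    {F₀ : IntermediateField ℚ (AlgebraicClosure ℚ)} (hF₀ : F₀.IsUnramifiedOutside S) :
    ∃ F : IntermediateField ℚ (AlgebraicClosure ℚ), F₀ ≤ F ∧ F.IsUnramifiedOutside S ∧
      GoodLev K F := by
  obtain ⟨F, hle, hF, hn⟩ := H48.exists_normal_level S (F₀ ⊔ K) (hF₀.sup hK)
  exact ⟨F, le_sup_left.trans hle, hF, ⟨hn, le_sup_right.trans hle⟩⟩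

lemma exists_goodLev_fin (hK : FiniteDimensional ℚ K)
    {F₀ : IntermediateField ℚ (AlgebraicClosure ℚ)} (hF₀ : FiniteDimensional ℚ F₀) :
    ∃ F : IntermediateField ℚ (AlgebraicClosure ℚ), F₀ ≤ F ∧ FiniteDimensional ℚ F ∧
      GoodLev K F := by
  have hsup : FiniteDimensional ℚ (F₀ ⊔ K : IntermediateField ℚ (AlgebraicClosure ℚ)) :=
    IntermediateField.finiteDimensional_sup F₀ K
  obtain ⟨F, hle, hF, hn⟩ := ncfin (F₀ ⊔ K) hsup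
  exact ⟨F, le_sup_left.trans hle, hF, ⟨hn, le_sup_right.trans hle⟩⟩

lemma exists_common_fin {ι : Type} [Finite ι]
    (F : ι → IntermediateField ℚ (AlgebraicClosure ℚ)) (h : ∀ i, FiniteDimensional ℚ (F i)) :
    ∃ F' : IntermediateField ℚ (AlgebraicClosure ℚ), (∀ i, F i ≤ F') ∧
      FiniteDimensional ℚ F' :=
  ⟨⨆ i, F i, fun i => le_iSup F i, IntermediateField.finiteDimensional_iSup_of_finite⟩

variable (𝔓 : PlaceSys S K)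

/-! ### Extension by zero is invariant -/

lemma eG₁_inv {F : IntermediateField ℚ (AlgebraicClosure ℚ)} (hF : GoodLev K F)
    {b : ↥K.fixingSubgroup → k}
    (hb : ∀ g s : ↥K.fixingSubgroup, (s : GQ) ∈ F.fixingSubgroup → b (g * s) = b g)
    (r : Unit) (g s : GQ) (hs : s ∈ F.fixingSubgroup) : eG₁ b r (g * s) = eG₁ b r g := by
  have hsK := hF.mem_fixK hs
  by_cases hg : g ∈ K.fixingSubgroup
  · rw [eG₁_mem b hg, eG₁_mem b (K.fixingSubgroup.mul_mem hg hsK)]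
    exact hb ⟨g, hg⟩ ⟨s, hsK⟩ hs
  · have hg' : ¬ g * s ∈ K.fixingSubgroup := fun h => hg (by
      have := K.fixingSubgroup.mul_mem h (K.fixingSubgroup.inv_mem hsK)
      simpa using this)
    simp only [eG₁]
    rw [dif_neg hg, dif_neg hg']

lemma eG₂_inv {F : IntermediateField ℚ (AlgebraicClosure ℚ)} (hF : GoodLev K F)
    {a : ↥K.fixingSubgroup × ↥K.fixingSubgroup → k}
    (ha : ∀ g₁ g₂ s₁ s₂ : ↥K.fixingSubgroup, (s₁ : GQ) ∈ F.fixingSubgroup →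
      (s₂ : GQ) ∈ F.fixingSubgroup → a (g₁ * s₁, g₂ * s₂) = a (g₁, g₂))
    (r : Unit) (g₁ g₂ s₁ s₂ : GQ) (h₁ : s₁ ∈ F.fixingSubgroup) (h₂ : s₂ ∈ F.fixingSubgroup) :
    eG₂ a r (g₁ * s₁, g₂ * s₂) = eG₂ a r (g₁, g₂) := by
  have hs₁ := hF.mem_fixK h₁
  have hs₂ := hF.mem_fixK h₂
  by_cases hg : g₁ ∈ K.fixingSubgroup ∧ g₂ ∈ K.fixingSubgroup
  · rw [eG₂_mem a hg.1 hg.2, eG₂_mem a (K.fixingSubgroup.mul_mem hg.1 hs₁)
      (K.fixingSubgroup.mul_mem hg.2 hs₂)]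
    exact ha ⟨g₁, hg.1⟩ ⟨g₂, hg.2⟩ ⟨s₁, hs₁⟩ ⟨s₂, hs₂⟩ h₁ h₂
  · have hg' : ¬ (g₁ * s₁ ∈ K.fixingSubgroup ∧ g₂ * s₂ ∈ K.fixingSubgroup) := fun h => hg (by
      have a1 := K.fixingSubgroup.mul_mem h.1 (K.fixingSubgroup.inv_mem hs₁)
      have a2 := K.fixingSubgroup.mul_mem h.2 (K.fixingSubgroup.inv_mem hs₂)
      exact ⟨by simpa using a1, by simpa using a2⟩)
    simp only [eG₂]
    rw [dif_neg hg, dif_neg hg']

lemma PlaceSys.eL₁_inv {F : IntermediateField ℚ (AlgebraicClosure ℚ)} (hF : GoodLev K F)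
    (q : ↥S) {z : ∀ w : 𝔓.W q, 𝔓.Γw q w → k}
    (hz : ∀ (w : 𝔓.W q) (g s : 𝔓.Γw q w), 𝔓.rw q w s ∈ F.fixingSubgroup →
      z w (g * s) = z w g)
    (w : 𝔓.W q) (g s : Gl q.1) (hs : s ∈ F.fixingSubgroup.comap (rl q.1)) :
    𝔓.eL₁ q z w (g * s) = 𝔓.eL₁ q z w g := by
  have hsΓ : s ∈ 𝔓.Γw q w := hF.trivL q.1 s hs _
  by_cases hg : g ∈ 𝔓.Γw q w
  · rw [𝔓.eL₁_mem q z w hg, 𝔓.eL₁_mem q z w ((𝔓.Γw q w).mul_mem hg hsΓ)]
    exact hz w ⟨g, hg⟩ ⟨s, hsΓ⟩ hs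
  · have hg' : ¬ g * s ∈ 𝔓.Γw q w := fun h => hg (by
      have := (𝔓.Γw q w).mul_mem h ((𝔓.Γw q w).inv_mem hsΓ)
      simpa using this)
    simp only [PlaceSys.eL₁]
    rw [dif_neg hg, dif_neg hg']

/-! ### Global level lemmas -/

variable {𝔓}

lemma lev_indK₁ (hK : K.IsUnramifiedOutside S) {b : ↥K.fixingSubgroup → k}
    (hb : IsLevK₁ S K b) : IsLevelConstantS₁ S (𝔓.indK₁ b) := by
  obtain ⟨F₀, hF₀, h⟩ := hb
  obtain ⟨F, hle, hF, hG⟩ := exists_goodLev_S hK hF₀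
  refine ⟨F, hF, fun g s hs => ?_⟩
  exact 𝔓.glob.inv_ind1 F.fixingSubgroup hG.normal hG.triv
    (eG₁_inv hG (fun g s hs => h g s (mem_fix_of_le hle hs))) g s hs

lemma lev_indK₂ (hK : K.IsUnramifiedOutside S)
    {a : ↥K.fixingSubgroup × ↥K.fixingSubgroup → k}
    (ha : IsLevK₂ S K a) : IsLevelConstantS₂ S (𝔓.indK₂ a) := by
  obtain ⟨F₀, hF₀, h⟩ := ha
  obtain ⟨F, hle, hF, hG⟩ := exists_goodLev_S hK hF₀
  refine ⟨F, hF, fun g g' s s' hs hs' => ?_⟩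
  exact 𝔓.glob.inv_ind2 F.fixingSubgroup hG.normal hG.triv
    (eG₂_inv hG (fun g₁ g₂ s₁ s₂ h₁ h₂ =>
      h g₁ g₂ s₁ s₂ (mem_fix_of_le hle h₁) (mem_fix_of_le hle h₂))) g g' s s' hs hs'

lemma lev_glob_hty2 (hK : K.IsUnramifiedOutside S) {B : GQ × GQ → XK K → k}
    (hB : IsLevelConstantS₂ S B) : IsLevelConstantS₁ S (𝔓.glob.hty2 B) := by
  obtain ⟨F₀, hF₀, h⟩ := hB
  obtain ⟨F, hle, hF, hG⟩ := exists_goodLev_S hK hF₀
  refine ⟨F, hF, fun g s hs => ?_⟩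
  exact 𝔓.glob.inv_hty2 F.fixingSubgroup hG.normal hG.triv
    (fun g₁ g₂ s₁ s₂ h₁ h₂ => h g₁ g₂ s₁ s₂ (mem_fix_of_le hle h₁) (mem_fix_of_le hle h₂))
    g s hs

lemma lev_glob_hty3 (hK : K.IsUnramifiedOutside S) {A : GQ × GQ × GQ → XK K → k}
    (hA : IsLevS₃ S A) : IsLevelConstantS₂ S (𝔓.glob.hty3 A) := by
  obtain ⟨F₀, hF₀, h⟩ := hA
  obtain ⟨F, hle, hF, hG⟩ := exists_goodLev_S hK hF₀
  refine ⟨F, hF, fun g g' s s' hs hs' => ?_⟩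
  exact 𝔓.glob.inv_hty3 F.fixingSubgroup hG.normal hG.triv
    (fun g₁ g₂ g₃ s₁ s₂ s₃ h₁ h₂ h₃ => h g₁ g₂ g₃ s₁ s₂ s₃ (mem_fix_of_le hle h₁)
      (mem_fix_of_le hle h₂) (mem_fix_of_le hle h₃)) g g' s s' hs hs'

lemma lev_shK₁ {B : GQ → XK K → k} (hB : IsLevelConstantS₁ S B) :
    IsLevK₁ S K (𝔓.shK₁ B) := by
  obtain ⟨F, hF, h⟩ := hB
  refine ⟨F, hF, fun g s hs => ?_⟩
  show B (g.1 * s.1) _ = B g.1 _
  rw [h g.1 s.1 hs]

lemma lev_shK₂ {B : GQ × GQ → XK K → k} (hB : IsLevelConstantS₂ S B) :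
    IsLevK₂ S K (𝔓.shK₂ B) := by
  obtain ⟨F, hF, h⟩ := hB
  refine ⟨F, hF, fun g₁ g₂ s₁ s₂ h₁ h₂ => ?_⟩
  show B (g₁.1 * s₁.1, g₂.1 * s₂.1) _ = B (g₁.1, g₂.1) _
  rw [h g₁.1 g₂.1 s₁.1 s₂.1 h₁ h₂]

lemma lev_shK₃ {B : GQ × GQ × GQ → XK K → k} (hB : IsLevS₃ S B) :
    IsLevK₃ S K (𝔓.shK₃ B) := by
  obtain ⟨F, hF, h⟩ := hB
  refine ⟨F, hF, fun g₁ g₂ g₃ s₁ s₂ s₃ h₁ h₂ h₃ => ?_⟩
  show B (g₁.1 * s₁.1, g₂.1 * s₂.1, g₃.1 * s₃.1) _ = B (g₁.1, g₂.1, g₃.1) _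
  rw [h g₁.1 g₂.1 g₃.1 s₁.1 s₂.1 s₃.1 h₁ h₂ h₃]

/-! ### Local level lemmas -/

lemma lev_indL₁ (hK : K.IsUnramifiedOutside S) (q : ↥S) {z : ∀ w : 𝔓.W q, 𝔓.Γw q w → k}
    (hz : ∀ w : 𝔓.W q, IsLevelConstant₁ (𝔓.rw q w) (z w)) :
    IsLevelConstant₁ (rl q.1) (𝔓.indL₁ q z) := by
  choose Fw hFw hw using hz
  have hfin : Finite (𝔓.W q) := @Finite.of_fintype _ (𝔓.fin q)
  obtain ⟨F₀, hle₀, hF₀⟩ := exists_common_fin Fw hFw
  obtain ⟨F, hle, hF, hG⟩ := exists_goodLev_fin hK.1 hF₀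
  refine ⟨F, hF, fun g s hs => ?_⟩
  exact (𝔓.loc q).inv_ind1 (F.fixingSubgroup.comap (rl q.1)) (hG.normalL q.1) (hG.trivL q.1)
    (𝔓.eL₁_inv hG q (fun w g s hs =>
      hw w g s (mem_fix_of_le ((hle₀ w).trans hle) hs))) g s hs

lemma lev_loc_hty2 (hK : K.IsUnramifiedOutside S) (q : ↥S) {Y : Gl q.1 × Gl q.1 → XK K → k}
    (hY : IsLevelConstant₂ (rl q.1) Y) : IsLevelConstant₁ (rl q.1) ((𝔓.loc q).hty2 Y) := by
  obtain ⟨F₀, hF₀, h⟩ := hY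
  obtain ⟨F, hle, hF, hG⟩ := exists_goodLev_fin hK.1 hF₀
  refine ⟨F, hF, fun g s hs => ?_⟩
  exact (𝔓.loc q).inv_hty2 (F.fixingSubgroup.comap (rl q.1)) (hG.normalL q.1) (hG.trivL q.1)
    (fun g₁ g₂ s₁ s₂ h₁ h₂ => h g₁ g₂ s₁ s₂ (mem_fix_of_le hle h₁) (mem_fix_of_le hle h₂))
    g s hs

lemma lev_shL₁ (q : ↥S) {Y : Gl q.1 → XK K → k} (hY : IsLevelConstant₁ (rl q.1) Y)
    (w : 𝔓.W q) : IsLevelConstant₁ (𝔓.rw q w) (𝔓.shL₁ q Y w) := by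
  obtain ⟨F, hF, h⟩ := hY
  refine ⟨F, hF, fun g s hs => ?_⟩
  show Y (g.1 * s.1) _ = Y g.1 _
  rw [h g.1 s.1 hs]

lemma lev_shL₂ (q : ↥S) {Y : Gl q.1 × Gl q.1 → XK K → k} (hY : IsLevelConstant₂ (rl q.1) Y)
    (w : 𝔓.W q) : IsLevelConstant₂ (𝔓.rw q w) (𝔓.shL₂ q Y w) := by
  obtain ⟨F, hF, h⟩ := hY
  refine ⟨F, hF, fun g₁ g₂ s₁ s₂ h₁ h₂ => ?_⟩
  show Y (g₁.1 * s₁.1, g₂.1 * s₂.1) _ = Y (g₁.1, g₂.1) _
  rw [h g₁.1 g₂.1 s₁.1 s₂.1 h₁ h₂]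

lemma lev_cup10 (hK : K.IsUnramifiedOutside S) (q : ↥S) {V : Gl q.1 → XK K → k}
    (hV : IsLevelConstant₁ (rl q.1) V) (β : XK K → k) :
    IsLevelConstant₁ (rl q.1) (cup10 V β) := by
  obtain ⟨F₀, hF₀, h⟩ := hV
  obtain ⟨F, hle, hF, hG⟩ := exists_goodLev_fin hK.1 hF₀
  refine ⟨F, hF, fun g s hs => ?_⟩
  exact inv_cup10 (F.fixingSubgroup.comap (rl q.1)) (hG.normalL q.1) (hG.trivL q.1)
    (fun g s hs => h g s (mem_fix_of_le hle hs)) β g s hs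

lemma lev_cup20 (hK : K.IsUnramifiedOutside S) (q : ↥S) {A : Gl q.1 × Gl q.1 → XK K → k}
    (hA : IsLevelConstant₂ (rl q.1) A) (β : XK K → k) :
    IsLevelConstant₂ (rl q.1) (cup20 A β) := by
  obtain ⟨F₀, hF₀, h⟩ := hA
  obtain ⟨F, hle, hF, hG⟩ := exists_goodLev_fin hK.1 hF₀
  refine ⟨F, hF, fun g g' s s' hs hs' => ?_⟩
  exact inv_cup20 (F.fixingSubgroup.comap (rl q.1)) (hG.normalL q.1) (hG.trivL q.1)
    (fun g₁ g₂ s₁ s₂ h₁ h₂ => h g₁ g₂ s₁ s₂ (mem_fix_of_le hle h₁) (mem_fix_of_le hle h₂))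
    β g g' s s' hs hs'

lemma lev_cup01 (q : ↥S) {V : Gl q.1 → XK K → k}
    (hV : IsLevelConstant₁ (rl q.1) V) (α : XK K → k) :
    IsLevelConstant₁ (rl q.1) (cup01 α V) :=
  levL₁_comp (q := q.1) hV (fun (φ : XK K → k) (x : XK K) => α x * φ x)

lemma lev_cup02 (q : ↥S) {A : Gl q.1 × Gl q.1 → XK K → k}
    (hA : IsLevelConstant₂ (rl q.1) A) (α : XK K → k) :
    IsLevelConstant₂ (rl q.1) (cup02 α A) :=
  levL₂_comp (q := q.1) hA (fun (φ : XK K → k) (x : XK K) => α x * φ x)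

end Fermat.Agent.S55.Top

end
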