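/-
S55 (Poitou–Tate), package E4-top (SH): Shapiro's maps preserve cocycles and coboundaries
(with the level conditions).
Owner: helper49.
-/
import Fermat.Agent.S55.Top.LevMaps

set_option autoImplicit false
set_option linter.unusedSectionVars false
set_option linter.unusedSimpArgs false

open CategoryTheory Module groupCohomology ExtCitation

noncomputable section

namespace Fermat.Agent.S55.Top

open Fermat.Agent.S55 OrbitData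

attribute [local instance] locAct

variable {k : Type} [Field k] {S : Finset Nat.Primes}
  {K : IntermediateField ℚ (AlgebraicClosure ℚ)} {𝔓 : PlaceSys S K}

/-! ### `K`-level cocycles in terms of the `K`-level cone differentials -/

lemma dK1_eq_zero {y : 𝔓.C1 k} (hy : IsZ1cK 𝔓 y) : 𝔓.dK1 y = 0 := by
  refine Prod.ext hy.1.1 (funext fun q => funext fun w => ?_)
  exact hy.2 q w

lemma dK2_eq_zero {x : 𝔓.C2 k} (hx : IsZ2cK 𝔓 x) : 𝔓.dK2 x = 0 := by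
  refine Prod.ext hx.1.1 (funext fun q => funext fun w => ?_)
  show 𝔓.res₂ q w x.1 - tOne (x.2 q w) = 0
  rw [(hx.2 q w).2, sub_self]

/-! ### Levels of `U` -/

lemma lev_U₂_snd (hK : K.IsUnramifiedOutside S) {x : 𝔓.C2 k} (h1 : IsLevK₂ S K x.1)
    (h2 : ∀ (q : ↥S) (w : 𝔓.W q), IsLevelConstant₁ (𝔓.rw q w) (x.2 q w)) (q : ↥S) :
    IsLevelConstant₁ (rl q.1) ((𝔓.U₂ x).2 q) :=
  (lev_indL₁ hK q (h2 q)).add (lev_loc_hty2 hK q (levL₂_resTwo q.1 (lev_indK₂ hK h1)))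

/-! ### `U` preserves cocycles and coboundaries -/

theorem isZ1c_U₁ (hK : K.IsUnramifiedOutside S) {y : 𝔓.C1 k} (hy : IsZ1cK 𝔓 y) :
    IsZ1c S (FX k K) (𝔓.U₁ y) := by
  rw [isZ1c_iff]
  refine ⟨lev_indK₁ hK hy.1.2, ?_⟩
  rw [← 𝔓.U₂_dK1, dK1_eq_zero hy, 𝔓.U₂_zero]

theorem isZ2c_U₂ (hK : K.IsUnramifiedOutside S) {x : 𝔓.C2 k} (hx : IsZ2cK 𝔓 x) :
    IsZ2c S (FX k K) (𝔓.U₂ x) := by
  rw [isZ2c_iff]
  refine ⟨⟨lev_indK₂ hK hx.1.2, lev_U₂_snd hK hx.1.2 (fun q w => (hx.2 q w).1)⟩, ?_⟩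
  rw [← 𝔓.U₃_dK2, dK2_eq_zero hx, 𝔓.U₃_zero]

theorem isB2c_U₂ (hK : K.IsUnramifiedOutside S) {x : 𝔓.C2 k} (hx : IsB2cK 𝔓 x) :
    IsB2c S (FX k K) (𝔓.U₂ x) := by
  obtain ⟨f, hf, h1, h2⟩ := hx
  have hx' : x = 𝔓.dK1 (f, fun _ _ => 0) :=
    Prod.ext h1 (funext fun q => funext fun w => h2 q w)
  rw [isB2c_iff]
  refine ⟨𝔓.U₁ (f, fun _ _ => 0), lev_indK₁ hK hf, ?_⟩
  rw [hx', 𝔓.U₂_dK1]

theorem isB3c_U₃ (hK : K.IsUnramifiedOutside S) {x : 𝔓.C3 k} (hx : IsB3cK 𝔓 x) :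
    IsB3c S (FX k K) (𝔓.U₃ x) := by
  obtain ⟨f, g, hf, hg, h1, h2⟩ := hx
  have hx' : x = 𝔓.dK2 (f, g) :=
    Prod.ext h1 (funext fun q => funext fun w => h2 q w)
  rw [isB3c_iff]
  refine ⟨𝔓.U₂ (f, g), lev_indK₂ hK hf, lev_U₂_snd hK hf hg, ?_⟩
  rw [hx', 𝔓.U₃_dK2]

/-! ### `Sh` preserves cocycles -/

lemma dCone2_eq_zero {y : C2c S (FX k K)} (hy : IsZ2c S (FX k K) y) :
    dCone2 S (FX k K) y = 0 := ((isZ2c_iff y).1 hy).2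

theorem isZ2cK_Sh₂ (hK : K.IsUnramifiedOutside S) {y : C2c S (FX k K)}
    (hy : IsZ2c S (FX k K) y) : IsZ2cK 𝔓 (𝔓.Sh₂ y) := by
  have h0 := 𝔓.dK2_Sh₂ y (dCone2_eq_zero hy)
  have hl := ((isZ2c_iff y).1 hy).1
  refine ⟨⟨congrArg Prod.fst h0, lev_shK₂ hl.1⟩, fun q w => ⟨?_, ?_⟩⟩
  · exact lev_shL₁ q (levL₁_sub q.1 (hl.2 q) (levL₁_resOne q.1 (lev_glob_hty2 hK hl.1))) w
  · have := congrFun (congrFun (congrArg Prod.snd h0) q) w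
    exact sub_eq_zero.1 this

theorem isZ3cK_Sh₃ (hK : K.IsUnramifiedOutside S) {x : C3c S (FX k K)}
    (hx : IsZ3c S (FX k K) x) : IsZ3cK 𝔓 (𝔓.Sh₃ x) := by
  have h2 : ∀ q : ↥S, resThree q.1 x.1 = d2 (x.2 q : Gl q.1 × Gl q.1 → XK K → k) := fun q => by
    rw [← dTwoL_FX]
    exact (hx.2 q).2
  obtain ⟨ha, hb⟩ := 𝔓.isZ_Sh₃ x hx.1.1 h2
  refine ⟨⟨ha, lev_shK₃ hx.1.2⟩, fun q w => ⟨?_, hb q w⟩⟩
  exact lev_shL₂ q (levL₂_sub q.1 (hx.2 q).1 (levL₂_resTwo q.1 (lev_glob_hty3 hK hx.1.2))) w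

/-! ### The cone homotopy: `x - U (Sh x)` is a coboundary -/

theorem isB2c_sub_U₂_Sh₂ (hK : K.IsUnramifiedOutside S) {y : C2c S (FX k K)}
    (hy : IsZ2c S (FX k K) y) : IsB2c S (FX k K) (y - 𝔓.U₂ (𝔓.Sh₂ y)) := by
  rw [isB2c_iff]
  exact ⟨𝔓.H₂ y, lev_glob_hty2 hK hy.1.2, 𝔓.sub_U₂_Sh₂ y (dCone2_eq_zero hy)⟩

theorem isB3c_sub_U₃_Sh₃ (hK : K.IsUnramifiedOutside S) {x : C3c S (FX k K)}
    (hx : IsZ3c S (FX k K) x) : IsB3c S (FX k K) (x - 𝔓.U₃ (𝔓.Sh₃ x)) := by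
  have h2 : ∀ q : ↥S, resThree q.1 x.1 = d2 (x.2 q : Gl q.1 × Gl q.1 → XK K → k) := fun q => by
    rw [← dTwoL_FX]
    exact (hx.2 q).2
  rw [isB3c_iff]
  refine ⟨𝔓.H₃ x, lev_glob_hty3 hK hx.1.2, fun q => ?_, 𝔓.sub_U₃_Sh₃ x hx.1.1 h2⟩
  exact levL₁_neg q.1 (lev_loc_hty2 hK q
    (levL₂_sub q.1 (hx.2 q).1 (levL₂_resTwo q.1 (lev_glob_hty3 hK hx.1.2))))

/-! ### Global statements -/

theorem isZ1S_indK₁ (hK : K.IsUnramifiedOutside S) {b : ↥K.fixingSubgroup → k}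
    (hb : IsZ1K S K b) : IsZ1S S (FX k K) (𝔓.indK₁ b) := by
  refine ⟨?_, lev_indK₁ hK hb.2⟩
  show d1 (𝔓.indK₁ b) = 0
  rw [𝔓.d1_indK₁, hb.1, 𝔓.indK₂_zero]

theorem isZ2S_indK₂ (hK : K.IsUnramifiedOutside S)
    {a : ↥K.fixingSubgroup × ↥K.fixingSubgroup → k}
    (ha : IsZ2K S K a) : IsZ2S S (FX k K) (𝔓.indK₂ a) := by
  refine ⟨?_, lev_indK₂ hK ha.2⟩
  show d2 (𝔓.indK₂ a) = 0
  rw [𝔓.d2_indK₂, ha.1, 𝔓.indK₃_zero]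

theorem isB2S_indK₂ (hK : K.IsUnramifiedOutside S)
    {a : ↥K.fixingSubgroup × ↥K.fixingSubgroup → k}
    (ha : IsB2K S K a) : IsB2S S (FX k K) (𝔓.indK₂ a) := by
  obtain ⟨f, hf, rfl⟩ := ha
  refine ⟨𝔓.indK₁ f, lev_indK₁ hK hf, ?_⟩
  show d1 (𝔓.indK₁ f) = _
  rw [𝔓.d1_indK₁]

theorem isZ1K_shK₁ {B : GQ → FX k K} (hB : IsZ1S S (FX k K) B) :
    IsZ1K S K (𝔓.shK₁ B) := by
  refine ⟨?_, lev_shK₁ hB.2⟩
  have h : d1 (B : GQ → XK K → k) = 0 := hB.1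
  rw [𝔓.tOne_shK₁, h]
  rfl

theorem isZ2K_shK₂ {B : GQ × GQ → FX k K} (hB : IsZ2S S (FX k K) B) :
    IsZ2K S K (𝔓.shK₂ B) := by
  refine ⟨?_, lev_shK₂ hB.2⟩
  have h : d2 (B : GQ × GQ → XK K → k) = 0 := hB.1
  rw [𝔓.tTwo_shK₂, h]
  rfl

theorem sub_indK₁_shK₁ {B : GQ → FX k K} (hB : IsZ1S S (FX k K) B) :
    (B : GQ → XK K → k) - 𝔓.indK₁ (𝔓.shK₁ B) = dZero (FX k K) (𝔓.glob.hty1 B) := by
  have h : d1 (B : GQ → XK K → k) = 0 := hB.1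
  have hg := 𝔓.glob.hty_one' (B : GQ → XK K → k)
  rw [h, hty2_zero, add_zero] at hg
  rw [𝔓.indK₁_shK₁, hg]
  rfl

theorem isB2S_sub_indK₂_shK₂ (hK : K.IsUnramifiedOutside S) {a : GQ × GQ → FX k K}
    (ha : IsZ2S S (FX k K) a) :
    IsB2S S (FX k K) ((a : GQ × GQ → XK K → k) - 𝔓.indK₂ (𝔓.shK₂ a)) := by
  have h : d2 (a : GQ × GQ → XK K → k) = 0 := ha.1
  have hg := 𝔓.glob.hty_two' (a : GQ × GQ → XK K → k)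
  rw [h, hty3_zero, add_zero] at hg
  refine ⟨𝔓.glob.hty2 a, lev_glob_hty2 hK ha.2, ?_⟩
  rw [𝔓.indK₂_shK₂, hg]
  rfl

end Fermat.Agent.S55.Top

end
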