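/-
S55 (Poitou–Tate), package E4-top (SH): the Shapiro homotopy is multiplicative up to an
explicit coboundary (generic algebra; three cases, one for each cup product of the cone).
Owner: helper49.
-/
import Fermat.Agent.S55.Top.ShapiroLev

set_option autoImplicit false
set_option linter.unusedSectionVars false
set_option linter.unusedSimpArgs false

namespace Fermat.Agent.S55.Top

namespace OrbitData

variable {k : Type} [CommRing k] {Γ : Type} [Group Γ] {X : Type} [MulAction Γ X] {R : Type}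
  (D : OrbitData Γ X R)

/-! ### Bilinearity -/

lemma cup11_add_left (A A' B : Γ → X → k) : cup11 (A + A') B = cup11 A B + cup11 A' B := by
  funext t x; simp only [cup11, Pi.add_apply]; ring

lemma cup11_add_right (A B B' : Γ → X → k) : cup11 A (B + B') = cup11 A B + cup11 A B' := by
  funext t x; simp only [cup11, Pi.add_apply]; ring

lemma cup21_add_right (A : Γ × Γ → X → k) (B B' : Γ → X → k) :
    cup21 A (B + B') = cup21 A B + cup21 A B' := by
  funext t x; simp only [cup21, Pi.add_apply]; ring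

lemma cup12_add_left (A A' : Γ → X → k) (B : Γ × Γ → X → k) :
    cup12 (A + A') B = cup12 A B + cup12 A' B := by
  funext t x; simp only [cup12, Pi.add_apply]; ring

lemma cup20_add_right (A : Γ × Γ → X → k) (m m' : X → k) :
    cup20 A (m + m') = cup20 A m + cup20 A m' := by
  funext t x; simp only [cup20, Pi.add_apply]; ring

lemma cup20_sub_left (A A' : Γ × Γ → X → k) (m : X → k) :
    cup20 (A - A') m = cup20 A m - cup20 A' m := by
  funext t x; simp only [cup20, Pi.sub_apply]; ring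

lemma hty3_add (f f' : Γ × Γ × Γ → X → k) : D.hty3 (f + f') = D.hty3 f + D.hty3 f' := by
  funext g x; simp only [hty3, Pi.add_apply]; ring

lemma hty2_add (f f' : Γ × Γ → X → k) : D.hty2 (f + f') = D.hty2 f + D.hty2 f' := by
  funext g x; simp only [hty2, Pi.add_apply]; ring

lemma d1_cocycle_one {B : Γ → X → k} (hB : d1 B = 0) (x : X) : B 1 x = 0 := by
  have h := congrFun (congrFun hB (1, 1)) x
  simpa [d1] using h

/-- a `1`-cocycle is induced up to the coboundary of `hty1`. -/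
lemma cocycle_eq_ind_add {B : Γ → X → k} (hB : d1 B = 0) :
    B = D.ind1 (D.sh1 B) + d0 (D.hty1 B) := by
  have h := D.hty_one' B
  rw [hB, hty2_zero, add_zero] at h
  rw [← h]
  abel

lemma hty1_rep_cocycle {B : Γ → X → k} (hB : d1 B = 0) (r : R) : D.hty1 B (D.rep r) = 0 := by
  rw [D.hty1_rep, d1_cocycle_one hB]

lemma sh1_one_cocycle {B : Γ → X → k} (hB : d1 B = 0) (r : R) : D.sh1 B r 1 = 0 :=
  d1_cocycle_one hB _

/-! ### The three multiplicativity identities -/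

/-- cone on the left, degrees `(2, 1)`. -/
theorem adjA2 (A : Γ × Γ → X → k) (V : Γ → X → k) (ζ : R → Γ → k) (B : Γ → X → k)
    (hA : d2 A = 0) (hV : d1 V = A) (hVζ : V = D.ind1 ζ + D.hty2 A) (hB : d1 B = 0) :
    cup11 (D.ind1 ζ) (D.ind1 (D.sh1 B)) + D.hty3 (cup21 A B) - cup11 V B =
      d1 (cup10 V (D.hty1 B) - D.hty2 (cup20 A (D.hty1 B))) := by
  have hc : ∀ r, D.sh1 B r 1 = 0 := D.sh1_one_cocycle hB
  have hβ : ∀ r, D.hty1 B (D.rep r) = 0 := D.hty1_rep_cocycle hB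
  have e1 : cup21 A B = cup21 A (D.ind1 (D.sh1 B)) + cup21 A (d0 (D.hty1 B)) := by
    rw [← cup21_add_right, ← D.cocycle_eq_ind_add hB]
  have e2 : cup11 V B = cup11 V (D.ind1 (D.sh1 B)) + cup11 V (d0 (D.hty1 B)) := by
    rw [← cup11_add_right, ← D.cocycle_eq_ind_add hB]
  have e3 := D.hty3_cup21_ind A (D.sh1 B) hc
  have e4 : cup21 A (d0 (D.hty1 B)) = d2 (cup20 A (D.hty1 B)) := by
    rw [d2_cup20, hA]
    have : cup30 (0 : Γ × Γ × Γ → X → k) (D.hty1 B) = 0 := cup30_zero _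
    rw [this, zero_add]
  have e5 := D.hty_two' (cup20 A (D.hty1 B))
  rw [D.ind2_sh2_cup20 A _ hβ, sub_zero] at e5
  have e6 : cup11 V (D.ind1 (D.sh1 B)) =
      cup11 (D.ind1 ζ) (D.ind1 (D.sh1 B)) + cup11 (D.hty2 A) (D.ind1 (D.sh1 B)) := by
    rw [← cup11_add_left, ← hVζ]
  have e7 := d1_cup10 V (D.hty1 B)
  rw [hV] at e7
  rw [e1, hty3_add, e3, e4, e2, e6, d1_sub, e7]
  linear_combination (exp := 1) -e5

/-- cone on the right, degrees `(2, 1)`. -/
theorem adjB1 (A : Γ × Γ → X → k) (B : Γ → X → k) (m : R → k)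
    (hA : d2 A = 0) (hB : d1 B = 0) (hB0 : D.ind1 (D.sh1 B) = 0) :
    cup20 (D.ind2 (D.sh2 A)) (D.ind0 m) + D.hty3 (cup21 A B)
        - cup20 A (D.ind0 m + D.hty1 B) =
      - d1 (cup10 (D.hty2 A) (D.ind0 m) + D.hty2 (cup20 A (D.hty1 B))) := by
  have hβ : ∀ r, D.hty1 B (D.rep r) = 0 := D.hty1_rep_cocycle hB
  have e1 : cup21 A B = cup21 A (d0 (D.hty1 B)) := by
    have := D.cocycle_eq_ind_add hB
    rw [hB0, zero_add] at this
    rw [← this]
  have e4 : cup21 A (d0 (D.hty1 B)) = d2 (cup20 A (D.hty1 B)) := by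
    rw [d2_cup20, hA]
    have : cup30 (0 : Γ × Γ × Γ → X → k) (D.hty1 B) = 0 := cup30_zero _
    rw [this, zero_add]
  have e5 := D.hty_two' (cup20 A (D.hty1 B))
  rw [D.ind2_sh2_cup20 A _ hβ, sub_zero] at e5
  have e6 := D.hty_two' A
  rw [hA, hty3_zero, add_zero] at e6
  have e7 := d1_cup10 (D.hty2 A) (D.ind0 m)
  rw [d0_ind0] at e7
  have h0 : cup11 (D.hty2 A) (fun (_ : Γ) (_ : X) => (0 : k)) = 0 := by
    funext t x; simp [cup11]
  rw [h0, sub_zero] at e7
  have e8 : cup20 (D.ind2 (D.sh2 A)) (D.ind0 m) =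
      cup20 A (D.ind0 m) - cup20 (d1 (D.hty2 A)) (D.ind0 m) := by
    rw [← cup20_sub_left, ← e6, sub_sub_cancel]
  rw [e1, e4, e8, cup20_add_right, d1_add, e7]
  linear_combination (exp := 1) -e5

/-- cone on the right, degrees `(1, 2)`. -/
theorem adjB2 (A : Γ → X → k) (B : Γ × Γ → X → k) (V : Γ → X → k) (ζ : R → Γ → k)
    (hA : d1 A = 0) (hB : d2 B = 0) (hV : d1 V = B) (hVζ : V = D.ind1 ζ + D.hty2 B) :
    - cup11 (D.ind1 (D.sh1 A)) (D.ind1 ζ) + D.hty3 (cup12 A B) + cup11 A V =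
      d1 (cup01 (D.hty1 A) V - D.hty2 (cup02 (D.hty1 A) B)) := by
  have hc : ∀ r, D.sh1 A r 1 = 0 := D.sh1_one_cocycle hA
  have hα : ∀ r, D.hty1 A (D.rep r) = 0 := D.hty1_rep_cocycle hA
  have e1 : cup12 A B = cup12 (D.ind1 (D.sh1 A)) B + cup12 (d0 (D.hty1 A)) B := by
    rw [← cup12_add_left, ← D.cocycle_eq_ind_add hA]
  have e2 : cup11 A V = cup11 (D.ind1 (D.sh1 A)) V + cup11 (d0 (D.hty1 A)) V := by
    rw [← cup11_add_left, ← D.cocycle_eq_ind_add hA]
  have e3 := D.hty3_cup12_ind (D.sh1 A) B hc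
  have e4 : cup12 (d0 (D.hty1 A)) B = d2 (cup02 (D.hty1 A) B) := by
    rw [d2_cup02, hB]
    have : cup03 (D.hty1 A) (0 : Γ × Γ × Γ → X → k) = 0 := cup03_zero _
    rw [this, add_zero]
  have e5 := D.hty_two' (cup02 (D.hty1 A) B)
  rw [D.ind2_sh2_cup02 _ B hα, sub_zero] at e5
  have e6 : cup11 (D.ind1 (D.sh1 A)) V =
      cup11 (D.ind1 (D.sh1 A)) (D.ind1 ζ) + cup11 (D.ind1 (D.sh1 A)) (D.hty2 B) := by
    rw [← cup11_add_right, ← hVζ]
  have e7 := d1_cup01 (D.hty1 A) V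
  rw [hV] at e7
  rw [e1, hty3_add, e3, e4, e2, e6, d1_sub, e7]
  linear_combination (exp := 1) -e5

end OrbitData

end Fermat.Agent.S55.Top
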