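/-
S55 (Poitou–Tate), package E4-top (SH): the map `U` from the `K`-level cone to the cone of `FX`
is multiplicative up to cone coboundaries (three cases).
Owner: helper49.
-/
import Fermat.Agent.S55.Top.Members
import Fermat.Agent.S55.Top.ShapiroAdj

set_option autoImplicit false
set_option linter.unusedSectionVars false
set_option linter.unusedSimpArgs false

open CategoryTheory Module groupCohomology ExtCitation

noncomputable section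

namespace Fermat.Agent.S55.Top

open Fermat.Agent.S55 OrbitData

attribute [local instance] locAct

variable {k : Type} [Field k] {S : Finset Nat.Primes}
  {K : IntermediateField ℚ (AlgebraicClosure ℚ)}

/-! ### Cone cup products in coordinates -/

/-- cone on the left, degrees `(2, 1)`, in coordinates. -/
def cA2 (x : C2c S (FX k K)) (B : GQ → XK K → k) : C3c S (FX k K) :=
  (cup21 (x.1 : GQ × GQ → XK K → k) B,
   fun q => cup11 (x.2 q : Gl q.1 → XK K → k) (resOne q.1 B))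

/-- cone on the left, degrees `(3, 0)`, in coordinates. -/
def cA3 (x : C3c S (FX k K)) (m : XK K → k) : C3c S (FX k K) :=
  (cup30 (x.1 : GQ × GQ × GQ → XK K → k) m,
   fun q => cup20 (x.2 q : Gl q.1 × Gl q.1 → XK K → k) m)

/-- cone on the right, degrees `(2, 1)`, in coordinates. -/
def cB1 (A : GQ × GQ → XK K → k) (y : C1c S (FX k K)) : C3c S (FX k K) :=
  (cup21 A (y.1 : GQ → XK K → k),
   fun q => cup20 (resTwo q.1 A) (y.2 q : XK K → k))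

/-- cone on the right, degrees `(1, 2)`, in coordinates. -/
def cB2 (A : GQ → XK K → k) (y : C2c S (FX k K)) : C3c S (FX k K) :=
  (cup12 A (y.1 : GQ × GQ → XK K → k),
   fun q => - cup11 (resOne q.1 A) (y.2 q : Gl q.1 → XK K → k))

/-! ### Restriction and cup products -/

lemma res_cup21 (q : Nat.Primes) (A : GQ × GQ → XK K → k) (B : GQ → XK K → k) :
    resThree q (cup21 A B) = cup21 (resTwo q A) (resOne q B) := by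
  funext t x
  simp only [resThree, cup21, resTwo, resOne, locAct_smul, map_inv]

lemma res_cup12 (q : Nat.Primes) (A : GQ → XK K → k) (B : GQ × GQ → XK K → k) :
    resThree q (cup12 A B) = cup12 (resOne q A) (resTwo q B) := by
  funext t x
  simp only [resThree, cup12, resTwo, resOne, locAct_smul, map_inv]

variable (𝔓 : PlaceSys S K)

/-! ### Induction of products -/

lemma PlaceSys.indK₃_mul21 (a : ↥K.fixingSubgroup × ↥K.fixingSubgroup → k)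
    (b : ↥K.fixingSubgroup → k) :
    𝔓.indK₃ (fun t => a (t.1, t.2.1) * b t.2.2) = cup21 (𝔓.indK₂ a) (𝔓.indK₁ b) := by
  unfold PlaceSys.indK₃ PlaceSys.indK₂ PlaceSys.indK₁
  rw [← ind3_pc21]
  apply ind3_congr
  intro r t h1 h2 h3
  obtain ⟨g₁, g₂, g₃⟩ := t
  have m1 := (𝔓.glob_stab g₁).1 h1
  have m2 := (𝔓.glob_stab g₂).1 h2
  have m3 := (𝔓.glob_stab g₃).1 h3
  rw [eG₃_mem _ m1 m2 m3]
  simp only [pc21, eG₂_mem _ m1 m2, eG₁_mem _ m3]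

lemma PlaceSys.indK₃_mul12 (a : ↥K.fixingSubgroup → k)
    (b : ↥K.fixingSubgroup × ↥K.fixingSubgroup → k) :
    𝔓.indK₃ (fun t => a t.1 * b (t.2.1, t.2.2)) = cup12 (𝔓.indK₁ a) (𝔓.indK₂ b) := by
  unfold PlaceSys.indK₃ PlaceSys.indK₂ PlaceSys.indK₁
  rw [← ind3_pc12]
  apply ind3_congr
  intro r t h1 h2 h3
  obtain ⟨g₁, g₂, g₃⟩ := t
  have m1 := (𝔓.glob_stab g₁).1 h1
  have m2 := (𝔓.glob_stab g₂).1 h2
  have m3 := (𝔓.glob_stab g₃).1 h3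
  rw [eG₃_mem _ m1 m2 m3]
  simp only [pc12, eG₂_mem _ m2 m3, eG₁_mem _ m1]

lemma PlaceSys.indL₂_mul11 (q : ↥S) (z z' : ∀ w : 𝔓.W q, 𝔓.Γw q w → k) :
    𝔓.indL₂ q (fun w t => z w t.1 * z' w t.2) = cup11 (𝔓.indL₁ q z) (𝔓.indL₁ q z') := by
  unfold PlaceSys.indL₂ PlaceSys.indL₁
  rw [← ind2_pc11]
  apply ind2_congr
  intro w t h1 h2
  obtain ⟨g₁, g₂⟩ := t
  have m1 : g₁ ∈ 𝔓.Γw q w := h1
  have m2 : g₂ ∈ 𝔓.Γw q w := h2
  rw [𝔓.eL₂_mem q _ w m1 m2]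
  simp only [pc11, 𝔓.eL₁_mem q _ w m1, 𝔓.eL₁_mem q _ w m2]

lemma PlaceSys.indL₂_mul20 (q : ↥S) (z : ∀ w : 𝔓.W q, 𝔓.Γw q w × 𝔓.Γw q w → k)
    (m : 𝔓.W q → k) :
    𝔓.indL₂ q (fun w t => z w t * m w) = cup20 (𝔓.indL₂ q z) ((𝔓.loc q).ind0 m) := by
  unfold PlaceSys.indL₂
  rw [← ind2_pc20]
  apply ind2_congr
  intro w t h1 h2
  obtain ⟨g₁, g₂⟩ := t
  have m1 : g₁ ∈ 𝔓.Γw q w := h1
  have m2 : g₂ ∈ 𝔓.Γw q w := h2
  rw [𝔓.eL₂_mem q _ w m1 m2]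
  simp only [pc20, 𝔓.eL₂_mem q _ w m1 m2]

lemma PlaceSys.indL₂_neg (q : ↥S) (z : ∀ w : 𝔓.W q, 𝔓.Γw q w × 𝔓.Γw q w → k) :
    𝔓.indL₂ q (fun w t => - z w t) = - 𝔓.indL₂ q z := by
  have h := 𝔓.eL₂_sub q 0 z
  rw [𝔓.eL₂_zero] at h
  have h' : (fun w t => - z w t) = (0 : ∀ w : 𝔓.W q, 𝔓.Γw q w × 𝔓.Γw q w → k) - z := by
    funext w t
    simp
  unfold PlaceSys.indL₂
  rw [h', h]
  funext t x
  simp [ind2]

variable {𝔓}

/-! ### Common facts about the restrictions of induced cocycles -/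

lemma d1_res_indK₁ {b : ↥K.fixingSubgroup → k} (hb : tOne b = 0) (q : ↥S) :
    d1 (resOne q.1 (𝔓.indK₁ b)) = 0 := by
  rw [← res_d1, 𝔓.d1_indK₁, hb, 𝔓.indK₂_zero]
  rfl

lemma d2_res_indK₂ {a : ↥K.fixingSubgroup × ↥K.fixingSubgroup → k} (ha : tTwo a = 0) (q : ↥S) :
    d2 (resTwo q.1 (𝔓.indK₂ a)) = 0 := by
  rw [← res_d2, 𝔓.d2_indK₂, ha, 𝔓.indK₃_zero]
  rfl

lemma d1_U₂_snd (hK : K.IsUnramifiedOutside S) {x : 𝔓.C2 k} (hx : IsZ2cK 𝔓 x) (q : ↥S) :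
    d1 ((𝔓.U₂ x).2 q : Gl q.1 → XK K → k) = resTwo q.1 (𝔓.indK₂ x.1) := by
  have h := dCone2_eq_zero (isZ2c_U₂ hK hx)
  have h2 := congrFun (congrArg Prod.snd h) q
  rw [← dOneL_FX]
  exact (sub_eq_zero.1 h2).symm

/-! ### The three adjunction statements -/

theorem isB3c_adjA2 (hK : K.IsUnramifiedOutside S) {x : 𝔓.C2 k} (hx : IsZ2cK 𝔓 x)
    {b : ↥K.fixingSubgroup → k} (hb : IsZ1K S K b) :
    IsB3c S (FX k K) (𝔓.U₃ (cupA2K 𝔓 x b) - cA2 (𝔓.U₂ x) (𝔓.indK₁ b)) := by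
  have hlA : ∀ q : ↥S, IsLevelConstant₂ (rl q.1) (resTwo q.1 (𝔓.indK₂ x.1)) := fun q =>
    levL₂_resTwo q.1 (lev_indK₂ hK hx.1.2)
  have hlV : ∀ q : ↥S, IsLevelConstant₁ (rl q.1) ((𝔓.U₂ x).2 q) :=
    lev_U₂_snd hK hx.1.2 (fun q w => (hx.2 q w).1)
  rw [isB3c_iff]
  refine ⟨(0, fun q => - (cup10 ((𝔓.U₂ x).2 q : Gl q.1 → XK K → k)
      ((𝔓.loc q).hty1 (resOne q.1 (𝔓.indK₁ b))) -
      (𝔓.loc q).hty2 (cup20 (resTwo q.1 (𝔓.indK₂ x.1))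
        ((𝔓.loc q).hty1 (resOne q.1 (𝔓.indK₁ b)))))),
    isLevelConstantS₂_const S _, fun q => ?_, ?_⟩
  · exact levL₁_neg q.1 (levL₁_sub q.1 (lev_cup10 hK q (hlV q) _)
      (lev_loc_hty2 hK q (lev_cup20 hK q (hlA q) _)))
  · refine Prod.ext ?_ (funext fun q => ?_)
    · show 𝔓.indK₃ (fun t => x.1 (t.1, t.2.1) * b t.2.2) - cup21 (𝔓.indK₂ x.1) (𝔓.indK₁ b) =
        d2 (0 : GQ × GQ → XK K → k)
      rw [𝔓.indK₃_mul21, sub_self, d2_zero]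
    · show (𝔓.indL₂ q (fun w t => x.2 q w t.1 * b (𝔓.ρw q w t.2)) +
          (𝔓.loc q).hty3 (resThree q.1 (𝔓.indK₃ (fun t => x.1 (t.1, t.2.1) * b t.2.2)))) -
          cup11 ((𝔓.U₂ x).2 q : Gl q.1 → XK K → k) (resOne q.1 (𝔓.indK₁ b)) =
        resTwo q.1 (0 : GQ × GQ → XK K → k) - dOneL (FX k K) q.1 (- (cup10 _ _ - _))
      have hg := (𝔓.loc q).adjA2 (resTwo q.1 (𝔓.indK₂ x.1)) ((𝔓.U₂ x).2 q)
        (𝔓.eL₁ q (x.2 q)) (resOne q.1 (𝔓.indK₁ b)) (d2_res_indK₂ hx.1.1 q)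
        (d1_U₂_snd hK hx q) rfl (d1_res_indK₁ hb.1 q)
      have e1 : 𝔓.indL₂ q (fun w t => x.2 q w t.1 * b (𝔓.ρw q w t.2)) =
          cup11 ((𝔓.loc q).ind1 (𝔓.eL₁ q (x.2 q)))
            ((𝔓.loc q).ind1 ((𝔓.loc q).sh1 (resOne q.1 (𝔓.indK₁ b)))) := by
        rw [𝔓.ind_sh_res_ind₁]
        exact 𝔓.indL₂_mul11 q (x.2 q) (fun w => 𝔓.res₁ q w b)
      rw [e1, 𝔓.indK₃_mul21, res_cup21, hg, dOneL_FX, d1_neg]
      have : resTwo q.1 (0 : GQ × GQ → XK K → k) = 0 := rfl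
      rw [this, zero_sub, neg_neg]

theorem isB3c_adjB1 (hK : K.IsUnramifiedOutside S)
    {a : ↥K.fixingSubgroup × ↥K.fixingSubgroup → k} (ha : IsZ2K S K a)
    {y : 𝔓.C1 k} (hy : IsZ1cK 𝔓 y) :
    IsB3c S (FX k K) (𝔓.U₃ (cupB1K 𝔓 a y) - cB1 (𝔓.indK₂ a) (𝔓.U₁ y)) := by
  have hlA : ∀ q : ↥S, IsLevelConstant₂ (rl q.1) (resTwo q.1 (𝔓.indK₂ a)) := fun q =>
    levL₂_resTwo q.1 (lev_indK₂ hK ha.2)
  rw [isB3c_iff]
  refine ⟨(0, fun q => cup10 ((𝔓.loc q).hty2 (resTwo q.1 (𝔓.indK₂ a)))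
      ((𝔓.loc q).ind0 (y.2 q)) +
      (𝔓.loc q).hty2 (cup20 (resTwo q.1 (𝔓.indK₂ a))
        ((𝔓.loc q).hty1 (resOne q.1 (𝔓.indK₁ y.1))))),
    isLevelConstantS₂_const S _, fun q => ?_, ?_⟩
  · exact (lev_cup10 hK q (lev_loc_hty2 hK q (hlA q)) _).add
      (lev_loc_hty2 hK q (lev_cup20 hK q (hlA q) _))
  · refine Prod.ext ?_ (funext fun q => ?_)
    · show 𝔓.indK₃ (fun t => a (t.1, t.2.1) * y.1 t.2.2) - cup21 (𝔓.indK₂ a) (𝔓.indK₁ y.1) =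
        d2 (0 : GQ × GQ → XK K → k)
      rw [𝔓.indK₃_mul21, sub_self, d2_zero]
    · show (𝔓.indL₂ q (fun w t => a (𝔓.ρw q w t.1, 𝔓.ρw q w t.2) * y.2 q w) +
          (𝔓.loc q).hty3 (resThree q.1 (𝔓.indK₃ (fun t => a (t.1, t.2.1) * y.1 t.2.2)))) -
          cup20 (resTwo q.1 (𝔓.indK₂ a)) ((𝔓.loc q).ind0 (y.2 q) +
            (𝔓.loc q).hty1 (resOne q.1 (𝔓.indK₁ y.1))) =
        resTwo q.1 (0 : GQ × GQ → XK K → k) - dOneL (FX k K) q.1 (cup10 _ _ + _)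
      have hB0 : (𝔓.loc q).ind1 ((𝔓.loc q).sh1 (resOne q.1 (𝔓.indK₁ y.1))) = 0 := by
        rw [𝔓.ind_sh_res_ind₁]
        have : (fun w => 𝔓.res₁ q w y.1) = (0 : ∀ w : 𝔓.W q, 𝔓.Γw q w → k) := by
          funext w
          exact hy.2 q w
        rw [this, 𝔓.indL₁_zero]
      have hg := (𝔓.loc q).adjB1 (resTwo q.1 (𝔓.indK₂ a)) (resOne q.1 (𝔓.indK₁ y.1)) (y.2 q)
        (d2_res_indK₂ ha.1 q) (d1_res_indK₁ hy.1.1 q) hB0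
      have e1 : 𝔓.indL₂ q (fun w t => a (𝔓.ρw q w t.1, 𝔓.ρw q w t.2) * y.2 q w) =
          cup20 ((𝔓.loc q).ind2 ((𝔓.loc q).sh2 (resTwo q.1 (𝔓.indK₂ a))))
            ((𝔓.loc q).ind0 (y.2 q)) := by
        rw [𝔓.ind_sh_res_ind₂]
        exact 𝔓.indL₂_mul20 q (fun w => 𝔓.res₂ q w a) (y.2 q)
      rw [e1, 𝔓.indK₃_mul21, res_cup21, hg, dOneL_FX]
      have : resTwo q.1 (0 : GQ × GQ → XK K → k) = 0 := rfl
      rw [this, zero_sub]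

theorem isB3c_adjB2 (hK : K.IsUnramifiedOutside S)
    {a : ↥K.fixingSubgroup → k} (ha : IsZ1K S K a)
    {y : 𝔓.C2 k} (hy : IsZ2cK 𝔓 y) :
    IsB3c S (FX k K) (𝔓.U₃ (cupB2K 𝔓 a y) - cB2 (𝔓.indK₁ a) (𝔓.U₂ y)) := by
  have hlB : ∀ q : ↥S, IsLevelConstant₂ (rl q.1) (resTwo q.1 (𝔓.indK₂ y.1)) := fun q =>
    levL₂_resTwo q.1 (lev_indK₂ hK hy.1.2)
  have hlV : ∀ q : ↥S, IsLevelConstant₁ (rl q.1) ((𝔓.U₂ y).2 q) :=
    lev_U₂_snd hK hy.1.2 (fun q w => (hy.2 q w).1)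
  rw [isB3c_iff]
  refine ⟨(0, fun q => - (cup01 ((𝔓.loc q).hty1 (resOne q.1 (𝔓.indK₁ a)))
      ((𝔓.U₂ y).2 q : Gl q.1 → XK K → k) -
      (𝔓.loc q).hty2 (cup02 ((𝔓.loc q).hty1 (resOne q.1 (𝔓.indK₁ a)))
        (resTwo q.1 (𝔓.indK₂ y.1))))),
    isLevelConstantS₂_const S _, fun q => ?_, ?_⟩
  · exact levL₁_neg q.1 (levL₁_sub q.1 (lev_cup01 q (hlV q) _)
      (lev_loc_hty2 hK q (lev_cup02 q (hlB q) _)))
  · refine Prod.ext ?_ (funext fun q => ?_)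
    · show 𝔓.indK₃ (fun t => a t.1 * y.1 (t.2.1, t.2.2)) - cup12 (𝔓.indK₁ a) (𝔓.indK₂ y.1) =
        d2 (0 : GQ × GQ → XK K → k)
      rw [𝔓.indK₃_mul12, sub_self, d2_zero]
    · show (𝔓.indL₂ q (fun w t => - (a (𝔓.ρw q w t.1) * y.2 q w t.2)) +
          (𝔓.loc q).hty3 (resThree q.1 (𝔓.indK₃ (fun t => a t.1 * y.1 (t.2.1, t.2.2))))) -
          - cup11 (resOne q.1 (𝔓.indK₁ a)) ((𝔓.U₂ y).2 q : Gl q.1 → XK K → k) =
        resTwo q.1 (0 : GQ × GQ → XK K → k) - dOneL (FX k K) q.1 (- (cup01 _ _ - _))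
      have hg := (𝔓.loc q).adjB2 (resOne q.1 (𝔓.indK₁ a)) (resTwo q.1 (𝔓.indK₂ y.1))
        ((𝔓.U₂ y).2 q) (𝔓.eL₁ q (y.2 q)) (d1_res_indK₁ ha.1 q) (d2_res_indK₂ hy.1.1 q)
        (d1_U₂_snd hK hy q) rfl
      have e1 : 𝔓.indL₂ q (fun w t => - (a (𝔓.ρw q w t.1) * y.2 q w t.2)) =
          - cup11 ((𝔓.loc q).ind1 ((𝔓.loc q).sh1 (resOne q.1 (𝔓.indK₁ a))))
            ((𝔓.loc q).ind1 (𝔓.eL₁ q (y.2 q))) := by
        rw [𝔓.ind_sh_res_ind₁, 𝔓.indL₂_neg]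
        congr 1
        exact 𝔓.indL₂_mul11 q (fun w => 𝔓.res₁ q w a) (y.2 q)
      rw [e1, 𝔓.indK₃_mul12, res_cup12, sub_neg_eq_add, hg, dOneL_FX, d1_neg]
      have : resTwo q.1 (0 : GQ × GQ → XK K → k) = 0 := rfl
      rw [this, zero_sub, neg_neg]

end Fermat.Agent.S55.Top

end
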