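/-
S55 (Poitou–Tate), package E4, top layer, index form.
Owner: helper49.  Plans: NOTES/plan/S55.md, NOTES/plan/S55_E4.md.

The base field `K` produced by E3 (`H13.stmt_E3_index`) has degree prime to `p`.  With this
extra hypothesis the only input over `ℚ` is `Stmt_TopQ0` (`H³_c(ℚ, μ_p) ≠ 0`).

* `Stmt_E4P`  : `Stmt_E4` for base fields `K` with `p ∤ [G_ℚ : G_K]`.
* `Stmt_TopQ0`: there is a cone 3-cocycle of `k(χ)` over `ℚ` which is not a cone coboundary.
* SH (`Top/SH*.lean`): `Stmt_TopQ0 → Stmt_TopK → Stmt_E4P`.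
-/
import Fermat.Agent.S55.Top.Defs

set_option autoImplicit false

open CategoryTheory Module groupCohomology ExtCitation

noncomputable section

namespace Fermat.Agent.S55.Top

open Fermat.Agent.S55

/-- **E4'**: `Stmt_E4` for the base fields of degree prime to `p`. -/
def Stmt_E4P : Prop :=
  ∀ (p : ℕ) [Fact p.Prime], p ≠ 2 → ∀ S : Finset Nat.Primes, pPrime p ∈ S →
    ∀ K : IntermediateField ℚ (AlgebraicClosure ℚ), IsBaseField S p K →
      ¬ p ∣ K.fixingSubgroup.index →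
      ∃ tr : Trace S (cycloChar p),
        AlphaTwoEpi tr (permRep (ZMod p) K) ∧ AlphaThreeMono tr (permRep (ZMod p) K) ∧
        BetaOneEpi tr (permRep (ZMod p) K) ∧ BetaTwoMono tr (permRep (ZMod p) K)

/-- **TopQ0**: `H³_c(ℚ, μ_p) ≠ 0` (cone cohomology of level `S`). -/
def Stmt_TopQ0 : Prop :=
  ∀ (p : ℕ) [Fact p.Prime], p ≠ 2 → ∀ S : Finset Nat.Primes, pPrime p ∈ S →
    ∃ z : C3c S (kχ (cycloChar p)),
      IsZ3c S (kχ (cycloChar p)) z ∧ ¬ IsB3c S (kχ (cycloChar p)) z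

end Fermat.Agent.S55.Top

end
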