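/-
S55 (Poitou–Tate), package E4-top (SH): preparations for the transfer of the four duality
properties: the cup products of the module `FX` in coordinates, linearity of Shapiro's maps,
the twisted sum `FX → k(χ)` and the `K`-level trace.
Owner: helper49.
-/
import Fermat.Agent.S55.Top.Adj
import Fermat.Agent.S55.Top.DefsP
import Fermat.Agent.S55.H48_E2
import Fermat.Agent.S55.H48_E5Adj
import Fermat.Agent.S55.Coh.ConeR

set_option autoImplicit false
set_option linter.unusedSectionVars false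
set_option linter.unusedSimpArgs false

open CategoryTheory Module groupCohomology ExtCitation

noncomputable section

namespace Fermat.Agent.S55.Top

open Fermat.Agent.S55 OrbitData

attribute [local instance] locAct

variable {k : Type} [Field k] {S : Finset Nat.Primes}
  {K : IntermediateField ℚ (AlgebraicClosure ℚ)}

/-! ### Closure properties of coboundaries -/

section closure

variable {M : Rep.{0} k GQ}

lemma isB3c_add {x x' : C3c S M} (hx : IsB3c S M x) (hx' : IsB3c S M x') :
    IsB3c S M (x + x') := by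
  rw [isB3c_iff] at hx hx' ⊢
  obtain ⟨y, h1, h2, rfl⟩ := hx
  obtain ⟨y', h1', h2', rfl⟩ := hx'
  exact ⟨y + y', h1.add h1', fun q => (h2 q).add (h2' q), (dCone2_add y y').symm⟩

lemma isB3c_zero : IsB3c S M (0 : C3c S M) := by
  rw [isB3c_iff]
  refine ⟨0, isLevelConstantS₂_const S _, fun q => isLevelConstant₁_const (rl q.1) _, ?_⟩
  refine Prod.ext ?_ (funext fun q => ?_)
  · funext t; simp [dCone2, dTwo]
  · funext t; simp [dCone2, resTwo, dOneL]

lemma isB3c_smul (c : k) {x : C3c S M} (hx : IsB3c S M x) : IsB3c S M (c • x) := by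
  rw [isB3c_iff] at hx ⊢
  obtain ⟨y, h1, h2, rfl⟩ := hx
  refine ⟨c • y, levS₂_comp h1 (fun m => c • m), fun q => levL₁_comp q.1 (h2 q) (fun m => c • m),
    ?_⟩
  refine Prod.ext ?_ (funext fun q => ?_)
  · funext t
    simp only [dCone2, dTwo, Prod.smul_fst, Pi.smul_apply, map_smul, smul_sub, smul_add]
  · funext t
    simp only [dCone2, dOneL, resTwo, Prod.smul_snd, Prod.smul_fst, Pi.smul_apply, Pi.sub_apply,
      map_smul, smul_sub, smul_add]

lemma isB3c_neg {x : C3c S M} (hx : IsB3c S M x) : IsB3c S M (-x) := by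
  have := isB3c_smul (-1 : k) hx
  simpa using this

lemma isB3c_sub {x x' : C3c S M} (hx : IsB3c S M x) (hx' : IsB3c S M x') :
    IsB3c S M (x - x') := by
  rw [sub_eq_add_neg]
  exact isB3c_add hx (isB3c_neg hx')

lemma isB2c_add {x x' : C2c S M} (hx : IsB2c S M x) (hx' : IsB2c S M x') :
    IsB2c S M (x + x') := by
  rw [isB2c_iff] at hx hx' ⊢
  obtain ⟨y, h1, rfl⟩ := hx
  obtain ⟨y', h1', rfl⟩ := hx'
  exact ⟨y + y', h1.add h1', (dCone1_add y y').symm⟩

/-- the cone 3-coboundaries as a submodule -/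
def B3cSub (S : Finset Nat.Primes) (M : Rep.{0} k GQ) : Submodule k (C3c S M) where
  carrier := {x | IsB3c S M x}
  add_mem' := fun hx hx' => isB3c_add hx hx'
  zero_mem' := isB3c_zero
  smul_mem' := fun c _ hx => isB3c_smul c hx

lemma tr_sub_of_isB3c {χ : GQ →* kˣ} (tr : Trace S χ) {x x' : C3c S (kχ χ)}
    (h : IsB3c S (kχ χ) (x - x')) : tr.toFun x = tr.toFun x' := by
  have := tr.zero_of_isB3c _ h
  rw [map_sub, sub_eq_zero] at this
  exact this

end closure

/-! ### The module `FX` has level `S` -/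

lemma lev_FX (hK : K.IsUnramifiedOutside S) : Lev S (FX k K) := by
  obtain ⟨F, _, hF, hG⟩ := exists_goodLev_S hK hK
  refine ⟨F, hF, fun s hs m => ?_⟩
  funext x
  rw [FX_rho_apply, hG.triv _ (F.fixingSubgroup.inv_mem hs)]

/-! ### Leibniz, cone on the right, degrees `(1, 2)` -/

theorem tr_cupB2_isB2c {χ : GQ →* kˣ} (hχ : LevChar S χ) {M : Rep.{0} k GQ} (hM : Lev S M)
    (tr : Trace S χ) {a : GQ → M} (ha : IsZ1S S M a) {y : C2c S (Md χ M)}
    (hy : IsB2c S (Md χ M) y) : tr.toFun (cupB2 S χ M a y) = 0 := by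
  rw [isB2c_iff] at hy
  obtain ⟨y', hl, rfl⟩ := hy
  have h := dCone2_cupB11 χ M a y'
  rw [ha.1] at h
  have h0 : cupB1 S χ M (0 : GQ × GQ → M) y' = 0 := by
    refine Prod.ext (funext fun t => ?_) (funext fun q => funext fun t => ?_)
    · simp [cupB1]
    · simp [cupB1]
  rw [h0, zero_sub] at h
  have h' : cupB2 S χ M a (dCone1 S (Md χ M) y') = - dCone2 S (kχ χ) (cupB11 χ M a y') := by
    rw [h, neg_neg]
  rw [h', map_neg, neg_eq_zero]
  obtain ⟨h1, h2⟩ := lev_cupB11 χ M (fun F hF => H48.exists_normal_level S F hF) hχ hM ha.2 hl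
  exact tr.zero_of_isB3c _ (isB3c_dCone2 h1 h2)

end Fermat.Agent.S55.Top

end
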