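/-
S55 (Poitou–Tate), package E4-top (SH): the cup products of `FX` and its twisted dual in
untwisted coordinates; the twisted sum `FX → k(χ)`; linearity of the maps.
Owner: helper49.
-/
import Fermat.Agent.S55.Top.SHPrep

set_option autoImplicit false
set_option linter.unusedSectionVars false
set_option linter.unusedSimpArgs false

open CategoryTheory Module groupCohomology ExtCitation

noncomputable section

namespace Fermat.Agent.S55.Top

open Fermat.Agent.S55 OrbitData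

attribute [local instance] locAct

variable {k : Type} [Field k] {S : Finset Nat.Primes}
  {K : IntermediateField ℚ (AlgebraicClosure ℚ)} {χ : GQ →* kˣ} (𝔲 : Untwist χ K)
  [Fintype (XK K)] [DecidableEq (XK K)]

/-! ### The twisted sum -/

/-- the twisted sum as a linear map -/
def Untwist.sumLin : (XK K → k) →ₗ[k] k where
  toFun := 𝔲.sum
  map_add' φ ψ := by
    simp only [Untwist.sum, Pi.add_apply, mul_add, Finset.sum_add_distrib]
  map_smul' c φ := by
    simp only [Untwist.sum, Pi.smul_apply, smul_eq_mul, RingHom.id_apply, Finset.mul_sum]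
    refine Finset.sum_congr rfl fun x _ => ?_
    ring

/-- the twisted sum as a morphism `FX → k(χ)` -/
def Untwist.sumHom : FX k K ⟶ kχ χ :=
  Rep.ofHom ⟨𝔲.sumLin, fun g => by
    apply LinearMap.ext
    intro φ
    exact 𝔲.sum_smul g φ⟩

lemma Untwist.sumHom_apply (φ : FX k K) : 𝔲.sumHom.hom φ = 𝔲.sum φ := rfl

/-- the map `k(χ) → FX`, `c ↦ c / u` -/
def Untwist.jLin : k →ₗ[k] (XK K → k) where
  toFun c := fun x => c * (𝔲.u x : k)⁻¹
  map_add' c c' := by
    funext x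
    simp only [Pi.add_apply, add_mul]
  map_smul' c c' := by
    funext x
    simp only [Pi.smul_apply, smul_eq_mul, RingHom.id_apply, mul_assoc]

/-- the map `k(χ) → FX` as a morphism -/
def Untwist.jHom : kχ χ ⟶ FX k K :=
  Rep.ofHom ⟨𝔲.jLin, fun g => by
    apply LinearMap.ext
    intro c
    funext x
    show ((χ g : k) * c) * (𝔲.u x : k)⁻¹ = c * (𝔲.u (g⁻¹ • x) : k)⁻¹
    have h2 := 𝔲.smul g (g⁻¹ • x)
    rw [smul_inv_smul] at h2
    have h2' : (𝔲.u x : k) = (χ g : k) * (𝔲.u (g⁻¹ • x) : k) := by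
      rw [h2]; push_cast; rfl
    rw [h2']
    have hu := 𝔲.u_ne_zero (g⁻¹ • x)
    have hχ : (χ g : k) ≠ 0 := (χ g).ne_zero
    field_simp⟩

lemma Untwist.sum_j (c : k) : 𝔲.sum (𝔲.jLin c) = (Fintype.card (XK K) : k) * c := by
  unfold Untwist.sum
  have h : ∀ x : XK K, (𝔲.u x : k) * 𝔲.jLin c x = c := by
    intro x
    show (𝔲.u x : k) * (c * (𝔲.u x : k)⁻¹) = c
    have hu := 𝔲.u_ne_zero x
    field_simp
  simp only [h, Finset.sum_const, Finset.card_univ, nsmul_eq_mul]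

/-! ### The cup products in coordinates -/

lemma inv_mul_smul (g h : GQ) (x : XK K) : (g * h)⁻¹ • x = h⁻¹ • g⁻¹ • x := by
  rw [mul_inv_rev, mul_smul]

lemma Untwist.ev_rho_eq (m : FX k K) (g : GQ) (φ : Md χ (FX k K)) :
    ev χ (FX k K) m ((Md χ (FX k K)).ρ g φ) =
      𝔲.sum (fun x => (m : XK K → k) x * 𝔲.coLin φ (g⁻¹ • x)) := by
  rw [𝔲.ev_eq]
  congr 1
  funext x
  rw [𝔲.coLin_rho]

lemma Untwist.cupA2_eq (x : C2c S (FX k K)) (b : GQ → Md χ (FX k K)) :
    cupA2 S χ (FX k K) x b = mapC3 𝔲.sum (cA2 x (fun g => 𝔲.coLin (b g))) := by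
  refine Prod.ext (funext fun t => ?_) (funext fun q => funext fun t => ?_)
  · show ev χ (FX k K) _ ((Md χ (FX k K)).ρ (t.1 * t.2.1) (b t.2.2)) = 𝔲.sum _
    rw [𝔲.ev_rho_eq]
    congr 1
    funext y
    simp only [cA2, cup21, inv_mul_smul]
  · show ev χ (FX k K) _ ((Md χ (FX k K)).ρ (rl q.1 t.1) (b (rl q.1 t.2))) = 𝔲.sum _
    rw [𝔲.ev_rho_eq]
    congr 1
    funext y
    simp only [cA2, cup11, resOne, locAct_smul, map_inv]

lemma Untwist.cupA3_eq (x : C3c S (FX k K)) (m' : Md χ (FX k K)) :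
    cupA3 S χ (FX k K) x m' = mapC3 𝔲.sum (cA3 x (𝔲.coLin m')) := by
  refine Prod.ext (funext fun t => ?_) (funext fun q => funext fun t => ?_)
  · show ev χ (FX k K) _ ((Md χ (FX k K)).ρ (t.1 * t.2.1 * t.2.2) m') = 𝔲.sum _
    rw [𝔲.ev_rho_eq]
    congr 1
    funext y
    simp only [cA3, cup30, inv_mul_smul]
  · show ev χ (FX k K) _ ((Md χ (FX k K)).ρ (rl q.1 (t.1 * t.2)) m') = 𝔲.sum _
    rw [𝔲.ev_rho_eq]
    congr 1
    funext y
    simp only [cA3, cup20, locAct_smul, map_inv, map_mul, inv_mul_smul]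

lemma Untwist.cupB1_eq (a : GQ × GQ → FX k K) (y : C1c S (Md χ (FX k K))) :
    cupB1 S χ (FX k K) a y = mapC3 𝔲.sum (cB1 a (mapC1 𝔲.coLin y)) := by
  refine Prod.ext (funext fun t => ?_) (funext fun q => funext fun t => ?_)
  · show ev χ (FX k K) _ ((Md χ (FX k K)).ρ (t.1 * t.2.1) (y.1 t.2.2)) = 𝔲.sum _
    rw [𝔲.ev_rho_eq]
    congr 1
    funext z
    simp only [cB1, cup21, mapC1, inv_mul_smul]
  · show ev χ (FX k K) _ ((Md χ (FX k K)).ρ (rl q.1 (t.1 * t.2)) (y.2 q)) = 𝔲.sum _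
    rw [𝔲.ev_rho_eq]
    congr 1
    funext z
    simp only [cB1, cup20, mapC1, resTwo, locAct_smul, map_inv, map_mul, inv_mul_smul]

lemma Untwist.cupB2_eq (a : GQ → FX k K) (y : C2c S (Md χ (FX k K))) :
    cupB2 S χ (FX k K) a y = mapC3 𝔲.sum (cB2 a (mapC2 𝔲.coLin y)) := by
  refine Prod.ext (funext fun t => ?_) (funext fun q => funext fun t => ?_)
  · show ev χ (FX k K) _ ((Md χ (FX k K)).ρ t.1 (y.1 (t.2.1, t.2.2))) = 𝔲.sum _
    rw [𝔲.ev_rho_eq]
    congr 1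
  · show - ev χ (FX k K) _ ((Md χ (FX k K)).ρ (rl q.1 t.1) (y.2 q t.2)) = 𝔲.sum _
    rw [𝔲.ev_rho_eq]
    have : ∀ φ : XK K → k, - 𝔲.sum φ = 𝔲.sum (- φ) := fun φ =>
      (𝔲.sumLin.map_neg φ).symm
    rw [this]
    congr 1
    funext z
    simp only [cB2, cup11, mapC2, resOne, locAct_smul, map_inv, Pi.neg_apply]

end Fermat.Agent.S55.Top

end
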