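/-
S55 (Poitou–Tate), package E4-top (SH): linearity of Shapiro's maps and the `K`-level trace
attached to a trace over `ℚ`.
Owner: helper49.
-/
import Fermat.Agent.S55.Top.SHCoord

set_option autoImplicit false
set_option linter.unusedSectionVars false
set_option linter.unusedSimpArgs false

open CategoryTheory Module groupCohomology ExtCitation

noncomputable section

namespace Fermat.Agent.S55.Top

open Fermat.Agent.S55 OrbitData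

attribute [local instance] locAct

variable {k : Type} [Field k] {S : Finset Nat.Primes}
  {K : IntermediateField ℚ (AlgebraicClosure ℚ)} (𝔓 : PlaceSys S K)

/-! ### Extension by zero is linear -/

lemma eG₁_add (b b' : ↥K.fixingSubgroup → k) : eG₁ (b + b') = eG₁ b + eG₁ b' := by
  funext u g
  by_cases h : g ∈ K.fixingSubgroup
  · simp [eG₁, h]
  · simp [eG₁, h]

lemma eG₁_smul (c : k) (b : ↥K.fixingSubgroup → k) : eG₁ (c • b) = c • eG₁ b := by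
  funext u g
  by_cases h : g ∈ K.fixingSubgroup
  · simp [eG₁, h]
  · simp [eG₁, h]

lemma eG₂_add (a a' : ↥K.fixingSubgroup × ↥K.fixingSubgroup → k) :
    eG₂ (a + a') = eG₂ a + eG₂ a' := by
  funext u t
  by_cases h : t.1 ∈ K.fixingSubgroup ∧ t.2 ∈ K.fixingSubgroup
  · simp [eG₂, h]
  · simp only [eG₂, Pi.add_apply]
    rw [dif_neg h, dif_neg h, dif_neg h, add_zero]

lemma eG₂_smul (c : k) (a : ↥K.fixingSubgroup × ↥K.fixingSubgroup → k) :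
    eG₂ (c • a) = c • eG₂ a := by
  funext u t
  by_cases h : t.1 ∈ K.fixingSubgroup ∧ t.2 ∈ K.fixingSubgroup
  · simp [eG₂, h]
  · simp only [eG₂, Pi.smul_apply]
    rw [dif_neg h, dif_neg h, smul_zero]

lemma eG₃_add (a a' : ↥K.fixingSubgroup × ↥K.fixingSubgroup × ↥K.fixingSubgroup → k) :
    eG₃ (a + a') = eG₃ a + eG₃ a' := by
  funext u t
  by_cases h : t.1 ∈ K.fixingSubgroup ∧ t.2.1 ∈ K.fixingSubgroup ∧ t.2.2 ∈ K.fixingSubgroup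
  · simp [eG₃, h]
  · simp only [eG₃, Pi.add_apply]
    rw [dif_neg h, dif_neg h, dif_neg h, add_zero]

lemma eG₃_smul (c : k) (a : ↥K.fixingSubgroup × ↥K.fixingSubgroup × ↥K.fixingSubgroup → k) :
    eG₃ (c • a) = c • eG₃ a := by
  funext u t
  by_cases h : t.1 ∈ K.fixingSubgroup ∧ t.2.1 ∈ K.fixingSubgroup ∧ t.2.2 ∈ K.fixingSubgroup
  · simp [eG₃, h]
  · simp only [eG₃, Pi.smul_apply]
    rw [dif_neg h, dif_neg h, smul_zero]

lemma PlaceSys.eL₂_add (q : ↥S) (z z' : ∀ w : 𝔓.W q, 𝔓.Γw q w × 𝔓.Γw q w → k) :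
    𝔓.eL₂ q (z + z') = 𝔓.eL₂ q z + 𝔓.eL₂ q z' := by
  funext w t
  by_cases h : t.1 ∈ 𝔓.Γw q w ∧ t.2 ∈ 𝔓.Γw q w
  · simp [PlaceSys.eL₂, h]
  · simp only [PlaceSys.eL₂, Pi.add_apply]
    rw [dif_neg h, dif_neg h, dif_neg h, add_zero]

lemma PlaceSys.eL₂_smul (q : ↥S) (c : k) (z : ∀ w : 𝔓.W q, 𝔓.Γw q w × 𝔓.Γw q w → k) :
    𝔓.eL₂ q (c • z) = c • 𝔓.eL₂ q z := by
  funext w t
  by_cases h : t.1 ∈ 𝔓.Γw q w ∧ t.2 ∈ 𝔓.Γw q w
  · simp [PlaceSys.eL₂, h]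
  · simp only [PlaceSys.eL₂, Pi.smul_apply]
    rw [dif_neg h, dif_neg h, smul_zero]

/-! ### Induction is linear -/

/-- `indK₁` as a linear map. -/
def PlaceSys.indK₁ₗ : (↥K.fixingSubgroup → k) →ₗ[k] (GQ → XK K → k) where
  toFun := 𝔓.indK₁
  map_add' b b' := by
    unfold PlaceSys.indK₁
    rw [eG₁_add]
    rfl
  map_smul' c b := by
    unfold PlaceSys.indK₁
    rw [eG₁_smul]
    rfl

/-- `indK₂` as a linear map. -/
def PlaceSys.indK₂ₗ :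
    (↥K.fixingSubgroup × ↥K.fixingSubgroup → k) →ₗ[k] (GQ × GQ → XK K → k) where
  toFun := 𝔓.indK₂
  map_add' b b' := by
    unfold PlaceSys.indK₂
    rw [eG₂_add]
    rfl
  map_smul' c b := by
    unfold PlaceSys.indK₂
    rw [eG₂_smul]
    rfl

lemma PlaceSys.indK₃_add (a a' : ↥K.fixingSubgroup × ↥K.fixingSubgroup × ↥K.fixingSubgroup → k) :
    𝔓.indK₃ (a + a') = 𝔓.indK₃ a + 𝔓.indK₃ a' := by
  unfold PlaceSys.indK₃
  rw [eG₃_add]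
  rfl

lemma PlaceSys.indK₃_smul (c : k)
    (a : ↥K.fixingSubgroup × ↥K.fixingSubgroup × ↥K.fixingSubgroup → k) :
    𝔓.indK₃ (c • a) = c • 𝔓.indK₃ a := by
  unfold PlaceSys.indK₃
  rw [eG₃_smul]
  rfl

lemma PlaceSys.indL₂_add (q : ↥S) (z z' : ∀ w : 𝔓.W q, 𝔓.Γw q w × 𝔓.Γw q w → k) :
    𝔓.indL₂ q (z + z') = 𝔓.indL₂ q z + 𝔓.indL₂ q z' := by
  unfold PlaceSys.indL₂
  rw [𝔓.eL₂_add]
  rfl

lemma PlaceSys.indL₂_smul (q : ↥S) (c : k) (z : ∀ w : 𝔓.W q, 𝔓.Γw q w × 𝔓.Γw q w → k) :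
    𝔓.indL₂ q (c • z) = c • 𝔓.indL₂ q z := by
  unfold PlaceSys.indL₂
  rw [𝔓.eL₂_smul]
  rfl

lemma hty3_smul' {Γ X R : Type} [Group Γ] [MulAction Γ X] (D : OrbitData Γ X R) (c : k)
    (f : Γ × Γ × Γ → X → k) : D.hty3 (c • f) = c • D.hty3 f := by
  funext g x
  simp only [hty3, Pi.smul_apply, smul_eq_mul]
  ring

/-- `U₃` as a linear map. -/
def PlaceSys.U₃ₗ : 𝔓.C3 k →ₗ[k] C3c S (FX k K) where
  toFun := 𝔓.U₃
  map_add' x x' := by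
    refine Prod.ext ?_ (funext fun q => ?_)
    · exact 𝔓.indK₃_add x.1 x'.1
    · show 𝔓.indL₂ q (x.2 q + x'.2 q) + (𝔓.loc q).hty3 (resThree q.1 (𝔓.indK₃ (x.1 + x'.1))) =
        (𝔓.indL₂ q (x.2 q) + (𝔓.loc q).hty3 (resThree q.1 (𝔓.indK₃ x.1))) +
        (𝔓.indL₂ q (x'.2 q) + (𝔓.loc q).hty3 (resThree q.1 (𝔓.indK₃ x'.1)))
      rw [𝔓.indL₂_add, 𝔓.indK₃_add, resThree_add', hty3_add]
      abel
  map_smul' c x := by
    refine Prod.ext ?_ (funext fun q => ?_)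
    · exact 𝔓.indK₃_smul c x.1
    · show 𝔓.indL₂ q (c • x.2 q) + (𝔓.loc q).hty3 (resThree q.1 (𝔓.indK₃ (c • x.1))) =
        c • (𝔓.indL₂ q (x.2 q) + (𝔓.loc q).hty3 (resThree q.1 (𝔓.indK₃ x.1)))
      rw [𝔓.indL₂_smul, 𝔓.indK₃_smul]
      have : resThree q.1 (c • 𝔓.indK₃ x.1) = c • resThree q.1 (𝔓.indK₃ x.1) := rfl
      rw [this, hty3_smul', smul_add]

lemma PlaceSys.U₃ₗ_apply (x : 𝔓.C3 k) : 𝔓.U₃ₗ x = 𝔓.U₃ x := rfl

variable {χ : GQ →* kˣ} (𝔲 : Untwist χ K) [Fintype (XK K)] [DecidableEq (XK K)]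

/-- the twisted sum on cone 3-cochains, as a linear map. -/
def Untwist.sumC3 : C3c S (FX k K) →ₗ[k] C3c S (kχ χ) where
  toFun := mapC3 𝔲.sum
  map_add' x x' := by
    refine Prod.ext (funext fun t => ?_) (funext fun q => funext fun t => ?_)
    · exact 𝔲.sumLin.map_add _ _
    · exact 𝔲.sumLin.map_add _ _
  map_smul' c x := by
    refine Prod.ext (funext fun t => ?_) (funext fun q => funext fun t => ?_)
    · exact 𝔲.sumLin.map_smul _ _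
    · exact 𝔲.sumLin.map_smul _ _

lemma Untwist.sumC3_apply (x : C3c S (FX k K)) : 𝔲.sumC3 x = mapC3 𝔲.sum x := rfl

lemma Untwist.isB3c_sumC3 {x : C3c S (FX k K)} (hx : IsB3c S (FX k K) x) :
    IsB3c S (kχ χ) (𝔲.sumC3 x) :=
  H48.isB3c_push 𝔲.sumHom hx

/-- The `K`-level trace attached to a trace over `ℚ`: `tr ∘ Σ_χ ∘ U₃`. -/
def PlaceSys.trK (hK : K.IsUnramifiedOutside S) (tr : Trace S χ) : TraceK 𝔓 k where
  toFun := tr.toFun ∘ₗ 𝔲.sumC3 ∘ₗ 𝔓.U₃ₗ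
  zero_of_isB3cK := fun x hx => tr.zero_of_isB3c _ (𝔲.isB3c_sumC3 (isB3c_U₃ hK hx))

lemma PlaceSys.trK_apply (hK : K.IsUnramifiedOutside S) (tr : Trace S χ) (x : 𝔓.C3 k) :
    (𝔓.trK 𝔲 hK tr).toFun x = tr.toFun (𝔲.sumC3 (𝔓.U₃ x)) := rfl

/-- the trace of `Σ_χ` only depends on the class modulo coboundaries of `FX`. -/
lemma Untwist.tr_sumC3_eq (tr : Trace S χ) {x x' : C3c S (FX k K)}
    (h : IsB3c S (FX k K) (x - x')) : tr.toFun (𝔲.sumC3 x) = tr.toFun (𝔲.sumC3 x') := by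
  apply tr_sub_of_isB3c
  rw [← map_sub]
  exact 𝔲.isB3c_sumC3 h

end Fermat.Agent.S55.Top

end
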