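/-
S55 (Poitou–Tate), package E4-top (SH): transfer of the four duality properties from the
`K`-level (trivial coefficients) to the module `FX = Fun(G_ℚ/G_K, k)` over `ℚ`.
Owner: helper49.
-/
import Fermat.Agent.S55.Top.SHLin

set_option autoImplicit false
set_option linter.unusedSectionVars false
set_option linter.unusedSimpArgs false
set_option linter.unusedVariables false

open CategoryTheory Module groupCohomology ExtCitation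

noncomputable section

namespace Fermat.Agent.S55.Top

open Fermat.Agent.S55 OrbitData

attribute [local instance] locAct

variable {k : Type} [Field k] {S : Finset Nat.Primes}
  {K : IntermediateField ℚ (AlgebraicClosure ℚ)} {𝔓 : PlaceSys S K}
  {χ : GQ →* kˣ} (𝔲 : Untwist χ K) [Fintype (XK K)] [DecidableEq (XK K)]

/-! ### Small facts -/

lemma cA3_one (x : C3c S (FX k K)) : cA3 x (fun _ => (1 : k)) = x := by
  refine Prod.ext (funext fun t => funext fun y => ?_)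
    (funext fun q => funext fun t => funext fun y => ?_)
  · simp [cA3, cup30]
  · simp [cA3, cup20]

lemma cB2_sub_right (A : GQ → XK K → k) (y y' : C2c S (FX k K)) :
    cB2 A (y - y') = cB2 A y - cB2 A y' := by
  refine Prod.ext (funext fun t => funext fun z => ?_)
    (funext fun q => funext fun t => funext fun z => ?_)
  · simp only [cB2, cup12, Prod.fst_sub, Pi.sub_apply]
    ring
  · simp only [cB2, cup11, Prod.snd_sub, Pi.sub_apply, Pi.neg_apply]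
    ring

lemma Untwist.mapC2_co_oc (Y : C2c S (FX k K)) :
    mapC2 𝔲.coLin (mapC2 (S := S) 𝔲.ocLin Y) = Y := by
  refine Prod.ext (funext fun t => ?_) (funext fun q => funext fun t => ?_)
  · exact 𝔲.coLin_ocLin _
  · exact 𝔲.coLin_ocLin _

lemma Untwist.mapC2_oc_co (y : C2c S (Md χ (FX k K))) :
    mapC2 𝔲.ocLin (mapC2 𝔲.coLin y : C2c S (FX k K)) = y := by
  refine Prod.ext (funext fun t => ?_) (funext fun q => funext fun t => ?_)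
  · exact 𝔲.ocLin_coLin _
  · exact 𝔲.ocLin_coLin _

lemma Untwist.mapC1_co_oc (Y : C1c S (FX k K)) :
    mapC1 𝔲.coLin (mapC1 (S := S) 𝔲.ocLin Y) = Y := by
  refine Prod.ext (funext fun t => ?_) (funext fun q => ?_)
  · exact 𝔲.coLin_ocLin _
  · exact 𝔲.coLin_ocLin _

/-- the invariant functional `m ↦ Σ_x u(x) m(x)`. -/
lemma Untwist.oc_one_inv (g : GQ) :
    (Md χ (FX k K)).ρ g (𝔲.ocLin (fun _ => (1 : k))) = 𝔲.ocLin (fun _ => (1 : k)) := by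
  rw [← 𝔲.ocLin_coLin ((Md χ (FX k K)).ρ g (𝔲.ocLin (fun _ => (1 : k))))]
  congr 1
  funext x
  rw [𝔲.coLin_rho, 𝔲.coLin_ocLin]

variable (hK : K.IsUnramifiedOutside S) (tr : Trace S χ)

/-! ### `α³` -/

theorem alphaThreeMono_FX (h : AlphaThreeMonoK (𝔓.trK 𝔲 hK tr)) :
    AlphaThreeMono tr (FX k K) := by
  intro x hx hpair
  have hxK : IsZ3cK 𝔓 (𝔓.Sh₃ x) := isZ3cK_Sh₃ hK hx
  have hB := isB3c_sub_U₃_Sh₃ (𝔓 := 𝔓) hK hx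
  have h0 : (𝔓.trK 𝔲 hK tr).toFun (𝔓.Sh₃ x) = 0 := by
    rw [𝔓.trK_apply, ← 𝔲.tr_sumC3_eq tr hB]
    have h1 := hpair (𝔲.ocLin (fun _ => (1 : k))) (𝔲.oc_one_inv)
    rw [𝔲.cupA3_eq, 𝔲.coLin_ocLin, cA3_one] at h1
    exact h1
  have hBK : IsB3cK 𝔓 (𝔓.Sh₃ x) := h _ hxK (fun m => by
    have e : cupA3K 𝔓 (𝔓.Sh₃ x) m = m • 𝔓.Sh₃ x := by
      refine Prod.ext (funext fun t => ?_) (funext fun q => funext fun w => funext fun t => ?_)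
      · simp [cupA3K, mul_comm]
      · simp [cupA3K, mul_comm]
    rw [e, map_smul, h0, smul_zero])
  have := isB3c_add hB (isB3c_U₃ hK hBK)
  simpa using this

/-! ### `β²` -/

theorem betaTwoMono_FX (hχ : LevChar S χ) (h : BetaTwoMonoK (𝔓.trK 𝔲 hK tr)) :
    BetaTwoMono tr (FX k K) := by
  intro y hy hpair
  have hY : IsZ2c S (FX k K) (mapC2 𝔲.coLin y) := H48.isZ2c_push 𝔲.coHom hy
  have hYK := isZ2cK_Sh₂ (𝔓 := 𝔓) hK hY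
  have hB := isB2c_sub_U₂_Sh₂ (𝔓 := 𝔓) hK hY
  have hBK : IsB2cK 𝔓 (𝔓.Sh₂ (mapC2 𝔲.coLin y)) := h _ hYK (fun a ha => by
    have haQ : IsZ1S S (FX k K) (𝔓.indK₁ a) := isZ1S_indK₁ hK ha
    rw [𝔓.trK_apply, 𝔲.tr_sumC3_eq tr (isB3c_adjB2 hK ha hYK)]
    have e1 : cB2 (𝔓.indK₁ a) (𝔓.U₂ (𝔓.Sh₂ (mapC2 𝔲.coLin y))) =
        cB2 (𝔓.indK₁ a) (mapC2 𝔲.coLin y) -
          cB2 (𝔓.indK₁ a) (mapC2 𝔲.coLin y - 𝔓.U₂ (𝔓.Sh₂ (mapC2 𝔲.coLin y))) := by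
      rw [← cB2_sub_right, sub_sub_cancel]
    rw [e1, map_sub, map_sub]
    have e2 : tr.toFun (𝔲.sumC3 (cB2 (𝔓.indK₁ a) (mapC2 𝔲.coLin y))) = 0 := by
      have := hpair (𝔓.indK₁ a) haQ
      rw [𝔲.cupB2_eq] at this
      exact this
    have e3 : tr.toFun (𝔲.sumC3 (cB2 (𝔓.indK₁ a)
        (mapC2 𝔲.coLin y - 𝔓.U₂ (𝔓.Sh₂ (mapC2 𝔲.coLin y))))) = 0 := by
      have hb := H48.isB2c_push 𝔲.ocHom hB
      have := tr_cupB2_isB2c hχ (lev_FX hK) tr haQ hb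
      rw [𝔲.cupB2_eq] at this
      have e : mapC2 𝔲.coLin (mapC2 (S := S) 𝔲.ocHom.hom
          (mapC2 𝔲.coLin y - 𝔓.U₂ (𝔓.Sh₂ (mapC2 𝔲.coLin y)))) =
          mapC2 𝔲.coLin y - 𝔓.U₂ (𝔓.Sh₂ (mapC2 𝔲.coLin y)) := 𝔲.mapC2_co_oc _
      rw [e] at this
      exact this
    rw [e2, e3, sub_zero])
  have hYB : IsB2c S (FX k K) (mapC2 𝔲.coLin y) := by
    have := isB2c_add hB (isB2c_U₂ hK hBK)
    simpa using this
  have := H48.isB2c_push 𝔲.ocHom hYB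
  have e : mapC2 (S := S) 𝔲.ocHom.hom (mapC2 𝔲.coLin y : C2c S (FX k K)) = y :=
    𝔲.mapC2_oc_co y
  rw [e] at this
  exact this

/-! ### `α²` -/

theorem alphaTwoEpi_FX (hχ : LevChar S χ) (h : AlphaTwoEpiK (𝔓.trK 𝔲 hK tr)) :
    AlphaTwoEpi tr (FX k K) := by
  intro φ hφ
  obtain ⟨xK, hxK, hpair⟩ := h (φ ∘ₗ (𝔲.ocLin.compLeft GQ) ∘ₗ 𝔓.indK₁ₗ)
  refine ⟨𝔓.U₂ xK, isZ2c_U₂ hK hxK, fun b hb => ?_⟩
  have hB : IsZ1S S (FX k K) (fun g => 𝔲.coLin (b g)) := H48.isZ1S_push 𝔲.coHom hb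
  have hbK : IsZ1K S K (𝔓.shK₁ (fun g => 𝔲.coLin (b g))) := isZ1K_shK₁ hB
  have hdec := sub_indK₁_shK₁ (𝔓 := 𝔓) hB
  -- decomposition of `b`
  have hb' : b = (fun g => 𝔲.ocLin (𝔓.indK₁ (𝔓.shK₁ (fun g => 𝔲.coLin (b g))) g)) +
      dZero (Md χ (FX k K)) (𝔲.ocLin (𝔓.glob.hty1 (fun g => 𝔲.coLin (b g)))) := by
    funext g
    have h1 := congrFun hdec g
    have h2 : 𝔲.coLin (b g) = 𝔓.indK₁ (𝔓.shK₁ (fun g => 𝔲.coLin (b g))) g +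
        dZero (FX k K) (𝔓.glob.hty1 (fun g => 𝔲.coLin (b g))) g := by
      rw [← h1]
      simp
    have h3 := congrArg 𝔲.ocLin h2
    rw [𝔲.ocLin_coLin, map_add] at h3
    rw [h3]
    simp only [Pi.add_apply]
    congr 1
    have := Rep.hom_comm_apply 𝔲.ocHom g (𝔓.glob.hty1 (fun g => 𝔲.coLin (b g)))
    simp only [dZero, map_sub]
    rw [← 𝔲.ocHom_apply, ← 𝔲.ocHom_apply, this]
  have key : tr.toFun (cupA2 S χ (FX k K) (𝔓.U₂ xK)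
      (fun g => 𝔲.ocLin (𝔓.indK₁ (𝔓.shK₁ (fun g => 𝔲.coLin (b g))) g))) =
      φ (fun g => 𝔲.ocLin (𝔓.indK₁ (𝔓.shK₁ (fun g => 𝔲.coLin (b g))) g)) := by
    rw [𝔲.cupA2_eq]
    have e : (fun g => 𝔲.coLin (𝔲.ocLin (𝔓.indK₁ (𝔓.shK₁ (fun g => 𝔲.coLin (b g))) g))) =
        𝔓.indK₁ (𝔓.shK₁ (fun g => 𝔲.coLin (b g))) := by
      funext g
      exact 𝔲.coLin_ocLin _
    rw [e]
    have h1 := hpair _ hbK
    rw [𝔓.trK_apply, 𝔲.tr_sumC3_eq tr (isB3c_adjA2 hK hxK hbK)] at h1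
    exact h1
  have hz := H48.tr_cupA2_dZero (fun F hF => H48.exists_normal_level S F hF) hχ (lev_FX hK) tr
    (isZ2c_U₂ (𝔓 := 𝔓) hK hxK) (𝔲.ocLin (𝔓.glob.hty1 (fun g => 𝔲.coLin (b g))))
  have hφ' := hφ (𝔲.ocLin (𝔓.glob.hty1 (fun g => 𝔲.coLin (b g))))
  have lin := (cupA2ₗ S χ (FX k K) (𝔓.U₂ xK)).map_add
    (fun g => 𝔲.ocLin (𝔓.indK₁ (𝔓.shK₁ (fun g => 𝔲.coLin (b g))) g))
    (dZero (Md χ (FX k K)) (𝔲.ocLin (𝔓.glob.hty1 (fun g => 𝔲.coLin (b g)))))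
  simp only [cupA2ₗ_apply] at lin
  calc tr.toFun (cupA2 S χ (FX k K) (𝔓.U₂ xK) b)
      = tr.toFun (cupA2 S χ (FX k K) (𝔓.U₂ xK)
          ((fun g => 𝔲.ocLin (𝔓.indK₁ (𝔓.shK₁ (fun g => 𝔲.coLin (b g))) g)) +
            dZero (Md χ (FX k K)) (𝔲.ocLin (𝔓.glob.hty1 (fun g => 𝔲.coLin (b g)))))) := by
        rw [← hb']
    _ = φ ((fun g => 𝔲.ocLin (𝔓.indK₁ (𝔓.shK₁ (fun g => 𝔲.coLin (b g))) g)) +
            dZero (Md χ (FX k K)) (𝔲.ocLin (𝔓.glob.hty1 (fun g => 𝔲.coLin (b g))))) := by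
        rw [lin, map_add, map_add, key, hz, hφ']
    _ = φ b := by rw [← hb']

/-! ### `β¹` -/

set_option maxHeartbeats 2000000 in
theorem betaOneEpi_FX (hχ : LevChar S χ) (h : BetaOneEpiK (𝔓.trK 𝔲 hK tr)) :
    BetaOneEpi tr (FX k K) := by
  intro φ hφ
  obtain ⟨yK, hyK, hpair⟩ := h (φ ∘ₗ 𝔓.indK₂ₗ) (fun a ha => hφ _ (isB2S_indK₂ hK ha))
  have hyQ : IsZ1c S (Md χ (FX k K)) (mapC1 𝔲.ocLin (𝔓.U₁ yK)) :=
    H48.isZ1c_push 𝔲.ocHom (isZ1c_U₁ hK hyK)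
  refine ⟨mapC1 𝔲.ocLin (𝔓.U₁ yK), hyQ, fun a ha => ?_⟩
  have haK : IsZ2K S K (𝔓.shK₂ a) := isZ2K_shK₂ ha
  have hdec := isB2S_sub_indK₂_shK₂ (𝔓 := 𝔓) hK ha
  have key : tr.toFun (cupB1 S χ (FX k K) (𝔓.indK₂ (𝔓.shK₂ a)) (mapC1 𝔲.ocLin (𝔓.U₁ yK))) =
      φ (𝔓.indK₂ (𝔓.shK₂ a)) := by
    rw [𝔲.cupB1_eq, 𝔲.mapC1_co_oc]
    have h1 := hpair _ haK
    rw [𝔓.trK_apply, 𝔲.tr_sumC3_eq tr (isB3c_adjB1 hK haK hyK)] at h1
    exact h1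
  have hz : tr.toFun (cupB1 S χ (FX k K) ((a : GQ × GQ → XK K → k) - 𝔓.indK₂ (𝔓.shK₂ a))
      (mapC1 𝔲.ocLin (𝔓.U₁ yK))) = 0 := by
    obtain ⟨f, hf, hfe⟩ := hdec
    rw [← hfe]
    exact H48.tr_cupB1_dOne (fun F hF => H48.exists_normal_level S F hF) hχ (lev_FX hK) tr
      hyQ hf
  have hφ' := hφ _ hdec
  have ea : a = 𝔓.indK₂ (𝔓.shK₂ a) + ((a : GQ × GQ → XK K → k) - 𝔓.indK₂ (𝔓.shK₂ a)) := by
    abel
  have lin := (cupB1ₗ S χ (FX k K) (mapC1 𝔲.ocLin (𝔓.U₁ yK))).map_add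
    (𝔓.indK₂ (𝔓.shK₂ a)) ((a : GQ × GQ → XK K → k) - 𝔓.indK₂ (𝔓.shK₂ a))
  simp only [cupB1ₗ_apply] at lin
  calc tr.toFun (cupB1 S χ (FX k K) a (mapC1 𝔲.ocLin (𝔓.U₁ yK)))
      = tr.toFun (cupB1 S χ (FX k K)
          (𝔓.indK₂ (𝔓.shK₂ a) + ((a : GQ × GQ → XK K → k) - 𝔓.indK₂ (𝔓.shK₂ a)))
          (mapC1 𝔲.ocLin (𝔓.U₁ yK))) := by rw [← ea]
    _ = φ (𝔓.indK₂ (𝔓.shK₂ a) + ((a : GQ × GQ → XK K → k) - 𝔓.indK₂ (𝔓.shK₂ a))) := by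
        rw [lin, map_add, map_add, key, hz, hφ']
    _ = φ a := by rw [← ea]

end Fermat.Agent.S55.Top

end
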