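/-
S55 (Poitou–Tate), package E4-top: **SH** (Shapiro).
`Stmt_TopQ0 → Stmt_TopK → Stmt_E4P`: class field theory over the base fields (trivial
coefficients, `K`-level cone) gives the four duality properties of the permutation modules
`𝔽_p[G_ℚ/G_K]` over `ℚ`, for base fields of degree prime to `p`.
Owner: helper49.
-/
import Fermat.Agent.S55.Top.SHTransfer
import Fermat.Agent.S55.H48_Lev
import Fermat.Agent.S55.H48_E5Lin

set_option autoImplicit false
set_option linter.unusedSectionVars false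
set_option linter.unusedSimpArgs false
set_option linter.unusedVariables false

open CategoryTheory Module groupCohomology ExtCitation

noncomputable section

namespace Fermat.Agent.S55.Top

open Fermat.Agent.S55 OrbitData

attribute [local instance] locAct

/-- The cyclotomic character is trivial on `G_K` for a base field `K`. -/
lemma cycloChar_eq_one_of_baseField {S : Finset Nat.Primes} {p : ℕ} [Fact p.Prime]
    {K : IntermediateField ℚ (AlgebraicClosure ℚ)} (hK : IsBaseField S p K)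
    (s : GQ) (hs : s ∈ K.fixingSubgroup) : cycloChar p s = 1 := by
  obtain ⟨ζ, hζK, hζ⟩ := hK.2
  apply H48.cycloChar_eq_one_of_fix
  intro t ht
  have hp : 0 < p := (Fact.out : p.Prime).pos
  obtain ⟨i, _, rfl⟩ := hζ.eq_pow_of_pow_eq_one ht
  have hmem : ζ ^ i ∈ K := pow_mem hζK i
  exact (IntermediateField.mem_fixingSubgroup_iff K s).1 hs _ hmem

lemma card_XK_ne_zero {p : ℕ} [Fact p.Prime] {K : IntermediateField ℚ (AlgebraicClosure ℚ)}
    [Fintype (XK K)] (hidx : ¬ p ∣ K.fixingSubgroup.index) :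
    (Fintype.card (XK K) : ZMod p) ≠ 0 := by
  intro h0
  apply hidx
  rw [Subgroup.index_eq_card, Nat.card_eq_fintype_card]
  exact (ZMod.natCast_eq_zero_iff _ _).1 h0

section nonvanishing

variable {k : Type} [Field k] {S : Finset Nat.Primes}
  {K : IntermediateField ℚ (AlgebraicClosure ℚ)} {𝔓 : PlaceSys S K}
  {χ : GQ →* kˣ} (𝔲 : Untwist χ K) [Fintype (XK K)] [DecidableEq (XK K)]

lemma Untwist.sumC3_j (z : C3c S (kχ χ)) :
    𝔲.sumC3 (mapC3 𝔲.jLin z : C3c S (FX k K)) = (Fintype.card (XK K) : k) • z := by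
  refine Prod.ext (funext fun t => ?_) (funext fun q => funext fun t => ?_)
  · exact 𝔲.sum_j _
  · exact 𝔲.sum_j _

/-- The `K`-level trace is nonzero on some cone 3-cocycle. -/
theorem trK_ne_zero (hK : K.IsUnramifiedOutside S) (tr : Trace S χ)
    (hcard : (Fintype.card (XK K) : k) ≠ 0) {z : C3c S (kχ χ)} (hz : IsZ3c S (kχ χ) z)
    (htr : tr.toFun z ≠ 0) :
    ∃ x : 𝔓.C3 k, IsZ3cK 𝔓 x ∧ (𝔓.trK 𝔲 hK tr).toFun x ≠ 0 := by
  have hzX : IsZ3c S (FX k K) (mapC3 𝔲.jLin z) := H48.isZ3c_push 𝔲.jHom hz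
  refine ⟨𝔓.Sh₃ (mapC3 𝔲.jLin z), isZ3cK_Sh₃ hK hzX, ?_⟩
  rw [𝔓.trK_apply, ← 𝔲.tr_sumC3_eq tr (isB3c_sub_U₃_Sh₃ (𝔓 := 𝔓) hK hzX), 𝔲.sumC3_j, map_smul]
  exact mul_ne_zero hcard htr

end nonvanishing

/-- **SH**: `Stmt_TopQ0 → Stmt_TopK → Stmt_E4P`. -/
theorem stmt_E4P_of_top (hQ : Stmt_TopQ0) (hT : Stmt_TopK) : Stmt_E4P := by
  intro p _ hp2 S hpS K hK hidx
  classical
  haveI : Finite (XK K) := finite_XK hK.1
  letI : Fintype (XK K) := Fintype.ofFinite _
  have hχ : LevChar S (cycloChar p) := H48.stmt_levChar p S hpS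
  obtain ⟨z, hz, hzB⟩ := hQ p hp2 S hpS
  have hzB' : z ∉ B3cSub S (kχ (cycloChar p)) := hzB
  obtain ⟨φ, hφB, hφz⟩ := H48.exists_functional_sep (B3cSub S (kχ (cycloChar p))) hzB'
  have hcard := card_XK_ne_zero (p := p) (K := K) hidx
  have hne := trK_ne_zero (𝔓 := placeSysOut S K)
    ((placeSysOut S K).untwist (cycloChar p) (cycloChar_eq_one_of_baseField hK)) hK.1
    (⟨φ, fun x hx => hφB x hx⟩ : Trace S (cycloChar p)) hcard hz hφz
  obtain ⟨hA2, hA3, hB1, hB2⟩ := hT p hp2 S hpS K hK (placeSysOut S K) _ hne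
  have hr := H48.stmt_E2 (ZMod p) S (cycloChar p)
    (⟨φ, fun x hx => hφB x hx⟩ : Trace S (cycloChar p)) (permRep (ZMod p) K) (FX (ZMod p) K)
    isRetract_perm_FX
  exact ⟨⟨φ, fun x hx => hφB x hx⟩,
    hr.1 (alphaTwoEpi_FX _ hK.1 _ hχ hA2), hr.2.1 (alphaThreeMono_FX _ hK.1 _ hA3),
    hr.2.2.1 (betaOneEpi_FX _ hK.1 _ hχ hB1), hr.2.2.2 (betaTwoMono_FX _ hK.1 _ hχ hB2)⟩

end Fermat.Agent.S55.Top

end
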