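/-
S55 (Poitou–Tate), package E4, TopQ0 (`H³_c(ℚ, μ_p) ≠ 0`): the local input.
Owner: helper48.  Plans: NOTES/plan/S55_E4.md, NOTES/plan/S55_TQ.md.

TopQ0 (files `Top/H48_TQ*.lean`) is proved from
* `Stmt_I4` for the cyclotomic field `K₀ = ℚ(ζ_p)`   (GS island, `Top/Defs_PT.lean`), and
* `Stmt_TQ_Loc` below                                  (LOC island):
  there is a class in `H²(ℚ_p, μ_p)` whose restriction to `ℚ_p(ζ_p)` does not vanish.

`K₀` has exactly one place over `p` (the mod `p` cyclotomic character is onto on the local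
Galois group at `p`), so a global class with local components `(0, …, 0, c_p)` would contradict
`I4(b)` over `K₀`.
-/
import Fermat.Agent.S55.Top.DefsP

set_option autoImplicit false

open CategoryTheory Module groupCohomology ExtCitation

noncomputable section

namespace Fermat.Agent.S55.Top

open Fermat.Agent.S55

/-- The local Galois group of `ℚ_p(ζ_p)`: the kernel of the mod `p` cyclotomic character on the
local Galois group at `p`. -/
def Γcyc (p : ℕ) [Fact p.Prime] : Subgroup (Gl (pPrime p)) :=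
  (cycloChar p).ker.comap (rl (pPrime p))

lemma mem_Γcyc (p : ℕ) [Fact p.Prime] (h : Gl (pPrime p)) :
    h ∈ Γcyc p ↔ cycloChar p (rl (pPrime p) h) = 1 := Iff.rfl

/-- **TQ-L** (local, at `p`): there is a level-constant 2-cocycle `c` of the local Galois group
at `p` with values in `𝔽_p(1)` (twisted cocycle: `dTwoL (kχ χ) p c = 0`) whose restriction to
`Γcyc p = Gal(ℚ̄_p / ℚ_p(ζ_p))` is not the coboundary of a level-constant 1-cochain.
(E.g. `c(h₁, h₂) = κ(h₁) · u(h₂)`, `κ` the Kummer cocycle of `p`, `u` the unramified character of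
degree `p`: over `ℚ_p(ζ_p)` it is the cyclic algebra `(E/F₀, p)`, `E/F₀` unramified of degree `p`,
and `p` is not a norm from `E` because `v_{F₀}(p) = p - 1` is prime to `p`.) -/
def Stmt_TQ_Loc : Prop :=
  ∀ (p : ℕ) [Fact p.Prime], p ≠ 2 →
    ∃ c : Gl (pPrime p) × Gl (pPrime p) → ZMod p,
      IsLevelConstant₂ (rl (pPrime p)) c ∧
      dTwoL (kχ (cycloChar p)) (pPrime p) c = 0 ∧
      ¬ ∃ g : ↥(Γcyc p) → ZMod p,
          IsLevelConstant₁ ((rl (pPrime p)).comp (Γcyc p).subtype) g ∧
          tOne g = fun t : ↥(Γcyc p) × ↥(Γcyc p) => c (t.1.1, t.2.1)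

/-- **TQ-C** (local, at `p`): the mod `p` cyclotomic character is onto on the local Galois group
at `p`  (`[ℚ_p(ζ_p) : ℚ_p] = p - 1`). -/
def Stmt_TQ_CycSurj : Prop :=
  ∀ (p : ℕ) [Fact p.Prime],
    Function.Surjective (fun h : Gl (pPrime p) => cycloChar p (rl (pPrime p) h))

end Fermat.Agent.S55.Top

end
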