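/-
S55 (Poitou–Tate), package E4, TopQ0, part B (TQ-C): the mod `p` cyclotomic character is onto
on the local Galois group at `p`.  Bridge from helper50's `S56.FL.H50.exists_gal_pow`
(`ℚ_p(μ_p)/ℚ_p` has degree `p - 1`).
Owner: helper48.
-/
import Fermat.Agent.S55.Top.Defs_TQ
import Fermat.Agent.S55.H48_Lev
import Fermat.Agent.S56.FL.H50_CycloInertia

set_option autoImplicit false

open CategoryTheory Module groupCohomology ExtCitation

noncomputable section

namespace Fermat.Agent.S55.Top.H48

open Fermat.Agent.S55 Fermat.Agent.S55.Top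

/-- The cyclotomic character of an automorphism acting on the `p`-th roots of unity as
`t ↦ t ^ n`. -/
theorem cycloChar_eq_of_pow (p : ℕ) [Fact p.Prime] (σ : GQ) (a : (ZMod p)ˣ)
    (h : ∀ t : AlgebraicClosure ℚ, t ^ p = 1 → σ t = t ^ (a : ZMod p).val) :
    cycloChar p σ = a := by
  haveI : NeZero p := ⟨(Fact.out : p.Prime).ne_zero⟩
  haveI : Fact (1 < p) := ⟨(Fact.out : p.Prime).one_lt⟩
  have h1 := modularCyclotomicCharacter.unique (L := AlgebraicClosure ℚ)
    (card_rootsOfUnity_eq_self p) (σ : AlgebraicClosure ℚ ≃+* AlgebraicClosure ℚ)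
    (c := (a : ZMod p)) (fun t ht => by
      have ht' : (t : AlgebraicClosure ℚ) ^ p = 1 := by
        have := (mem_rootsOfUnity p t).1 ht
        rw [← Units.val_pow_eq_pow_val, this, Units.val_one]
      exact h t ht')
  refine Units.ext ?_
  exact h1.symm

/-- **TQ-C.** -/
theorem stmt_TQ_CycSurj : Stmt_TQ_CycSurj := by
  intro p _ a
  have hp : p.Prime := Fact.out
  haveI : NeZero p := ⟨hp.ne_zero⟩
  have hn : ¬ p ∣ (a : ZMod p).val := by
    intro h
    have h0 : ((a : ZMod p).val : ZMod p) = 0 := (ZMod.natCast_eq_zero_iff _ _).2 h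
    rw [ZMod.natCast_val, ZMod.cast_id] at h0
    exact a.ne_zero h0
  obtain ⟨σ, hσ⟩ := Fermat.Agent.S56.FL.H50.exists_gal_pow (p := p) hn
  refine ⟨σ, ?_⟩
  show cycloChar p (localGaloisToGlobal p σ) = a
  apply cycloChar_eq_of_pow
  intro t ht
  apply (padicEmbedding p).injective
  show padicEmbedding p (localGaloisToGlobal p σ t) = padicEmbedding p (t ^ (a : ZMod p).val)
  rw [padicEmbedding_localGaloisToGlobal, map_pow]
  apply hσ
  rw [← map_pow, ht, map_one]

end Fermat.Agent.S55.Top.H48

end
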