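/-
S55 (Poitou–Tate), package E4, TopQ0, part C: the cyclotomic field `K₀ = ℚ(ζ_p)`.
`G_{K₀} = ker χ_p`, `K₀` is a base field, there is exactly one place of `K₀` over `p`
(TQ-C: the cyclotomic character is onto on the local group at `p`), and its local group is
`Γcyc p`.
Owner: helper48.
-/
import Fermat.Agent.S55.Top.H48_TQCyc
import Fermat.Agent.S55.Top.Defs_PT
import Fermat.Agent.S55.H13_E3

set_option autoImplicit false
set_option linter.unusedSectionVars false

open CategoryTheory Module groupCohomology ExtCitation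

noncomputable section

namespace Fermat.Agent.S55.Top.H48

open Fermat.Agent.S55 Fermat.Agent.S55.Top OrbitData

attribute [local instance] locAct

variable (p : ℕ) [Fact p.Prime]

/-- The cyclotomic field `ℚ(ζ_p)`. -/
def Kcyc : IntermediateField ℚ (AlgebraicClosure ℚ) :=
  IntermediateField.adjoin ℚ
    ({(Fermat.Agent.S55.H48.exists_primitiveRoot p).choose} : Set (AlgebraicClosure ℚ))

/-- `G_{ℚ(ζ_p)}` is the kernel of the mod `p` cyclotomic character. -/
theorem Kcyc_fix : (Kcyc p).fixingSubgroup = (cycloChar p).ker := by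
  have hζ := (Fermat.Agent.S55.H48.exists_primitiveRoot p).choose_spec
  have hp : p.Prime := Fact.out
  haveI : NeZero p := ⟨hp.ne_zero⟩
  ext s
  rw [IntermediateField.mem_fixingSubgroup_iff, MonoidHom.mem_ker]
  constructor
  · intro hs
    have hsζ := hs _ (IntermediateField.mem_adjoin_simple_self ℚ
      (Fermat.Agent.S55.H48.exists_primitiveRoot p).choose)
    apply Fermat.Agent.S55.H48.cycloChar_eq_one_of_fix
    intro t ht
    obtain ⟨j, -, rfl⟩ := hζ.eq_pow_of_pow_eq_one ht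
    rw [map_pow, hsζ]
  · intro hs
    exact Fermat.Agent.S55.H48.fixes_adjoin s _
      (H13.fix_of_cycloChar_eq_one p s hs _ hζ.pow_eq_one)

/-- `ℚ(ζ_p)` is a base field. -/
theorem Kcyc_isBaseField (S : Finset Nat.Primes) (hpS : pPrime p ∈ S) :
    IsBaseField S p (Kcyc p) := by
  have hζ := (Fermat.Agent.S55.H48.exists_primitiveRoot p).choose_spec
  have hp : p.Prime := Fact.out
  haveI := Fermat.Agent.S55.H48.qbar_isAlgebraic
  refine ⟨⟨IntermediateField.adjoin.finiteDimensional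
    (Algebra.IsIntegral.isIntegral (R := ℚ) _), ?_⟩, _,
    IntermediateField.mem_adjoin_simple_self ℚ _, hζ⟩
  intro q hq A hA g hg
  have hqp : (q : ℕ) ≠ p := by
    intro h
    apply hq
    have : q = pPrime p := Subtype.ext h
    rw [this]
    exact hpS
  have hfixζ := Fermat.Agent.S55.H48.inertia_fix_root hp q.2 hqp A hA g hg _ hζ.pow_eq_one
  rw [IntermediateField.mem_fixingSubgroup_iff]
  exact Fermat.Agent.S55.H48.fixes_adjoin g _ hfixζ

lemma smul_mk_XK (K : IntermediateField ℚ (AlgebraicClosure ℚ)) (γ g : GQ) :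
    γ • (QuotientGroup.mk g : XK K) = (QuotientGroup.mk (γ * g) : XK K) := rfl

/-- The local group at `p` acts transitively on `G_ℚ / G_{ℚ(ζ_p)}`. -/
theorem loc_transitive (x y : XK (Kcyc p)) :
    ∃ h : Gl (pPrime p), rl (pPrime p) h • x = y := by
  induction x using QuotientGroup.induction_on with | _ g
  induction y using QuotientGroup.induction_on with | _ g'
  obtain ⟨h, hh⟩ := stmt_TQ_CycSurj p (cycloChar p g' * (cycloChar p g)⁻¹)
  have hh' : cycloChar p (rl (pPrime p) h) = cycloChar p g' * (cycloChar p g)⁻¹ := hh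
  refine ⟨h, ?_⟩
  rw [smul_mk_XK]
  apply QuotientGroup.eq.2
  rw [Kcyc_fix, MonoidHom.mem_ker, map_mul, map_inv, map_mul, hh']
  group

/-- There is exactly one place of `ℚ(ζ_p)` over `p`. -/
theorem subsingleton_W {S : Finset Nat.Primes} (hpS : pPrime p ∈ S)
    (𝔓 : PlaceSys S (Kcyc p)) : Subsingleton (𝔓.W ⟨pPrime p, hpS⟩) := by
  refine ⟨fun w w' => ?_⟩
  obtain ⟨h, hh⟩ := loc_transitive p ((𝔓.loc ⟨pPrime p, hpS⟩).rep w)
    ((𝔓.loc ⟨pPrime p, hpS⟩).rep w')
  have h1 := (𝔓.loc ⟨pPrime p, hpS⟩).o_smul h ((𝔓.loc ⟨pPrime p, hpS⟩).rep w)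
  rw [locAct_smul] at h1
  have h2 : rl (⟨pPrime p, hpS⟩ : ↥S).1 h • (𝔓.loc ⟨pPrime p, hpS⟩).rep w =
      (𝔓.loc ⟨pPrime p, hpS⟩).rep w' := hh
  rw [h2, (𝔓.loc ⟨pPrime p, hpS⟩).o_rep, (𝔓.loc ⟨pPrime p, hpS⟩).o_rep] at h1
  exact h1.symm

/-- The stabiliser of any coset is `ker χ_p`. -/
theorem smul_eq_self_iff (γ : GQ) (x : XK (Kcyc p)) : γ • x = x ↔ cycloChar p γ = 1 := by
  induction x using QuotientGroup.induction_on with | _ g
  rw [smul_mk_XK, QuotientGroup.eq, Kcyc_fix, MonoidHom.mem_ker, map_mul, map_inv, map_mul,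
    mul_comm (cycloChar p γ), mul_inv_rev, inv_mul_cancel_right, inv_eq_one]

/-- The local group of the place over `p` is `Γcyc p`. -/
theorem mem_Γw_iff_Γcyc {S : Finset Nat.Primes} (hpS : pPrime p ∈ S)
    (𝔓 : PlaceSys S (Kcyc p)) (w : 𝔓.W ⟨pPrime p, hpS⟩) (h : Gl (pPrime p)) :
    h ∈ 𝔓.Γw ⟨pPrime p, hpS⟩ w ↔ h ∈ Γcyc p := by
  rw [PlaceSys.mem_Γw, mem_Γcyc]
  exact smul_eq_self_iff p _ _

end Fermat.Agent.S55.Top.H48

end
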