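/-
S55 (Poitou–Tate), package E4, TopQ0, part A: Shapiro's map `Sh₃` commutes with the cone
differentials, hence maps cone 3-coboundaries over `ℚ` (coefficients `FX = Fun(G_ℚ/G_K, k)`) to
`K`-level cone 3-coboundaries.
Owner: helper48.  (Uses helper49's SH toolkit.)
-/
import Fermat.Agent.S55.Top.Members

set_option autoImplicit false
set_option linter.unusedSectionVars false

open CategoryTheory Module groupCohomology ExtCitation

noncomputable section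

namespace Fermat.Agent.S55.Top.H48

open Fermat.Agent.S55 Fermat.Agent.S55.Top OrbitData

attribute [local instance] locAct

variable {k : Type} [Field k] {S : Finset Nat.Primes}
  {K : IntermediateField ℚ (AlgebraicClosure ℚ)} (𝔓 : PlaceSys S K)

/-- `Sh₃ ∘ d = d ∘ Sh₂`. -/
lemma Sh₃_dCone2 (u : C2c S (FX k K)) :
    𝔓.Sh₃ (dCone2 S (FX k K) u) = 𝔓.dK2 (𝔓.Sh₂ u) := by
  refine Prod.ext ?_ (funext fun q => funext fun w => ?_)
  · show 𝔓.shK₃ (d2 (u.1 : GQ × GQ → XK K → k)) = tTwo (𝔓.shK₂ u.1)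
    rw [𝔓.tTwo_shK₂]
  · show 𝔓.shL₂ q (resTwo q.1 (u.1 : GQ × GQ → XK K → k) - dOneL (FX k K) q.1 (u.2 q) -
        resTwo q.1 (𝔓.glob.hty3 (d2 (u.1 : GQ × GQ → XK K → k)))) w =
      𝔓.res₂ q w (𝔓.shK₂ u.1) - tOne (𝔓.shL₁ q (u.2 q - resOne q.1 (𝔓.glob.hty2 u.1)) w)
    rw [𝔓.tOne_shL₁, d1_sub, ← res_d1, dOneL_FX]
    have hg := 𝔓.glob.hty_two' (u.1 : GQ × GQ → XK K → k)
    have h1 := congrFun (𝔓.sh_res_ind₂ q (𝔓.shK₂ (u.1 : GQ × GQ → XK K → k))) w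
    rw [← h1, 𝔓.indK₂_shK₂]
    have hg' : 𝔓.glob.ind2 (𝔓.glob.sh2 (u.1 : GQ × GQ → XK K → k)) =
        (u.1 : GQ × GQ → XK K → k) - d1 (𝔓.glob.hty2 u.1) - 𝔓.glob.hty3 (d2 u.1) := by
      rw [sub_sub, ← hg, sub_sub_cancel]
    rw [hg']
    funext t
    simp only [PlaceSys.shL₂, resTwo, Pi.sub_apply]
    ring

/-- `Sh₃` maps cone coboundaries to `K`-level cone coboundaries. -/
theorem isB3cK_Sh₃ (hK : K.IsUnramifiedOutside S) {x : C3c S (FX k K)}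
    (hx : IsB3c S (FX k K) x) : IsB3cK 𝔓 (𝔓.Sh₃ x) := by
  obtain ⟨u, hl, hl', rfl⟩ := (isB3c_iff x).1 hx
  rw [Sh₃_dCone2]
  refine ⟨(𝔓.Sh₂ u).1, (𝔓.Sh₂ u).2, lev_shK₂ hl, fun q w => ?_, rfl, fun q w => rfl⟩
  exact lev_shL₁ q (Fermat.Agent.S55.levL₁_sub q.1 (hl' q)
    (levL₁_resOne q.1 (lev_glob_hty2 hK hl))) w

/-- `Sh₃` of a family of local cochains (zero global component). -/
lemma Sh₃_loc (Z : ∀ q : ↥S, Gl q.1 × Gl q.1 → XK K → k) :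
    𝔓.Sh₃ ((0, Z) : C3c S (FX k K)) = ((0, fun q => 𝔓.shL₂ q (Z q)) : 𝔓.C3 k) := by
  refine Prod.ext ?_ (funext fun q => funext fun w => ?_)
  · rfl
  · show 𝔓.shL₂ q (Z q - resTwo q.1 (𝔓.glob.hty3 (0 : GQ × GQ × GQ → XK K → k))) w = _
    rw [hty3_zero]
    funext t
    simp only [PlaceSys.shL₂, resTwo, Pi.sub_apply, Pi.zero_apply, sub_zero]

end Fermat.Agent.S55.Top.H48

end
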