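/-
S55 (Poitou–Tate), package E4, TopQ0 (`H³_c(ℚ, μ_p) ≠ 0`), final wiring (TQ-W):
`Stmt_I4 → Stmt_TQ_Loc → Stmt_TopQ0`.
Owner: helper48.  Plan: NOTES/plan/S55_TQ.md.

The cone 3-cocycle is `z = (0, (0, …, 0, c_p))` with `c_p` the local class of `Stmt_TQ_Loc`.
If `z` were a cone coboundary over `ℚ`, then by Shapiro (`Sh₃`, helper49's SH toolkit) the
`K₀`-level cone cochain `(0, (c_p|_{Γ_w} / u(w))_w)` would be a `K₀`-level cone coboundary for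
`K₀ = ℚ(ζ_p)`; it has only one nonzero local component because `K₀` has exactly one place over `p`
(TQ-C), so by `I4(b)` this component is a local coboundary, contradicting `Stmt_TQ_Loc`.
-/
import Fermat.Agent.S55.Top.H48_TQSh
import Fermat.Agent.S55.Top.H48_TQField
import Fermat.Agent.S55.Top.SH
import Fermat.Agent.S55.H48_E2

set_option autoImplicit false
set_option linter.unusedSectionVars false

open CategoryTheory Module groupCohomology ExtCitation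

noncomputable section

namespace Fermat.Agent.S55.Top.H48

open Fermat.Agent.S55 Fermat.Agent.S55.Top OrbitData

attribute [local instance] locAct

section cocycle

variable {p : ℕ} [Fact p.Prime] (S : Finset Nat.Primes) (hpS : pPrime p ∈ S)

/-- The family of local cochains `(0, …, 0, c_p)`. -/
def locFam (c : Gl (pPrime p) × Gl (pPrime p) → ZMod p) :
    ∀ q : ↥S, Gl q.1 × Gl q.1 → ZMod p :=
  Function.update (fun _ => 0) (⟨pPrime p, hpS⟩ : ↥S) c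

lemma locFam_self (c : Gl (pPrime p) × Gl (pPrime p) → ZMod p) :
    locFam S hpS c ⟨pPrime p, hpS⟩ = c := by
  unfold locFam
  rw [Function.update_self]

lemma locFam_of_ne (c : Gl (pPrime p) × Gl (pPrime p) → ZMod p) {q : ↥S}
    (hq : q ≠ ⟨pPrime p, hpS⟩) : locFam S hpS c q = 0 := by
  unfold locFam
  rw [Function.update_of_ne hq]

/-- The cone 3-cochain `(0, (0, …, 0, c_p))` of `k(χ)`. -/
def zTQ (c : Gl (pPrime p) × Gl (pPrime p) → ZMod p) : C3c S (kχ (cycloChar p)) :=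
  ((0 : GQ × GQ × GQ → kχ (cycloChar p)), locFam S hpS c)

lemma isZ3c_zTQ {c : Gl (pPrime p) × Gl (pPrime p) → ZMod p}
    (hl : IsLevelConstant₂ (rl (pPrime p)) c)
    (hd : dTwoL (kχ (cycloChar p)) (pPrime p) c = 0) :
    IsZ3c S (kχ (cycloChar p)) (zTQ S hpS c) := by
  refine ⟨⟨dThree_zero _, ⟨⊥, IntermediateField.isUnramifiedOutside_bot S,
    fun _ _ _ _ _ _ _ _ _ => rfl⟩⟩, fun q => ?_⟩
  by_cases hq : q = ⟨pPrime p, hpS⟩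
  · subst hq
    show IsLevelConstant₂ (rl (pPrime p)) (locFam S hpS c ⟨pPrime p, hpS⟩) ∧
      resThree (pPrime p) (0 : GQ × GQ × GQ → kχ (cycloChar p)) =
        dTwoL (kχ (cycloChar p)) (pPrime p) (locFam S hpS c ⟨pPrime p, hpS⟩)
    rw [locFam_self, hd]
    exact ⟨hl, rfl⟩
  · show IsLevelConstant₂ (rl q.1) (locFam S hpS c q) ∧
      resThree q.1 (0 : GQ × GQ × GQ → kχ (cycloChar p)) =
        dTwoL (kχ (cycloChar p)) q.1 (locFam S hpS c q)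
    rw [locFam_of_ne S hpS c hq]
    refine ⟨isLevelConstant₂_const (rl q.1) (0 : ZMod p), ?_⟩
    rw [dTwoL_zero]
    rfl

end cocycle

section main

variable {p : ℕ} [Fact p.Prime] {S : Finset Nat.Primes} (hpS : pPrime p ∈ S)

/-- The `K₀`-level local family obtained from `(0, …, 0, c_p)` by Shapiro. -/
def kFam (𝔓 : PlaceSys S (Kcyc p)) (𝔲 : Untwist (cycloChar p) (Kcyc p))
    (c : Gl (pPrime p) × Gl (pPrime p) → ZMod p) :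
    ∀ (q : ↥S) (w : 𝔓.W q), 𝔓.Γw q w × 𝔓.Γw q w → ZMod p :=
  fun q w t => locFam S hpS c q (t.1.1, t.2.1) * ((𝔲.u ((𝔓.loc q).rep w) : ZMod p))⁻¹

lemma Sh₃_zTQ (𝔓 : PlaceSys S (Kcyc p)) (𝔲 : Untwist (cycloChar p) (Kcyc p))
    (c : Gl (pPrime p) × Gl (pPrime p) → ZMod p) :
    𝔓.Sh₃ (mapC3 𝔲.jLin (zTQ S hpS c) : C3c S (FX (ZMod p) (Kcyc p))) =
      ((0, kFam hpS 𝔓 𝔲 c) : 𝔓.C3 (ZMod p)) := by
  have h1 : (mapC3 𝔲.jLin (zTQ S hpS c) : C3c S (FX (ZMod p) (Kcyc p))) =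
      ((0, fun q t => 𝔲.jLin (locFam S hpS c q t)) : C3c S (FX (ZMod p) (Kcyc p))) := by
    refine Prod.ext (funext fun t => ?_) rfl
    show 𝔲.jLin 0 = 0
    exact map_zero _
  rw [h1, Sh₃_loc]
  rfl

lemma kFam_of_ne (𝔓 : PlaceSys S (Kcyc p)) (𝔲 : Untwist (cycloChar p) (Kcyc p))
    (c : Gl (pPrime p) × Gl (pPrime p) → ZMod p) {q : ↥S} (hq : q ≠ ⟨pPrime p, hpS⟩)
    (w : 𝔓.W q) : kFam hpS 𝔓 𝔲 c q w = 0 := by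
  funext t
  show locFam S hpS c q (t.1.1, t.2.1) * _ = 0
  rw [locFam_of_ne S hpS c hq]
  exact zero_mul _

lemma kFam_self (𝔓 : PlaceSys S (Kcyc p)) (𝔲 : Untwist (cycloChar p) (Kcyc p))
    (c : Gl (pPrime p) × Gl (pPrime p) → ZMod p) (w : 𝔓.W ⟨pPrime p, hpS⟩)
    (t : 𝔓.Γw ⟨pPrime p, hpS⟩ w × 𝔓.Γw ⟨pPrime p, hpS⟩ w) :
    kFam hpS 𝔓 𝔲 c ⟨pPrime p, hpS⟩ w t =
      c (t.1.1, t.2.1) * ((𝔲.u ((𝔓.loc ⟨pPrime p, hpS⟩).rep w) : ZMod p))⁻¹ := by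
  show locFam S hpS c ⟨pPrime p, hpS⟩ (t.1.1, t.2.1) * _ = _
  rw [locFam_self]

/-- **TQ-W**: `H³_c(ℚ, μ_p) ≠ 0` from `I4` for `ℚ(ζ_p)` and the local class. -/
theorem stmt_TopQ0_of (hI4 : Stmt_I4) (hL : Stmt_TQ_Loc) : Stmt_TopQ0 := by
  intro p _ hp2 S hpS
  classical
  obtain ⟨c, hcl, hcd, hcB⟩ := hL p hp2
  refine ⟨zTQ S hpS c, isZ3c_zTQ S hpS hcl hcd, fun hB => hcB ?_⟩
  have hK : IsBaseField S p (Kcyc p) := Kcyc_isBaseField p S hpS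
  haveI : Finite (XK (Kcyc p)) := finite_XK hK.1
  letI : Fintype (XK (Kcyc p)) := Fintype.ofFinite _
  obtain ⟨𝔓, h𝔓⟩ : ∃ 𝔓 : PlaceSys S (Kcyc p), 𝔓 = placeSysOut S (Kcyc p) := ⟨_, rfl⟩
  obtain ⟨𝔲, h𝔲⟩ : ∃ 𝔲 : Untwist (cycloChar p) (Kcyc p),
      𝔲 = 𝔓.untwist (cycloChar p) (cycloChar_eq_one_of_baseField hK) := ⟨_, rfl⟩
  -- push to `FX` and apply Shapiro
  have hZ : IsZ3c S (FX (ZMod p) (Kcyc p)) (mapC3 𝔲.jLin (zTQ S hpS c)) :=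
    Fermat.Agent.S55.H48.isZ3c_push 𝔲.jHom (isZ3c_zTQ S hpS hcl hcd)
  have hBX : IsB3c S (FX (ZMod p) (Kcyc p)) (mapC3 𝔲.jLin (zTQ S hpS c)) :=
    Fermat.Agent.S55.H48.isB3c_push 𝔲.jHom hB
  have hZK := isZ3cK_Sh₃ (𝔓 := 𝔓) hK.1 hZ
  have hBK := isB3cK_Sh₃ 𝔓 hK.1 hBX
  rw [Sh₃_zTQ] at hZK hBK
  -- the local components are cocycles
  have hmem : ∀ (q : ↥S) (w : 𝔓.W q), kFam hpS 𝔓 𝔲 c q w ∈ Z2w (ZMod p) 𝔓 q w := by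
    intro q w
    obtain ⟨hlev, hres⟩ := hZK.2 q w
    refine ⟨?_, hlev⟩
    rw [← hres]
    rfl
  -- only one nonzero component
  haveI := subsingleton_W p hpS 𝔓
  obtain ⟨w₀⟩ : Nonempty (𝔓.W ⟨pPrime p, hpS⟩) :=
    ⟨(𝔓.loc ⟨pPrime p, hpS⟩).o (x0 (Kcyc p))⟩
  have hzero : ∀ (q : ↥S) (w : 𝔓.W q),
      (⟨q, w⟩ : Σ q : ↥S, 𝔓.W q) ≠ ⟨⟨pPrime p, hpS⟩, w₀⟩ → kFam hpS 𝔓 𝔲 c q w = 0 := by
    intro q w hne
    by_cases hq : q = ⟨pPrime p, hpS⟩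
    · subst hq
      exact absurd (by rw [Subsingleton.elim w w₀]) hne
    · exact kFam_of_ne hpS 𝔓 𝔲 c hq w
  obtain ⟨g, hgl, hg⟩ := (hI4 p hp2 S hpS (Kcyc p) hK 𝔓).2 (kFam hpS 𝔓 𝔲 c) hmem hBK
    ⟨pPrime p, hpS⟩ w₀ hzero
  -- transport to `Γcyc p`
  have hΓ : ∀ h : Gl (pPrime p), h ∈ Γcyc p → h ∈ 𝔓.Γw ⟨pPrime p, hpS⟩ w₀ :=
    fun h hh => (mem_Γw_iff_Γcyc p hpS 𝔓 w₀ h).2 hh
  have hu : ((𝔲.u ((𝔓.loc ⟨pPrime p, hpS⟩).rep w₀) : (ZMod p)ˣ) : ZMod p) ≠ 0 :=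
    Units.ne_zero _
  refine ⟨fun h => ((𝔲.u ((𝔓.loc ⟨pPrime p, hpS⟩).rep w₀) : (ZMod p)ˣ) : ZMod p) *
    g ⟨h.1, hΓ h.1 h.2⟩, ?_, ?_⟩
  · obtain ⟨F, hF, hFg⟩ := hgl
    refine ⟨F, hF, fun a s hs => ?_⟩
    have := hFg ⟨a.1, hΓ a.1 a.2⟩ ⟨s.1, hΓ s.1 s.2⟩ hs
    show _ * g ⟨(a * s).1, _⟩ = _ * g ⟨a.1, _⟩
    exact congrArg _ this
  · funext t
    have h1 := congrFun hg (⟨t.1.1, hΓ t.1.1 t.1.2⟩, ⟨t.2.1, hΓ t.2.1 t.2.2⟩)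
    rw [kFam_self] at h1
    show _ * g ⟨t.2.1, _⟩ - _ * g ⟨(t.1 * t.2).1, _⟩ + _ * g ⟨t.1.1, _⟩ = c (t.1.1, t.2.1)
    have h2 : c (t.1.1, t.2.1) =
        ((𝔲.u ((𝔓.loc ⟨pPrime p, hpS⟩).rep w₀) : (ZMod p)ˣ) : ZMod p) *
          (c (t.1.1, t.2.1) * ((𝔲.u ((𝔓.loc ⟨pPrime p, hpS⟩).rep w₀) : ZMod p))⁻¹) := by
      field_simp
    rw [h2, ← h1]
    show _ = _ * (g ⟨t.2.1, _⟩ - g (⟨t.1.1, _⟩ * ⟨t.2.1, _⟩) + g ⟨t.1.1, _⟩)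
    have h3 : (⟨(t.1 * t.2).1, hΓ _ (t.1 * t.2).2⟩ : 𝔓.Γw ⟨pPrime p, hpS⟩ w₀) =
        ⟨t.1.1, hΓ t.1.1 t.1.2⟩ * ⟨t.2.1, hΓ t.2.1 t.2.2⟩ := rfl
    rw [h3]
    ring

end main

end Fermat.Agent.S55.Top.H48

end
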