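import Fermat.Agent.S55.Top.Defs_TQ
import Fermat.Agent.S55.CFT.LOC.H25_LTO_Cyc

/-!
# S55 / E4 / TopQ0, leaf TQ-C (helper20): the mod `p` cyclotomic character is onto on the local
Galois group at `p`

`stmt_TQ_CycSurj : Stmt_TQ_CycSurj`.  Route: the `p`-th cyclotomic polynomial is irreducible over
`ℚ_p` (`H25.finrank_adjoin_zeta`), so all primitive `p`-th roots of unity of `PadicAlgCl p` are
conjugate over `ℚ_p`.
-/

set_option autoImplicit false

open Polynomial ExtCitation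

noncomputable section

namespace Fermat.Agent.S55.Top.H20

open Fermat.Agent.S55 Fermat.Agent.S55.Top

variable (p : ℕ) [Fact p.Prime]

/-- The `p`-th cyclotomic polynomial is irreducible over `ℚ_p`. -/
theorem irreducible_cyclotomic_padic : Irreducible (cyclotomic p ℚ_[p]) := by
  have hne : NeZero p := ⟨(Fact.out : p.Prime).ne_zero⟩
  have hne' : NeZero ((p : ℕ) : ℚ_[p]) := ⟨by exact_mod_cast (Fact.out : p.Prime).ne_zero⟩
  let E := CyclotomicField p ℚ_[p]
  have hζ : IsPrimitiveRoot (IsCyclotomicExtension.zeta p ℚ_[p] E) p :=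
    IsCyclotomicExtension.zeta_spec p ℚ_[p] E
  set ζ := IsCyclotomicExtension.zeta p ℚ_[p] E with hζdef
  have hfin : FiniteDimensional ℚ_[p] E := IsCyclotomicExtension.finiteDimensional {p} ℚ_[p] E
  have hζ1 : IsPrimitiveRoot ζ (p ^ 1) := by rwa [pow_one]
  have h1 := CFT.LOC.H25.finrank_adjoin_zeta p E one_ne_zero hζ1
  rw [pow_one] at h1
  have hint : IsIntegral ℚ_[p] ζ := Algebra.IsIntegral.isIntegral ζ
  have h2 : Module.finrank ℚ_[p] (IntermediateField.adjoin ℚ_[p] {ζ}) =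
      (minpoly ℚ_[p] ζ).natDegree := IntermediateField.adjoin.finrank hint
  have h3 : minpoly ℚ_[p] ζ ∣ cyclotomic p ℚ_[p] := by
    apply minpoly.dvd
    rw [aeval_def, eval₂_eq_eval_map, map_cyclotomic]
    exact hζ.isRoot_cyclotomic (Fact.out : p.Prime).pos
  have h4 : cyclotomic p ℚ_[p] = minpoly ℚ_[p] ζ := by
    apply eq_of_monic_of_dvd_of_natDegree_le (minpoly.monic hint) (cyclotomic.monic p ℚ_[p]) h3
    rw [natDegree_cyclotomic, ← h1, h2]
  rw [h4]
  exact minpoly.irreducible hint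

local notation "Qbar" => AlgebraicClosure ℚ
local notation "Ω" => PadicAlgCl p

/-- Conjugation of primitive `p`-th roots of unity in `PadicAlgCl p`. -/
theorem exists_aut_pow {ζ : Ω} (hζ : IsPrimitiveRoot ζ p) (a : ℕ) (ha : a.Coprime p) :
    ∃ σ : Ω ≃ₐ[ℚ_[p]] Ω, σ ζ = ζ ^ a := by
  have hne : NeZero p := ⟨(Fact.out : p.Prime).ne_zero⟩
  have hne' : NeZero ((p : ℕ) : ℚ_[p]) := ⟨by exact_mod_cast (Fact.out : p.Prime).ne_zero⟩
  have hirr := irreducible_cyclotomic_padic p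
  have hmin : cyclotomic p ℚ_[p] = minpoly ℚ_[p] ζ :=
    hζ.minpoly_eq_cyclotomic_of_irreducible hirr
  have hζa : IsPrimitiveRoot (ζ ^ a) p := hζ.pow_of_coprime a ha
  have hroot : aeval (ζ ^ a) (minpoly ℚ_[p] ζ) = 0 := by
    rw [← hmin, aeval_def, eval₂_eq_eval_map, map_cyclotomic]
    exact hζa.isRoot_cyclotomic (Fact.out : p.Prime).pos
  have halg : IsAlgebraic ℚ_[p] ζ := Algebra.IsAlgebraic.isAlgebraic ζ
  exact minpoly.exists_algEquiv_of_root' halg hroot

/-- **TQ-C**: the mod `p` cyclotomic character is onto on the local Galois group at `p`. -/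
theorem stmt_TQ_CycSurj : Stmt_TQ_CycSurj := by
  intro p _ a
  have hne : NeZero p := ⟨(Fact.out : p.Prime).ne_zero⟩
  -- a primitive root in `Qbar`
  obtain ⟨ζ₀, hζ₀⟩ : ∃ ζ₀ : Qbar, IsPrimitiveRoot ζ₀ p :=
    HasEnoughRootsOfUnity.exists_primitiveRoot Qbar p
  have hζ : IsPrimitiveRoot (padicEmbedding p ζ₀) p :=
    hζ₀.map_of_injective (padicEmbedding p).toRingHom.injective
  have hcop : ((a : ZMod p).val).Coprime p := ZMod.val_coe_unit_coprime a
  obtain ⟨σ, hσ⟩ := exists_aut_pow p hζ _ hcop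
  refine ⟨σ, ?_⟩
  show cycloChar p (localGaloisToGlobal p σ) = a
  set c := cycloChar p (localGaloisToGlobal p σ) with hc
  -- the action on `ζ₀`
  let u : Qbarˣ := Units.mk0 ζ₀ (hζ₀.ne_zero hne.ne)
  have hu : u ∈ rootsOfUnity p Qbar := by
    rw [mem_rootsOfUnity]
    apply Units.ext
    simpa [u] using hζ₀.pow_eq_one
  have h1 : (localGaloisToGlobal p σ) ζ₀ = ζ₀ ^ ((c : ZMod p)).val :=
    modularCyclotomicCharacter.spec (L := Qbar) (n := p) (card_rootsOfUnity_eq_self p)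
      ((localGaloisToGlobal p σ : Qbar ≃ₐ[ℚ] Qbar) : Qbar ≃+* Qbar) hu
  have h2 := padicEmbedding_localGaloisToGlobal p σ ζ₀
  rw [h1, map_pow, hσ] at h2
  have h3 : ((c : ZMod p)).val = ((a : ZMod p)).val :=
    hζ.pow_inj (ZMod.val_lt _) (ZMod.val_lt _) h2
  exact Units.ext (ZMod.val_injective p h3)

end Fermat.Agent.S55.Top.H20
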